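import Mathlib
import Fermat.Agent.Lib.HeckeHomComm
import Fermat.Agent.P5.Per.Basic

/-!
# S35 leaf [COH-DEGEN]: the degeneracy transfers commute with `T_ℓ` on `Hom(Γ, A)`

Pure group theory, in the vocabulary of `Lib/HeckeHom` (`IsCosetFamily`, `heckeHom`).

## Abstract part: two-group coset families

`IsFam₂ e₁ e₂ δ`: for homomorphisms `e₁ : Γ₁ →* G`, `e₂ : Γ₂ →* G` (`e₁` injective) and a family
`δ : ι → G`, right multiplication by `e₂ Γ₂` permutes the pairwise distinct cosets `e₁ Γ₁ · δ i`: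

  `δ i * e₂ γ = e₁ (cof γ i) * δ (nxt γ i)`      (`γ : Γ₂`).

The attached operator `cor : Hom(Γ₁, A) → Hom(Γ₂, A)`, `(cor φ)(γ) = ∑ i, φ (cof γ i)`, is the
generalised transfer (double coset operator `[Γ₁ δ Γ₂]`).  It is natural in `A`, independent of
the representatives, and its composites with the one-group operators of `Lib/HeckeHom` on either
side are the operators of the product families (`cor_mul_left`, `cor_mul_right`), whence the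
commutation criterion `cor_heckeHom_comm`.

## Concrete part

`Γ₁ = Γ₀(M q)`, `Γ₂ = Γ₀(M)` inside `GL₂(ℝ)`, `q ∤ M` prime, `ℓ ∤ M q` prime:

* `tcoh_corA`: for every right transversal `r i` of `Γ₀(M q) \ Γ₀(M)`, the transfer
  (family `r i`) intertwines `T_ℓ` at level `M q` with `T_ℓ` at level `M`;
* `tcoh_corB`: the same for the twisted transfer (family `diag(1, q) · r i`, `r i` a right
  transversal of `(Γ₀(M) ∩ Γ⁰(q)) \ Γ₀(M)`).
-/

set_option autoImplicit false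

namespace Fermat.Agent.S35.CohFam

open Fermat.Agent.Lib.HeckeHom

section Abstract

variable {Γ₁ Γ₂ G : Type*} [Group Γ₁] [Group Γ₂] [Group G] {ι : Type*}

/-- Right multiplication by `e₂ Γ₂` permutes the pairwise distinct cosets `e₁ Γ₁ · δ i`. -/
structure IsFam₂ (e₁ : Γ₁ →* G) (e₂ : Γ₂ →* G) (δ : ι → G) : Prop where
  inj_e : Function.Injective e₁
  perm : ∀ (γ : Γ₂) (i : ι), ∃ (j : ι) (γ' : Γ₁), δ i * e₂ γ = e₁ γ' * δ j
  distinct : ∀ (i j : ι) (γ : Γ₁), δ i = e₁ γ * δ j → i = j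

namespace IsFam₂

variable {e₁ : Γ₁ →* G} {e₂ : Γ₂ →* G} {δ : ι → G} (h : IsFam₂ e₁ e₂ δ)

/-- The index of the coset of `δ i * e₂ γ`. -/
noncomputable def nxt (γ : Γ₂) (i : ι) : ι := (h.perm γ i).choose

/-- The cofactor: `δ i * e₂ γ = e₁ (cof γ i) * δ (nxt γ i)`. -/
noncomputable def cof (γ : Γ₂) (i : ι) : Γ₁ := (h.perm γ i).choose_spec.choose

theorem spec (γ : Γ₂) (i : ι) : δ i * e₂ γ = e₁ (h.cof γ i) * δ (h.nxt γ i) :=
  (h.perm γ i).choose_spec.choose_spec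

theorem unique {γ : Γ₂} {γ' : Γ₁} {i j : ι} (hij : δ i * e₂ γ = e₁ γ' * δ j) :
    h.nxt γ i = j ∧ h.cof γ i = γ' := by
  have h1 := h.spec γ i
  rw [hij] at h1
  have h2 : δ j = e₁ (γ'⁻¹ * h.cof γ i) * δ (h.nxt γ i) := by
    rw [map_mul, map_inv, mul_assoc, ← h1, inv_mul_cancel_left]
  have hj : j = h.nxt γ i := h.distinct _ _ _ h2
  rw [← hj] at h1
  exact ⟨hj.symm, (h.inj_e (mul_right_cancel h1)).symm⟩

theorem nxt_eq {γ : Γ₂} {γ' : Γ₁} {i j : ι} (hij : δ i * e₂ γ = e₁ γ' * δ j) :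
    h.nxt γ i = j := (h.unique hij).1

theorem cof_eq {γ : Γ₂} {γ' : Γ₁} {i j : ι} (hij : δ i * e₂ γ = e₁ γ' * δ j) :
    h.cof γ i = γ' := (h.unique hij).2

@[simp] theorem nxt_one (i : ι) : h.nxt 1 i = i := h.nxt_eq (γ' := 1) (by simp)

@[simp] theorem cof_one (i : ι) : h.cof 1 i = 1 := h.cof_eq (j := i) (by simp)

theorem spec_mul (γ₁ γ₂ : Γ₂) (i : ι) :
    δ i * e₂ (γ₁ * γ₂) =
      e₁ (h.cof γ₁ i * h.cof γ₂ (h.nxt γ₁ i)) * δ (h.nxt γ₂ (h.nxt γ₁ i)) := by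
  rw [map_mul, ← mul_assoc, h.spec γ₁ i, mul_assoc, h.spec γ₂ (h.nxt γ₁ i), ← mul_assoc, map_mul]

theorem nxt_mul (γ₁ γ₂ : Γ₂) (i : ι) : h.nxt (γ₁ * γ₂) i = h.nxt γ₂ (h.nxt γ₁ i) :=
  h.nxt_eq (h.spec_mul γ₁ γ₂ i)

theorem cof_mul (γ₁ γ₂ : Γ₂) (i : ι) :
    h.cof (γ₁ * γ₂) i = h.cof γ₁ i * h.cof γ₂ (h.nxt γ₁ i) :=
  h.cof_eq (h.spec_mul γ₁ γ₂ i)

/-- `nxt γ` as a permutation of the index set. -/
noncomputable def nxtPerm (γ : Γ₂) : Equiv.Perm ι where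
  toFun := h.nxt γ
  invFun := h.nxt γ⁻¹
  left_inv i := by rw [← h.nxt_mul, mul_inv_cancel, h.nxt_one]
  right_inv i := by rw [← h.nxt_mul, inv_mul_cancel, h.nxt_one]

@[simp] theorem nxtPerm_apply (γ : Γ₂) (i : ι) : h.nxtPerm γ i = h.nxt γ i := rfl

section Hom

variable [Fintype ι] {A : Type*} [AddCommGroup A]

/-- The generalised transfer of the family: `(cor φ)(γ) = ∑ i, φ (cof γ i)`. -/
noncomputable def corHom (φ : Additive Γ₁ →+ A) : Additive Γ₂ →+ A where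
  toFun γ := ∑ i, φ (Additive.ofMul (h.cof (Additive.toMul γ) i))
  map_zero' := by simp
  map_add' γ₁ γ₂ := by
    simp only [toMul_add, h.cof_mul, ofMul_mul, map_add, Finset.sum_add_distrib]
    congr 1
    exact Equiv.sum_comp (h.nxtPerm (Additive.toMul γ₁))
      (fun i => φ (Additive.ofMul (h.cof (Additive.toMul γ₂) i)))

theorem corHom_apply (φ : Additive Γ₁ →+ A) (γ : Γ₂) :
    h.corHom φ (Additive.ofMul γ) = ∑ i, φ (Additive.ofMul (h.cof γ i)) := rfl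

/-- The value of the transfer computed with ANY cofactors: if `δ i * e₂ γ = e₁ (c i) * δ (σ i)`
for all `i`, then `(cor φ)(γ) = ∑ i, φ (c i)`. -/
theorem corHom_apply_of (φ : Additive Γ₁ →+ A) (γ : Γ₂) (c : ι → Γ₁) (σ : ι → ι)
    (hc : ∀ i, δ i * e₂ γ = e₁ (c i) * δ (σ i)) :
    h.corHom φ (Additive.ofMul γ) = ∑ i, φ (Additive.ofMul (c i)) := by
  rw [h.corHom_apply]
  exact Finset.sum_congr rfl fun i _ => by rw [h.cof_eq (hc i)]

theorem corHom_add (φ ψ : Additive Γ₁ →+ A) :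
    h.corHom (φ + ψ) = h.corHom φ + h.corHom ψ := by
  refine AddMonoidHom.ext fun γ => ?_
  show ∑ i, (φ + ψ) _ = (∑ i, φ _) + ∑ i, ψ _
  simp only [AddMonoidHom.add_apply, Finset.sum_add_distrib]

/-- The generalised transfer as an additive map `Hom(Γ₁, A) → Hom(Γ₂, A)`. -/
noncomputable def cor : (Additive Γ₁ →+ A) →+ (Additive Γ₂ →+ A) where
  toFun := h.corHom
  map_zero' := by
    refine AddMonoidHom.ext fun γ => ?_
    show ∑ i, (0 : Additive Γ₁ →+ A) _ = 0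
    simp
  map_add' := h.corHom_add

@[simp] theorem cor_apply (φ : Additive Γ₁ →+ A) : h.cor φ = h.corHom φ := rfl

/-- Naturality in the coefficient group. -/
theorem corHom_comp {B : Type*} [AddCommGroup B] (ψ : A →+ B) (φ : Additive Γ₁ →+ A) :
    h.corHom (ψ.comp φ) = ψ.comp (h.corHom φ) := by
  refine AddMonoidHom.ext fun γ => ?_
  show ∑ i, ψ (φ _) = ψ (∑ i, φ _)
  rw [map_sum]

/-- `cor` commutes with scalars. -/
theorem corHom_smul {R : Type*} [Semiring R] [Module R A] (c : R) (φ : Additive Γ₁ →+ A) :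
    h.corHom (c • φ) = c • h.corHom φ := by
  refine AddMonoidHom.ext fun γ => ?_
  show ∑ i, (c • φ) _ = c • ∑ i, φ _
  simp only [AddMonoidHom.smul_apply, Finset.smul_sum]

/-- Integrality: if `φ` takes values in the image of `ψ : B →+ A`, so does `cor φ`. -/
theorem corHom_mem_range {B : Type*} [AddCommGroup B] (ψ : B →+ A) (φ : Additive Γ₁ →+ A)
    (hφ : ∀ γ, ∃ b, φ γ = ψ b) (γ : Additive Γ₂) : ∃ b, h.corHom φ γ = ψ b := by
  choose f hf using hφ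
  refine ⟨∑ i, f (Additive.ofMul (h.cof (Additive.toMul γ) i)), ?_⟩
  rw [map_sum]
  exact Finset.sum_congr rfl fun i _ => hf _

end Hom

section Char

variable [Fintype ι] {M : Type*} [CommGroup M]

/-- The multiplicative twin: `(corChar ψ)(γ) = ∏ i, ψ (cof γ i)`. -/
noncomputable def corChar (ψ : Γ₁ →* M) : Γ₂ →* M where
  toFun γ := ∏ i, ψ (h.cof γ i)
  map_one' := by simp
  map_mul' γ₁ γ₂ := by
    simp only [h.cof_mul, map_mul, Finset.prod_mul_distrib]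
    congr 1
    exact Equiv.prod_comp (h.nxtPerm γ₁) (fun i => ψ (h.cof γ₂ i))

theorem corChar_apply (ψ : Γ₁ →* M) (γ : Γ₂) : h.corChar ψ γ = ∏ i, ψ (h.cof γ i) := rfl

theorem corChar_apply_of (ψ : Γ₁ →* M) (γ : Γ₂) (c : ι → Γ₁) (σ : ι → ι)
    (hc : ∀ i, δ i * e₂ γ = e₁ (c i) * δ (σ i)) : h.corChar ψ γ = ∏ i, ψ (c i) := by
  rw [h.corChar_apply]
  exact Finset.prod_congr rfl fun i _ => by rw [h.cof_eq (hc i)]

/-- `corChar` is `corHom` read through `Additive`. -/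
theorem corHom_toAdditive (ψ : Γ₁ →* M) :
    h.corHom (MonoidHom.toAdditive ψ) = MonoidHom.toAdditive (h.corChar ψ) := by
  refine AddMonoidHom.ext fun γa => ?_
  obtain ⟨γ, rfl⟩ : ∃ γ : Γ₂, Additive.ofMul γ = γa := ⟨Additive.toMul γa, rfl⟩
  rw [h.corHom_apply]
  show ∑ i, Additive.ofMul (ψ (h.cof γ i)) = Additive.ofMul (∏ i, ψ (h.cof γ i))
  rw [ofMul_prod]

end Char

end IsFam₂

/-! ### Independence of the representatives -/

section Matching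

variable {e₁ : Γ₁ →* G} {e₂ : Γ₂ →* G} {κ κ' : Type*} [Fintype κ] [Fintype κ']
  {P : κ → G} {Q : κ' → G} {A : Type*} [AddCommGroup A]

/-- Two families whose cosets match up along a bijection define the same transfer. -/
theorem corHom_eq_of_equiv (hP : IsFam₂ e₁ e₂ P) (hQ : IsFam₂ e₁ e₂ Q) (π : κ ≃ κ')
    (u : κ → Γ₁) (hπ : ∀ x, P x = e₁ (u x) * Q (π x)) (φ : Additive Γ₁ →+ A) :
    hP.corHom φ = hQ.corHom φ := by
  refine AddMonoidHom.ext fun γa => ?_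
  obtain ⟨γ, rfl⟩ : ∃ γ : Γ₂, Additive.ofMul γ = γa := ⟨Additive.toMul γa, rfl⟩
  rw [IsFam₂.corHom_apply, IsFam₂.corHom_apply]
  have key : ∀ x, Q (π x) * e₂ γ =
      e₁ ((u x)⁻¹ * hP.cof γ x * u (hP.nxt γ x)) * Q (π (hP.nxt γ x)) := by
    intro x
    have h1 := hP.spec γ x
    rw [hπ x, hπ (hP.nxt γ x)] at h1
    calc Q (π x) * e₂ γ = (e₁ (u x))⁻¹ * (e₁ (u x) * Q (π x) * e₂ γ) := by
          rw [mul_assoc, inv_mul_cancel_left]
      _ = _ := by rw [h1]; simp only [map_mul, map_inv, mul_assoc]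
  have hc : ∀ x, hQ.cof γ (π x) = (u x)⁻¹ * hP.cof γ x * u (hP.nxt γ x) :=
    fun x => hQ.cof_eq (key x)
  have h2 : ∑ y, φ (Additive.ofMul (hQ.cof γ y)) =
      ∑ x, φ (Additive.ofMul (hQ.cof γ (π x))) :=
    (Equiv.sum_comp π (fun y => φ (Additive.ofMul (hQ.cof γ y)))).symm
  rw [h2]
  simp only [hc, ofMul_mul, ofMul_inv, map_add, map_neg, Finset.sum_add_distrib,
    Finset.sum_neg_distrib]
  have h3 : ∑ x, φ (Additive.ofMul (u (hP.nxt γ x))) = ∑ x, φ (Additive.ofMul (u x)) :=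
    Equiv.sum_comp (hP.nxtPerm γ) (fun x => φ (Additive.ofMul (u x)))
  rw [h3]
  abel

/-- Two families with equally many members, each coset of the first being a coset of the
second, define the same transfer. -/
theorem corHom_eq_of_exists (hP : IsFam₂ e₁ e₂ P) (hQ : IsFam₂ e₁ e₂ Q)
    (hcard : Fintype.card κ = Fintype.card κ')
    (hm : ∀ x, ∃ (y : κ') (u : Γ₁), P x = e₁ u * Q y) (φ : Additive Γ₁ →+ A) :
    hP.corHom φ = hQ.corHom φ := by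
  choose π u hπ using hm
  have hinj : Function.Injective π := by
    intro x x' hxx'
    refine hP.distinct x x' (u x * (u x')⁻¹) ?_
    rw [hπ x, hπ x', hxx', map_mul, map_inv, mul_assoc, inv_mul_cancel_left]
  have hbij : Function.Bijective π :=
    (Fintype.bijective_iff_injective_and_card π).mpr ⟨hinj, hcard⟩
  exact corHom_eq_of_equiv hP hQ (Equiv.ofBijective π hbij) u hπ φ

end Matching

/-! ### Products with one-group families and the commutation criterion -/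

section Product

variable {e₁ : Γ₁ →* G} {e₂ : Γ₂ →* G} {ιT ιB : Type*} {T : ιT → G} {B : ιB → G}

/-- `T x * B j` (a one-group family for `Γ₁` times a two-group family) is a two-group family as
soon as its cosets are pairwise distinct. -/
theorem isFam₂_mul_left (h₁ : IsCosetFamily e₁ T) (hB : IsFam₂ e₁ e₂ B)
    (hdist : ∀ x j x' j' γ, T x * B j = e₁ γ * (T x' * B j') → x = x' ∧ j = j') :
    IsFam₂ e₁ e₂ (fun p : ιT × ιB => T p.1 * B p.2) where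
  inj_e := hB.inj_e
  perm := by
    rintro γ ⟨x, j⟩
    refine ⟨(h₁.nxt (hB.cof γ j) x, hB.nxt γ j), h₁.cof (hB.cof γ j) x, ?_⟩
    show T x * B j * e₂ γ =
      e₁ (h₁.cof (hB.cof γ j) x) * (T (h₁.nxt (hB.cof γ j) x) * B (hB.nxt γ j))
    rw [mul_assoc, hB.spec γ j, ← mul_assoc, h₁.spec (hB.cof γ j) x, mul_assoc]
  distinct := by
    rintro ⟨x, j⟩ ⟨x', j'⟩ γ hγ
    obtain ⟨h1, h2⟩ := hdist x j x' j' γ hγ
    rw [h1, h2]

/-- `B j * T x` (a two-group family times a one-group family for `Γ₂`) is a two-group family as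
soon as its cosets are pairwise distinct. -/
theorem isFam₂_mul_right (hB : IsFam₂ e₁ e₂ B) (h₂ : IsCosetFamily e₂ T)
    (hdist : ∀ j x j' x' γ, B j * T x = e₁ γ * (B j' * T x') → j = j' ∧ x = x') :
    IsFam₂ e₁ e₂ (fun p : ιB × ιT => B p.1 * T p.2) where
  inj_e := hB.inj_e
  perm := by
    rintro γ ⟨j, x⟩
    refine ⟨(hB.nxt (h₂.cof γ x) j, h₂.nxt γ x), hB.cof (h₂.cof γ x) j, ?_⟩
    show B j * T x * e₂ γ =
      e₁ (hB.cof (h₂.cof γ x) j) * (B (hB.nxt (h₂.cof γ x) j) * T (h₂.nxt γ x))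
    rw [mul_assoc, h₂.spec γ x, ← mul_assoc, hB.spec (h₂.cof γ x) j, mul_assoc]
  distinct := by
    rintro ⟨j, x⟩ ⟨j', x'⟩ γ hγ
    obtain ⟨h1, h2⟩ := hdist j x j' x' γ hγ
    rw [h1, h2]

variable [Fintype ιT] [Fintype ιB] {A : Type*} [AddCommGroup A]

/-- The transfer of the product family `T x * B j` is `cor_B ∘ Θ_T`. -/
theorem corHom_mul_left (h₁ : IsCosetFamily e₁ T) (hB : IsFam₂ e₁ e₂ B)
    (hQ : IsFam₂ e₁ e₂ (fun p : ιT × ιB => T p.1 * B p.2)) (φ : Additive Γ₁ →+ A) :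
    hQ.corHom φ = hB.corHom (h₁.heckeHom φ) := by
  refine AddMonoidHom.ext fun γa => ?_
  obtain ⟨γ, rfl⟩ : ∃ γ : Γ₂, Additive.ofMul γ = γa := ⟨Additive.toMul γa, rfl⟩
  rw [IsFam₂.corHom_apply, IsFam₂.corHom_apply]
  have hc : ∀ p : ιT × ιB, hQ.cof γ p = h₁.cof (hB.cof γ p.2) p.1 := by
    rintro ⟨x, j⟩
    refine hQ.cof_eq (j := (h₁.nxt (hB.cof γ j) x, hB.nxt γ j)) ?_
    show T x * B j * e₂ γ =
      e₁ (h₁.cof (hB.cof γ j) x) * (T (h₁.nxt (hB.cof γ j) x) * B (hB.nxt γ j))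
    rw [mul_assoc, hB.spec γ j, ← mul_assoc, h₁.spec (hB.cof γ j) x, mul_assoc]
  simp only [hc, IsCosetFamily.heckeHom_apply]
  rw [Fintype.sum_prod_type_right]

/-- The transfer of the product family `B j * T x` is `Θ_T ∘ cor_B`. -/
theorem corHom_mul_right (hB : IsFam₂ e₁ e₂ B) (h₂ : IsCosetFamily e₂ T)
    (hP : IsFam₂ e₁ e₂ (fun p : ιB × ιT => B p.1 * T p.2)) (φ : Additive Γ₁ →+ A) :
    hP.corHom φ = h₂.heckeHom (hB.corHom φ) := by
  refine AddMonoidHom.ext fun γa => ?_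
  obtain ⟨γ, rfl⟩ : ∃ γ : Γ₂, Additive.ofMul γ = γa := ⟨Additive.toMul γa, rfl⟩
  rw [IsFam₂.corHom_apply, IsCosetFamily.heckeHom_apply]
  have hc : ∀ p : ιB × ιT, hP.cof γ p = hB.cof (h₂.cof γ p.2) p.1 := by
    rintro ⟨j, x⟩
    refine hP.cof_eq (j := (hB.nxt (h₂.cof γ x) j, h₂.nxt γ x)) ?_
    show B j * T x * e₂ γ =
      e₁ (hB.cof (h₂.cof γ x) j) * (B (hB.nxt (h₂.cof γ x) j) * T (h₂.nxt γ x))
    rw [mul_assoc, h₂.spec γ x, ← mul_assoc, hB.spec (h₂.cof γ x) j, mul_assoc]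
  simp only [hc, IsFam₂.corHom_apply]
  rw [Fintype.sum_prod_type_right]

/-- **Commutation criterion.**  Let `T` be a one-group coset family for both `Γ₁` and `Γ₂` and
`B` a two-group family.  If the product families `T x * B j` and `B j * T x` have pairwise
distinct cosets and every coset `e₁ Γ₁ · T x · B j` is a coset `e₁ Γ₁ · B j' · T x'`, then
`cor_B ∘ Θ_T = Θ_T ∘ cor_B`. -/
theorem corHom_heckeHom_comm (h₁ : IsCosetFamily e₁ T) (h₂ : IsCosetFamily e₂ T)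
    (hB : IsFam₂ e₁ e₂ B)
    (hdQ : ∀ x j x' j' γ, T x * B j = e₁ γ * (T x' * B j') → x = x' ∧ j = j')
    (hdP : ∀ j x j' x' γ, B j * T x = e₁ γ * (B j' * T x') → j = j' ∧ x = x')
    (hm : ∀ x j, ∃ (j' : ιB) (x' : ιT) (u : Γ₁), T x * B j = e₁ u * (B j' * T x'))
    (φ : Additive Γ₁ →+ A) :
    hB.corHom (h₁.heckeHom φ) = h₂.heckeHom (hB.corHom φ) := by
  have hQ := isFam₂_mul_left h₁ hB hdQ
  have hP := isFam₂_mul_right hB h₂ hdP
  rw [← corHom_mul_left h₁ hB hQ φ, ← corHom_mul_right hB h₂ hP φ]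
  refine corHom_eq_of_exists hQ hP ?_ ?_ φ
  · rw [Fintype.card_prod, Fintype.card_prod, mul_comm]
  · rintro ⟨x, j⟩
    obtain ⟨j', x', u, hu⟩ := hm x j
    exact ⟨(j', x'), u, hu⟩

end Product

end Abstract

end Fermat.Agent.S35.CohFam

namespace Fermat.Agent.S35.CohFam

open scoped MatrixGroups
open CongruenceSubgroup Matrix.SpecialLinearGroup
open Fermat.Agent.Lib.HeckeHom Fermat.Agent.Lib.HeckePeriod Fermat.Agent.Lib.HeckeHomGL
  Fermat.Agent.Lib.HeckeHomComm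
open P2MW.S_ModularForm_heckeT_slash_eq_self_of_mem_Gamma0.ModularForm.HeckeSlashInvariance

/-! ### Matrix facts -/

section Entries

theorem dvd_of_mem {N : ℕ} {γ : SL(2, ℤ)} (h : γ ∈ Gamma0 N) : (N : ℤ) ∣ γ 1 0 := by
  rwa [Gamma0_mem, ZMod.intCast_zmod_eq_zero_iff_dvd] at h

theorem mem_of_dvd {N : ℕ} {γ : SL(2, ℤ)} (h : (N : ℤ) ∣ γ 1 0) : γ ∈ Gamma0 N := by
  rwa [Gamma0_mem, ZMod.intCast_zmod_eq_zero_iff_dvd]

theorem det_sl (γ : SL(2, ℤ)) : γ 0 0 * γ 1 1 - γ 0 1 * γ 1 0 = 1 := by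
  have h := γ.det_coe
  rw [Matrix.det_fin_two] at h
  exact h

/-- Two entries of `δ * ρ = γ * δ'` for upper triangular `δ, δ'` and `ρ, γ ∈ SL₂(ℤ)`. -/
theorem ut_mul_entries {δ δ' : GL (Fin 2) ℝ} {a b d a' b' d' : ℤ} (hδ : IsUT δ a b d)
    (hδ' : IsUT δ' a' b' d') (ρ γ : SL(2, ℤ)) (h : δ * mapGL ℝ ρ = mapGL ℝ γ * δ') :
    d * ρ 1 0 = γ 1 0 * a' ∧ a * ρ 0 1 + b * ρ 1 1 = γ 0 0 * b' + γ 0 1 * d' := by
  have hM : (δ : Matrix (Fin 2) (Fin 2) ℝ) *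
      ((mapGL ℝ ρ : GL (Fin 2) ℝ) : Matrix (Fin 2) (Fin 2) ℝ) =
      ((mapGL ℝ γ : GL (Fin 2) ℝ) : Matrix (Fin 2) (Fin 2) ℝ) *
        (δ' : Matrix (Fin 2) (Fin 2) ℝ) :=
    congrArg (fun g : GL (Fin 2) ℝ => (g : Matrix (Fin 2) (Fin 2) ℝ)) h
  rw [hδ.val, hδ'.val, coe_mapGL, coe_mapGL] at hM
  have e10 := congrFun (congrFun hM 1) 0
  have e01 := congrFun (congrFun hM 0) 1
  simp only [Matrix.mul_apply, Fin.sum_univ_two, Matrix.of_apply, Matrix.cons_val_zero,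
    Matrix.cons_val_one, Matrix.cons_val', Matrix.cons_val_fin_one] at e10 e01
  refine ⟨?_, ?_⟩
  · have : ((d * ρ 1 0 : ℤ) : ℝ) = ((γ 1 0 * a' : ℤ) : ℝ) := by
      push_cast; linarith
    exact_mod_cast this
  · have : ((a * ρ 0 1 + b * ρ 1 1 : ℤ) : ℝ) = ((γ 0 0 * b' + γ 0 1 * d' : ℤ) : ℝ) := by
      push_cast; linarith
    exact_mod_cast this

end Entries

section Dq

variable (M q : ℕ) [NeZero q]

/-- `diag(1, q)`. -/
noncomputable def dq : GL (Fin 2) ℝ := ModularForm.heckeMatrix q 0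

theorem isUT_dq : IsUT (dq q) 1 0 q := by
  have h := isUT_heckeMatrix q 0
  simpa [dq] using h

/-- Conjugation by `diag(1, q)` maps `Γ₀(M q)` into `Γ₀(M)`:
`γ · diag(1,q) = diag(1,q) · γ♭`, `γ♭ = (a, q b; c / q, d)`. -/
theorem exists_flat (γ : Gamma0 (M * q)) :
    ∃ γ' : Gamma0 M, eG (M * q) γ * dq q = dq q * eG M γ' := by
  obtain ⟨c', hc'⟩ : ((M * q : ℕ) : ℤ) ∣ (γ : SL(2, ℤ)) 1 0 := dvd_of_mem γ.2
  push_cast at hc'
  have hdet := det_sl (γ : SL(2, ℤ))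
  let g : SL(2, ℤ) := ⟨!![(γ : SL(2, ℤ)) 0 0, q * (γ : SL(2, ℤ)) 0 1; M * c',
    (γ : SL(2, ℤ)) 1 1], by
      rw [Matrix.det_fin_two_of]
      linear_combination hdet + (γ : SL(2, ℤ)) 0 1 * hc'⟩
  have hg : g ∈ Gamma0 M := mem_of_dvd (Dvd.intro c' rfl)
  refine ⟨⟨g, hg⟩, ?_⟩
  have hcR : (((γ : SL(2, ℤ)) 1 0 : ℤ) : ℝ) = (M : ℝ) * q * c' := by exact_mod_cast hc'
  apply Units.ext
  rw [Units.val_mul, Units.val_mul, (isUT_dq q).val, eG_apply, eG_apply, coe_mapGL, coe_mapGL]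
  ext i j
  fin_cases i <;> fin_cases j <;> simp [Matrix.mul_apply, Fin.sum_univ_two, g, hcR] <;> ring

/-- Conjugation by `diag(1, q)` maps `Γ₀(M) ∩ Γ⁰(q)` into `Γ₀(M q)`:
`diag(1,q) · ρ = ρ♯ · diag(1,q)`, `ρ♯ = (a, b / q; q c, d)`. -/
theorem exists_sharp (ρ : Gamma0 M) (hρ : (q : ℤ) ∣ (ρ : SL(2, ℤ)) 0 1) :
    ∃ ρ' : Gamma0 (M * q), dq q * eG M ρ = eG (M * q) ρ' * dq q := by
  obtain ⟨b', hb'⟩ := hρ
  obtain ⟨c', hc'⟩ : (M : ℤ) ∣ (ρ : SL(2, ℤ)) 1 0 := dvd_of_mem ρ.2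
  have hdet := det_sl (ρ : SL(2, ℤ))
  let g : SL(2, ℤ) := ⟨!![(ρ : SL(2, ℤ)) 0 0, b'; q * (ρ : SL(2, ℤ)) 1 0,
    (ρ : SL(2, ℤ)) 1 1], by
      rw [Matrix.det_fin_two_of]
      linear_combination hdet + (ρ : SL(2, ℤ)) 1 0 * hb'⟩
  have hg : g ∈ Gamma0 (M * q) := by
    refine mem_of_dvd ⟨c', ?_⟩
    show (q : ℤ) * (ρ : SL(2, ℤ)) 1 0 = ((M * q : ℕ) : ℤ) * c'
    rw [hc']; push_cast; ring
  refine ⟨⟨g, hg⟩, ?_⟩
  have hbR : (((ρ : SL(2, ℤ)) 0 1 : ℤ) : ℝ) = (q : ℝ) * b' := by exact_mod_cast hb'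
  apply Units.ext
  rw [Units.val_mul, Units.val_mul, (isUT_dq q).val, eG_apply, eG_apply, coe_mapGL, coe_mapGL]
  ext i j
  fin_cases i <;> fin_cases j <;> simp [Matrix.mul_apply, Fin.sum_univ_two, g, hbR] <;> ring

/-- Moving `diag(1, q)` through an upper triangular matrix. -/
theorem ut_mul_dq {δ δ' : GL (Fin 2) ℝ} {a b d b' m : ℤ} (hδ : IsUT δ a b d)
    (hδ' : IsUT δ' a b' d) (hb : b * q = b' + m * d) :
    δ * dq q = dq q * (eG M (unipG M m) * δ') := by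
  have hbR : (b : ℝ) * q = b' + m * d := by exact_mod_cast hb
  apply Units.ext
  rw [Units.val_mul, Units.val_mul, Units.val_mul, coe_eG_unipG, hδ.val, hδ'.val,
    (isUT_dq q).val]
  ext i j
  fin_cases i <;> fin_cases j <;> simp [Matrix.mul_apply, Fin.sum_univ_two]
  · linear_combination hbR
  · ring

end Dq

/-! ### The transfer along `Γ₀(M q) ≤ Γ₀(M)` commutes with `T_ℓ` -/

section A

variable {M q : ℕ}

theorem gamma0_mul_le (M q : ℕ) : Gamma0 (M * q) ≤ Gamma0 M := by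
  intro γ hγ
  refine mem_of_dvd (dvd_trans ?_ (dvd_of_mem hγ))
  exact_mod_cast Dvd.intro q rfl

/-- The inclusion `Γ₀(M q) → Γ₀(M)`. -/
def incl (M q : ℕ) : ↥(Gamma0 (M * q)) →* ↥(Gamma0 M) := Subgroup.inclusion (gamma0_mul_le M q)

theorem eG_incl (γ : Gamma0 (M * q)) : eG M (incl M q γ) = eG (M * q) γ := rfl

/-- An element of `Γ₀(M)` whose lower left entry is divisible by `q` (`q ∤ M` prime) lies in
`Γ₀(M q)`. -/
theorem exists_incl_eq (hq : q.Prime) (hqM : ¬ q ∣ M) (ρ : Gamma0 M)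
    (hρ : (q : ℤ) ∣ (ρ : SL(2, ℤ)) 1 0) : ∃ ρ' : Gamma0 (M * q), incl M q ρ' = ρ := by
  have hM : (M : ℤ) ∣ (ρ : SL(2, ℤ)) 1 0 := dvd_of_mem ρ.2
  have hcop : IsCoprime (M : ℤ) (q : ℤ) :=
    Nat.isCoprime_iff_coprime.mpr ((Nat.Prime.coprime_iff_not_dvd hq).mpr hqM).symm
  have hMq : ((M * q : ℕ) : ℤ) ∣ (ρ : SL(2, ℤ)) 1 0 := by
    push_cast
    exact hcop.mul_dvd hM hρ
  exact ⟨⟨(ρ : SL(2, ℤ)), mem_of_dvd hMq⟩, Subtype.ext rfl⟩

variable {ℓ : ℕ} [Fact ℓ.Prime]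

theorem isCoprime_dT (hℓq : ℓ ≠ q) (hq : q.Prime) (x : OnePoint (ZMod ℓ)) :
    IsCoprime (dT ℓ x) (q : ℤ) := by
  have : Fact q.Prime := ⟨hq⟩
  exact (isCoprime_of_ne hℓq).of_isCoprime_of_dvd_left (dT_dvd ℓ x)

theorem isCoprime_aT (hℓq : ℓ ≠ q) (hq : q.Prime) (x : OnePoint (ZMod ℓ)) :
    IsCoprime (aT ℓ x) (q : ℤ) := by
  have : Fact q.Prime := ⟨hq⟩
  exact (isCoprime_of_ne hℓq).of_isCoprime_of_dvd_left (aT_dvd ℓ x)

variable {ι : Type*} {A : Type*} [AddCommGroup A]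

/-- The matching `T_x · r_j ∈ Γ₀(M q) · r_j' · T_x'`. -/
theorem matchA (hℓM : ¬ ℓ ∣ M) (r : ι → Gamma0 M)
    (h : IsFam₂ (eG (M * q)) (eG M) (fun i => eG M (r i))) (x : OnePoint (ZMod ℓ)) (j : ι) :
    ∃ (j' : ι) (x' : OnePoint (ZMod ℓ)) (u : Gamma0 (M * q)),
      heckeRep ℓ x * eG M (r j) = eG (M * q) u * (eG M (r j') * heckeRep ℓ x') := by
  have h₂ := isCosetFamily_heckeRep M ℓ hℓM
  have hs := h₂.spec (r j) x
  have hs' := h.spec ((r j)⁻¹ * h₂.cof (r j) x) j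
  refine ⟨h.nxt ((r j)⁻¹ * h₂.cof (r j) x) j, h₂.nxt (r j) x,
    h.cof ((r j)⁻¹ * h₂.cof (r j) x) j, ?_⟩
  rw [hs, ← mul_assoc, ← hs']
  simp only [map_mul, map_inv, mul_inv_cancel_left]

/-- Distinctness of the cosets `Γ₀(M q) · r_j · T_x`. -/
theorem distinctPA (hℓM : ¬ ℓ ∣ M) (r : ι → Gamma0 M)
    (h : IsFam₂ (eG (M * q)) (eG M) (fun i => eG M (r i))) (j : ι) (x : OnePoint (ZMod ℓ))
    (j' : ι) (x' : OnePoint (ZMod ℓ)) (γ : Gamma0 (M * q))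
    (hγ : eG M (r j) * heckeRep ℓ x = eG (M * q) γ * (eG M (r j') * heckeRep ℓ x')) :
    j = j' ∧ x = x' := by
  have h₂ := isCosetFamily_heckeRep M ℓ hℓM
  have hx : x = x' := by
    refine h₂.distinct x x' ((r j)⁻¹ * incl M q γ * r j') ?_
    rw [map_mul, map_mul, map_inv, eG_incl, mul_assoc, mul_assoc, ← hγ, inv_mul_cancel_left]
  subst hx
  refine ⟨h.distinct j j' γ ?_, rfl⟩
  rw [← mul_assoc] at hγ
  exact mul_right_cancel hγ

/-- Distinctness of the cosets `Γ₀(M q) · T_x · r_j`. -/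
theorem distinctQA (hq : q.Prime) (hqM : ¬ q ∣ M) (hℓMq : ¬ ℓ ∣ M * q) (r : ι → Gamma0 M)
    (h : IsFam₂ (eG (M * q)) (eG M) (fun i => eG M (r i))) (x : OnePoint (ZMod ℓ)) (j : ι)
    (x' : OnePoint (ZMod ℓ)) (j' : ι) (γ : Gamma0 (M * q))
    (hγ : heckeRep ℓ x * eG M (r j) = eG (M * q) γ * (heckeRep ℓ x' * eG M (r j'))) :
    x = x' ∧ j = j' := by
  have hℓq : ℓ ≠ q := fun hh => hℓMq (hh ▸ Dvd.intro_left M rfl)
  have h₁ := isCosetFamily_heckeRep (M * q) ℓ hℓMq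
  -- `T_x · ρ = γ · T_x'` with `ρ = r_j r_j'⁻¹`
  have hρ : heckeRep ℓ x * mapGL ℝ ((r j * (r j')⁻¹ : Gamma0 M) : SL(2, ℤ)) =
      mapGL ℝ (γ : SL(2, ℤ)) * heckeRep ℓ x' := by
    have e1 : mapGL ℝ ((r j * (r j')⁻¹ : Gamma0 M) : SL(2, ℤ)) =
        eG M (r j) * (eG M (r j'))⁻¹ := by
      rw [← map_inv, ← map_mul]; rfl
    rw [e1, ← mul_assoc, hγ]
    show eG (M * q) γ * (heckeRep ℓ x' * eG M (r j')) * (eG M (r j'))⁻¹ =
      eG (M * q) γ * heckeRep ℓ x'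
    rw [mul_assoc, mul_assoc, mul_inv_cancel, mul_one]
  obtain ⟨e10, -⟩ := ut_mul_entries (isUT_heckeRep ℓ x) (isUT_heckeRep ℓ x') _ _ hρ
  have hq10 : (q : ℤ) ∣ ((r j * (r j')⁻¹ : Gamma0 M) : SL(2, ℤ)) 1 0 := by
    have h1 : ((M * q : ℕ) : ℤ) ∣ (γ : SL(2, ℤ)) 1 0 := dvd_of_mem γ.2
    have h2 : (q : ℤ) ∣ (γ : SL(2, ℤ)) 1 0 :=
      dvd_trans (by exact_mod_cast Dvd.intro_left M rfl) h1
    have h3 : (q : ℤ) ∣ dT ℓ x * ((r j * (r j')⁻¹ : Gamma0 M) : SL(2, ℤ)) 1 0 := by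
      rw [e10]; exact Dvd.dvd.mul_right h2 _
    exact (isCoprime_dT hℓq hq x).symm.dvd_of_dvd_mul_left h3
  obtain ⟨ρ', hρ'⟩ := exists_incl_eq hq hqM _ hq10
  have hj : j = j' := by
    refine h.distinct j j' ρ' ?_
    show eG M (r j) = eG (M * q) ρ' * eG M (r j')
    rw [← eG_incl, hρ', ← map_mul, inv_mul_cancel_right]
  subst hj
  refine ⟨h₁.distinct x x' γ ?_, rfl⟩
  rw [← mul_assoc] at hγ
  exact mul_right_cancel hγ

/-- **[COH-DEGEN], `α`-half.**  For every right transversal `r` of `Γ₀(M q) \ Γ₀(M)` (as a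
two-group family), the transfer `Hom(Γ₀(M q), A) → Hom(Γ₀(M), A)` intertwines the Hecke
operators `T_ℓ` (`ℓ ∤ M q`) of the two levels. -/
theorem tcoh_corA (hq : q.Prime) (hqM : ¬ q ∣ M) {ℓ : ℕ} (hℓ : ℓ.Prime) (hℓM : ¬ ℓ ∣ M)
    (hℓMq : ¬ ℓ ∣ M * q) [Fintype ι] (r : ι → Gamma0 M)
    (h : IsFam₂ (eG (M * q)) (eG M) (fun i => eG M (r i)))
    (ψ : Additive (Gamma0 (M * q)) →+ A) :
    h.corHom (Fermat.Agent.P5.Per.tcoh (M * q) hℓ hℓMq A ψ) =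
      Fermat.Agent.P5.Per.tcoh M hℓ hℓM A (h.corHom ψ) := by
  have : Fact ℓ.Prime := ⟨hℓ⟩
  exact corHom_heckeHom_comm (isCosetFamily_heckeRep (M * q) ℓ hℓMq)
    (isCosetFamily_heckeRep M ℓ hℓM) h (distinctQA hq hqM hℓMq r h) (distinctPA hℓM r h)
    (matchA hℓM r h) ψ

end A

/-! ### The twisted transfer (`diag(1, q)`) commutes with `T_ℓ` -/

section B

variable {M q : ℕ} [NeZero q] {ℓ : ℕ} [Fact ℓ.Prime] {ι : Type*} {A : Type*} [AddCommGroup A]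

/-- The matching `T_x · d_q r_j ∈ Γ₀(M q) · d_q r_j' · T_x'`. -/
theorem matchB (hℓM : ¬ ℓ ∣ M) (r : ι → Gamma0 M)
    (h : IsFam₂ (eG (M * q)) (eG M) (fun i => dq q * eG M (r i))) (x : OnePoint (ZMod ℓ))
    (j : ι) :
    ∃ (j' : ι) (x' : OnePoint (ZMod ℓ)) (u : Gamma0 (M * q)),
      heckeRep ℓ x * (dq q * eG M (r j)) =
        eG (M * q) u * (dq q * eG M (r j') * heckeRep ℓ x') := by
  have h₂ := isCosetFamily_heckeRep M ℓ hℓM
  obtain ⟨y, hay, m', hm'⟩ := exists_bT ℓ x (bT ℓ x * q)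
  have hdy : dT ℓ y = dT ℓ x := dT_eq_of_aT_eq ℓ hay
  have hy : IsUT (heckeRep ℓ y) (aT ℓ x) (bT ℓ y) (dT ℓ x) := by
    have h0 := isUT_heckeRep ℓ y
    rwa [hay, hdy] at h0
  have e1 : heckeRep ℓ x * dq q = dq q * (eG M (unipG M (-m')) * heckeRep ℓ y) :=
    ut_mul_dq M q (isUT_heckeRep ℓ x) hy (by linear_combination (-1 : ℤ) * hm')
  have hs := h₂.spec (r j) y
  have hs' := h.spec ((r j)⁻¹ * (unipG M (-m') * h₂.cof (r j) y)) j
  refine ⟨h.nxt ((r j)⁻¹ * (unipG M (-m') * h₂.cof (r j) y)) j, h₂.nxt (r j) y,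
    h.cof ((r j)⁻¹ * (unipG M (-m') * h₂.cof (r j) y)) j, ?_⟩
  calc heckeRep ℓ x * (dq q * eG M (r j))
      = heckeRep ℓ x * dq q * eG M (r j) := by rw [mul_assoc]
    _ = dq q * (eG M (unipG M (-m')) * heckeRep ℓ y) * eG M (r j) := by rw [e1]
    _ = dq q * eG M (unipG M (-m')) * (heckeRep ℓ y * eG M (r j)) := by simp only [mul_assoc]
    _ = dq q * eG M (unipG M (-m')) *
          (eG M (h₂.cof (r j) y) * heckeRep ℓ (h₂.nxt (r j) y)) := by rw [hs]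
    _ = dq q * eG M (r j) * eG M ((r j)⁻¹ * (unipG M (-m') * h₂.cof (r j) y)) *
          heckeRep ℓ (h₂.nxt (r j) y) := by
        simp only [map_mul, map_inv, mul_assoc, mul_inv_cancel_left]
    _ = _ := by rw [hs', mul_assoc]

/-- Distinctness of the cosets `Γ₀(M q) · d_q r_j · T_x`. -/
theorem distinctPB (hℓM : ¬ ℓ ∣ M) (r : ι → Gamma0 M)
    (h : IsFam₂ (eG (M * q)) (eG M) (fun i => dq q * eG M (r i))) (j : ι)
    (x : OnePoint (ZMod ℓ)) (j' : ι) (x' : OnePoint (ZMod ℓ)) (γ : Gamma0 (M * q))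
    (hγ : dq q * eG M (r j) * heckeRep ℓ x =
      eG (M * q) γ * (dq q * eG M (r j') * heckeRep ℓ x')) :
    j = j' ∧ x = x' := by
  have h₂ := isCosetFamily_heckeRep M ℓ hℓM
  obtain ⟨γ', hγ'⟩ := exists_flat M q γ
  have hx : x = x' := by
    refine h₂.distinct x x' ((r j)⁻¹ * γ' * r j') ?_
    have e : dq q * (eG M (r j) * heckeRep ℓ x) =
        dq q * (eG M γ' * (eG M (r j') * heckeRep ℓ x')) := by
      rw [← mul_assoc, hγ, ← mul_assoc (dq q), ← hγ']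
      simp only [mul_assoc]
    have e' := mul_left_cancel e
    rw [map_mul, map_mul, map_inv, mul_assoc, mul_assoc, ← e', inv_mul_cancel_left]
  subst hx
  refine ⟨h.distinct j j' γ ?_, rfl⟩
  have e : dq q * eG M (r j) * heckeRep ℓ x =
      eG (M * q) γ * (dq q * eG M (r j')) * heckeRep ℓ x := by
    rw [hγ]; simp only [mul_assoc]
  exact mul_right_cancel e

/-- Distinctness of the cosets `Γ₀(M q) · T_x · d_q r_j`. -/
theorem distinctQB (hq : q.Prime) (hℓMq : ¬ ℓ ∣ M * q) (r : ι → Gamma0 M)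
    (h : IsFam₂ (eG (M * q)) (eG M) (fun i => dq q * eG M (r i))) (x : OnePoint (ZMod ℓ))
    (j : ι) (x' : OnePoint (ZMod ℓ)) (j' : ι) (γ : Gamma0 (M * q))
    (hγ : heckeRep ℓ x * (dq q * eG M (r j)) =
      eG (M * q) γ * (heckeRep ℓ x' * (dq q * eG M (r j')))) :
    x = x' ∧ j = j' := by
  have hℓq : ℓ ≠ q := fun hh => hℓMq (hh ▸ Dvd.intro_left M rfl)
  have h₁ := isCosetFamily_heckeRep (M * q) ℓ hℓMq
  have hρ : heckeRep ℓ x * dq q * mapGL ℝ ((r j * (r j')⁻¹ : Gamma0 M) : SL(2, ℤ)) =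
      mapGL ℝ (γ : SL(2, ℤ)) * (heckeRep ℓ x' * dq q) := by
    have e1 : mapGL ℝ ((r j * (r j')⁻¹ : Gamma0 M) : SL(2, ℤ)) =
        eG M (r j) * (eG M (r j'))⁻¹ := by
      rw [← map_inv, ← map_mul]; rfl
    rw [e1]
    calc heckeRep ℓ x * dq q * (eG M (r j) * (eG M (r j'))⁻¹)
        = heckeRep ℓ x * (dq q * eG M (r j)) * (eG M (r j'))⁻¹ := by simp only [mul_assoc]
      _ = eG (M * q) γ * (heckeRep ℓ x' * (dq q * eG M (r j'))) * (eG M (r j'))⁻¹ := by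
          rw [hγ]
      _ = eG (M * q) γ * (heckeRep ℓ x' * dq q) := by
          simp only [mul_assoc, mul_inv_cancel, mul_one]
  obtain ⟨-, e01⟩ := ut_mul_entries (isUT_mul (isUT_heckeRep ℓ x) (isUT_dq q))
    (isUT_mul (isUT_heckeRep ℓ x') (isUT_dq q)) _ _ hρ
  have hq01 : (q : ℤ) ∣ ((r j * (r j')⁻¹ : Gamma0 M) : SL(2, ℤ)) 0 1 := by
    have h3 : (q : ℤ) ∣ aT ℓ x * ((r j * (r j')⁻¹ : Gamma0 M) : SL(2, ℤ)) 0 1 :=
      ⟨(γ : SL(2, ℤ)) 0 0 * bT ℓ x' + (γ : SL(2, ℤ)) 0 1 * dT ℓ x' -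
        bT ℓ x * ((r j * (r j')⁻¹ : Gamma0 M) : SL(2, ℤ)) 1 1, by linear_combination e01⟩
    exact (isCoprime_aT hℓq hq x).symm.dvd_of_dvd_mul_left h3
  obtain ⟨ρ', hρ'⟩ := exists_sharp M q _ hq01
  have hj : j = j' := by
    refine h.distinct j j' ρ' ?_
    show dq q * eG M (r j) = eG (M * q) ρ' * (dq q * eG M (r j'))
    rw [← mul_assoc, ← hρ', mul_assoc, ← map_mul, inv_mul_cancel_right]
  subst hj
  refine ⟨h₁.distinct x x' γ ?_, rfl⟩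
  have e : heckeRep ℓ x * (dq q * eG M (r j)) =
      eG (M * q) γ * heckeRep ℓ x' * (dq q * eG M (r j)) := by rw [hγ, mul_assoc]
  exact mul_right_cancel e

/-- **[COH-DEGEN], `β`-half.**  For every right transversal `r` of
`(Γ₀(M) ∩ Γ⁰(q)) \ Γ₀(M)` (as a two-group family `diag(1, q) · r i`), the twisted transfer
`Hom(Γ₀(M q), A) → Hom(Γ₀(M), A)` intertwines the Hecke operators `T_ℓ` (`ℓ ∤ M q`) of the two
levels. -/
theorem tcoh_corB (hq : q.Prime) {ℓ : ℕ} (hℓ : ℓ.Prime) (hℓM : ¬ ℓ ∣ M)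
    (hℓMq : ¬ ℓ ∣ M * q) [Fintype ι] (r : ι → Gamma0 M)
    (h : IsFam₂ (eG (M * q)) (eG M) (fun i => dq q * eG M (r i)))
    (ψ : Additive (Gamma0 (M * q)) →+ A) :
    h.corHom (Fermat.Agent.P5.Per.tcoh (M * q) hℓ hℓMq A ψ) =
      Fermat.Agent.P5.Per.tcoh M hℓ hℓM A (h.corHom ψ) := by
  have : Fact ℓ.Prime := ⟨hℓ⟩
  exact corHom_heckeHom_comm (isCosetFamily_heckeRep (M * q) ℓ hℓMq)
    (isCosetFamily_heckeRep M ℓ hℓM) h (distinctQB hq hℓMq r h) (distinctPB hℓM r h)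
    (matchB hℓM r h) ψ

end B

end Fermat.Agent.S35.CohFam
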