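/-
P6 / S35 leaf [SMO] (helper6): STRONG MULTIPLICITY ONE from the residual representations.

If two normalised weight-2 eigenforms `g` (level `N`) and `g'` (level `N'`) have the same
`q`-coefficients at all primes outside a finite set `S`, then they have the same `q`-coefficient
at EVERY prime `ℓ₀ ∤ N N'`.

Inputs (hypothesis form, both Props are theorems of the P5 program):
* `h29 : Fermat.Agent.P5.G9.S29Stmt` (the frozen S29, verbatim): mod-`p` representations attached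
  to normalised eigenforms, for every prime `p` and every residue map of `ℤ̄`;
* `hcheb : WeakChebStmt` (weak Chebotarev [G4]).

Proof (design: helper97): for every prime `p ≠ ℓ₀` and every maximal ideal `Q` of
`ℤ̄ = integralClosure ℤ ℂ` over `p`, the two mod-`Q` representations have equal characteristic
polynomials at Frobenius lifts outside `S ∪ {p}`, hence (weak Chebotarev + the trace of a power of
a rank-2 endomorphism is a function of its characteristic polynomial) equal traces at a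
Frobenius lift at `ℓ₀`; so `a_{ℓ₀}(g) - a_{ℓ₀}(g') ∈ Q`.  An algebraic integer lying in maximal
ideals over infinitely many primes is zero (constant coefficient of its minimal polynomial).
-/
import Mathlib
import Fermat.Prelude.Def_CuspForm_Newforms
import Fermat.Agent.P5.G9.Plan
import Fermat.Agent.P5.WeakChebLift
import Fermat.Agent.Lib.FrobExists
import Fermat.Agent.S31.Alg

set_option autoImplicit false
set_option linter.style.haveILetI false

open Polynomial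

namespace Fermat.Agent.S35.SMO

open Fermat.Agent.P5.WeakChebLift (WeakChebStmt)
open Fermat.Agent.P5.G9 (S29Stmt)

/-- The absolute Galois group of `ℚ`. -/
abbrev GQ : Type := AlgebraicClosure ℚ ≃ₐ[ℚ] AlgebraicClosure ℚ

/-- The ring of all algebraic integers. -/
abbrev Zbar : Type := integralClosure ℤ ℂ

/-! ### Algebraic integers -/

/-- Lying over: a maximal ideal of `ℤ̄` whose contraction to `ℤ` is `(p)`. -/
theorem exists_maximal_over (p : ℕ) (hp : p.Prime) :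
    ∃ Q : Ideal Zbar, Q.IsMaximal ∧
      Q.comap (algebraMap ℤ Zbar) = Ideal.span {(p : ℤ)} := by
  have : (Ideal.span {(p : ℤ)}).IsMaximal :=
    PrincipalIdealRing.isMaximal_of_irreducible (Nat.prime_iff_prime_int.mp hp).irreducible
  refine Ideal.exists_ideal_over_maximal_of_isIntegral (S := Zbar) (Ideal.span {(p : ℤ)}) ?_
  have hinj : Function.Injective (algebraMap ℤ Zbar) := by
    intro x y hxy
    have h1 : ((algebraMap ℤ Zbar x : Zbar) : ℂ) = ((algebraMap ℤ Zbar y : Zbar) : ℂ) := by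
      rw [hxy]
    simpa using h1
  rw [(RingHom.injective_iff_ker_eq_bot _).mp hinj]
  exact bot_le

/-- The residue field at a maximal ideal over `p` has characteristic `p`. -/
theorem charP_quotient (p : ℕ) (Q : Ideal Zbar)
    (hQ : Q.comap (algebraMap ℤ Zbar) = Ideal.span {(p : ℤ)}) : CharP (Zbar ⧸ Q) p := by
  refine ⟨fun n => ?_⟩
  have h1 : ((n : ℕ) : Zbar ⧸ Q) = Ideal.Quotient.mk Q (algebraMap ℤ Zbar (n : ℤ)) := by
    simp
  rw [h1, Ideal.Quotient.eq_zero_iff_mem, ← Ideal.mem_comap, hQ, Ideal.mem_span_singleton,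
    Int.natCast_dvd_natCast]

/-- An algebraic integer which lies in every maximal ideal over every prime `p ≠ ℓ₀` is zero. -/
theorem eq_zero_of_forall_mem (δ : Zbar) (ℓ₀ : ℕ)
    (h : ∀ p : ℕ, p.Prime → p ≠ ℓ₀ → ∀ Q : Ideal Zbar, Q.IsMaximal →
      Q.comap (algebraMap ℤ Zbar) = Ideal.span {(p : ℤ)} → δ ∈ Q) : δ = 0 := by
  by_contra hne
  have hint : IsIntegral ℤ δ := integralClosure.isIntegral δ
  set f : ℤ[X] := minpoly ℤ δ with hf
  have hc0 : f.coeff 0 ≠ 0 := by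
    intro h0
    have hirr : Irreducible f := minpoly.irreducible hint
    have hX : (X : ℤ[X]) ∣ f := Polynomial.X_dvd_iff.mpr h0
    have hassoc : Associated (X : ℤ[X]) f :=
      Irreducible.associated_of_dvd Polynomial.irreducible_X hirr hX
    obtain ⟨h', hh'⟩ := hassoc.symm.dvd
    have h1 := congrArg (Polynomial.aeval δ) hh'
    rw [Polynomial.aeval_X, map_mul, hf, minpoly.aeval, zero_mul] at h1
    exact hne h1
  obtain ⟨p, hpge, hp⟩ := Nat.exists_infinite_primes ((f.coeff 0).natAbs + ℓ₀ + 1)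
  have hpℓ₀ : p ≠ ℓ₀ := by omega
  obtain ⟨Q, hQmax, hQ⟩ := exists_maximal_over p hp
  have hδQ : δ ∈ Q := h p hp hpℓ₀ Q hQmax hQ
  have haeval : Polynomial.aeval δ f = 0 := minpoly.aeval ℤ δ
  have hsplit : f = f.divX * X + C (f.coeff 0) := (Polynomial.divX_mul_X_add f).symm
  have hc0Q : algebraMap ℤ Zbar (f.coeff 0) ∈ Q := by
    have h2 : Polynomial.aeval δ f =
        Polynomial.aeval δ f.divX * δ + algebraMap ℤ Zbar (f.coeff 0) := by
      conv_lhs => rw [hsplit]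
      simp
    rw [haeval] at h2
    have h3 : algebraMap ℤ Zbar (f.coeff 0) = -(Polynomial.aeval δ f.divX * δ) := by
      rw [eq_neg_iff_add_eq_zero, add_comm]
      exact h2.symm
    rw [h3]
    exact Q.neg_mem (Q.mul_mem_left _ hδQ)
  have hdvd : (p : ℤ) ∣ f.coeff 0 := by
    rw [← Ideal.mem_span_singleton, ← hQ]
    exact hc0Q
  have hle : p ≤ (f.coeff 0).natAbs :=
    Nat.le_of_dvd (Int.natAbs_pos.mpr hc0) (Int.natCast_dvd.mp hdvd)
  omega

/-! ### The residual comparison -/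

/-- Two elements of the Galois group which agree on a finite level through which `ρ` factors have
the same image. -/
theorem rho_eq_of_agree {k : Type} [Field k] (ρ : ResidualGaloisRep k)
    (L : IntermediateField ℚ (AlgebraicClosure ℚ))
    (hL : ∀ σ : GQ, (∀ x ∈ L, σ x = x) → ρ.ρ σ = 1)
    (g h : GQ) (hgh : ∀ x ∈ L, g x = h x) : ρ.ρ g = ρ.ρ h := by
  have hτ : ∀ x ∈ L, (h⁻¹ * g) x = x := by
    intro x hx
    rw [AlgEquiv.mul_apply, hgh x hx]
    exact h.symm_apply_apply x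
  have h1 := hL _ hτ
  have e : g = h * (h⁻¹ * g) := by group
  rw [e, map_mul, h1, mul_one]

/-- **The residual form of strong multiplicity one.** -/
theorem residue_eq (h29 : S29Stmt) (hcheb : WeakChebStmt) {N N' : ℕ}
    {g : CuspForm (CongruenceSubgroup.Gamma0 N) 2}
    {g' : CuspForm (CongruenceSubgroup.Gamma0 N') 2}
    (hg : g.IsNormalizedEigenform) (hg' : g'.IsNormalizedEigenform) (S : Finset ℕ)
    (h : ∀ ℓ : ℕ, ℓ.Prime → ℓ ∉ S → ModularFormClass.qCoeff g' ℓ = ModularFormClass.qCoeff g ℓ)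
    (ℓ₀ : ℕ) (hℓ₀ : ℓ₀.Prime) (hN : ¬ ℓ₀ ∣ N) (hN' : ¬ ℓ₀ ∣ N')
    {p : ℕ} (hp : p.Prime) (hpℓ₀ : p ≠ ℓ₀) {k : Type} [Field k] [CharP k p]
    (φ : Zbar →+* k) :
    ∃ a a' : Zbar, (a : ℂ) = ModularFormClass.qCoeff g ℓ₀ ∧
      (a' : ℂ) = ModularFormClass.qCoeff g' ℓ₀ ∧ φ a = φ a' := by
  classical
  have hN0 : N ≠ 0 := fun h0 => hN (h0 ▸ dvd_zero ℓ₀)
  have hN'0 : N' ≠ 0 := fun h0 => hN' (h0 ▸ dvd_zero ℓ₀)
  obtain ⟨ρ, hρ, -⟩ := h29 hg hp φ
  obtain ⟨ρ', hρ', -⟩ := h29 hg' hp φ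
  have hcast : ∀ ℓ : ℕ, ℓ.Prime → ℓ ≠ p → ((ℓ : ℕ) : k) ≠ 0 := by
    intro ℓ hℓ hℓp h0
    rw [CharP.cast_eq_zero_iff k p] at h0
    exact hℓp ((Nat.prime_dvd_prime_iff_eq hp hℓ).mp h0).symm
  -- a Frobenius lift at `ℓ₀`
  obtain ⟨A₀, σ₀, hA₀, hσ₀⟩ :=
    Fermat.Agent.Lib.FrobExists.exists_liesOverPrime_isFrobeniusAt ℓ₀ hℓ₀
  obtain ⟨a, ha, hchar₀⟩ := hρ ℓ₀ hℓ₀ hN (hcast ℓ₀ hℓ₀ (Ne.symm hpℓ₀)) A₀ hA₀ σ₀ hσ₀
  obtain ⟨a', ha', hchar₀'⟩ := hρ' ℓ₀ hℓ₀ hN' (hcast ℓ₀ hℓ₀ (Ne.symm hpℓ₀)) A₀ hA₀ σ₀ hσ₀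
  refine ⟨a, a', ha, ha', ?_⟩
  -- the finite Galois level
  obtain ⟨L, hLfin, hL⟩ := ρ.factorsThroughFiniteLevel
  obtain ⟨L', hL'fin, hL'⟩ := ρ'.factorsThroughFiniteLevel
  let L2 : IntermediateField ℚ (AlgebraicClosure ℚ) := L ⊔ L'
  have hL2fin : FiniteDimensional ℚ L2 := IntermediateField.finiteDimensional_sup L L'
  let M : IntermediateField ℚ (AlgebraicClosure ℚ) :=
    IntermediateField.normalClosure ℚ L2 (AlgebraicClosure ℚ)
  have hMfin : FiniteDimensional ℚ M := normalClosure.is_finiteDimensional ℚ L2 _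
  have hMnormal : Normal ℚ M := normalClosure.normal ℚ L2 _
  have hMgal : IsGalois ℚ M := ⟨⟩
  have hL2M : L2 ≤ M := IntermediateField.le_normalClosure L2
  have hLM : L ≤ M := le_sup_left.trans hL2M
  have hL'M : L' ≤ M := le_sup_right.trans hL2M
  -- weak Chebotarev away from `S ∪ {p} ∪ [0, N + N']`
  obtain ⟨ℓ, hℓ, hℓS, A, hA, σ, hσ, j, hj⟩ :=
    hcheb M σ₀ (S ∪ {p} ∪ Finset.range (N + N' + 1))
  have hℓS1 : ℓ ∉ S := fun hmem => hℓS (Finset.mem_union_left _ (Finset.mem_union_left _ hmem))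
  have hℓp : ℓ ≠ p := fun hmem =>
    hℓS (Finset.mem_union_left _ (Finset.mem_union_right _ (Finset.mem_singleton.mpr hmem)))
  have hℓbig : N + N' < ℓ := by
    by_contra hlt
    exact hℓS (Finset.mem_union_right _ (Finset.mem_range.mpr (by omega)))
  have hℓN : ¬ ℓ ∣ N := fun hd => by
    have := Nat.le_of_dvd (Nat.pos_of_ne_zero hN0) hd
    omega
  have hℓN' : ¬ ℓ ∣ N' := fun hd => by
    have := Nat.le_of_dvd (Nat.pos_of_ne_zero hN'0) hd
    omega
  obtain ⟨c, hc, hcharσ⟩ := hρ ℓ hℓ hℓN (hcast ℓ hℓ hℓp) A hA σ hσ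
  obtain ⟨c', hc', hcharσ'⟩ := hρ' ℓ hℓ hℓN' (hcast ℓ hℓ hℓp) A hA σ hσ
  have hcc' : c' = c := Subtype.ext (by rw [hc, hc', h ℓ hℓ hℓS1])
  -- `σ₀` and `σ ^ j` have the same images
  have e1 : ρ.ρ σ₀ = ρ.ρ σ ^ j := by
    rw [← map_pow]
    exact rho_eq_of_agree ρ L hL σ₀ (σ ^ j) fun x hx => (hj x (hLM hx)).symm
  have e1' : ρ'.ρ σ₀ = ρ'.ρ σ ^ j := by
    rw [← map_pow]
    exact rho_eq_of_agree ρ' L' hL' σ₀ (σ ^ j) fun x hx => (hj x (hL'M hx)).symm
  -- traces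
  have hcharσZ : LinearMap.charpoly (ρ.ρ σ) = X ^ 2 - C (φ c) * X + C (((ℓ : ℤ) : k)) := by
    rw [hcharσ, Int.cast_natCast]
  have hcharσZ' : LinearMap.charpoly (ρ'.ρ σ) = X ^ 2 - C (φ c) * X + C (((ℓ : ℤ) : k)) := by
    rw [hcharσ', hcc', Int.cast_natCast]
  have t1 : LinearMap.trace k ρ.V (ρ.ρ σ₀) = φ a :=
    Fermat.Agent.S31.Alg.trace_eq_of_charpoly (ρ.ρ σ₀) (φ a) ((ℓ₀ : ℕ) : k) ρ.finrank_eq hchar₀
  have t1' : LinearMap.trace k ρ'.V (ρ'.ρ σ₀) = φ a' :=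
    Fermat.Agent.S31.Alg.trace_eq_of_charpoly (ρ'.ρ σ₀) (φ a') ((ℓ₀ : ℕ) : k) ρ'.finrank_eq
      hchar₀'
  have t2 : LinearMap.trace k ρ.V (ρ.ρ σ ^ j) =
      Polynomial.aeval (φ c) (Fermat.Agent.S31.Alg.lucas (ℓ : ℤ) j) :=
    Fermat.Agent.S31.Alg.trace_pow_eq_aeval_lucas (ρ.ρ σ) (φ c) (ℓ : ℤ) ρ.finrank_eq hcharσZ j
  have t2' : LinearMap.trace k ρ'.V (ρ'.ρ σ ^ j) =
      Polynomial.aeval (φ c) (Fermat.Agent.S31.Alg.lucas (ℓ : ℤ) j) :=
    Fermat.Agent.S31.Alg.trace_pow_eq_aeval_lucas (ρ'.ρ σ) (φ c) (ℓ : ℤ) ρ'.finrank_eq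
      hcharσZ' j
  rw [← t1, ← t1', e1, e1', t2, t2']

/-! ### Strong multiplicity one -/

/-- **[SMO] Strong multiplicity one.** Two normalised eigenforms whose `q`-coefficients agree at
all primes outside a finite set agree at every prime not dividing the two levels. -/
theorem smo (h29 : S29Stmt) (hcheb : WeakChebStmt) {N N' : ℕ}
    {g : CuspForm (CongruenceSubgroup.Gamma0 N) 2}
    {g' : CuspForm (CongruenceSubgroup.Gamma0 N') 2}
    (hg : g.IsNormalizedEigenform) (hg' : g'.IsNormalizedEigenform) (S : Finset ℕ)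
    (h : ∀ ℓ : ℕ, ℓ.Prime → ℓ ∉ S → ModularFormClass.qCoeff g' ℓ = ModularFormClass.qCoeff g ℓ)
    (ℓ₀ : ℕ) (hℓ₀ : ℓ₀.Prime) (hN : ¬ ℓ₀ ∣ N) (hN' : ¬ ℓ₀ ∣ N') :
    ModularFormClass.qCoeff g' ℓ₀ = ModularFormClass.qCoeff g ℓ₀ := by
  -- the two coefficients as algebraic integers (from one auxiliary prime)
  obtain ⟨p₁, hp₁ge, hp₁⟩ := Nat.exists_infinite_primes (ℓ₀ + 1)
  have hp₁ℓ₀ : p₁ ≠ ℓ₀ := by omega
  obtain ⟨Q₁, hQ₁max, hQ₁⟩ := exists_maximal_over p₁ hp₁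
  letI := Ideal.Quotient.field Q₁
  haveI : CharP (Zbar ⧸ Q₁) p₁ := charP_quotient p₁ Q₁ hQ₁
  obtain ⟨a, a', ha, ha', -⟩ := residue_eq h29 hcheb hg hg' S h ℓ₀ hℓ₀ hN hN' hp₁ hp₁ℓ₀
    (Ideal.Quotient.mk Q₁)
  have hzero : a - a' = 0 := by
    refine eq_zero_of_forall_mem (a - a') ℓ₀ fun p hp hpℓ₀ Q hQmax hQ => ?_
    letI := Ideal.Quotient.field Q
    haveI : CharP (Zbar ⧸ Q) p := charP_quotient p Q hQ
    obtain ⟨b, b', hb, hb', hbb'⟩ := residue_eq h29 hcheb hg hg' S h ℓ₀ hℓ₀ hN hN' hp hpℓ₀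
      (Ideal.Quotient.mk Q)
    have eb : b = a := Subtype.ext (hb.trans ha.symm)
    have eb' : b' = a' := Subtype.ext (hb'.trans ha'.symm)
    rw [eb, eb'] at hbb'
    rw [← Ideal.Quotient.eq_zero_iff_mem, map_sub, hbb', sub_self]
  rw [← ha, ← ha', sub_eq_zero.mp hzero]

/-- The frozen vocabulary: an eigenform `g'` of level `M' ∣ M` which agrees with `g` (level `M`)
away from a finite set makes the good eigensystem of `g` occur at level `M'`. -/
theorem goodEigensystemOccursAt_of_away (h29 : S29Stmt) (hcheb : WeakChebStmt) {M M' : ℕ}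
    (hM' : M' ∣ M) {g : CuspForm (CongruenceSubgroup.Gamma0 M) 2}
    {g' : CuspForm (CongruenceSubgroup.Gamma0 M') 2}
    (hg : g.IsNormalizedEigenform) (hg' : g'.IsNormalizedEigenform) (S : Finset ℕ)
    (h : ∀ ℓ : ℕ, ℓ.Prime → ℓ ∉ S → ModularFormClass.qCoeff g' ℓ = ModularFormClass.qCoeff g ℓ) :
    CuspForm.GoodEigensystemOccursAt g M' :=
  ⟨g', hg', fun ℓ hℓ hℓM =>
    smo h29 hcheb hg hg' S h ℓ hℓ hℓM fun hd => hℓM (hd.trans hM')⟩

/-- A newform of level `M` has no companion of a proper level `M' ∣ M` agreeing with it away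
from a finite set of primes. -/
theorem IsNewform.not_exists_away (h29 : S29Stmt) (hcheb : WeakChebStmt) {M M' : ℕ}
    (hM' : M' ∣ M) (hne : M' ≠ M) {g : CuspForm (CongruenceSubgroup.Gamma0 M) 2}
    (hg : g.IsNewform) {g' : CuspForm (CongruenceSubgroup.Gamma0 M') 2}
    (hg' : g'.IsNormalizedEigenform) (S : Finset ℕ)
    (h : ∀ ℓ : ℕ, ℓ.Prime → ℓ ∉ S → ModularFormClass.qCoeff g' ℓ = ModularFormClass.qCoeff g ℓ) :
    False :=
  hg.2 M' hM' hne (goodEigensystemOccursAt_of_away h29 hcheb hM' hg.1 hg' S h)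

end Fermat.Agent.S35.SMO
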