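import Mathlib
import Fermat.Agent.S21
import Fermat.Agent.P5.Per.Action
import Fermat.Agent.P5.EigVec
import Fermat.Agent.Lib.EigenNormalize
import Fermat.Agent.Lib.DeligneSerre
import Fermat.Agent.S35.SMO

/-!
# P6 / S35 — [EIGFORM]: characters of the Hecke algebra come from normalised eigenforms

`Γ = Γ₀(N)`, `S ⊇ {primes dividing N}`, `𝕋 = CuspForm.heckeAlgebra N 2 S` (generated by the
`T_ℓ`, `ℓ ∤ N`, `ℓ ∉ S`).

* `exists_parabolic_eigen` : a ring character `χ : 𝕋 →+* ℂ` has a nonzero eigenvector in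
  `parabolicHoms ℂ Γ ℂ` for the cohomological operators `T^coh_ℓ` (`P5.EigVec` + `P5.Per`);
* `exists_form_eigen` : hence a nonzero cusp form `f` with `T_ℓ f = χ(T_ℓ) f` (`ℓ ∉ S`): the
  prelude's pair map `(f, h) ↦ (1 + ι) P_f + (1 - ι) P_h` is `ℂ`-linear in both slots and
  Hecke-equivariant, and it is injective with range `parabolicHoms ℂ Γ ℂ` (S21);
* `exists_eigenform_of_char` : **every ring character of `𝕋` is the eigencharacter of a
  normalised eigenform** (simultaneous eigenvector of all `T_ℓ`, `U_q` in the `χ`-eigenspace,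
  then `Lib.EigenNormalize`);
* `exists_eigenform_of_eigvec` : the same starting from a nonzero eigenvector in `O ⊗[ℤ] Lat N`
  (`O` a domain) whose eigenvalues are the images under an injective `ι : R →+* O` of elements
  `r ℓ` of a ring `R` with a ring hom `j : R →+* ℂ`; the eigenform has `a_ℓ = j (r ℓ)`;
* `injective_of_isIntegral` : a ring hom from a `ℤ`-integral domain to a domain of
  characteristic zero is injective.
-/

set_option autoImplicit false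

open scoped TensorProduct MatrixGroups
open CongruenceSubgroup ModularCurve ModularCurve.Period

namespace Fermat.Agent.S35.EigForm

open Fermat.Agent.P5.Per

variable (N : ℕ) [NeZero N]

/-! ### The cohomological Hecke operators on `Hom(Γ, ℂ)` -/

omit [NeZero N] in
/-- `T^coh_ℓ` with complex coefficients is `ℂ`-linear. -/
theorem tcoh_smul {ℓ : ℕ} (hℓ : ℓ.Prime) (hℓN : ¬ ℓ ∣ N) (c : ℂ)
    (φ : Additive (Gamma0 N) →+ ℂ) :
    tcoh N hℓ hℓN ℂ (c • φ) = c • tcoh N hℓ hℓN ℂ φ :=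
  tcoh_comp N hℓ hℓN (AddMonoidHom.mulLeft c) φ

omit [NeZero N] in
/-- `T^coh_ℓ` commutes with the complexification. -/
theorem tcoh_toC {ℓ : ℕ} (hℓ : ℓ.Prime) (hℓN : ¬ ℓ ∣ N) (ψ : Additive (Gamma0 N) →+ ℤ) :
    tcoh N hℓ hℓN ℂ (toC ψ) = toC (tcoh N hℓ hℓN ℤ ψ) :=
  tcoh_comp N hℓ hℓN (Int.castAddHom ℂ) ψ

/-- `T^coh_ℓ` of the pair map is the pair map of `(T_ℓ f, T_ℓ h)`. -/
theorem tcoh_periodHomPair {ℓ : ℕ} (hℓ : ℓ.Prime) (hℓN : ¬ ℓ ∣ N)
    (f h : CuspForm (Gamma0 N) 2) :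
    tcoh N hℓ hℓN ℂ (periodHomPair N (f, h)) =
      periodHomPair N (CuspForm.heckeTLin 2 hℓ hℓN f, CuspForm.heckeTLin 2 hℓ hℓN h) := by
  rw [Fermat.Agent.S21.periodHomPair_eq]
  simp only [LinearMap.coprod_apply, LinearMap.comp_apply, LinearMap.add_apply,
    LinearMap.sub_apply, LinearMap.id_apply, Fermat.Agent.S21.periodMapLin_apply]
  rw [periodMap_heckeTLin, periodMap_heckeTLin, map_add, map_add, map_sub,
    tcoh_charInvolution, tcoh_charInvolution]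

omit [NeZero N] in
theorem toC_add (ψ ψ' : Additive (Gamma0 N) →+ ℤ) : toC (ψ + ψ') = toC ψ + toC ψ' := by
  refine AddMonoidHom.ext fun x => ?_
  simp

omit [NeZero N] in
theorem toC_zsmul (m : ℤ) (ψ : Additive (Gamma0 N) →+ ℤ) : toC (m • ψ) = m • toC ψ := by
  refine AddMonoidHom.ext fun x => ?_
  simp

/-- The natural map `ℂ ⊗[ℤ] Lat N → Hom(Γ, ℂ)`, `c ⊗ ψ ↦ c • ψ`. -/
noncomputable def tensorToHom : ℂ ⊗[ℤ] Lat N →ₗ[ℤ] (Additive (Gamma0 N) →+ ℂ) :=
  TensorProduct.lift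
    (LinearMap.mk₂ ℤ (fun (c : ℂ) (ψ : Lat N) => c • toC (ψ : Additive (Gamma0 N) →+ ℤ))
      (fun c c' ψ => add_smul c c' _)
      (fun m c ψ => smul_assoc m c _)
      (fun c ψ ψ' => by rw [Submodule.coe_add, toC_add, smul_add])
      (fun m c ψ => by rw [Submodule.coe_smul, toC_zsmul, smul_comm]))

omit [NeZero N] in
theorem tensorToHom_tmul (c : ℂ) (ψ : Lat N) :
    tensorToHom N (c ⊗ₜ[ℤ] ψ) = c • toC (ψ : Additive (Gamma0 N) →+ ℤ) := rfl

/-! ### Step A: an eigenvector in the complex parabolic cohomology -/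

/-- A ring character of the Hecke algebra has a nonzero eigenvector in `parabolicHoms ℂ Γ ℂ`. -/
theorem exists_parabolic_eigen (S : Set ℕ) (hNS : ∀ q : ℕ, q.Prime → q ∣ N → q ∈ S)
    (χ : CuspForm.heckeAlgebra N 2 S →+* ℂ) :
    ∃ w : Additive (Gamma0 N) →+ ℂ, w ∈ parabolicHoms ℂ (Gamma0 N) ℂ ∧ w ≠ 0 ∧
      ∀ (ℓ : ℕ) (hℓ : ℓ.Prime) (hℓN : ¬ ℓ ∣ N) (hℓS : ℓ ∉ S),
        tcoh N hℓ hℓN ℂ w = χ (CuspForm.heckeAlgebra.T hℓ hℓN hℓS) • w := by
  classical
  obtain ⟨s, b, g, hbg⟩ := exists_lat_basis N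
  obtain ⟨o, ho0, ho⟩ := Fermat.Agent.P5.EigVec.exists_eigenvector_tensor_coord (O := ℂ) b
    (heckeAct N S hNS) (heckeAct_injective N S hNS) χ
  refine ⟨∑ k, o k • toC ((b k : Lat N) : Additive (Gamma0 N) →+ ℤ), ?_, ?_, ?_⟩
  · exact Submodule.sum_mem _ fun k _ =>
      Submodule.smul_mem _ _ (toC_mem_parabolicHoms.2 (b k).2)
  · intro hw
    apply ho0
    have hli := linearIndependent_castHom N ℂ
      (fun i => ((b i : Lat N) : Additive (Gamma0 N) →+ ℤ)) g hbg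
    funext i
    exact Fintype.linearIndependent_iff.1 hli o hw i
  · intro ℓ hℓ hℓN hℓS
    have h1 := congrArg (tensorToHom N) (ho (CuspForm.heckeAlgebra.T hℓ hℓN hℓS))
    rw [Finset.smul_sum] at h1
    simp only [map_sum] at h1
    have hL : ∀ k, tensorToHom N (LinearMap.lTensor ℂ
        (heckeAct N S hNS (CuspForm.heckeAlgebra.T hℓ hℓN hℓS)) (o k ⊗ₜ[ℤ] b k)) =
        tcoh N hℓ hℓN ℂ (o k • toC ((b k : Lat N) : Additive (Gamma0 N) →+ ℤ)) := by
      intro k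
      rw [LinearMap.lTensor_tmul, tensorToHom_tmul, heckeAct_T, tcoh_smul, tcoh_toC]
    have hR : ∀ k, tensorToHom N (χ (CuspForm.heckeAlgebra.T hℓ hℓN hℓS) • o k ⊗ₜ[ℤ] b k) =
        χ (CuspForm.heckeAlgebra.T hℓ hℓN hℓS) •
          (o k • toC ((b k : Lat N) : Additive (Gamma0 N) →+ ℤ)) := by
      intro k
      rw [TensorProduct.smul_tmul', tensorToHom_tmul, smul_eq_mul, mul_smul]
    rw [Finset.sum_congr rfl fun k _ => hL k, Finset.sum_congr rfl fun k _ => hR k] at h1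
    rw [map_sum, Finset.smul_sum]
    exact h1

/-! ### Step B: a holomorphic eigenvector -/

/-- A ring character of the Hecke algebra has a nonzero eigenvector among the cusp forms. -/
theorem exists_form_eigen (S : Set ℕ) (hNS : ∀ q : ℕ, q.Prime → q ∣ N → q ∈ S)
    (χ : CuspForm.heckeAlgebra N 2 S →+* ℂ) :
    ∃ f : CuspForm (Gamma0 N) 2, f ≠ 0 ∧
      ∀ (ℓ : ℕ) (hℓ : ℓ.Prime) (hℓN : ¬ ℓ ∣ N) (hℓS : ℓ ∉ S),
        CuspForm.heckeTLin 2 hℓ hℓN f = χ (CuspForm.heckeAlgebra.T hℓ hℓN hℓS) • f := by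
  obtain ⟨w, hwpar, hw0, hweig⟩ := exists_parabolic_eigen N S hNS χ
  obtain ⟨hinj, hrange⟩ := Fermat.Agent.S21.result N
  rw [← hrange] at hwpar
  obtain ⟨⟨f, h⟩, rfl⟩ := hwpar
  have key : ∀ (ℓ : ℕ) (hℓ : ℓ.Prime) (hℓN : ¬ ℓ ∣ N) (hℓS : ℓ ∉ S),
      CuspForm.heckeTLin 2 hℓ hℓN f = χ (CuspForm.heckeAlgebra.T hℓ hℓN hℓS) • f ∧
      CuspForm.heckeTLin 2 hℓ hℓN h = χ (CuspForm.heckeAlgebra.T hℓ hℓN hℓS) • h := by
    intro ℓ hℓ hℓN hℓS
    have h1 := hweig ℓ hℓ hℓN hℓS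
    rw [tcoh_periodHomPair, ← map_smul] at h1
    have h2 := hinj h1
    rw [Prod.smul_mk] at h2
    exact ⟨congrArg Prod.fst h2, congrArg Prod.snd h2⟩
  by_cases hf : f = 0
  · have hh : h ≠ 0 := by
      rintro rfl
      apply hw0
      rw [hf]
      exact map_zero _
    exact ⟨h, hh, fun ℓ hℓ hℓN hℓS => (key ℓ hℓ hℓN hℓS).2⟩
  · exact ⟨f, hf, fun ℓ hℓ hℓN hℓS => (key ℓ hℓ hℓN hℓS).1⟩

/-! ### Step C: a normalised eigenform -/

/-- **[EIGFORM]** Every ring character `χ` of the Hecke algebra `heckeAlgebra N 2 S`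
(`S ⊇ {primes dividing N}`) is the eigencharacter of a normalised eigenform:
`a_ℓ(f) = χ(T_ℓ)` for all primes `ℓ ∤ N`, `ℓ ∉ S`. -/
theorem exists_eigenform_of_char (S : Set ℕ) (hNS : ∀ q : ℕ, q.Prime → q ∣ N → q ∈ S)
    (χ : CuspForm.heckeAlgebra N 2 S →+* ℂ) :
    ∃ f : CuspForm (Gamma0 N) 2, f.IsNormalizedEigenform ∧
      ∀ (ℓ : ℕ) (hℓ : ℓ.Prime) (hℓN : ¬ ℓ ∣ N) (hℓS : ℓ ∉ S),
        ModularFormClass.qCoeff f ℓ = χ (CuspForm.heckeAlgebra.T hℓ hℓN hℓS) := by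
  classical
  obtain ⟨f₀, hf₀, hf₀eig⟩ := exists_form_eigen N S hNS χ
  have : FiniteDimensional ℂ (CuspForm (Gamma0 N) 2) :=
    (Fermat.Agent.S21.finrank_cuspForm_le N).1
  -- the `χ`-eigenspace
  let W : Submodule ℂ (CuspForm (Gamma0 N) 2) :=
    { carrier := {f | ∀ (ℓ : ℕ) (hℓ : ℓ.Prime) (hℓN : ¬ ℓ ∣ N) (hℓS : ℓ ∉ S),
        CuspForm.heckeTLin 2 hℓ hℓN f = χ (CuspForm.heckeAlgebra.T hℓ hℓN hℓS) • f}
      add_mem' := by
        intro a b ha hb ℓ hℓ hℓN hℓS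
        rw [map_add, ha ℓ hℓ hℓN hℓS, hb ℓ hℓ hℓN hℓS, smul_add]
      zero_mem' := by
        intro ℓ hℓ hℓN hℓS
        rw [map_zero, smul_zero]
      smul_mem' := by
        intro c a ha ℓ hℓ hℓN hℓS
        rw [map_smul, ha ℓ hℓ hℓN hℓS, smul_comm] }
  have hf₀W : f₀ ∈ W := hf₀eig
  have hW : W ≠ ⊥ := fun h => hf₀ (by rw [h] at hf₀W; simpa using hf₀W)
  have hcomm : ∀ s ∈ CuspForm.heckeGenerators N 2 (∅ : Set ℕ),
      ∀ t ∈ CuspForm.heckeGenerators N 2 (∅ : Set ℕ), s * t = t * s :=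
    fun s hs t ht => (CuspForm.commute_of_mem_heckeGenerators hs ht).eq
  have hstab : ∀ t ∈ CuspForm.heckeGenerators N 2 (∅ : Set ℕ), ∀ w ∈ W, t w ∈ W := by
    intro t ht w hw ℓ hℓ hℓN hℓS
    have hc : Commute (CuspForm.heckeTLin 2 hℓ hℓN) t :=
      CuspForm.commute_of_mem_heckeGenerators (S := (∅ : Set ℕ))
        (CuspForm.heckeTLin_mem_heckeGenerators hℓ hℓN (Set.notMem_empty ℓ)) ht
    have h1 := congrArg (fun F : Module.End ℂ (CuspForm (Gamma0 N) 2) => F w) hc.eq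
    simp only [Module.End.mul_apply] at h1
    rw [h1, hw ℓ hℓ hℓN hℓS, map_smul]
  obtain ⟨w, hwW, hw0, hw⟩ := Fermat.Agent.Lib.DeligneSerre.exists_common_eigenvector
    (CuspForm.heckeGenerators N 2 (∅ : Set ℕ)) hcomm _ W rfl hW hstab
  choose c hc using hw
  let lam : ℕ → ℂ := fun p =>
    if hp : p.Prime then
      (if hpN : p ∣ N then
        c (CuspForm.heckeULin 2 hpN)
          (CuspForm.heckeULin_mem_heckeGenerators hp hpN (Set.notMem_empty p))
      else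
        c (CuspForm.heckeTLin 2 hp hpN)
          (CuspForm.heckeTLin_mem_heckeGenerators hp hpN (Set.notMem_empty p)))
    else 0
  obtain ⟨F, hF, hFlam⟩ :=
    Fermat.Agent.Lib.EigenNormalize.exists_normalizedEigenform_of_hecke_eigen w hw0 lam
      (fun ℓ hℓ hℓN => by
        simp only [lam, dif_pos hℓ, dif_neg hℓN]
        exact hc _ _)
      (fun q hq hqN => by
        simp only [lam, dif_pos hq, dif_pos hqN]
        exact hc _ _)
  refine ⟨F, hF, fun ℓ hℓ hℓN hℓS => ?_⟩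
  rw [hFlam ℓ hℓ]
  simp only [lam, dif_pos hℓ, dif_neg hℓN]
  have h1 := hc (CuspForm.heckeTLin 2 hℓ hℓN)
    (CuspForm.heckeTLin_mem_heckeGenerators hℓ hℓN (Set.notMem_empty ℓ))
  have h2 : CuspForm.heckeTLin 2 hℓ hℓN w = χ (CuspForm.heckeAlgebra.T hℓ hℓN hℓS) • w :=
    hwW ℓ hℓ hℓN hℓS
  rw [h1] at h2
  exact smul_left_injective ℂ hw0 h2

/-! ### The `𝒪`-form: eigenvectors in `O ⊗[ℤ] Lat N` -/

section Generic

variable {O : Type*} [CommRing O]

omit [NeZero N] in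
/-- `lTensor O f` is `O`-linear. -/
theorem lTensor_smul_left {M₁ M₂ : Type*} [AddCommGroup M₁] [AddCommGroup M₂]
    (f : M₁ →ₗ[ℤ] M₂) (c : O) (v : O ⊗[ℤ] M₁) :
    LinearMap.lTensor O f (c • v) = c • LinearMap.lTensor O f v := by
  induction v using TensorProduct.induction_on with
  | zero => rw [smul_zero, map_zero, smul_zero]
  | tmul o m =>
    rw [TensorProduct.smul_tmul', LinearMap.lTensor_tmul, LinearMap.lTensor_tmul,
      TensorProduct.smul_tmul']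
  | add x y hx hy => rw [smul_add, map_add, hx, hy, map_add, smul_add]

omit [NeZero N] in
/-- If `v ∈ O ⊗[ℤ] L` is an eigenvector of the generators of a free algebra acting on `L`, with
eigenvalues the images of the generators under `ι ∘ evr`, then it is an eigenvector of the whole
free algebra. -/
theorem lTensor_eval_eq {X : Type*} {L : Type*} [AddCommGroup L] {R : Type*} [CommRing R]
    (ι : R →+* O) (ev : FreeAlgebra ℤ X →ₐ[ℤ] Module.End ℤ L) (evr : FreeAlgebra ℤ X →ₐ[ℤ] R)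
    (v : O ⊗[ℤ] L)
    (h : ∀ i : X, LinearMap.lTensor O (ev (FreeAlgebra.ι ℤ i)) v =
      ι (evr (FreeAlgebra.ι ℤ i)) • v)
    (x : FreeAlgebra ℤ X) : LinearMap.lTensor O (ev x) v = ι (evr x) • v := by
  induction x using FreeAlgebra.induction with
  | grade0 m =>
    have h1 : ev (algebraMap ℤ (FreeAlgebra ℤ X) m) = m • (LinearMap.id : L →ₗ[ℤ] L) := by
      rw [AlgHom.commutes, Algebra.algebraMap_eq_smul_one]
      rfl
    have h2 : ι (evr (algebraMap ℤ (FreeAlgebra ℤ X) m)) = (m : O) := by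
      rw [AlgHom.commutes, eq_intCast, map_intCast]
    rw [h1, h2, LinearMap.lTensor_smul, LinearMap.lTensor_id, LinearMap.smul_apply,
      LinearMap.id_apply, Int.cast_smul_eq_zsmul]
  | grade1 i => exact h i
  | mul a b ha hb =>
    have h1 : LinearMap.lTensor O (ev (a * b)) v =
        LinearMap.lTensor O (ev a) (LinearMap.lTensor O (ev b) v) := by
      rw [map_mul]
      exact congrArg (fun F => F v) (LinearMap.lTensor_comp O (ev a) (ev b))
    rw [h1, hb, lTensor_smul_left, ha, smul_smul, map_mul, map_mul, mul_comm]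
  | add a b ha hb =>
    have h1 : LinearMap.lTensor O (ev (a + b)) v =
        LinearMap.lTensor O (ev a) v + LinearMap.lTensor O (ev b) v := by
      rw [map_add]
      exact congrArg (fun F => F v) (LinearMap.lTensor_add O (ev a) (ev b))
    rw [h1, ha, hb, map_add, map_add, add_smul]

omit [NeZero N] in
/-- `O ⊗[ℤ] L` is a torsion-free `O`-module when `O` is a domain and `L` is free over `ℤ`. -/
theorem eq_zero_of_smul_tensor_eq_zero [IsDomain O] {κ : Type*} {L : Type*} [AddCommGroup L]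
    (b : Module.Basis κ ℤ L) {c : O} {v : O ⊗[ℤ] L} (h : c • v = 0) (hv : v ≠ 0) : c = 0 := by
  by_contra hc
  apply hv
  apply (Algebra.TensorProduct.basis O b).repr.injective
  refine Finsupp.ext fun i => ?_
  have h1 := congrArg (fun w => (Algebra.TensorProduct.basis O b).repr w i) h
  simp only [map_smul, Finsupp.smul_apply, smul_eq_mul, map_zero, Finsupp.zero_apply] at h1
  rw [map_zero, Finsupp.zero_apply]
  exact (mul_eq_zero.1 h1).resolve_left hc

omit [NeZero N] in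
/-- Descent of a ring hom along a set-theoretic section: if `evF (repr t) = incl t` and `evr`
is constant on the fibres of `evF`, then `t ↦ evr (repr t)` is a ring hom. -/
noncomputable def descend {T F E R : Type*} [Ring T] [Ring F] [Ring E] [Ring R]
    (incl : T →+* E) (evF : F →+* E) (evr : F →+* R) (repr : T → F)
    (hrepr : ∀ t, evF (repr t) = incl t) (hB : ∀ x y, evF x = evF y → evr x = evr y) :
    T →+* R where
  toFun t := evr (repr t)
  map_one' := by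
    rw [← map_one evr]
    exact hB _ _ (by rw [hrepr, map_one, map_one])
  map_mul' t t' := by
    rw [← map_mul evr]
    exact hB _ _ (by rw [hrepr, map_mul, map_mul, hrepr, hrepr])
  map_zero' := by
    rw [← map_zero evr]
    exact hB _ _ (by rw [hrepr, map_zero, map_zero])
  map_add' t t' := by
    rw [← map_add evr]
    exact hB _ _ (by rw [hrepr, map_add, map_add, hrepr, hrepr])

omit [NeZero N] in
theorem descend_apply {T F E R : Type*} [Ring T] [Ring F] [Ring E] [Ring R]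
    (incl : T →+* E) (evF : F →+* E) (evr : F →+* R) (repr : T → F)
    (hrepr : ∀ t, evF (repr t) = incl t) (hB : ∀ x y, evF x = evF y → evr x = evr y) (t : T) :
    descend incl evF evr repr hrepr hB t = evr (repr t) := rfl

end Generic

/-- The generator `T_ℓ` of the Hecke algebra acts on the lattice as `tcohL`. -/
theorem heckeAct_T_eq (S : Set ℕ) (hNS : ∀ q : ℕ, q.Prime → q ∣ N → q ∈ S)
    {ℓ : ℕ} (hℓ : ℓ.Prime) (hℓN : ¬ ℓ ∣ N) (hℓS : ℓ ∉ S) :
    heckeAct N S hNS (CuspForm.heckeAlgebra.T hℓ hℓN hℓS) = tcohL N hℓ hℓN :=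
  LinearMap.ext fun ψ => Subtype.ext (by rw [heckeAct_T, coe_tcohL])

/-- **[EIGFORM], `𝒪`-form.**  Let `O` be a domain, `ι : R →+* O` an injective ring hom and
`j : R →+* ℂ` a ring hom.  A nonzero vector of `O ⊗[ℤ] Lat N` which is an eigenvector of the
cohomological Hecke operators `T^coh_ℓ` (`ℓ ∤ N`, `ℓ ∉ S`) with eigenvalues `ι (r ℓ)` gives a
normalised eigenform of level `N` with `a_ℓ = j (r ℓ)` for these `ℓ`. -/
theorem exists_eigenform_of_eigvec (S : Set ℕ) {O : Type*} [CommRing O] [IsDomain O]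
    {R : Type*} [CommRing R] (j : R →+* ℂ) (ι : R →+* O) (hι : Function.Injective ι)
    (r : ℕ → R) (v : O ⊗[ℤ] Lat N) (hv : v ≠ 0)
    (hveig : ∀ (ℓ : ℕ) (hℓ : ℓ.Prime) (hℓN : ¬ ℓ ∣ N), ℓ ∉ S →
      LinearMap.lTensor O (tcohL N hℓ hℓN) v = ι (r ℓ) • v) :
    ∃ f : CuspForm (Gamma0 N) 2, f.IsNormalizedEigenform ∧
      ∀ ℓ : ℕ, ℓ.Prime → ¬ ℓ ∣ N → ℓ ∉ S → ModularFormClass.qCoeff f ℓ = j (r ℓ) := by
  classical
  obtain ⟨s, b, g, hbg⟩ := exists_lat_basis N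
  -- enlarge `S` by the divisors of `N`
  obtain ⟨S', hS'⟩ : ∃ S' : Set ℕ, S' = S ∪ {q | q ∣ N} := ⟨_, rfl⟩
  have hNS' : ∀ q : ℕ, q.Prime → q ∣ N → q ∈ S' := fun q _ hq => by
    rw [hS']; exact Or.inr hq
  have hS'S : ∀ ℓ : ℕ, ℓ ∉ S' → ℓ ∉ S := fun ℓ h hS => h (by rw [hS']; exact Or.inl hS)
  have hSS' : ∀ ℓ : ℕ, ¬ ℓ ∣ N → ℓ ∉ S → ℓ ∉ S' := fun ℓ hN hS h => by
    rw [hS'] at h; exact h.elim hS hN
  -- the evaluation of the free algebra at the eigenvalues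
  obtain ⟨evr, hevr⟩ : ∃ evr : FreeAlgebra ℤ (Idx N S') →ₐ[ℤ] R,
      ∀ i : Idx N S', evr (FreeAlgebra.ι ℤ i) = r i.1 :=
    ⟨FreeAlgebra.lift ℤ (fun i : Idx N S' => r i.1), fun i => FreeAlgebra.lift_ι_apply _ _⟩
  -- `v` is an eigenvector of the whole free algebra
  have hA : ∀ x : FreeAlgebra ℤ (Idx N S'),
      LinearMap.lTensor O (evCohL N S' x) v = ι (evr x) • v :=
    lTensor_eval_eq ι (evCohL N S') evr v (fun i => by
      rw [evCohL_ι, hevr]
      exact hveig i.1 i.2.1 i.2.2.1 (hS'S _ i.2.2.2))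
  -- hence `evr` factors through the Hecke algebra
  have hB : ∀ x y : FreeAlgebra ℤ (Idx N S'),
      (evForm N S').toRingHom x = (evForm N S').toRingHom y →
        evr.toRingHom x = evr.toRingHom y := by
    intro x y hxy
    have hxy' : evForm N S' x = evForm N S' y := hxy
    have h1 : evCohL N S' (x - y) = 0 := by
      rw [evCohL_eq_zero_iff, map_sub, hxy', sub_self]
    have h2 := hA (x - y)
    rw [h1, LinearMap.lTensor_zero, LinearMap.zero_apply] at h2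
    have h3 := eq_zero_of_smul_tensor_eq_zero b h2.symm hv
    rw [map_sub, map_sub] at h3
    exact hι (sub_eq_zero.1 h3)
  obtain ⟨χ, hχ⟩ : ∃ χ : CuspForm.heckeAlgebra N 2 S' →+* ℂ,
      ∀ t, χ t = j (evr (heckeRepr N S' hNS' t)) :=
    ⟨j.comp (descend (CuspForm.heckeAlgebra N 2 S').val.toRingHom
      (evForm N S').toRingHom evr.toRingHom (heckeRepr N S' hNS')
      (fun t => evForm_heckeRepr N S' hNS' t) hB), fun t => rfl⟩
  obtain ⟨f, hf, hfχ⟩ := exists_eigenform_of_char N S' hNS' χ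
  refine ⟨f, hf, fun ℓ hℓ hℓN hℓS => ?_⟩
  have hℓS' : ℓ ∉ S' := hSS' ℓ hℓN hℓS
  rw [hfχ ℓ hℓ hℓN hℓS', hχ]
  have h4 := hB (heckeRepr N S' hNS' (CuspForm.heckeAlgebra.T hℓ hℓN hℓS'))
    (FreeAlgebra.ι ℤ (⟨ℓ, hℓ, hℓN, hℓS'⟩ : Idx N S')) (by
      show evForm N S' _ = evForm N S' _
      rw [evForm_heckeRepr, evForm_ι]; rfl)
  have h5 : evr (heckeRepr N S' hNS' (CuspForm.heckeAlgebra.T hℓ hℓN hℓS')) =
      evr (FreeAlgebra.ι ℤ (⟨ℓ, hℓ, hℓN, hℓS'⟩ : Idx N S')) := h4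
  rw [h5, hevr]

/-- **[EIGFORM], `𝒪`-form, Hecke-algebra spelling**: the same with the operators written as
`heckeAct N S hNS (T_ℓ)`. -/
theorem exists_eigenform_of_eigvec_heckeAct (S : Set ℕ)
    (hNS : ∀ q : ℕ, q.Prime → q ∣ N → q ∈ S) {O : Type*} [CommRing O] [IsDomain O]
    {R : Type*} [CommRing R] (j : R →+* ℂ) (ι : R →+* O) (hι : Function.Injective ι)
    (r : ℕ → R) (v : O ⊗[ℤ] Lat N) (hv : v ≠ 0)
    (hveig : ∀ (ℓ : ℕ) (hℓ : ℓ.Prime) (hℓN : ¬ ℓ ∣ N) (hℓS : ℓ ∉ S),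
      LinearMap.lTensor O (heckeAct N S hNS (CuspForm.heckeAlgebra.T hℓ hℓN hℓS)) v =
        ι (r ℓ) • v) :
    ∃ f : CuspForm (Gamma0 N) 2, f.IsNormalizedEigenform ∧
      ∀ ℓ : ℕ, ℓ.Prime → ¬ ℓ ∣ N → ℓ ∉ S → ModularFormClass.qCoeff f ℓ = j (r ℓ) :=
  exists_eigenform_of_eigvec N S j ι hι r v hv fun ℓ hℓ hℓN hℓS => by
    rw [← heckeAct_T_eq N S hNS hℓ hℓN hℓS]
    exact hveig ℓ hℓ hℓN hℓS

/-! ### `[NOOLD-LAT]`: the eigensystem of a newform does not occur in lattices of lower level -/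

/-- **[NOOLD-LAT]** (helper3's junction shape).  Let `g` be a newform of level `M`, `M' ∣ M` a
proper divisor, `O` a domain, `R ⊆ ℂ` a subring with an injective ring hom `ι : R →+* O`.  A
vector of `O ⊗[ℤ] Lat M'` which is an eigenvector of the `T^coh_ℓ` (`ℓ ∤ M'`, `ℓ ∉ S`) with
eigenvalues `c ℓ = ι (a_ℓ(g))` is zero. -/
theorem noOldLat (h29 : Fermat.Agent.P5.G9.S29Stmt)
    (hcheb : Fermat.Agent.P5.WeakChebLift.WeakChebStmt)
    {M : ℕ} {g : CuspForm (Gamma0 M) 2} (hg : g.IsNewform) (M' : ℕ) [NeZero M']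
    (hM' : M' ∣ M) (hne : M' ≠ M) (S : Finset ℕ)
    (O : Type*) [CommRing O] [IsDomain O] (R : Subring ℂ) (ι : R →+* O)
    (hι : Function.Injective ι) (c : ℕ → O)
    (hc : ∀ ℓ : ℕ, ℓ.Prime → ℓ ∉ S →
      ∃ r : R, (r : ℂ) = ModularFormClass.qCoeff g ℓ ∧ ι r = c ℓ)
    (v : O ⊗[ℤ] Lat M')
    (hv : ∀ (ℓ : ℕ) (hℓ : ℓ.Prime) (hℓM' : ¬ ℓ ∣ M'), ℓ ∉ S →
      LinearMap.lTensor O (tcohL M' hℓ hℓM') v = c ℓ • v) : v = 0 := by
  classical
  by_contra hv0
  obtain ⟨r, hr⟩ : ∃ r : ℕ → R, ∀ ℓ : ℕ, ℓ.Prime → ℓ ∉ S →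
      ((r ℓ : R) : ℂ) = ModularFormClass.qCoeff g ℓ ∧ ι (r ℓ) = c ℓ := by
    refine ⟨fun ℓ => if h : ℓ.Prime ∧ ℓ ∉ S then (hc ℓ h.1 h.2).choose else 0, ?_⟩
    intro ℓ hℓ hℓS
    have h : ℓ.Prime ∧ ℓ ∉ S := ⟨hℓ, hℓS⟩
    simp only [dif_pos h]
    exact (hc ℓ h.1 h.2).choose_spec
  obtain ⟨f, hf, hcoef⟩ := exists_eigenform_of_eigvec M' (↑S : Set ℕ) R.subtype ι hι r v hv0
    (fun ℓ hℓ hℓN hℓS => by
      have hℓS' : ℓ ∉ S := by simpa using hℓS
      rw [(hr ℓ hℓ hℓS').2]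
      exact hv ℓ hℓ hℓN hℓS')
  refine Fermat.Agent.S35.SMO.IsNewform.not_exists_away h29 hcheb hM' hne hg hf
    (S ∪ M'.primeFactors) (fun ℓ hℓ hℓS' => ?_)
  rw [Finset.mem_union, not_or] at hℓS'
  rw [hcoef ℓ hℓ (fun d => hℓS'.2 (Nat.mem_primeFactors.mpr ⟨hℓ, d, NeZero.ne M'⟩))
    (by simpa using hℓS'.1)]
  exact (hr ℓ hℓ hℓS'.1).1

/-! ### Injectivity of `iota` -/

omit [NeZero N] in
/-- A ring hom from a domain all of whose elements are integral over `ℤ` to a domain of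
characteristic zero is injective. -/
theorem injective_of_isIntegral {A B : Type*} [CommRing A] [IsDomain A] [CommRing B]
    [IsDomain B] [CharZero B] (hA : ∀ a : A, IsIntegral ℤ a) (f : A →+* B) :
    Function.Injective f := by
  have : Algebra.IsIntegral ℤ A := ⟨hA⟩
  have hker : (RingHom.ker f).comap (algebraMap ℤ A) = ⊥ := by
    rw [eq_bot_iff]
    intro m hm
    rw [Ideal.mem_comap, RingHom.mem_ker, eq_intCast, map_intCast] at hm
    rw [Ideal.mem_bot]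
    exact_mod_cast hm
  exact (RingHom.injective_iff_ker_eq_bot f).2 (Ideal.eq_bot_of_comap_eq_bot hker)

/-- Every element of the Hecke algebra is integral over `ℤ` (it acts faithfully on the
finite free `ℤ`-module `Lat N`). -/
theorem heckeAlgebra_isIntegral (S : Set ℕ) (hNS : ∀ q : ℕ, q.Prime → q ∣ N → q ∈ S)
    (t : CuspForm.heckeAlgebra N 2 S) : IsIntegral ℤ t := by
  have := lat_finite N
  have := lat_free N
  have h1 : IsIntegral ℤ (heckeAct N S hNS t) :=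
    ⟨LinearMap.charpoly (heckeAct N S hNS t), LinearMap.charpoly_monic _,
      LinearMap.aeval_self_charpoly _⟩
  exact (isIntegral_algHom_iff (heckeAct N S hNS).toIntAlgHom (heckeAct_injective N S hNS)).1 h1

/-- **`iota_injective`**: every ring hom from the range of a character of the Hecke algebra to
a domain of characteristic zero is injective. -/
theorem iota_injective (S : Set ℕ) (hNS : ∀ q : ℕ, q.Prime → q ∣ N → q ∈ S)
    (chig : CuspForm.heckeAlgebra N 2 S →+* ℂ) {O' : Type*} [CommRing O'] [IsDomain O']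
    [CharZero O'] (iota : chig.range →+* O') : Function.Injective iota := by
  refine injective_of_isIntegral (fun a => ?_) iota
  obtain ⟨t, ht⟩ := a.2
  have h1 : IsIntegral ℤ (chig.rangeRestrict t) :=
    map_isIntegral_int chig.rangeRestrict (heckeAlgebra_isIntegral N S hNS t)
  have h2 : chig.rangeRestrict t = a := Subtype.ext ht
  rwa [h2] at h1

end Fermat.Agent.S35.EigForm
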