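import Mathlib
import Fermat.Prelude.Def_CuspForm_HeckeGaloisRepDatum
import Fermat.Prelude.Def_CuspForm_Newforms
import Fermat.Prelude.Def_GaloisRep_LocalConditions
import Fermat.Agent.P5.Plan
import Fermat.Agent.P5.LatticeBlock
import Fermat.Agent.Lib.WeakCheb.Final

/-!
# S35, block [LATTICE+] (owner: helper83)

The end-game of S35 is formal.  Let `W` be the eigenlattice of `P5.Plan.Tate` (a nonzero finite
free `O'`-module with an adically continuous Galois action satisfying the Eichler--Shimura relation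
at the good primes outside `S`), and assume in addition the relation

  `(ρ σ ^ 2 - 1) * (ρ σ ^ 2 - q ^ 2) = 0`   on `W`

for every Frobenius lift `σ` at every prime `q ≠ p` exactly dividing the level (`TatePlus`).
Then the two-dimensional representation produced by the lattice block of P5 has Frobenius
characteristic polynomial `X² - (q + 1) X + q` or `X² + (q + 1) X + q` at those `σ` (`S35Concl`).

The point: the closure step of `P5/LatticeBlock` gives for every `g` a scalar `c` with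
`ρ g + δ(g) ρ g⁻¹ = c` on `W`; at a Frobenius lift `σ` at `q` one has `δ σ = q`, hence
`ρ σ ^ 2 = c ρ σ - q` and

  `(ρ σ ^ 2 - 1) (ρ σ ^ 2 - q ^ 2) = (c ^ 2 - (q + 1) ^ 2) ρ σ ^ 2`,

so `c = ± (q + 1)` (`W` is torsion free) and `ρ σ ^ 2 ∓ (q + 1) ρ σ + q = 0` on all of `W`.
The bad Frobenius lifts then enter `Lattice.exists_galoisRepAdic_of_matrix` through its generic
predicate `Fr σ a c`, exactly like the good ones.

Main declarations:

* `smul_one_eq_zero_of_rel`, `quad_of_rel` : the algebra.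
* `TatePlus`, `S35Concl` : the contract and the conclusion.
* `latticePlus_of_cheb`, `latticePlus` : `TatePlus → S35Concl`.
* `result_of_tatePlus` : the frozen S35 statement from `TatePlus` for `iota ∘ chig`.
-/

set_option autoImplicit false

open Polynomial CuspForm

namespace Fermat.Agent.S35.LatticePlus

open Fermat.Agent.P5.Lattice Fermat.Agent.P5.LatticeBlock

/-! ### Algebra -/

section Algebra

variable {O : Type*} [CommRing O] {E : Type*} [Ring E] [Algebra O E]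

/-- From `s + q s⁻¹ = c` to the quadratic relation `s² - c s + q = 0`. -/
theorem quad_of_rel (s s' : E) (hs : s * s' = 1) (c q : O)
    (h1 : s + q • s' = c • (1 : E)) :
    s * s - c • s + q • (1 : E) = 0 := by
  have h := congrArg (fun x => s * x) h1
  simp only [mul_add, mul_smul_comm, hs, mul_one] at h
  rw [← h]
  abel

/-- If `s + q s⁻¹ = c` and `(s² - 1)(s² - q²) = 0`, then `c² = (q + 1)²` as scalars. -/
theorem smul_one_eq_zero_of_rel (s s' : E) (hs : s * s' = 1) (c q : O)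
    (h1 : s + q • s' = c • (1 : E))
    (h2 : (s * s - 1) * (s * s - (q ^ 2) • (1 : E)) = 0) :
    (c ^ 2 - (q + 1) ^ 2) • (1 : E) = 0 := by
  have hD := quad_of_rel s s' hs c q h1
  have hDp : Polynomial.aeval s (X ^ 2 - C c * X + C q : O[X]) = 0 := by
    rw [map_add, map_sub, map_mul, map_pow, Polynomial.aeval_X, Polynomial.aeval_C,
      Polynomial.aeval_C, ← hD, Algebra.smul_def, Algebra.smul_def, mul_one, pow_two]
  have hPp : Polynomial.aeval s ((X ^ 2 - 1) * (X ^ 2 - C (q ^ 2)) : O[X]) = 0 := by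
    rw [map_mul, map_sub, map_sub, map_pow, Polynomial.aeval_X, Polynomial.aeval_C, map_one, ← h2,
      Algebra.smul_def, mul_one, pow_two]
  have key : ((X ^ 2 - 1) * (X ^ 2 - C (q ^ 2)) : O[X]) =
      (X ^ 2 - C c * X + C q) *
          (X ^ 2 + C c * X + C (c ^ 2 - q - 1 - q ^ 2) - C (c ^ 2 - (q + 1) ^ 2))
        + C (c ^ 2 - (q + 1) ^ 2) * X ^ 2 := by
    simp only [map_sub, map_add, map_pow, map_one]
    ring
  have h3 := congrArg (Polynomial.aeval s) key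
  rw [hPp, map_add, map_mul, hDp, zero_mul, zero_add, map_mul, Polynomial.aeval_C, map_pow,
    Polynomial.aeval_X] at h3
  have h5 : s ^ 2 * (s' * s') = 1 := by
    rw [pow_two, mul_assoc, ← mul_assoc s s' s', hs, one_mul, hs]
  have h4 : (c ^ 2 - (q + 1) ^ 2) • (s ^ 2 * (s' * s')) = 0 := by
    rw [Algebra.smul_def, ← mul_assoc, ← h3, zero_mul]
  rwa [h5] at h4

end Algebra

/-- On a nontrivial free module over a domain a scalar acting as zero is zero. -/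
theorem eq_zero_of_smul_one_eq_zero {O : Type*} [CommRing O] [IsDomain O] {W : Type*}
    [AddCommGroup W] [Module O W] [Module.Free O W] [Nontrivial W] (c : O)
    (h : c • (1 : Module.End O W) = 0) : c = 0 := by
  obtain ⟨w, hw⟩ := exists_ne (0 : W)
  let b := Module.Free.chooseBasis O W
  have h1 : c • w = 0 := by
    have h2 := congrArg (fun f : Module.End O W => f w) h
    simpa using h2
  have h3 : b.repr w ≠ 0 := fun h0 => hw (by simpa using h0)
  obtain ⟨i, hi⟩ := Finsupp.ne_iff.mp h3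
  have h4 : c * b.repr w i = 0 := by
    have h5 := congrArg (fun v => b.repr v i) h1
    simpa using h5
  rcases mul_eq_zero.mp h4 with h6 | h6
  · exact h6
  · exact absurd h6 (by simpa using hi)

/-! ### The contract and the conclusion -/

/-- **[TATE+]** the eigenlattice of `P5.Plan.Tate` (without the unramifiedness clause, which S35
does not need) together with the relation `(σ² - 1)(σ² - q²) = 0` for every Frobenius lift `σ`
at a prime `q ≠ p` exactly dividing the level. -/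
def TatePlus (p N : ℕ) [NeZero N] (S : Finset ℕ) (O' : Type) [CommRing O'] [IsLocalRing O']
    (χ : heckeAlgebra N 2 (↑S : Set ℕ) →+* O') : Prop :=
  ∃ (W : Type) (_ : AddCommGroup W) (_ : Module O' W) (_ : Module.Free O' W)
    (_ : Module.Finite O' W) (ρ : GQ →* Module.End O' W),
    Nontrivial W ∧ GaloisActionIsAdicContinuous O' ρ ∧
    (∀ (ℓ : ℕ) (hℓ : ℓ.Prime) (hℓN : ¬ ℓ ∣ N) (hℓS : ℓ ∉ (↑S : Set ℕ)),
      ∀ A : ValuationSubring (AlgebraicClosure ℚ), A.LiesOverPrime ℓ → ∀ σ : GQ, A.IsFrobeniusAt σ ℓ →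
        ρ σ * ρ σ - χ (heckeAlgebra.T hℓ hℓN hℓS) • ρ σ + (ℓ : O') • (1 : Module.End O' W) = 0) ∧
    (∀ q : ℕ, q.Prime → q ≠ p → q ∣ N → ¬ q ^ 2 ∣ N →
      ∀ A : ValuationSubring (AlgebraicClosure ℚ), A.LiesOverPrime q → ∀ σ : GQ, A.IsFrobeniusAt σ q →
        (ρ σ * ρ σ - 1) * (ρ σ * ρ σ - ((q : O') ^ 2) • (1 : Module.End O' W)) = 0)

/-- The conclusion of the frozen S35 at fixed parameters, for a character `χ` of the Hecke
algebra. -/
def S35Concl (p N : ℕ) [NeZero N] (S : Finset ℕ) (𝒪' : Type) [CommRing 𝒪'] [IsDomain 𝒪']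
    [IsDiscreteValuationRing 𝒪'] (χ : heckeAlgebra N 2 (↑S : Set ℕ) →+* 𝒪') : Prop :=
  ∃ (𝒪'' : Type) (_ : CommRing 𝒪'') (_ : IsDomain 𝒪'') (_ : IsDiscreteValuationRing 𝒪'')
    (_ : IsAdicComplete (IsLocalRing.maximalIdeal 𝒪'') 𝒪'')
    (_ : Finite (IsLocalRing.ResidueField 𝒪'')) (_ : CharZero 𝒪'')
    (_ : Algebra 𝒪' 𝒪'') (_ : Module.Finite 𝒪' 𝒪'') (_ : IsLocalHom (algebraMap 𝒪' 𝒪'')),
  Function.Injective (algebraMap 𝒪' 𝒪'') ∧
  ∃ ρ : GaloisRepAdic 𝒪'',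
    (∀ (ℓ : ℕ) (hℓ : ℓ.Prime) (hℓN : ¬ ℓ ∣ N) (hℓS : ℓ ∉ (↑S : Set ℕ)),
      ∀ A : ValuationSubring (AlgebraicClosure ℚ), A.LiesOverPrime ℓ →
        ∀ σ : AlgebraicClosure ℚ ≃ₐ[ℚ] AlgebraicClosure ℚ, A.IsFrobeniusAt σ ℓ →
          LinearMap.charpoly (ρ.ρ σ) =
            X ^ 2 - C (algebraMap 𝒪' 𝒪'' (χ (CuspForm.heckeAlgebra.T hℓ hℓN hℓS))) * X
              + C ((ℓ : 𝒪''))) ∧
    (∀ q : ℕ, q.Prime → q ≠ p → q ∣ N → ¬ q ^ 2 ∣ N →
      ∀ A : ValuationSubring (AlgebraicClosure ℚ), A.LiesOverPrime q →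
        ∀ σ : AlgebraicClosure ℚ ≃ₐ[ℚ] AlgebraicClosure ℚ, A.IsFrobeniusAt σ q →
          LinearMap.charpoly (ρ.ρ σ) = X ^ 2 - C ((q : 𝒪'') + 1) * X + C ((q : 𝒪'')) ∨
          LinearMap.charpoly (ρ.ρ σ) = X ^ 2 + C ((q : 𝒪'') + 1) * X + C ((q : 𝒪'')))

/-! ### The block -/

/-- **[LATTICE+]**, weak Chebotarev as a hypothesis. -/
theorem latticePlus_of_cheb (p : ℕ) [Fact p.Prime] (N : ℕ) [NeZero N] (S : Finset ℕ)
    (hpS : p ∈ S) (hNS : ∀ q : ℕ, q.Prime → q ∣ N → q ∈ S)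
    (O' : Type) [CommRing O'] [IsDomain O'] [IsDiscreteValuationRing O']
    [IsAdicComplete (IsLocalRing.maximalIdeal O') O'] [Finite (IsLocalRing.ResidueField O')]
    [CharZero O'] (hpO' : (p : O') ∈ IsLocalRing.maximalIdeal O')
    (χ : heckeAlgebra N 2 (↑S : Set ℕ) →+* O')
    (hTate : TatePlus p N S O' χ) (hcheb : Fermat.Agent.P5.WeakChebLift.WeakChebStmt) :
    S35Concl p N S O' χ := by
  classical
  obtain ⟨W, iW1, iW2, iW3, iW4, ρ, hnt, hcont, hES, hF⟩ := hTate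
  obtain ⟨δ, hδfrob, -, hδcont, -⟩ :=
    Fermat.Agent.P5.CycloDelta.exists_delta p (IsLocalRing.maximalIdeal O') hpO'
  have hδcont' : ∀ n : ℕ, ∃ L : IntermediateField ℚ (AlgebraicClosure ℚ),
      FiniteDimensional ℚ L ∧ ∀ σ : GQ, (∀ x ∈ L, σ x = x) →
        (δ σ : O') - 1 ∈ IsLocalRing.maximalIdeal O' ^ n := by
    intro n
    obtain ⟨M, hM1, -, hM2, -⟩ := hδcont n
    exact ⟨M, hM1, hM2⟩
  -- the Frobenius lifts outside `S`
  let FrS : Set GQ := {σ | ∃ ℓ : ℕ, ℓ.Prime ∧ ℓ ∉ S ∧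
    ∃ A : ValuationSubring (AlgebraicClosure ℚ), A.LiesOverPrime ℓ ∧ A.IsFrobeniusAt σ ℓ}
  have hinv : ∀ σ : GQ, ρ σ * ρ σ⁻¹ = 1 := fun σ => by
    rw [← map_mul, mul_inv_cancel, map_one]
  have hFrS : ∀ σ ∈ FrS, ∃ c : O', ρ σ + (δ σ : O') • ρ σ⁻¹ = c • (1 : Module.End O' W) := by
    rintro σ ⟨ℓ, hℓ, hℓS, A, hA, hσ⟩
    have hℓN : ¬ ℓ ∣ N := fun h => hℓS (hNS ℓ hℓ h)
    have hℓp : ℓ ≠ p := fun h => hℓS (h ▸ hpS)
    have hℓS' : ℓ ∉ (↑S : Set ℕ) := fun h => hℓS (Finset.mem_coe.mp h)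
    have h1 := hES ℓ hℓ hℓN hℓS' A hA σ hσ
    refine ⟨χ (heckeAlgebra.T hℓ hℓN hℓS'), ?_⟩
    have h2 := hinv σ
    have h3 := congrArg (fun f => f * ρ σ⁻¹) h1
    beta_reduce at h3
    rw [zero_mul, add_mul, sub_mul, mul_assoc, h2, mul_one, smul_mul_assoc, h2, smul_mul_assoc,
      one_mul] at h3
    rw [hδfrob ℓ hℓ hℓp A hA σ hσ, ← sub_eq_zero]
    refine Eq.trans ?_ h3
    abel
  have hrel : ∀ g : GQ, ∃ c : O', ρ g + (δ g : O') • ρ g⁻¹ = c • (1 : Module.End O' W) :=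
    exists_scalar_of_tate ρ hcont δ hδcont' FrS hFrS (fun M _ _ g => by
      obtain ⟨ℓ, hℓ, hℓS, A, hA, σ, hσ, j, hj⟩ := hcheb M g S
      exact ⟨σ, ⟨ℓ, hℓ, hℓS, A, hA, hσ⟩, j, hj⟩)
  -- the Frobenius lifts at the primes exactly dividing the level
  have hbad : ∀ q : ℕ, q.Prime → q ≠ p → q ∣ N → ¬ q ^ 2 ∣ N →
      ∀ A : ValuationSubring (AlgebraicClosure ℚ), A.LiesOverPrime q → ∀ σ : GQ, A.IsFrobeniusAt σ q →
        ∃ a : O', (a = (q : O') + 1 ∨ a = -((q : O') + 1)) ∧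
          ρ σ * ρ σ - a • ρ σ + (q : O') • (1 : Module.End O' W) = 0 := by
    intro q hq hqp hqN hq2 A hA σ hσ
    obtain ⟨c, hc⟩ := hrel σ
    rw [hδfrob q hq hqp A hA σ hσ] at hc
    have h1 := smul_one_eq_zero_of_rel (ρ σ) (ρ σ⁻¹) (hinv σ) c (q : O') hc
      (hF q hq hqp hqN hq2 A hA σ hσ)
    have h2 : c ^ 2 - ((q : O') + 1) ^ 2 = 0 := eq_zero_of_smul_one_eq_zero _ h1
    have h3 : (c - ((q : O') + 1)) * (c + ((q : O') + 1)) = 0 := by
      rw [← h2]
      ring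
    refine ⟨c, ?_, quad_of_rel (ρ σ) (ρ σ⁻¹) (hinv σ) c (q : O') hc⟩
    rcases mul_eq_zero.mp h3 with h | h
    · exact Or.inl (sub_eq_zero.mp h)
    · exact Or.inr (eq_neg_of_add_eq_zero_left h)
  -- coordinates
  let bW : Module.Basis (Fin (Module.finrank O' W)) O' W := Module.finBasis O' W
  have hne : Nonempty (Fin (Module.finrank O' W)) := bW.index_nonempty
  obtain ⟨O'', i1, i2, i3, i4, i5, i6, i7, i8, i9, hinj, ρ', hρ'Fr, -⟩ :=
    exists_galoisRepAdic_of_matrix O' (FractionRing O') (AlgebraicClosure (FractionRing O'))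
      (matRep bW ρ) (matCont_matRep bW ρ hcont) δ hδcont' ⊤ top_ne_bot (fun _ _ _ => trivial)
      (fun g => by
        obtain ⟨c, hc⟩ := hrel g
        exact ⟨algebraMap O' _ c, fun w _ => rel_mulVec bW ρ g (δ g : O') c hc w⟩)
      (fun σ a c =>
        (∃ (ℓ : ℕ) (hℓ : ℓ.Prime) (hℓN : ¬ ℓ ∣ N) (hℓS : ℓ ∉ (↑S : Set ℕ))
          (A : ValuationSubring (AlgebraicClosure ℚ)), A.LiesOverPrime ℓ ∧ A.IsFrobeniusAt σ ℓ ∧
            a = χ (heckeAlgebra.T hℓ hℓN hℓS) ∧ c = (ℓ : O')) ∨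
        (∃ q : ℕ, q.Prime ∧ q ≠ p ∧
          (∃ A : ValuationSubring (AlgebraicClosure ℚ), A.LiesOverPrime q ∧
            A.IsFrobeniusAt σ q) ∧ c = (q : O') ∧
          ρ σ * ρ σ - a • ρ σ + c • (1 : Module.End O' W) = 0))
      (by
        rintro σ a c (⟨ℓ, hℓ, hℓN, hℓS, A, hA, hσ, rfl, rfl⟩ | ⟨q, hq, hqp, ⟨A, hA, hσ⟩, rfl, h⟩)
        · have hℓp : ℓ ≠ p := fun h => hℓS (h ▸ Finset.mem_coe.mpr hpS)
          exact ⟨hδfrob ℓ hℓ hℓp A hA σ hσ, fun w _ =>
            quad_mulVec bW ρ σ _ _ (hES ℓ hℓ hℓN hℓS A hA σ hσ) w⟩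
        · exact ⟨hδfrob q hq hqp A hA σ hσ, fun w _ => quad_mulVec bW ρ σ _ _ h w⟩)
      (fun _ => False) (fun _ h => h.elim)
  refine ⟨O'', i1, i2, i3, i4, i5, i6, i7, i8, i9, hinj, ρ', ?_, ?_⟩
  · intro ℓ hℓ hℓN hℓS A hA σ hσ
    rw [hρ'Fr σ _ _ (Or.inl ⟨ℓ, hℓ, hℓN, hℓS, A, hA, hσ, rfl, rfl⟩), map_natCast]
  · intro q hq hqp hqN hq2 A hA σ hσ
    obtain ⟨a, ha, hquad⟩ := hbad q hq hqp hqN hq2 A hA σ hσ
    have h1 := hρ'Fr σ a (q : O') (Or.inr ⟨q, hq, hqp, ⟨A, hA, hσ⟩, rfl, hquad⟩)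
    rw [map_natCast] at h1
    rcases ha with ha | ha
    · left
      rw [h1, ha, map_add, map_natCast, map_one]
    · right
      rw [h1, ha, map_neg, map_add, map_natCast, map_one, map_neg, neg_mul, sub_neg_eq_add]

/-- **[LATTICE+]**: from the eigenlattice with the relation at the primes exactly dividing the
level to the conclusion of S35. -/
theorem latticePlus (p : ℕ) [Fact p.Prime] (N : ℕ) [NeZero N] (S : Finset ℕ)
    (hpS : p ∈ S) (hNS : ∀ q : ℕ, q.Prime → q ∣ N → q ∈ S)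
    (O' : Type) [CommRing O'] [IsDomain O'] [IsDiscreteValuationRing O']
    [IsAdicComplete (IsLocalRing.maximalIdeal O') O'] [Finite (IsLocalRing.ResidueField O')]
    [CharZero O'] (hpO' : (p : O') ∈ IsLocalRing.maximalIdeal O')
    (χ : heckeAlgebra N 2 (↑S : Set ℕ) →+* O')
    (hTate : TatePlus p N S O' χ) : S35Concl p N S O' χ :=
  latticePlus_of_cheb p N S hpS hNS O' hpO' χ hTate Fermat.Agent.Lib.WeakCheb.weakChebotarev

/-- **The frozen S35 statement from the contract `TatePlus`** for the character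
`iota ∘ chig` of the Hecke algebra (the newform enters only through `TatePlus`). -/
theorem result_of_tatePlus
    {M : ℕ} [NeZero M]
    (lam : ℕ) [Fact lam.Prime]
    (S : Finset ℕ)
    (O' : Type) [CommRing O'] [IsDomain O'] [IsDiscreteValuationRing O']
    [IsAdicComplete (IsLocalRing.maximalIdeal O') O'] [Finite (IsLocalRing.ResidueField O')]
    [CharZero O'] (hlamO' : (lam : O') ∈ IsLocalRing.maximalIdeal O')
    (chig : CuspForm.heckeAlgebra M 2 (↑S : Set ℕ) →+* ℂ)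
    (iota : chig.range →+* O')
    (hlamS : lam ∈ S) (hMS : ∀ q : ℕ, q.Prime → q ∣ M → q ∈ S)
    (hTate : TatePlus lam M S O' (iota.comp chig.rangeRestrict)) :
    ∃ (O'' : Type) (_ : CommRing O'') (_ : IsDomain O'') (_ : IsDiscreteValuationRing O'')
      (_ : IsAdicComplete (IsLocalRing.maximalIdeal O'') O'') (_ : Finite (IsLocalRing.ResidueField O''))
      (_ : CharZero O'') (_ : Algebra O' O'') (_ : Module.Finite O' O'') (_ : IsLocalHom (algebraMap O' O'')),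
      Function.Injective (algebraMap O' O'') ∧
      ∃ ρ : GaloisRepAdic O'',
        (∀ (ℓ : ℕ) (hℓ : ℓ.Prime) (hℓM : ¬ ℓ ∣ M) (hℓS : ℓ ∉ (↑S : Set ℕ)),
          ∀ A : ValuationSubring (AlgebraicClosure ℚ), A.LiesOverPrime ℓ →
            ∀ σ : AlgebraicClosure ℚ ≃ₐ[ℚ] AlgebraicClosure ℚ, A.IsFrobeniusAt σ ℓ →
              LinearMap.charpoly (ρ.ρ σ) =
                X ^ 2 - C (algebraMap O' O'' ((iota.comp chig.rangeRestrict) (CuspForm.heckeAlgebra.T hℓ hℓM hℓS))) * X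
                  + C ((ℓ : O''))) ∧
        (∀ q : ℕ, q.Prime → q ≠ lam → q ∣ M → ¬ q ^ 2 ∣ M →
          ∀ A : ValuationSubring (AlgebraicClosure ℚ), A.LiesOverPrime q →
            ∀ σ : AlgebraicClosure ℚ ≃ₐ[ℚ] AlgebraicClosure ℚ, A.IsFrobeniusAt σ q →
              LinearMap.charpoly (ρ.ρ σ) = X ^ 2 - C ((q : O'') + 1) * X + C ((q : O'')) ∨
              LinearMap.charpoly (ρ.ρ σ) = X ^ 2 + C ((q : O'') + 1) * X + C ((q : O''))) :=
  latticePlus lam M S hlamS hMS O' hlamO' (iota.comp chig.rangeRestrict) hTate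

end Fermat.Agent.S35.LatticePlus
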