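import Mathlib
import Fermat.Prelude.Def_CuspForm_Newforms
import Fermat.Agent.P5.Lambda
import Fermat.Agent.S35.LatticePlus

/-!
# S35 — Plan: the junction contracts (owner: helper3, S35 owner)

Frozen S35 ⟸ `LatticePlus.TatePlus lam M S O' (iota ∘ chig)` (helper83, `S35/LatticePlus.lean`).
`TatePlus` for a newform is produced by the instance block [TATE-INST] from the abstract
eigenlattice theorem [TATE-NEW] and the contracts below.  Levels: `N'` (lower level), `q` a prime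
not dividing `N'`, top level `N' * q` (Prelude order, as in `heckeAlphaBar Kbar N' q`).

All contracts are parametric in the two push-forward maps
`pA pB : JZero (N' * q) →+ JZero N'` (instances: `α_*`, `β_*`, file `S35/Push.lean`).

* `NewFrobStmt N' q p pA pB` — **(F)**, the geometric contract: on the `p`-power torsion of
  `J₀(N' q)` killed by `pA` and `pB`, every Frobenius lift `σ` at `q` satisfies
  `(σ² - 1)(σ² - q²) = 0`.
* `DegenStmt N' q pA pB` — **[DEGEN]**: there are additive maps `cA cB : Lat (N' q) → Lat N'`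
  (cohomological transfers) commuting with the `T^coh_ℓ` (`ℓ ∤ N' q`) and computing the Kummer
  characters of `pA x`, `pB x`.
* `TatePlusStmt` — **[TATE-INST]**: `TatePlus` for the eigencharacter of a newform.
* `result_of_tatePlusStmt` — the frozen S35 conclusion from `TatePlusStmt`.
-/

set_option autoImplicit false

open Polynomial CuspForm ModularCurve CongruenceSubgroup

namespace Fermat.Agent.S35.Plan

open Fermat.Agent.P5.Per (Lat tcohL)
open Fermat.Agent.P5.Kappa (KummerRel realQ)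
open Fermat.Agent.P5.Lambda (chi)

local notation "Qb" => AlgebraicClosure ℚ

/-- **(F)** — the geometric contract of S35.  On the `p`-power torsion of `J₀(N' q)` killed by the
two push-forwards `pA`, `pB` to `J₀(N')`, every Frobenius lift `σ` at a place over `q` satisfies
`(σ² - 1)(σ² - q²) = 0`, i.e. `σ⁴ x - (q² + 1) σ² x + q² x = 0`. -/
def NewFrobStmt (N' q p : ℕ) [NeZero N'] [NeZero q] (pA pB : JZero (N' * q) →+ JZero N') :
    Prop :=
  ∀ A : ValuationSubring Qb, A.LiesOverPrime q → ∀ σ : Qb ≃ₐ[ℚ] Qb, A.IsFrobeniusAt σ q →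
    ∀ x : JZero (N' * q), (∃ m : ℕ, p ^ m • x = 0) → pA x = 0 → pB x = 0 →
      σ • σ • σ • σ • x - (q ^ 2 + 1) • (σ • σ • x) + q ^ 2 • x = 0

/-- **[DEGEN]** — the degeneracy maps on the parabolic lattice.  There are additive maps
`cA cB : Lat (N' q) → Lat N'` commuting with the operators `T^coh_ℓ` (`ℓ ∤ N' q`), such that a
class `x` of `J₀(N' q)` with Kummer character `e(φ / n)` is pushed to classes with Kummer
characters `e(cA φ / n)`, `e(cB φ / n)`. -/
def DegenStmt (N' q : ℕ) [NeZero N'] [NeZero q] (pA pB : JZero (N' * q) →+ JZero N') : Prop :=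
  ∃ cA cB : Lat (N' * q) →+ Lat N',
    (∀ (ℓ : ℕ) (hℓ : ℓ.Prime) (hℓN : ¬ ℓ ∣ N' * q) (hℓN' : ¬ ℓ ∣ N') (φ : Lat (N' * q)),
      cA (tcohL (N' * q) hℓ hℓN φ) = tcohL N' hℓ hℓN' (cA φ) ∧
      cB (tcohL (N' * q) hℓ hℓN φ) = tcohL N' hℓ hℓN' (cB φ)) ∧
    (∀ n : ℕ, 0 < n → ∀ (φ : Lat (N' * q)) (x : JZero (N' * q)),
      KummerRel (realQ (N' * q)) n x (chi (N' * q) φ n) →
        KummerRel (realQ N') n (pA x) (chi N' (cA φ) n) ∧
        KummerRel (realQ N') n (pB x) (chi N' (cB φ) n))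

/-- **[TATE-INST]** — `TatePlus` for the eigencharacter of a newform (all hypotheses of the frozen
S35). -/
def TatePlusStmt : Prop :=
  ∀ {M : ℕ} [NeZero M] {g : CuspForm (CongruenceSubgroup.Gamma0 M) 2} (_hg : g.IsNewform)
    (lam : ℕ) [Fact lam.Prime] (S : Finset ℕ)
    (O' : Type) [CommRing O'] [IsDomain O'] [IsDiscreteValuationRing O']
    [IsAdicComplete (IsLocalRing.maximalIdeal O') O'] [Finite (IsLocalRing.ResidueField O')]
    [CharZero O'] (_hlamO' : (lam : O') ∈ IsLocalRing.maximalIdeal O')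
    (chig : CuspForm.heckeAlgebra M 2 (↑S : Set ℕ) →+* ℂ)
    (_hchig : ∀ (ℓ : ℕ) (hℓ : ℓ.Prime) (hℓM : ¬ ℓ ∣ M) (hℓS : ℓ ∉ (↑S : Set ℕ)),
      chig (CuspForm.heckeAlgebra.T hℓ hℓM hℓS) = ModularFormClass.qCoeff g ℓ)
    (iota : chig.range →+* O')
    (_hlamS : lam ∈ S) (_hMS : ∀ q : ℕ, q.Prime → q ∣ M → q ∈ S),
    Fermat.Agent.S35.LatticePlus.TatePlus lam M S O' (iota.comp chig.rangeRestrict)

/-- **The frozen S35 conclusion from `TatePlusStmt`.** -/
theorem result_of_tatePlusStmt (h : TatePlusStmt)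
    {M : ℕ} [NeZero M] {g : CuspForm (CongruenceSubgroup.Gamma0 M) 2} (hg : g.IsNewform)
    (lam : ℕ) [Fact lam.Prime]
    (S : Finset ℕ)
    (O' : Type) [CommRing O'] [IsDomain O'] [IsDiscreteValuationRing O']
    [IsAdicComplete (IsLocalRing.maximalIdeal O') O'] [Finite (IsLocalRing.ResidueField O')]
    [CharZero O'] (hlamO' : (lam : O') ∈ IsLocalRing.maximalIdeal O')
    (chig : CuspForm.heckeAlgebra M 2 (↑S : Set ℕ) →+* ℂ)
    (hchig : ∀ (ℓ : ℕ) (hℓ : ℓ.Prime) (hℓM : ¬ ℓ ∣ M) (hℓS : ℓ ∉ (↑S : Set ℕ)),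
      chig (CuspForm.heckeAlgebra.T hℓ hℓM hℓS) = ModularFormClass.qCoeff g ℓ)
    (iota : chig.range →+* O')
    (hlamS : lam ∈ S) (hMS : ∀ q : ℕ, q.Prime → q ∣ M → q ∈ S) :
    ∃ (O'' : Type) (_ : CommRing O'') (_ : IsDomain O'') (_ : IsDiscreteValuationRing O'')
      (_ : IsAdicComplete (IsLocalRing.maximalIdeal O'') O'')
      (_ : Finite (IsLocalRing.ResidueField O''))
      (_ : CharZero O'') (_ : Algebra O' O'') (_ : Module.Finite O' O'')
      (_ : IsLocalHom (algebraMap O' O'')),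
      Function.Injective (algebraMap O' O'') ∧
      ∃ ρ : GaloisRepAdic O'',
        (∀ (ℓ : ℕ) (hℓ : ℓ.Prime) (hℓM : ¬ ℓ ∣ M) (hℓS : ℓ ∉ (↑S : Set ℕ)),
          ∀ A : ValuationSubring (AlgebraicClosure ℚ), A.LiesOverPrime ℓ →
            ∀ σ : AlgebraicClosure ℚ ≃ₐ[ℚ] AlgebraicClosure ℚ, A.IsFrobeniusAt σ ℓ →
              LinearMap.charpoly (ρ.ρ σ) =
                X ^ 2 - C (algebraMap O' O'' ((iota.comp chig.rangeRestrict)
                  (CuspForm.heckeAlgebra.T hℓ hℓM hℓS))) * X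
                  + C ((ℓ : O''))) ∧
        (∀ q : ℕ, q.Prime → q ≠ lam → q ∣ M → ¬ q ^ 2 ∣ M →
          ∀ A : ValuationSubring (AlgebraicClosure ℚ), A.LiesOverPrime q →
            ∀ σ : AlgebraicClosure ℚ ≃ₐ[ℚ] AlgebraicClosure ℚ, A.IsFrobeniusAt σ q →
              LinearMap.charpoly (ρ.ρ σ) = X ^ 2 - C ((q : O'') + 1) * X + C ((q : O'')) ∨
              LinearMap.charpoly (ρ.ρ σ) = X ^ 2 + C ((q : O'') + 1) * X + C ((q : O''))) :=
  Fermat.Agent.S35.LatticePlus.result_of_tatePlus lam S O' hlamO' chig iota hlamS hMS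
    (h hg lam S O' hlamO' chig hchig iota hlamS hMS)

end Fermat.Agent.S35.Plan
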