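import Mathlib
import Fermat.Prelude.Def_ModularCurve_HeckeModule
import Fermat.Agent.Lib.CorrSemilinear
import Fermat.Agent.S37.HeckeInputs
import Fermat.Agent.P5.GalHecke

/-!
# S35 — the two degeneracy push-forwards `J₀(Nℓ) → J₀(N)` and the `ℓ`-new part (helper21)

For `N, ℓ ≥ 1` the two degeneracy maps `α, β : F_N → F_{Nℓ}` of the Prelude
(`heckeAlphaBar` = inclusion, `heckeBetaBar` = `T ↦ T^ℓ`) induce push-forward maps on divisor
classes of degree zero (norm maps), i.e. homomorphisms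

* `pushA N ℓ, pushB N ℓ : JZero (N * ℓ) →+ JZero N`.

They commute with the action of `Gal(Q̄/ℚ)` (`galois_smul_pushA`, `galois_smul_pushB`).
`IsNew N ℓ x` says that `x ∈ J₀(Nℓ)(Q̄)` is killed by both: the "`ℓ`-new part".

This file is the shared vocabulary of the S35 contracts (F) (Frobenius on the new part),
[DEGEN-HECKE] (the push-forwards commute with the Hecke operators) and [NHS] (`S35/NewPlan`).
-/

set_option autoImplicit false
set_option linter.unusedSectionVars false
set_option linter.style.haveILetI false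

noncomputable section

namespace Fermat.Agent.S35.Push

open AlgebraicCurve ModularCurve Fermat.Agent.Lib Fermat.Agent.S37

/-! ### Push-forward of divisor classes along a homomorphism of function fields -/

section Along

variable {K F F' : Type*} [Field K] [Field F] [Field F'] [Algebra K F] [Algebra K F']
  [HasPrincipalDivisors K F']
  (φ : F →ₐ[K] F') (hφ : φ.toRingHom.IsIntegral) (hfin : FiniteAlong K φ)
  (hN : NormFormulaAlong K φ hfin)

/-- The push-forward of degree-zero divisors along `φ`. -/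
def degZeroPushAlong :
    Divisor.degZero (K := K) (F := F') →+ Divisor.degZero (K := K) (F := F) :=
  ((Divisor.pushforwardAlong φ hφ).domRestrict (Divisor.degZero (K := K) (F := F'))).codRestrict _
    (fun D => Divisor.pushforwardAlong_mem_degZero φ hφ D.2)

@[simp]
theorem coe_degZeroPushAlong (D : Divisor.degZero (K := K) (F := F')) :
    (degZeroPushAlong φ hφ D : Divisor K F) = Divisor.pushforwardAlong φ hφ (D : Divisor K F') :=
  rfl

/-- The push-forward `Pic⁰(F') → Pic⁰(F)` along `φ : F → F'`. -/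
def pic0PushAlong : Pic0 K F' →+ Pic0 K F :=
  QuotientAddGroup.map _ _ (degZeroPushAlong φ hφ) (by
    rintro ⟨D, hD0⟩ hD
    simp only [AddSubgroup.mem_addSubgroupOf] at hD ⊢
    exact Divisor.isPrincipal_pushforwardAlong φ hφ hfin hN hD)

theorem pic0PushAlong_mk (D : Divisor.degZero (K := K) (F := F')) :
    pic0PushAlong φ hφ hfin hN (Pic0.mk D) = Pic0.mk (degZeroPushAlong φ hφ D) :=
  rfl

/-- The push-forward on `Pic⁰` commutes with semilinear automorphisms intertwined along `φ`. -/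
theorem smul_pic0PushAlong (g : SemilinearAut K F) (g' : SemilinearAut K F')
    (h : SemilinearAut.IntertwinesAlong (φ : F →+* F') g g') (x : Pic0 K F') :
    g • pic0PushAlong φ hφ hfin hN x = pic0PushAlong φ hφ hfin hN (g' • x) := by
  obtain ⟨D, rfl⟩ := Pic0.mk_surjective x
  rw [pic0PushAlong_mk, SemilinearAut.pic0_smul_mk, SemilinearAut.pic0_smul_mk,
    pic0PushAlong_mk]
  refine congrArg Pic0.mk (Subtype.ext ?_)
  rw [SemilinearAut.coe_degZeroSMulHom, coe_degZeroPushAlong, coe_degZeroPushAlong,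
    SemilinearAut.coe_degZeroSMulHom]
  exact CorrSemilinear.smul_pushforwardAlong φ hφ h _

end Along

/-! ### The two degeneracy push-forwards -/

variable (N ℓ : ℕ) [NeZero N] [NeZero ℓ]

/-- `α_* : J₀(Nℓ)(Q̄) → J₀(N)(Q̄)`: the push-forward (norm) along the inclusion
`α : F_N → F_{Nℓ}`. -/
def pushA : JZero (N * ℓ) →+ JZero N :=
  haveI := HeckeInputs.hasPrincipalDivisors_FN (N * ℓ)
  pic0PushAlong (heckeAlphaBar (AlgebraicClosure ℚ) N ℓ) (HeckeInputs.heckeAlphaBarIntegral N ℓ)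
    (HeckeInputs.finiteAlong_alpha N ℓ) (HeckeInputs.normFormulaAlong_alpha N ℓ)

/-- `β_* : J₀(Nℓ)(Q̄) → J₀(N)(Q̄)`: the push-forward (norm) along `β : F_N → F_{Nℓ}`,
`T ↦ T^ℓ`. -/
def pushB : JZero (N * ℓ) →+ JZero N :=
  haveI := HeckeInputs.hasPrincipalDivisors_FN (N * ℓ)
  pic0PushAlong (heckeBetaBar (AlgebraicClosure ℚ) N ℓ) (HeckeInputs.heckeBetaBarIntegral N ℓ)
    (HeckeInputs.finiteAlong_beta N ℓ) (HeckeInputs.normFormulaAlong_beta N ℓ)

/-- `α_*` on the class of a degree-zero divisor. -/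
theorem pushA_mk
    (D : Divisor.degZero (K := AlgebraicClosure ℚ)
      (F := laurentBaseChange (AlgebraicClosure ℚ) (modularFunctionFieldFull (N * ℓ)))) :
    pushA N ℓ (Pic0.mk D) =
      Pic0.mk ⟨Divisor.pushforwardAlong (heckeAlphaBar (AlgebraicClosure ℚ) N ℓ)
        (HeckeInputs.heckeAlphaBarIntegral N ℓ) D,
        Divisor.pushforwardAlong_mem_degZero _ _ D.2⟩ :=
  rfl

/-- `β_*` on the class of a degree-zero divisor. -/
theorem pushB_mk
    (D : Divisor.degZero (K := AlgebraicClosure ℚ)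
      (F := laurentBaseChange (AlgebraicClosure ℚ) (modularFunctionFieldFull (N * ℓ)))) :
    pushB N ℓ (Pic0.mk D) =
      Pic0.mk ⟨Divisor.pushforwardAlong (heckeBetaBar (AlgebraicClosure ℚ) N ℓ)
        (HeckeInputs.heckeBetaBarIntegral N ℓ) D,
        Divisor.pushforwardAlong_mem_degZero _ _ D.2⟩ :=
  rfl

/-- `α_*` commutes with `Gal(Q̄/ℚ)`. -/
theorem galois_smul_pushA (σ : AlgebraicClosure ℚ ≃ₐ[ℚ] AlgebraicClosure ℚ)
    (x : JZero (N * ℓ)) : σ • pushA N ℓ x = pushA N ℓ (σ • x) := by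
  haveI := HeckeInputs.hasPrincipalDivisors_FN (N * ℓ)
  rw [galois_smul_pic0_def, galois_smul_pic0_def]
  exact smul_pic0PushAlong _ _ _ _ _ _ (Fermat.Agent.P5.GalHecke.intertwines_alpha N ℓ σ) x

/-- `β_*` commutes with `Gal(Q̄/ℚ)`. -/
theorem galois_smul_pushB (σ : AlgebraicClosure ℚ ≃ₐ[ℚ] AlgebraicClosure ℚ)
    (x : JZero (N * ℓ)) : σ • pushB N ℓ x = pushB N ℓ (σ • x) := by
  haveI := HeckeInputs.hasPrincipalDivisors_FN (N * ℓ)
  rw [galois_smul_pic0_def, galois_smul_pic0_def]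
  exact smul_pic0PushAlong _ _ _ _ _ _ (Fermat.Agent.P5.GalHecke.intertwines_beta N ℓ σ) x

/-! ### The new part -/

/-- `x ∈ J₀(Nℓ)(Q̄)` is `ℓ`-new: it is killed by both degeneracy push-forwards to level `N`. -/
def IsNew (x : JZero (N * ℓ)) : Prop := pushA N ℓ x = 0 ∧ pushB N ℓ x = 0

theorem isNew_zero : IsNew N ℓ 0 := ⟨map_zero _, map_zero _⟩

theorem IsNew.add {x y : JZero (N * ℓ)} (hx : IsNew N ℓ x) (hy : IsNew N ℓ y) :
    IsNew N ℓ (x + y) :=
  ⟨by rw [map_add, hx.1, hy.1, add_zero], by rw [map_add, hx.2, hy.2, add_zero]⟩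

theorem IsNew.neg {x : JZero (N * ℓ)} (hx : IsNew N ℓ x) : IsNew N ℓ (-x) :=
  ⟨by rw [map_neg, hx.1, neg_zero], by rw [map_neg, hx.2, neg_zero]⟩

theorem IsNew.nsmul {x : JZero (N * ℓ)} (hx : IsNew N ℓ x) (n : ℕ) : IsNew N ℓ (n • x) :=
  ⟨by rw [map_nsmul, hx.1, smul_zero], by rw [map_nsmul, hx.2, smul_zero]⟩

theorem IsNew.zsmul {x : JZero (N * ℓ)} (hx : IsNew N ℓ x) (n : ℤ) : IsNew N ℓ (n • x) :=
  ⟨by rw [map_zsmul, hx.1, smul_zero], by rw [map_zsmul, hx.2, smul_zero]⟩

/-- The new part is stable under `Gal(Q̄/ℚ)`. -/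
theorem IsNew.galois_smul {x : JZero (N * ℓ)} (hx : IsNew N ℓ x)
    (σ : AlgebraicClosure ℚ ≃ₐ[ℚ] AlgebraicClosure ℚ) : IsNew N ℓ (σ • x) :=
  ⟨by rw [← galois_smul_pushA, hx.1]; exact smul_zero (A := JZero N) σ,
    by rw [← galois_smul_pushB, hx.2]; exact smul_zero (A := JZero N) σ⟩

/-- The new part in terms of divisors: the class of a degree-zero divisor `D` of `F_{Nℓ}` is new
iff both push-forwards of `D` are principal. -/
theorem isNew_mk_iff
    (D : Divisor.degZero (K := AlgebraicClosure ℚ)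
      (F := laurentBaseChange (AlgebraicClosure ℚ) (modularFunctionFieldFull (N * ℓ)))) :
    IsNew N ℓ (Pic0.mk D) ↔
      Divisor.pushforwardAlong (heckeAlphaBar (AlgebraicClosure ℚ) N ℓ)
          (HeckeInputs.heckeAlphaBarIntegral N ℓ) (D : Divisor (AlgebraicClosure ℚ) _) ∈
        Divisor.principal (K := AlgebraicClosure ℚ)
          (F := laurentBaseChange (AlgebraicClosure ℚ) (modularFunctionFieldFull N)) ∧
      Divisor.pushforwardAlong (heckeBetaBar (AlgebraicClosure ℚ) N ℓ)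
          (HeckeInputs.heckeBetaBarIntegral N ℓ) (D : Divisor (AlgebraicClosure ℚ) _) ∈
        Divisor.principal (K := AlgebraicClosure ℚ)
          (F := laurentBaseChange (AlgebraicClosure ℚ) (modularFunctionFieldFull N)) := by
  unfold IsNew
  rw [pushA_mk, pushB_mk]
  constructor
  · rintro ⟨h1, h2⟩
    exact ⟨by simpa [Pic0.mk, QuotientAddGroup.eq_zero_iff, AddSubgroup.mem_addSubgroupOf] using h1,
      by simpa [Pic0.mk, QuotientAddGroup.eq_zero_iff, AddSubgroup.mem_addSubgroupOf] using h2⟩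
  · rintro ⟨h1, h2⟩
    exact ⟨by simpa [Pic0.mk, QuotientAddGroup.eq_zero_iff, AddSubgroup.mem_addSubgroupOf] using h1,
      by simpa [Pic0.mk, QuotientAddGroup.eq_zero_iff, AddSubgroup.mem_addSubgroupOf] using h2⟩

end Fermat.Agent.S35.Push
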