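import Mathlib
import Fermat.Agent.S31.Top
import Fermat.Agent.P5.G9.Plan
import Fermat.Agent.S37.HeckeInputs

/-!
# S35 by the trace method, in hypothesis form (owner: helper79)

Backup route [NHS] of the S35 plan (helper21's design, helper3's decision row): the frozen
conclusion of S35 from

* `P5.G9.S30Stmt`                 — the attached representation `ρ` with the good Frobenius
                                     characteristic polynomials (S30),
* `S37.Core.CoreAll M lam`        — Eichler–Shimura on `lam`-power torsion of `J₀(M)`,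
* `P5.WeakChebLift.WeakChebStmt`  — weak Chebotarev,
* for every prime `q ≠ lam` exactly dividing `M`, a predicate `IsNew` on `J₀(M)(ℚ̄)` with
  - `NewShift M S lam IsNew a` — the new-part Hecke shift for the eigenvalues `a ℓ = a_ℓ(g)`,
  - `FrobNew M lam q IsNew`   — **(F)**: `σ² + q² σ⁻² = q² + 1` on the new `lam`-power torsion,
    for every Frobenius `σ` at `q`.

Proof: for a Frobenius `σ₀` at `q` and a level `n`, weak Chebotarev gives a good prime `ℓ`, a
Frobenius `σ` at `ℓ` and `j` with `σ^j = σ₀` on the level.  Then `V_{2j}(T_ℓ) = σ₀² + ℓ^{2j} σ₀⁻²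
= q² + 1` on the new torsion, so `d (V_{2j}(a_ℓ) - (q² + 1)) ∈ lam^n ℤ̄`, hence
`tr ρ(σ₀²) = q² + 1`; with `V_{2j} = V_j² - 2 ℓ^j` also `tr ρ(σ₀)² = (q + 1)²`.  So
`det ρ(σ₀) = q` and `tr ρ(σ₀) = ± (q + 1)`.
-/

set_option autoImplicit false

open ModularCurve CuspForm AlgebraicCurve Polynomial

namespace Fermat.Agent.S35.TraceTop

local notation "Qb" => AlgebraicClosure ℚ

local instance isAlgebraicQbar_s35tt : Algebra.IsAlgebraic ℚ (AlgebraicClosure ℚ) :=
  AlgebraicClosure.isAlgebraic ℚ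
local instance isAlgClosureQbar_s35tt : IsAlgClosure ℚ (AlgebraicClosure ℚ) :=
  ⟨inferInstance, inferInstance⟩
local instance normalQbar_s35tt : Normal ℚ (AlgebraicClosure ℚ) :=
  IsAlgClosure.normal ℚ (AlgebraicClosure ℚ)

/-! ## The two contracts -/

/-- **New-part Hecke shift.** There is `d > 0` such that for every `k` there is a finite set `Λ`
of new `p^k`-torsion points of `J₀(M)(ℚ̄)` with: if an integer polynomial `Q` in a single good
Hecke correspondence `T_ℓ` (`ℓ ∤ M`, `ℓ ∉ S`) kills `Λ`, then `d · Q(a ℓ)` is `p^k` times an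
algebraic integer. -/
def NewShift (M : ℕ) [NeZero M] (S : Finset ℕ) (p : ℕ) (IsNew : JZero M → Prop) (a : ℕ → ℂ) :
    Prop :=
  ∃ d : ℕ, 0 < d ∧ ∀ k : ℕ, ∃ Λ : Set (JZero M), Λ.Finite ∧ (∀ x ∈ Λ, p ^ k • x = 0) ∧
    (∀ x ∈ Λ, IsNew x) ∧
    ∀ (ℓ : ℕ) (hℓ : ℓ.Prime), ¬ ℓ ∣ M → ℓ ∉ S → ∀ Q : Polynomial ℤ,
      (∀ x ∈ Λ, Polynomial.aeval (heckeOperatorBar M ⟨ℓ, hℓ⟩) Q x = 0) →
        ∃ r : ℂ, IsIntegral ℤ r ∧ (d : ℂ) * Polynomial.aeval (a ℓ) Q = (p : ℂ) ^ k * r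

/-- **(F)** on the new `p`-power torsion: `σ² + q² σ⁻² = q² + 1` for every Frobenius `σ` at
`q` (this is `(σ² - 1)(σ² - q²) = 0` applied to `σ⁻² x`). -/
def FrobNew (M : ℕ) [NeZero M] (p q : ℕ) (IsNew : JZero M → Prop) : Prop :=
  ∀ A : ValuationSubring Qb, A.LiesOverPrime q → ∀ σ : Qb ≃ₐ[ℚ] Qb, A.IsFrobeniusAt σ q →
    ∀ x : JZero M, (∃ m : ℕ, p ^ m • x = 0) → IsNew x →
      σ • σ • x + ((q : ℤ) ^ 2) • (σ⁻¹ • σ⁻¹ • x) = ((q : ℤ) ^ 2 + 1) • x

/-! ## Algebra -/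

section Algebra

/-- The product formula for the Lucas polynomials: `V_{m+2j} = V_{m+j} V_j - d^j V_m`. -/
theorem lucas_add_two_mul (d : ℤ) : ∀ j m : ℕ,
    S31.Alg.lucas d (m + 2 * j)
      = S31.Alg.lucas d (m + j) * S31.Alg.lucas d j - C (d ^ j) * S31.Alg.lucas d m := by
  intro j
  induction j using Nat.twoStepInduction with
  | zero =>
    intro m
    simp only [mul_zero, add_zero, S31.Alg.lucas_zero, pow_zero, map_one, one_mul]
    ring
  | one =>
    intro m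
    simp only [mul_one, S31.Alg.lucas_one, pow_one]
    rw [S31.Alg.lucas_add_two]
    ring
  | more j ih1 ih2 =>
    intro m
    have h1 : S31.Alg.lucas d (m + 2 * (j + 2))
        = X * S31.Alg.lucas d (m + 2 * j + 3) - C d * S31.Alg.lucas d (m + 2 * j + 2) := by
      rw [show m + 2 * (j + 2) = (m + 2 * j + 2) + 2 by ring, S31.Alg.lucas_add_two]
    have h2 : S31.Alg.lucas d (m + 2 * j + 3)
        = S31.Alg.lucas d (m + j + 2) * S31.Alg.lucas d (j + 1)
          - C (d ^ (j + 1)) * S31.Alg.lucas d (m + 1) := by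
      have := ih2 (m + 1)
      rwa [show m + 1 + 2 * (j + 1) = m + 2 * j + 3 by ring,
        show m + 1 + (j + 1) = m + j + 2 by ring] at this
    have h3 : S31.Alg.lucas d (m + 2 * j + 2)
        = S31.Alg.lucas d (m + j + 2) * S31.Alg.lucas d j
          - C (d ^ j) * S31.Alg.lucas d (m + 2) := by
      have := ih1 (m + 2)
      rwa [show m + 2 + 2 * j = m + 2 * j + 2 by ring,
        show m + 2 + j = m + j + 2 by ring] at this
    have h4 := S31.Alg.lucas_add_two d j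
    have h5 := S31.Alg.lucas_add_two d m
    rw [h1, h2, h3, show m + (j + 2) = m + j + 2 by ring, h4, h5]
    simp only [map_pow]
    ring

/-- Doubling: `V_{2j} = V_j² - 2 d^j`. -/
theorem lucas_two_mul (d : ℤ) (j : ℕ) :
    S31.Alg.lucas d (2 * j) = S31.Alg.lucas d j ^ 2 - C (2 * d ^ j) := by
  have h := lucas_add_two_mul d j 0
  rw [zero_add, zero_add, S31.Alg.lucas_zero] at h
  rw [h, map_mul, map_ofNat]
  ring

/-- Equal powers of a primitive `m`-th root of unity have congruent exponents. -/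
theorem modEq_of_pow_eq {R : Type*} [CommRing R] (ζ : R) (m : ℕ) (hm : m ≠ 0)
    (hζ : IsPrimitiveRoot ζ m) (a b : ℕ) (h : ζ ^ a = ζ ^ b) : a ≡ b [MOD m] := by
  obtain ⟨u, rfl⟩ := hζ.isUnit hm
  have hu : IsPrimitiveRoot u m := IsPrimitiveRoot.coe_units_iff.1 hζ
  have h' : u ^ a = u ^ b := Units.ext (by simpa using h)
  rw [hu.eq_orderOf]
  exact pow_eq_pow_iff_modEq.1 h'

/-- Congruent exponents give equal powers of an element of finite exponent. -/
theorem pow_eq_of_modEq {R : Type*} [Monoid R] (ζ : R) (m : ℕ) (hζ : ζ ^ m = 1) (a b : ℕ)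
    (h : a ≡ b [MOD m]) : ζ ^ a = ζ ^ b := by
  have key : ∀ c : ℕ, ζ ^ c = ζ ^ (c % m) := by
    intro c
    conv_lhs => rw [← Nat.mod_add_div c m]
    rw [pow_add, pow_mul, hζ, one_pow, mul_one]
  rw [key a, key b, show a % m = b % m from h]

/-- Integrality through a ring homomorphism into an integrally closed domain (auxiliary form with
an explicit fraction field). -/
theorem natCast_dvd_of_isIntegral_aux {B : Subring ℂ} {R : Type*} [CommRing R] [IsDomain R]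
    [IsIntegrallyClosed R] (K : Type*) [Field K] [Algebra R K] [IsFractionRing R K]
    (ι : B →+* R) (s : ℕ) (hs : (s : R) ≠ 0) (w : B) (r : ℂ)
    (hr : IsIntegral ℤ r) (hw : (w : ℂ) = (s : ℂ) * r) : (s : R) ∣ ι w := by
  obtain ⟨P, hP, hPr⟩ := hr
  set P' : ℤ[X] := Polynomial.scaleRoots P (s : ℤ) with hP'
  have h1 : Polynomial.aeval (w : ℂ) P' = 0 := by
    have h := Polynomial.scaleRoots_eval₂_mul (p := P) (algebraMap ℤ ℂ) (r := r) (s := (s : ℤ))
    rw [hPr, mul_zero] at h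
    rw [Polynomial.aeval_def, hw, hP']
    have e : algebraMap ℤ ℂ (s : ℤ) = (s : ℂ) := by simp
    rw [← e]
    exact h
  have h2 : Polynomial.aeval w P' = 0 := by
    apply Subtype.ext
    have h := Polynomial.aeval_algHom_apply B.subtype.toIntAlgHom w P'
    have e : (B.subtype.toIntAlgHom w : ℂ) = (w : ℂ) := rfl
    rw [e, h1] at h
    exact h.symm
  have h3 : Polynomial.aeval (ι w) P' = 0 := by
    have h := Polynomial.aeval_algHom_apply ι.toIntAlgHom w P'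
    have e : ι.toIntAlgHom w = ι w := rfl
    rw [e, h2, map_zero] at h
    exact h
  -- pass to the fraction field
  have hsK : algebraMap R K (s : R) ≠ 0 := by
    intro h0
    exact hs ((IsFractionRing.injective R K) (by rw [h0, map_zero]))
  set u : K := algebraMap R K (ι w) / algebraMap R K (s : R) with hu
  have hu0 : Polynomial.eval₂ (algebraMap ℤ K) u P = 0 := by
    have h := Polynomial.scaleRoots_eval₂_mul (p := P) (algebraMap ℤ K) (r := u) (s := (s : ℤ))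
    have e : algebraMap ℤ K (s : ℤ) = algebraMap R K (s : R) := by simp
    have e2 : algebraMap ℤ K (s : ℤ) * u = algebraMap R K (ι w) := by
      rw [e, hu, mul_div_cancel₀ _ hsK]
    rw [e2] at h
    have h4 : Polynomial.eval₂ (algebraMap ℤ K) (algebraMap R K (ι w)) P' = 0 := by
      have h5 := Polynomial.aeval_algHom_apply (algebraMap R K).toIntAlgHom (ι w) P'
      have e3 : (algebraMap R K).toIntAlgHom (ι w) = algebraMap R K (ι w) := rfl
      rw [e3, h3, map_zero] at h5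
      rw [← Polynomial.aeval_def]
      exact h5
    rw [hP'] at h4
    rw [h4] at h
    have h6 : algebraMap ℤ K (s : ℤ) ^ P.natDegree ≠ 0 := by
      rw [e]; exact pow_ne_zero _ hsK
    exact (mul_eq_zero.1 h.symm).resolve_left h6
  have hint : IsIntegral ℤ u := ⟨P, hP, hu0⟩
  have hint' : IsIntegral R u := hint.tower_top
  obtain ⟨y, hy⟩ := IsIntegrallyClosed.isIntegral_iff.1 hint'
  refine ⟨y, ?_⟩
  apply IsFractionRing.injective R K
  rw [map_mul, hy, hu, mul_div_cancel₀ _ hsK]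

/-- Integrality through a ring homomorphism into an integrally closed domain: if `w` lies in a
subring `B` of `ℂ` and `w = s · r` with `r` an algebraic integer, then `s` divides the image of
`w` under any ring homomorphism from `B` to an integrally closed domain in which `s ≠ 0`. -/
theorem natCast_dvd_of_isIntegral {B : Subring ℂ} {R : Type*} [CommRing R] [IsDomain R]
    [IsIntegrallyClosed R] (ι : B →+* R) (s : ℕ) (hs : (s : R) ≠ 0) (w : B) (r : ℂ)
    (hr : IsIntegral ℤ r) (hw : (w : ℂ) = (s : ℂ) * r) : (s : R) ∣ ι w :=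
  natCast_dvd_of_isIntegral_aux (FractionRing R) ι s hs w r hr hw

variable {T : Type*} [CommRing T] {V : Type*} [AddCommGroup V] [Module T V]
  [Module.Free T V] [Module.Finite T V]

/-- Rank `2`: the characteristic polynomial is `X² - tr·X + det`, and
`tr(f²) = tr(f)² - 2 det(f)`. -/
theorem charpoly_trace_det (f : Module.End T V) (hrank : Module.finrank T V = 2) :
    f.charpoly = X ^ 2 - C (LinearMap.trace T V f) * X + C (LinearMap.det f) ∧
    LinearMap.trace T V (f * f) = LinearMap.trace T V f ^ 2 - 2 * LinearMap.det f := by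
  nontriviality T
  let b : Module.Basis (Fin 2) T V := Module.finBasisOfFinrankEq T V hrank
  refine ⟨?_, ?_⟩
  · rw [← LinearMap.charpoly_toMatrix f b, Matrix.charpoly_fin_two,
      LinearMap.trace_eq_matrix_trace T b, ← LinearMap.det_toMatrix b]
  · rw [LinearMap.trace_eq_matrix_trace T b, LinearMap.trace_eq_matrix_trace T b,
      ← LinearMap.det_toMatrix b, LinearMap.toMatrix_mul, Matrix.trace_fin_two,
      Matrix.trace_fin_two, Matrix.det_fin_two, Matrix.mul_apply, Matrix.mul_apply,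
      Fin.sum_univ_two, Fin.sum_univ_two]
    ring

end Algebra

/-! ## The trace computation -/

section Main

variable {M : ℕ} [NeZero M] {lam : ℕ}

set_option maxHeartbeats 1600000 in
/-- **Traces of a Frobenius at a bad prime**: `tr ρ(σ₀²) = q² + 1` and `tr ρ(σ₀)² = (q + 1)²`,
from the new-part Hecke shift and (F). -/
theorem trace_frob_bad [HasPrincipalDivisors Qb (modularFunctionFieldBar M)] [Fact lam.Prime]
    {S : Finset ℕ} (hlamS : lam ∈ S) (hMS : ∀ q : ℕ, q.Prime → q ∣ M → q ∈ S)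
    {O' : Type} [CommRing O'] [IsDomain O'] [IsIntegrallyClosed O'] [CharZero O']
    {O'' : Type} [CommRing O''] [IsDomain O''] [IsDiscreteValuationRing O'']
    [IsAdicComplete (IsLocalRing.maximalIdeal O'') O''] [CharZero O''] [Algebra O' O'']
    (hlamO'' : (lam : O'') ∈ IsLocalRing.maximalIdeal O'')
    (a : ℕ → ℂ) (B : Subring ℂ) (iota : B →+* O') (ρ : GaloisRepAdic O'')
    (hρ : ∀ ℓ : ℕ, ℓ.Prime → ℓ ∉ S → ∀ A : ValuationSubring Qb, A.LiesOverPrime ℓ →
      ∀ σ : Qb ≃ₐ[ℚ] Qb, A.IsFrobeniusAt σ ℓ → ∃ h : a ℓ ∈ B,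
        LinearMap.charpoly (ρ.ρ σ)
          = X ^ 2 - C (algebraMap O' O'' (iota ⟨a ℓ, h⟩)) * X + C ((ℓ : O'')))
    (hcore : S37.Core.CoreAll M lam) (hcheb : P5.WeakChebLift.WeakChebStmt)
    (q : ℕ) (hq : q.Prime) (hqlam : q ≠ lam) (IsNew : JZero M → Prop)
    (hNS : NewShift M S lam IsNew a) (hF : FrobNew M lam q IsNew)
    (A₀ : ValuationSubring Qb) (hA₀ : A₀.LiesOverPrime q) (σ₀ : Qb ≃ₐ[ℚ] Qb)
    (hσ₀ : A₀.IsFrobeniusAt σ₀ q) :
    ρ.trace (σ₀ * σ₀) = (q : O'') ^ 2 + 1 ∧ ρ.trace σ₀ ^ 2 = ((q : O'') + 1) ^ 2 := by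
  have hlam : lam.Prime := Fact.out
  obtain ⟨d, hd0, hd⟩ := hNS
  have hdO : (d : O'') ≠ 0 := Nat.cast_ne_zero.2 hd0.ne'
  -- the congruences at every level
  have key : ∀ n : ℕ,
      (d : O'') * (ρ.trace (σ₀ * σ₀) - ((q : O'') ^ 2 + 1)) ∈ IsLocalRing.maximalIdeal O'' ^ n ∧
      (d : O'') * (ρ.trace σ₀ ^ 2 - ((q : O'') + 1) ^ 2) ∈ IsLocalRing.maximalIdeal O'' ^ n := by
    intro n
    obtain ⟨Λ, hΛfin, hΛtors, hΛnew, hΛ⟩ := hd n
    obtain ⟨L₁, hL₁fin, hL₁⟩ := ρ.isAdicContinuous n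
    obtain ⟨L₂, hL₂fin, hL₂normal, hL₂⟩ := P5.OpenStab.exists_normal_fixing_jzero_finite M hΛfin
    -- the common finite Galois level
    let M₀ : IntermediateField ℚ Qb := L₁ ⊔ L₂ ⊔ P5.CycloDelta.level lam n
    have : FiniteDimensional ℚ ↥(L₁ ⊔ L₂) := IntermediateField.finiteDimensional_sup L₁ L₂
    have : FiniteDimensional ℚ M₀ :=
      IntermediateField.finiteDimensional_sup (L₁ ⊔ L₂) (P5.CycloDelta.level lam n)
    let Mf : IntermediateField ℚ Qb := IntermediateField.normalClosure ℚ M₀ Qb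
    have : FiniteDimensional ℚ Mf := normalClosure.is_finiteDimensional ℚ M₀ Qb
    have : Normal ℚ Mf := normalClosure.normal ℚ M₀ Qb
    have : IsGalois ℚ Mf := ⟨⟩
    have hM₀ : M₀ ≤ Mf := IntermediateField.le_normalClosure M₀
    have hL₁M : L₁ ≤ Mf := le_trans (le_trans le_sup_left le_sup_left) hM₀
    have hL₂M : L₂ ≤ Mf := le_trans (le_trans le_sup_right le_sup_left) hM₀
    have hL₃M : P5.CycloDelta.level lam n ≤ Mf := le_trans le_sup_right hM₀
    -- weak Chebotarev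
    obtain ⟨ℓ, hℓ, hℓS, A, hA, σ, hσ, j, hj⟩ := hcheb Mf σ₀ S
    have hℓlam : ℓ ≠ lam := fun h => hℓS (h ▸ hlamS)
    have hℓM : ¬ ℓ ∣ M := fun h => hℓS (hMS ℓ hℓ h)
    have hℓMlam : ¬ ℓ ∣ M * lam := fun h => (hℓ.dvd_mul.1 h).elim hℓM
      (fun h' => hℓlam ((Nat.prime_dvd_prime_iff_eq hℓ hlam).1 h'))
    -- the squares agree on the level
    have hj2 : ∀ x ∈ Mf, (σ ^ (2 * j)) x = (σ₀ * σ₀) x := by
      intro x hx
      rw [two_mul, pow_add, AlgEquiv.mul_apply, AlgEquiv.mul_apply, hj x hx,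
        hj (σ₀ x) (S31.Top.apply_mem_of_normal Mf σ₀ hx)]
    -- a primitive root of unity and the congruence `ℓ^j ≡ q mod lam^n`
    have hm0 : lam ^ n ≠ 0 := pow_ne_zero _ hlam.ne_zero
    have : NeZero (lam ^ n : ℕ) := ⟨hm0⟩
    obtain ⟨ζ, hζ⟩ := HasEnoughRootsOfUnity.exists_primitiveRoot Qb (lam ^ n)
    have hζ1 : ζ ^ lam ^ n = 1 := hζ.pow_eq_one
    have hζM : ζ ∈ Mf := hL₃M (P5.CycloDelta.mem_level lam hζ1)
    have hpow : ζ ^ (ℓ ^ j) = ζ ^ q := by
      rw [← S31.Top.frob_pow_apply lam hℓ hℓlam A hA σ hσ n j ζ hζ1, hj ζ hζM]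
      exact P5.CycloDelta.frob_apply_rootOfUnity lam hq hqlam A₀ hA₀ σ₀ hσ₀ n ζ hζ1
    have hmod : ℓ ^ j ≡ q [MOD lam ^ n] := modEq_of_pow_eq ζ (lam ^ n) hm0 hζ _ _ hpow
    have hmod2 : ℓ ^ (2 * j) ≡ q ^ 2 [MOD lam ^ n] := by
      have := hmod.pow 2
      rwa [← pow_mul, mul_comm j 2] at this
    have hpow2 : ζ ^ (ℓ ^ (2 * j)) = ζ ^ (q ^ 2) :=
      pow_eq_of_modEq ζ (lam ^ n) hζ1 _ _ hmod2
    -- the Hecke polynomial `V_{2j}(T_ℓ) - (q² + 1)` kills `Λ`
    set Q : ℤ[X] := S31.Alg.lucas ℓ (2 * j) - C ((q : ℤ) ^ 2 + 1) with hQ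
    have hJ : ∀ x ∈ Λ, aeval (heckeOperatorBar M ⟨ℓ, hℓ⟩) Q x = 0 := by
      intro x hx
      have hxt : ∃ m : ℕ, lam ^ m • x = 0 := ⟨n, hΛtors x hx⟩
      have hxfix : ∀ η : Qb ≃ₐ[ℚ] Qb, (∀ y ∈ Mf, η y = y) → η • x = x :=
        fun η hη => hL₂ η (fun y hy => hη y (hL₂M hy)) x hx
      have hinv : lam ^ n • ((σ₀ * σ₀)⁻¹ • x) = 0 := by
        rw [smul_comm, hΛtors x hx]; exact S31.Top.gal_smul_zero _
      have h1 := S31.Top.aeval_lucas_eq hcore hℓ hℓMlam A hA σ hσ (2 * j) (σ₀ * σ₀) Mf hj2 x hxt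
        hxfix
      have h2 := S31.Top.zsmul_eq_of_pow_eq ζ (lam ^ n) hm0 hζ (ℓ ^ (2 * j)) (q ^ 2) hpow2
        ((σ₀ * σ₀)⁻¹ • x) hinv
      push_cast at h2
      have h3 := hF A₀ hA₀ σ₀ hσ₀ x hxt (hΛnew x hx)
      rw [hQ, map_sub, LinearMap.sub_apply, h1, aeval_C, Module.algebraMap_end_apply, h2,
        mul_smul, mul_inv_rev, mul_smul, h3, sub_self]
    obtain ⟨r, hr, hrel⟩ := hΛ ℓ hℓ hℓM hℓS Q hJ
    -- transfer to `O''`
    obtain ⟨ha, hchar⟩ := hρ ℓ hℓ hℓS A hA σ hσ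
    set αB : B := ⟨a ℓ, ha⟩ with hαB
    set c'' : O'' := algebraMap O' O'' (iota αB) with hc''
    have hlamn : ((lam ^ n : ℕ) : O') ≠ 0 := Nat.cast_ne_zero.2 hm0
    have hw : (((d : B) * aeval αB Q : B) : ℂ) = ((lam ^ n : ℕ) : ℂ) * r := by
      have h := Polynomial.aeval_algHom_apply B.subtype.toIntAlgHom αB Q
      have e : (B.subtype.toIntAlgHom αB : ℂ) = a ℓ := rfl
      rw [e] at h
      have e2 : (B.subtype.toIntAlgHom (aeval αB Q) : ℂ) = ((aeval αB Q : B) : ℂ) := rfl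
      rw [e2] at h
      rw [Subring.coe_mul, Subring.coe_natCast, ← h, hrel]
      push_cast
      ring
    obtain ⟨y, hy⟩ := natCast_dvd_of_isIntegral iota (lam ^ n) hlamn ((d : B) * aeval αB Q) r hr hw
    have hstar0 : (d : O'') * aeval c'' Q = (lam : O'') ^ n * algebraMap O' O'' y := by
      have h := Polynomial.aeval_algHom_apply iota.toIntAlgHom αB Q
      have e : iota.toIntAlgHom αB = iota αB := rfl
      have e2 : iota.toIntAlgHom (aeval αB Q) = iota (aeval αB Q) := rfl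
      rw [e, e2] at h
      have h' := Polynomial.aeval_algHom_apply (algebraMap O' O'').toIntAlgHom (iota αB) Q
      have e3 : (algebraMap O' O'').toIntAlgHom (iota αB) = c'' := rfl
      have e4 : (algebraMap O' O'').toIntAlgHom (aeval (iota αB) Q)
          = algebraMap O' O'' (aeval (iota αB) Q) := rfl
      rw [e3, e4] at h'
      rw [h', h]
      have h5 := congrArg (algebraMap O' O'') hy
      rw [map_mul, map_natCast, map_mul, map_natCast] at h5
      rw [h5]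
      push_cast
      ring
    have hlamI : (lam : O'') ^ n ∈ IsLocalRing.maximalIdeal O'' ^ n :=
      Ideal.pow_mem_pow hlamO'' n
    -- traces of the Frobenius powers
    have hcharZ : LinearMap.charpoly (ρ.ρ σ) = X ^ 2 - C c'' * X + C (((ℓ : ℤ) : O'')) := by
      rw [hchar]; simp [hc'']
    have htr : ∀ i : ℕ, ρ.trace (σ ^ i) = aeval c'' (S31.Alg.lucas ℓ i) := by
      intro i
      have h := S31.Alg.trace_pow_eq_aeval_lucas (ρ.ρ σ) c'' (ℓ : ℤ) ρ.finrank_eq hcharZ i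
      rw [GaloisRepAdic.trace, map_pow, h]
    have hQval : aeval c'' Q = ρ.trace (σ ^ (2 * j)) - ((q : O'') ^ 2 + 1) := by
      rw [hQ, map_sub, htr, aeval_C]
      simp
    have hstar : (d : O'') * (ρ.trace (σ ^ (2 * j)) - ((q : O'') ^ 2 + 1))
        ∈ IsLocalRing.maximalIdeal O'' ^ n := by
      rw [← hQval, hstar0]
      exact Ideal.mul_mem_right _ _ hlamI
    have hdouble : ρ.trace (σ ^ (2 * j)) = ρ.trace (σ ^ j) ^ 2 - 2 * (ℓ : O'') ^ j := by
      rw [htr, htr, lucas_two_mul, map_sub, map_pow, aeval_C]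
      simp
    have ht2 : ρ.trace (σ₀ * σ₀) - ρ.trace (σ ^ (2 * j)) ∈ IsLocalRing.maximalIdeal O'' ^ n :=
      S31.Top.trace_sub_mem_of_agree ρ n L₁ hL₁ (σ₀ * σ₀) (σ ^ (2 * j))
        fun x hx => (hj2 x (hL₁M hx)).symm
    have ht1 : ρ.trace σ₀ - ρ.trace (σ ^ j) ∈ IsLocalRing.maximalIdeal O'' ^ n :=
      S31.Top.trace_sub_mem_of_agree ρ n L₁ hL₁ σ₀ (σ ^ j) fun x hx => (hj x (hL₁M hx)).symm
    have hℓq : (ℓ : O'') ^ j - (q : O'') ∈ IsLocalRing.maximalIdeal O'' ^ n := by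
      obtain ⟨e, he⟩ := (Int.natCast_modEq_iff.2 hmod).dvd
      have he' : ((ℓ : O'') ^ j - (q : O'')) = (lam : O'') ^ n * (-(e : O'')) := by
        have := congrArg (fun z : ℤ => (z : O'')) he
        push_cast at this
        linear_combination -this
      rw [he']
      exact Ideal.mul_mem_right _ _ hlamI
    refine ⟨?_, ?_⟩
    · have e : (d : O'') * (ρ.trace (σ₀ * σ₀) - ((q : O'') ^ 2 + 1))
          = (d : O'') * (ρ.trace (σ₀ * σ₀) - ρ.trace (σ ^ (2 * j)))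
            + (d : O'') * (ρ.trace (σ ^ (2 * j)) - ((q : O'') ^ 2 + 1)) := by ring
      rw [e]
      exact Ideal.add_mem _ (Ideal.mul_mem_left _ _ ht2) hstar
    · have e : (d : O'') * (ρ.trace σ₀ ^ 2 - ((q : O'') + 1) ^ 2)
          = ((d : O'') * (ρ.trace σ₀ + ρ.trace (σ ^ j))) * (ρ.trace σ₀ - ρ.trace (σ ^ j))
            + (d : O'') * (ρ.trace (σ ^ (2 * j)) - ((q : O'') ^ 2 + 1))
            + ((d : O'') * 2) * ((ℓ : O'') ^ j - (q : O'')) := by
        rw [hdouble]; ring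
      rw [e]
      exact Ideal.add_mem _ (Ideal.add_mem _ (Ideal.mul_mem_left _ _ ht1) hstar)
        (Ideal.mul_mem_left _ _ hℓq)
  have h1 : (d : O'') * (ρ.trace (σ₀ * σ₀) - ((q : O'') ^ 2 + 1)) = 0 :=
    S31.Alg.eq_zero_of_forall_mem_pow (IsLocalRing.maximalIdeal O'') _ fun n => (key n).1
  have h2 : (d : O'') * (ρ.trace σ₀ ^ 2 - ((q : O'') + 1) ^ 2) = 0 :=
    S31.Alg.eq_zero_of_forall_mem_pow (IsLocalRing.maximalIdeal O'') _ fun n => (key n).2
  exact ⟨sub_eq_zero.1 ((mul_eq_zero.1 h1).resolve_left hdO),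
    sub_eq_zero.1 ((mul_eq_zero.1 h2).resolve_left hdO)⟩

end Main

/-! ## The frozen conclusion of S35 -/

section Result

/-- **S35 from the plan** (trace route): the frozen conclusion of S35 from S30, the S37 core, weak
Chebotarev and, for every prime `q ≠ lam` exactly dividing `M`, the new-part Hecke shift and (F)
for some notion of "new at `q`". -/
theorem result_of_plan
    {M : ℕ} [NeZero M] {g : CuspForm (CongruenceSubgroup.Gamma0 M) 2}
    (lam : ℕ) [Fact lam.Prime]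
    (S : Finset ℕ)
    (O' : Type) [CommRing O'] [IsDomain O'] [IsDiscreteValuationRing O']
    [IsAdicComplete (IsLocalRing.maximalIdeal O') O'] [Finite (IsLocalRing.ResidueField O')]
    [CharZero O'] (hlamO' : (lam : O') ∈ IsLocalRing.maximalIdeal O')
    (chig : CuspForm.heckeAlgebra M 2 (↑S : Set ℕ) →+* ℂ)
    (hchig : ∀ (ℓ : ℕ) (hℓ : ℓ.Prime) (hℓM : ¬ ℓ ∣ M) (hℓS : ℓ ∉ (↑S : Set ℕ)),
      chig (CuspForm.heckeAlgebra.T hℓ hℓM hℓS) = ModularFormClass.qCoeff g ℓ)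
    (iota : chig.range →+* O')
    (hlamS : lam ∈ S) (hMS : ∀ q : ℕ, q.Prime → q ∣ M → q ∈ S)
    (h30 : P5.G9.S30Stmt) (hcore : S37.Core.CoreAll M lam)
    (hcheb : P5.WeakChebLift.WeakChebStmt)
    (hplan : ∀ q : ℕ, q.Prime → q ≠ lam → q ∣ M → ¬ q ^ 2 ∣ M →
      ∃ IsNew : JZero M → Prop,
        NewShift M S lam IsNew (fun ℓ => ModularFormClass.qCoeff g ℓ) ∧
          FrobNew M lam q IsNew) :
    ∃ (O'' : Type) (_ : CommRing O'') (_ : IsDomain O'') (_ : IsDiscreteValuationRing O'')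
      (_ : IsAdicComplete (IsLocalRing.maximalIdeal O'') O'')
      (_ : Finite (IsLocalRing.ResidueField O''))
      (_ : CharZero O'') (_ : Algebra O' O'') (_ : Module.Finite O' O'')
      (_ : IsLocalHom (algebraMap O' O'')),
      Function.Injective (algebraMap O' O'') ∧
      ∃ ρ : GaloisRepAdic O'',
        (∀ (ℓ : ℕ) (hℓ : ℓ.Prime) (hℓM : ¬ ℓ ∣ M) (hℓS : ℓ ∉ (↑S : Set ℕ)),
          ∀ A : ValuationSubring (AlgebraicClosure ℚ), A.LiesOverPrime ℓ →
            ∀ σ : AlgebraicClosure ℚ ≃ₐ[ℚ] AlgebraicClosure ℚ, A.IsFrobeniusAt σ ℓ →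
              LinearMap.charpoly (ρ.ρ σ) =
                X ^ 2 - C (algebraMap O' O'' ((iota.comp chig.rangeRestrict)
                  (CuspForm.heckeAlgebra.T hℓ hℓM hℓS))) * X
                  + C ((ℓ : O''))) ∧
        (∀ q : ℕ, q.Prime → q ≠ lam → q ∣ M → ¬ q ^ 2 ∣ M →
          ∀ A : ValuationSubring (AlgebraicClosure ℚ), A.LiesOverPrime q →
            ∀ σ : AlgebraicClosure ℚ ≃ₐ[ℚ] AlgebraicClosure ℚ, A.IsFrobeniusAt σ q →
              LinearMap.charpoly (ρ.ρ σ) = X ^ 2 - C ((q : O'') + 1) * X + C ((q : O'')) ∨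
              LinearMap.charpoly (ρ.ρ σ) = X ^ 2 + C ((q : O'') + 1) * X + C ((q : O''))) := by
  have := Fermat.Agent.S37.HeckeInputs.hasPrincipalDivisors_FN M
  obtain ⟨O'', i1, i2, i3, i4, i5, i6, i7, i8, i9, hinj, ρ, hgood, -⟩ :=
    h30 lam M S hlamS hMS O' hlamO' (iota.comp chig.rangeRestrict)
  refine ⟨O'', i1, i2, i3, i4, i5, i6, i7, i8, i9, hinj, ρ, hgood, ?_⟩
  intro q hq hqlam hqM hq2 A₀ hA₀ σ₀ hσ₀
  obtain ⟨IsNew, hNS, hF⟩ := hplan q hq hqlam hqM hq2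
  have hlamO'' : (lam : O'') ∈ IsLocalRing.maximalIdeal O'' := by
    have e : (lam : O'') = algebraMap O' O'' (lam : O') := (map_natCast _ _).symm
    rw [e, IsLocalRing.mem_maximalIdeal, mem_nonunits_iff]
    intro hu
    exact (IsLocalRing.mem_maximalIdeal _).1 hlamO' (isUnit_of_map_unit (algebraMap O' O'') _ hu)
  have hρ : ∀ ℓ : ℕ, ℓ.Prime → ℓ ∉ S → ∀ A : ValuationSubring (AlgebraicClosure ℚ),
      A.LiesOverPrime ℓ → ∀ σ : AlgebraicClosure ℚ ≃ₐ[ℚ] AlgebraicClosure ℚ,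
      A.IsFrobeniusAt σ ℓ → ∃ h : ModularFormClass.qCoeff g ℓ ∈ chig.range,
        LinearMap.charpoly (ρ.ρ σ)
          = X ^ 2 - C (algebraMap O' O'' (iota ⟨ModularFormClass.qCoeff g ℓ, h⟩)) * X
            + C ((ℓ : O'')) := by
    intro ℓ hℓ hℓS A hA σ hσ
    have hℓM : ¬ ℓ ∣ M := fun h => hℓS (hMS ℓ hℓ h)
    have hℓS' : ℓ ∉ (↑S : Set ℕ) := fun h => hℓS (Finset.mem_coe.1 h)
    have hmem : ModularFormClass.qCoeff g ℓ ∈ chig.range :=
      ⟨CuspForm.heckeAlgebra.T hℓ hℓM hℓS', hchig ℓ hℓ hℓM hℓS'⟩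
    refine ⟨hmem, ?_⟩
    rw [hgood ℓ hℓ hℓM hℓS' A hA σ hσ]
    have e : (iota.comp chig.rangeRestrict) (CuspForm.heckeAlgebra.T hℓ hℓM hℓS')
        = iota ⟨ModularFormClass.qCoeff g ℓ, hmem⟩ := by
      rw [RingHom.comp_apply]
      congr 1
      exact Subtype.ext (hchig ℓ hℓ hℓM hℓS')
    rw [e]
  obtain ⟨ht2, ht1⟩ := trace_frob_bad hlamS hMS hlamO''
    (fun ℓ => ModularFormClass.qCoeff g ℓ) chig.range iota ρ hρ hcore hcheb q hq hqlam IsNew hNS hF
    A₀ hA₀ σ₀ hσ₀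
  obtain ⟨hc, hsq⟩ := charpoly_trace_det (ρ.ρ σ₀) ρ.finrank_eq
  have hmul : ρ.trace (σ₀ * σ₀) = LinearMap.trace O'' ρ.V (ρ.ρ σ₀ * ρ.ρ σ₀) := by
    rw [GaloisRepAdic.trace, map_mul]
  have ht1' : LinearMap.trace O'' ρ.V (ρ.ρ σ₀) ^ 2 = ((q : O'') + 1) ^ 2 := ht1
  have hdet : LinearMap.det (ρ.ρ σ₀) = (q : O'') := by
    have h2 : (2 : O'') * (LinearMap.det (ρ.ρ σ₀) - (q : O'')) = 0 := by
      rw [hmul, hsq, ht1'] at ht2
      linear_combination -ht2
    have h20 : (2 : O'') ≠ 0 := two_ne_zero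
    exact sub_eq_zero.1 ((mul_eq_zero.1 h2).resolve_left h20)
  have hfac : (LinearMap.trace O'' ρ.V (ρ.ρ σ₀) - ((q : O'') + 1))
      * (LinearMap.trace O'' ρ.V (ρ.ρ σ₀) + ((q : O'') + 1)) = 0 := by
    linear_combination ht1'
  rcases mul_eq_zero.1 hfac with h | h
  · left
    rw [hc, hdet, sub_eq_zero.1 h]
  · right
    rw [hc, hdet, eq_neg_of_add_eq_zero_left h, map_neg, neg_mul, sub_neg_eq_add]

end Result

end Fermat.Agent.S35.TraceTop
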