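import Mathlib
import Fermat.Agent.S31.Shift
import Fermat.Agent.S35.TraceTop
import Fermat.Agent.S35.Plan
import Fermat.Agent.S35.Push
import Fermat.Agent.S35.EigForm
import Fermat.Agent.P5.LambdaFinal
import Fermat.Agent.P5.EigVec

/-!
# S35, trace route: the two contracts of `TraceTop` from the junction contracts (owner: helper79)

`S35/TraceTop.lean` proves the frozen S35 conclusion from, for every prime `q ≠ lam` exactly
dividing `M`, a predicate `IsNew` on `J₀(M)(ℚ̄)` with `TraceTop.NewShift` and `TraceTop.FrobNew`.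
This file provides both from the junction contracts of `S35/Plan.lean` for the two push-forwards
`Push.pushA`, `Push.pushB`, with `IsNew := Push.IsNew N' q` (`M = N' * q`):

* `frobNew_of`  : `Plan.NewFrobStmt N' q p pushA pushB → TraceTop.FrobNew (N' * q) p q IsNew`;
* `newShift_of` : `Plan.DegenStmt N' q pushA pushB → TraceTop.NewShift (N' * q) S p IsNew a_ℓ(g)`
  for a newform `g` of level `N' * q` (with `d = 1`);
* `hplan_of`    : the hypothesis `hplan` of `TraceTop.result_of_plan`.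

The new-part Hecke shift: let `λ = λ_{p^k} : Lat (N' q) → J₀(N' q)[p^k]` (kernel `p^k Lat`, Hecke
equivariant, Kummer character `e(φ / p^k)`), `c = (cA, cB) : Lat (N' q) → Lat N' × Lat N'` the
transfers of [DEGEN], and `Λ = λ(ker c)`; by the Kummer clause of [DEGEN] and the injectivity of
the Kummer character, `Λ` consists of new points.  If `Q(T_ℓ)` kills `Λ`, then `Q(T^coh_ℓ)` maps
`ker c` into `p^k Lat`, and `ker c` is `T^coh_ℓ`-stable and saturated.  The eigenvector `v` of the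
newform in `ℂ ⊗ Lat (N' q)` is killed by `1 ⊗ c` (no oldforms with the eigenvalues of a newform:
`EigForm.noOldLat`), so it lies in `ℂ ⊗ ker c`, and `Q(a_ℓ) / p^k` is an eigenvalue of an integral
endomorphism of `ker c`.
-/

set_option autoImplicit false

open TensorProduct Polynomial ModularCurve CuspForm AlgebraicCurve

namespace Fermat.Agent.S35.Asm

open Fermat.Agent.P5.Per (Lat tcohL heckeAct heckeAct_injective lat_free lat_finite)
open Fermat.Agent.P5.Kappa (KummerRel realQ)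
open Fermat.Agent.P5.Lambda (chi)

local notation "Qb" => AlgebraicClosure ℚ

/-! ## The abstract core -/

/-- `lTensor` is linear for the left scalars. -/
theorem lTensor_smul_left' {E : Type*} [CommRing E] {M₁ M₂ : Type*} [AddCommGroup M₁]
    [AddCommGroup M₂] (f : M₁ →ₗ[ℤ] M₂) (c : E) (v : E ⊗[ℤ] M₁) :
    LinearMap.lTensor E f (c • v) = c • LinearMap.lTensor E f v := by
  induction v using TensorProduct.induction_on with
  | zero => rw [smul_zero, map_zero, smul_zero]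
  | tmul o m =>
    rw [TensorProduct.smul_tmul', LinearMap.lTensor_tmul, LinearMap.lTensor_tmul,
      TensorProduct.smul_tmul']
  | add x y hx hy => rw [smul_add, map_add, hx, hy, map_add, smul_add]

/-- **Abstract core of the new-part Hecke shift.**  Let `L` be a finite free `ℤ`-module,
`c : L → L'` a homomorphism to a torsion-free group, `t` an endomorphism of `L` preserving
`ker c` and mapping it into `s L`.  If `v ∈ E ⊗ L` (`E` a field of characteristic `0`) is a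
nonzero vector killed by `1 ⊗ c` and an eigenvector of `1 ⊗ t` with eigenvalue `a`, then `a / s`
is integral over `ℤ`. -/
theorem exists_isIntegral_of_ker {E : Type*} [Field E] [CharZero E]
    {L L' : Type*} [AddCommGroup L] [Module.Free ℤ L] [Module.Finite ℤ L] [AddCommGroup L']
    (htf : ∀ (m : ℕ) (y : L'), m ≠ 0 → m • y = 0 → y = 0)
    (c : L →ₗ[ℤ] L') (t : L →ₗ[ℤ] L) (hct : ∀ ψ, c ψ = 0 → c (t ψ) = 0)
    (s : ℕ) (hs : s ≠ 0) (hdiv : ∀ ψ, c ψ = 0 → ∃ ψ', t ψ = s • ψ')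
    (v : E ⊗[ℤ] L) (hv : v ≠ 0) (hcv : LinearMap.lTensor E c v = 0) (a : E)
    (hav : LinearMap.lTensor E t v = a • v) :
    ∃ r : E, IsIntegral ℤ r ∧ a = (s : E) * r := by
  classical
  set K : Submodule ℤ L := LinearMap.ker c with hK
  -- division on `K`
  have hdivK : ∀ ψ : K, ∃ ψ' : K, t (ψ : L) = s • (ψ' : L) := by
    intro ψ
    have hψ : c (ψ : L) = 0 := LinearMap.mem_ker.1 ψ.2
    obtain ⟨ψ', hψ'⟩ := hdiv ψ hψ
    have h1 : s • c ψ' = 0 := by rw [← map_nsmul, ← hψ']; exact hct ψ hψ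
    exact ⟨⟨ψ', LinearMap.mem_ker.2 (htf s _ hs h1)⟩, hψ'⟩
  let b := Module.Free.chooseBasis ℤ K
  let B : K →ₗ[ℤ] K := b.constr ℤ fun i => (hdivK (b i)).choose
  have hB : t.comp K.subtype = (s : ℤ) • (K.subtype.comp B) := by
    refine b.ext fun i => ?_
    rw [LinearMap.comp_apply, LinearMap.smul_apply, LinearMap.comp_apply,
      Module.Basis.constr_basis, Submodule.subtype_apply, Submodule.subtype_apply, natCast_zsmul]
    exact (hdivK (b i)).choose_spec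
  -- flat base change of the kernel
  have hex := Module.Flat.lTensor_exact E (LinearMap.exact_subtype_ker_map c)
  obtain ⟨v₀, hv₀⟩ := (hex v).1 hcv
  have hinj : Function.Injective (LinearMap.lTensor E K.subtype) :=
    Module.Flat.lTensor_preserves_injective_linearMap (M := E) K.subtype
      (Submodule.injective_subtype K)
  have hv₀0 : v₀ ≠ 0 := by
    rintro rfl
    exact hv (by rw [← hv₀, map_zero])
  -- the eigen-equation on `E ⊗ K`
  have heq : (s : E) • LinearMap.lTensor E B v₀ = a • v₀ := by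
    apply hinj
    rw [lTensor_smul_left', lTensor_smul_left', hv₀, ← hav, ← hv₀]
    have h1 : LinearMap.lTensor E t (LinearMap.lTensor E K.subtype v₀)
        = LinearMap.lTensor E (t.comp K.subtype) v₀ := by
      rw [LinearMap.lTensor_comp, LinearMap.comp_apply]
    have h2 : LinearMap.lTensor E K.subtype (LinearMap.lTensor E B v₀)
        = LinearMap.lTensor E (K.subtype.comp B) v₀ := by
      rw [LinearMap.lTensor_comp, LinearMap.comp_apply]
    rw [h1, h2, hB, LinearMap.lTensor_smul, LinearMap.smul_apply, ← Int.cast_smul_eq_zsmul E,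
      Int.cast_natCast]
  have hsE : (s : E) ≠ 0 := Nat.cast_ne_zero.2 hs
  set r : E := a / s with hr
  have hBr : LinearMap.lTensor E B v₀ = r • v₀ := by
    have h1 : (s : E) • LinearMap.lTensor E B v₀ = (s : E) • (r • v₀) := by
      rw [heq, smul_smul, hr, mul_div_cancel₀ _ hsE]
    exact smul_right_injective _ hsE h1
  refine ⟨r, ⟨B.charpoly, LinearMap.charpoly_monic B, ?_⟩, by rw [hr, mul_div_cancel₀ _ hsE]⟩
  -- `r` is a root of the characteristic polynomial of `B`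
  let F : Module.End E (E ⊗[ℤ] K) := Module.End.baseChangeHom ℤ E K B
  have hF : ∀ w, F w = LinearMap.lTensor E B w := fun w => by
    show LinearMap.baseChange E B w = _
    rw [LinearMap.baseChange_eq_ltensor]
  have heig : F.HasEigenvector r v₀ :=
    ⟨Module.End.mem_eigenspace_iff.2 (by rw [hF, hBr]), hv₀0⟩
  have h0 : Polynomial.aeval F (B.charpoly.map (algebraMap ℤ E)) = 0 := by
    rw [Polynomial.aeval_map_algebraMap]
    have h := Polynomial.aeval_algHom_apply (Module.End.baseChangeHom ℤ E K) B B.charpoly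
    rw [LinearMap.aeval_self_charpoly, map_zero] at h
    exact h
  have h1 := Module.End.aeval_apply_of_hasEigenvector (p := B.charpoly.map (algebraMap ℤ E)) heig
  rw [h0, LinearMap.zero_apply] at h1
  have h2 := (smul_eq_zero.1 h1.symm).resolve_right hv₀0
  rwa [Polynomial.eval_map] at h2


/-! ## (F) -/

/-- **(F) in the trace form**: `σ² + q² σ⁻² = q² + 1` on the new `p`-power torsion, from
`(σ² - 1)(σ² - q²) = 0`. -/
theorem frobNew_of (N' q p : ℕ) [NeZero N'] [NeZero q]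
    (hF : Plan.NewFrobStmt N' q p (Push.pushA N' q) (Push.pushB N' q)) :
    TraceTop.FrobNew (N' * q) p q (Push.IsNew N' q) := by
  rintro A hA σ hσ x ⟨m, hm⟩ hx
  have hy : Push.IsNew N' q (σ⁻¹ • σ⁻¹ • x) := Push.IsNew.galois_smul N' q (Push.IsNew.galois_smul N' q hx σ⁻¹) σ⁻¹
  have hym1 : p ^ m • (σ⁻¹ • x) = 0 := by
    rw [smul_comm, hm]; exact S31.Top.gal_smul_zero _
  have hym : p ^ m • (σ⁻¹ • σ⁻¹ • x) = 0 := by
    rw [smul_comm, hym1]; exact S31.Top.gal_smul_zero _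
  have h := hF A hA σ hσ (σ⁻¹ • σ⁻¹ • x) ⟨m, hym⟩ hy.1 hy.2
  simp only [smul_inv_smul] at h
  have e1 : ((q : ℤ) ^ 2) • (σ⁻¹ • σ⁻¹ • x) = q ^ 2 • (σ⁻¹ • σ⁻¹ • x) := by
    rw [← Nat.cast_pow, natCast_zsmul]
  have e2 : ((q : ℤ) ^ 2 + 1) • x = (q ^ 2 + 1) • x := by
    have e : ((q : ℤ) ^ 2 + 1) = ((q ^ 2 + 1 : ℕ) : ℤ) := by push_cast; ring
    rw [e, natCast_zsmul]
  rw [e1, e2]
  rw [sub_add_eq_add_sub] at h
  exact sub_eq_zero.1 h

/-! ## The new-part Hecke shift -/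

set_option maxHeartbeats 1600000 in
/-- **The new-part Hecke shift** (with `d = 1`) from [DEGEN], for a newform of level `N' * q`. -/
theorem newShift_of (h29 : Fermat.Agent.P5.G9.S29Stmt)
    (hcheb : Fermat.Agent.P5.WeakChebLift.WeakChebStmt)
    (N' q : ℕ) [NeZero N'] [NeZero q] (hq : q.Prime)
    (hD : Plan.DegenStmt N' q (Push.pushA N' q) (Push.pushB N' q))
    {g : CuspForm (CongruenceSubgroup.Gamma0 (N' * q)) 2} (hg : g.IsNewform)
    (p : ℕ) (hp : p.Prime) (S : Finset ℕ)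
    (hMS : ∀ r : ℕ, r.Prime → r ∣ N' * q → r ∈ S)
    (chig : CuspForm.heckeAlgebra (N' * q) 2 (↑S : Set ℕ) →+* ℂ)
    (hchig : ∀ (ℓ : ℕ) (hℓ : ℓ.Prime) (hℓM : ¬ ℓ ∣ N' * q) (hℓS : ℓ ∉ (↑S : Set ℕ)),
      chig (CuspForm.heckeAlgebra.T hℓ hℓM hℓS) = ModularFormClass.qCoeff g ℓ) :
    TraceTop.NewShift (N' * q) S p (Push.IsNew N' q)
      (fun ℓ => ModularFormClass.qCoeff g ℓ) := by
  classical
  obtain ⟨cA, cB, hcomm, hkum⟩ := hD
  have hfinL := lat_finite (N' * q)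
  have hfreeL := lat_free (N' * q)
  have hNS' : ∀ r : ℕ, r.Prime → r ∣ N' * q → r ∈ (↑S : Set ℕ) :=
    fun r hr hd => Finset.mem_coe.2 (hMS r hr hd)
  -- the eigenvector of the newform
  obtain ⟨v, hv0, hv⟩ := Fermat.Agent.P5.EigVec.eigVecStmt (N' * q) (↑S : Set ℕ) hNS' ℂ chig
  have hvT : ∀ (ℓ : ℕ) (hℓ : ℓ.Prime) (hℓM : ¬ ℓ ∣ N' * q), ℓ ∉ S →
      LinearMap.lTensor ℂ (tcohL (N' * q) hℓ hℓM) v = ModularFormClass.qCoeff g ℓ • v := by
    intro ℓ hℓ hℓM hℓS
    have hℓS' : ℓ ∉ (↑S : Set ℕ) := by simpa using hℓS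
    have h := hv (CuspForm.heckeAlgebra.T hℓ hℓM hℓS')
    rwa [EigForm.heckeAct_T_eq (N' * q) (↑S : Set ℕ) hNS' hℓ hℓM hℓS', hchig ℓ hℓ hℓM hℓS'] at h
  have hne : N' ≠ N' * q := by
    intro h
    have h1 : N' * 1 = N' * q := by rw [mul_one]; exact h
    exact hq.ne_one (Nat.eq_of_mul_eq_mul_left (Nat.pos_of_ne_zero (NeZero.ne N')) h1).symm
  -- it is killed by the two transfers
  have hkill : ∀ c : Lat (N' * q) →+ Lat N',
      (∀ (ℓ : ℕ) (hℓ : ℓ.Prime) (hℓN : ¬ ℓ ∣ N' * q) (hℓN' : ¬ ℓ ∣ N') (φ : Lat (N' * q)),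
        c (tcohL (N' * q) hℓ hℓN φ) = tcohL N' hℓ hℓN' (c φ)) →
      LinearMap.lTensor ℂ c.toIntLinearMap v = 0 := by
    intro c hc
    refine EigForm.noOldLat h29 hcheb hg N' (Dvd.intro _ rfl) hne S ℂ ⊤
      (⊤ : Subring ℂ).subtype Subtype.val_injective (fun ℓ => ModularFormClass.qCoeff g ℓ)
      (fun ℓ _ _ => ⟨⟨ModularFormClass.qCoeff g ℓ, Subring.mem_top _⟩, rfl, rfl⟩) _ ?_
    intro ℓ hℓ hℓN' hℓS
    have hℓM : ¬ ℓ ∣ N' * q := fun h => hℓS (hMS ℓ hℓ h)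
    have e : (tcohL N' hℓ hℓN').comp c.toIntLinearMap
        = c.toIntLinearMap.comp (tcohL (N' * q) hℓ hℓM) :=
      LinearMap.ext fun φ => (hc ℓ hℓ hℓM hℓN' φ).symm
    rw [← LinearMap.comp_apply, ← LinearMap.lTensor_comp, e, LinearMap.lTensor_comp,
      LinearMap.comp_apply, hvT ℓ hℓ hℓM hℓS, lTensor_smul_left']
  have hcomA : ∀ (ℓ : ℕ) (hℓ : ℓ.Prime) (hℓN : ¬ ℓ ∣ N' * q) (hℓN' : ¬ ℓ ∣ N')
      (φ : Lat (N' * q)), cA (tcohL (N' * q) hℓ hℓN φ) = tcohL N' hℓ hℓN' (cA φ) :=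
    fun ℓ hℓ hℓN hℓN' φ => (hcomm ℓ hℓ hℓN hℓN' φ).1
  have hcomB : ∀ (ℓ : ℕ) (hℓ : ℓ.Prime) (hℓN : ¬ ℓ ∣ N' * q) (hℓN' : ¬ ℓ ∣ N')
      (φ : Lat (N' * q)), cB (tcohL (N' * q) hℓ hℓN φ) = tcohL N' hℓ hℓN' (cB φ) :=
    fun ℓ hℓ hℓN hℓN' φ => (hcomm ℓ hℓ hℓN hℓN' φ).2
  let c : Lat (N' * q) →ₗ[ℤ] Lat N' × Lat N' := cA.toIntLinearMap.prod cB.toIntLinearMap
  have hc1 : ∀ ψ, c ψ = 0 → cA ψ = 0 := fun ψ h => congrArg Prod.fst h
  have hc2 : ∀ ψ, c ψ = 0 → cB ψ = 0 := fun ψ h => congrArg Prod.snd h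
  have hcv : LinearMap.lTensor ℂ c v = 0 := by
    have e : c = (LinearMap.inl ℤ (Lat N') (Lat N')).comp cA.toIntLinearMap
        + (LinearMap.inr ℤ (Lat N') (Lat N')).comp cB.toIntLinearMap :=
      LinearMap.ext fun x => Prod.ext (by simp [c]) (by simp [c])
    rw [e, LinearMap.lTensor_add, LinearMap.add_apply, LinearMap.lTensor_comp,
      LinearMap.lTensor_comp, LinearMap.comp_apply, LinearMap.comp_apply, hkill cA hcomA,
      hkill cB hcomB, map_zero, map_zero, add_zero]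
  -- `Lat N' × Lat N'` is torsion-free
  have htf1 : ∀ (m : ℕ) (y : Lat N'), m ≠ 0 → m • y = 0 → y = 0 := by
    intro m y hm hy
    apply Subtype.ext
    refine AddMonoidHom.ext fun γ => ?_
    have h1 : (((m • y : Lat N') : Additive ↥(CongruenceSubgroup.Gamma0 N') →+ ℤ)) γ = 0 := by
      rw [hy]; rfl
    have h2 : (((m • y : Lat N') : Additive ↥(CongruenceSubgroup.Gamma0 N') →+ ℤ)) γ
        = m • ((y : Additive ↥(CongruenceSubgroup.Gamma0 N') →+ ℤ) γ) := rfl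
    rw [h2, nsmul_eq_mul] at h1
    exact (mul_eq_zero.1 h1).resolve_left (Int.natCast_ne_zero.2 hm)
  have htf : ∀ (m : ℕ) (y : Lat N' × Lat N'), m ≠ 0 → m • y = 0 → y = 0 := by
    rintro m ⟨y1, y2⟩ hm hy
    exact Prod.ext (htf1 m y1 hm (congrArg Prod.fst hy)) (htf1 m y2 hm (congrArg Prod.snd hy))
  refine ⟨1, Nat.one_pos, fun k => ?_⟩
  have hn : 0 < p ^ k := pow_pos hp.pos k
  obtain ⟨lam, hK, htors, hker, hheck⟩ := Fermat.Agent.P5.Lambda.exists_lam
    (Fermat.Agent.P5.ModFun.RealC.modFunStmt_realQ (N' * q)) hn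
    (Fermat.Agent.P5.Lambda.surj (N' * q) (p ^ k) hn)
    (Fermat.Agent.P5.Lambda.heckeKappa (N' * q) (p ^ k))
  refine ⟨lam '' {ψ | cA ψ = 0 ∧ cB ψ = 0}, ?_, ?_, ?_, ?_⟩
  · -- finiteness
    let R : Submodule ℤ (JZero (N' * q)) := LinearMap.range lam.toIntLinearMap
    have : Module.Finite ℤ R := Module.Finite.range _
    have htorsR : Module.IsTorsion ℤ R := by
      rintro ⟨x, φ, rfl⟩
      refine ⟨⟨(p : ℤ) ^ k, ?_⟩, ?_⟩
      · exact mem_nonZeroDivisors_of_ne_zero (pow_ne_zero _ (Int.natCast_ne_zero.2 hp.ne_zero))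
      · apply Subtype.ext
        have := htors φ
        simp only [Submonoid.mk_smul, Submodule.coe_smul, Submodule.coe_zero]
        rw [← this]
        exact_mod_cast (natCast_zsmul (lam φ) (p ^ k))
    have : Finite R := Module.finite_of_fg_torsion R htorsR
    have hfin : (R : Set (JZero (N' * q))).Finite := Set.toFinite _
    refine hfin.subset ?_
    rintro _ ⟨φ, -, rfl⟩
    exact ⟨φ, rfl⟩
  · rintro _ ⟨ψ, -, rfl⟩
    exact htors ψ
  · -- the points are new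
    rintro _ ⟨ψ, ⟨hA, hB⟩, rfl⟩
    have h1 := hkum (p ^ k) hn ψ (lam ψ) (hK ψ)
    rw [hA, hB] at h1
    have hz : chi N' (0 : Lat N') (p ^ k) = 1 := Fermat.Agent.P5.Lambda.expChar_zero _
    rw [hz] at h1
    exact ⟨Fermat.Agent.P5.Kappa.KummerRel.eq_zero
        (Fermat.Agent.P5.ModFun.RealC.modFunStmt_realQ N') hn h1.1,
      Fermat.Agent.P5.Kappa.KummerRel.eq_zero
        (Fermat.Agent.P5.ModFun.RealC.modFunStmt_realQ N') hn h1.2⟩
  · intro ℓ hℓ hℓM hℓS Q hQ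
    have hℓS' : ℓ ∉ (↑S : Set ℕ) := by simpa using hℓS
    have hℓN' : ¬ ℓ ∣ N' := fun h => hℓM (Dvd.dvd.mul_right h q)
    set t : Module.End ℤ (Lat (N' * q)) := aeval (tcohL (N' * q) hℓ hℓM) Q with ht
    have hct : ∀ ψ, c ψ = 0 → c (t ψ) = 0 := by
      intro ψ hψ
      have h1 := S31.Shift.map_aeval_apply cA (tcohL (N' * q) hℓ hℓM) (tcohL N' hℓ hℓN')
        (fun m => hcomA ℓ hℓ hℓM hℓN' m) Q ψ
      have h2 := S31.Shift.map_aeval_apply cB (tcohL (N' * q) hℓ hℓM) (tcohL N' hℓ hℓN')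
        (fun m => hcomB ℓ hℓ hℓM hℓN' m) Q ψ
      rw [hc1 ψ hψ, map_zero] at h1
      rw [hc2 ψ hψ, map_zero] at h2
      exact Prod.ext h1 h2
    have hdiv : ∀ ψ, c ψ = 0 → ∃ ψ', t ψ = (p ^ k) • ψ' := by
      intro ψ hψ
      apply hker
      rw [ht, S31.Shift.map_aeval_apply lam (tcohL (N' * q) hℓ hℓM)
        (heckeOperatorBar (N' * q) ⟨ℓ, hℓ⟩) (fun m => (hheck ℓ hℓ hℓM m).symm) Q ψ]
      exact hQ (lam ψ) ⟨ψ, ⟨hc1 ψ hψ, hc2 ψ hψ⟩, rfl⟩
    have hav : LinearMap.lTensor ℂ t v = aeval (ModularFormClass.qCoeff g ℓ) Q • v := by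
      have h1 := hv (aeval (CuspForm.heckeAlgebra.T hℓ hℓM hℓS') Q)
      have h2 := Polynomial.aeval_algHom_apply (heckeAct (N' * q) (↑S : Set ℕ) hNS').toIntAlgHom
        (CuspForm.heckeAlgebra.T hℓ hℓM hℓS') Q
      have h3 := Polynomial.aeval_algHom_apply chig.toIntAlgHom
        (CuspForm.heckeAlgebra.T hℓ hℓM hℓS') Q
      have e2 : heckeAct (N' * q) (↑S : Set ℕ) hNS' (aeval (CuspForm.heckeAlgebra.T hℓ hℓM hℓS') Q)
          = t := by
        rw [ht, ← EigForm.heckeAct_T_eq (N' * q) (↑S : Set ℕ) hNS' hℓ hℓM hℓS']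
        exact h2.symm
      have e3 : chig (aeval (CuspForm.heckeAlgebra.T hℓ hℓM hℓS') Q)
          = aeval (ModularFormClass.qCoeff g ℓ) Q := by
        rw [← hchig ℓ hℓ hℓM hℓS']
        exact h3.symm
      rwa [e2, e3] at h1
    obtain ⟨r, hr, hrel⟩ := exists_isIntegral_of_ker htf c t hct (p ^ k) hn.ne' hdiv v hv0 hcv _
      hav
    refine ⟨r, hr, ?_⟩
    rw [Nat.cast_one, one_mul, hrel, Nat.cast_pow]

/-! ## The hypothesis `hplan` of `TraceTop.result_of_plan` -/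

/-- **The plan hypothesis of `TraceTop.result_of_plan`** from (F) and [DEGEN] (in the shapes of
the [TATE-INST] block). -/
theorem hplan_of (h29 : Fermat.Agent.P5.G9.S29Stmt)
    (hcheb : Fermat.Agent.P5.WeakChebLift.WeakChebStmt)
    {M : ℕ} [NeZero M] {g : CuspForm (CongruenceSubgroup.Gamma0 M) 2} (hg : g.IsNewform)
    (lam : ℕ) [Fact lam.Prime] (S : Finset ℕ)
    (chig : CuspForm.heckeAlgebra M 2 (↑S : Set ℕ) →+* ℂ)
    (hchig : ∀ (ℓ : ℕ) (hℓ : ℓ.Prime) (hℓM : ¬ ℓ ∣ M) (hℓS : ℓ ∉ (↑S : Set ℕ)),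
      chig (CuspForm.heckeAlgebra.T hℓ hℓM hℓS) = ModularFormClass.qCoeff g ℓ)
    (hMS : ∀ q : ℕ, q.Prime → q ∣ M → q ∈ S)
    (hF : ∀ (N' q : ℕ) [NeZero N'] [NeZero q], q.Prime → ¬ q ∣ N' → q ≠ lam → M = N' * q →
      Plan.NewFrobStmt N' q lam (Push.pushA N' q) (Push.pushB N' q))
    (hD : ∀ (N' q : ℕ) [NeZero N'] [NeZero q], q.Prime → ¬ q ∣ N' → M = N' * q →
      Plan.DegenStmt N' q (Push.pushA N' q) (Push.pushB N' q)) :
    ∀ q : ℕ, q.Prime → q ≠ lam → q ∣ M → ¬ q ^ 2 ∣ M →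
      ∃ IsNew : JZero M → Prop,
        TraceTop.NewShift M S lam IsNew (fun ℓ => ModularFormClass.qCoeff g ℓ) ∧
        TraceTop.FrobNew M lam q IsNew := by
  intro q hq hqlam hqM hq2
  obtain ⟨N', rfl⟩ : ∃ N', M = N' * q := ⟨M / q, (Nat.div_mul_cancel hqM).symm⟩
  have hN' : NeZero N' := ⟨fun h => NeZero.ne (N' * q) (by rw [h, zero_mul])⟩
  have hq0 : NeZero q := ⟨hq.ne_zero⟩
  have hqN' : ¬ q ∣ N' := fun h => hq2 (by rw [sq]; exact Nat.mul_dvd_mul_right h q)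
  exact ⟨Push.IsNew N' q,
    newShift_of h29 hcheb N' q hq (hD N' q hq hqN' rfl) hg lam Fact.out S hMS chig hchig,
    frobNew_of N' q lam (hF N' q hq hqN' hqlam rfl)⟩

end Fermat.Agent.S35.Asm
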