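import Mathlib
import Fermat.Agent.Lib.HeckeHom
import Fermat.Agent.Lib.TransferChar

/-!
# S35 / [COH-DEGEN], generic part: pair families and the transfer (helper37)

Two-group version of `Lib/HeckeHom`.  Let `eH : H →* G` (injective), `eΓ : Γ →* G` and
`Δ : κ → G` a finite family such that right multiplication by `eΓ Γ` permutes the pairwise
distinct cosets `eH H · Δ j`.  Then for `γ : Γ`, `j : κ` there are unique `nxt γ j : κ`,
`cof γ j : H` with

  `Δ j * eΓ γ = eH (cof γ j) * Δ (nxt γ j)`,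

and `(Θ φ)(γ) = ∑ j, φ (cof γ j)` defines `Θ : Hom(H, A) → Hom(Γ, A)` (`pairHom`, additive
coefficients; `pairChar`, multiplicative coefficients).  A coset family of `Lib/HeckeHom` is the
case `H = Γ`; the transfer along a subgroup `H ≤ Γ` of finite index is the case `Δ j = eΓ (t j)`
for a transversal `t` (`transfer_eq_pairChar`).

Main results:

* `pairHom_eq_of_exists`: the operator only depends on the set of cosets `eH H · Δ j`;
* `pairHom_mul_left`, `pairHom_mul_right`: composition with the Hecke operator of a coset family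
  of `H` (before) or of `Γ` (after) is the operator of the product family;
* `pairHom_comm_of_exists`: commutation `Θ_Δ ∘ T_H = T_Γ ∘ Θ_Δ` from a matching of the two
  product families;
* `transfer_heckeChar`, `trHom_heckeHom`: **the transfer along `H ≤ Γ` commutes with the Hecke
  operators of one family `δ` which is a coset family for both `Γ` and `H`**, under the reflection
  hypothesis `δ i * e u = e η * δ k`, `η ∈ H` `⇒` `u ∈ H`.
-/

set_option autoImplicit false
set_option linter.style.haveILetI false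

namespace Fermat.Agent.S35.PairFamily

open Fermat.Agent.Lib.HeckeHom

variable {H Γ G : Type*} [Group H] [Group Γ] [Group G] {κ : Type*}

/-- Right multiplication by `eΓ Γ` permutes the pairwise distinct cosets `eH H · Δ j`. -/
structure IsPairFamily (eH : H →* G) (eΓ : Γ →* G) (Δ : κ → G) : Prop where
  inj_e : Function.Injective eH
  perm : ∀ (γ : Γ) (j : κ), ∃ (j' : κ) (η : H), Δ j * eΓ γ = eH η * Δ j'
  distinct : ∀ (j j' : κ) (η : H), Δ j = eH η * Δ j' → j = j'

/-- A coset family is a pair family with `H = Γ`. -/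
theorem isPairFamily_of_coset {e : Γ →* G} {ι : Type*}
    {δ : ι → G} (h : IsCosetFamily e δ) : IsPairFamily e e δ :=
  ⟨h.inj_e, h.perm, h.distinct⟩

namespace IsPairFamily

variable {eH : H →* G} {eΓ : Γ →* G} {Δ : κ → G} (h : IsPairFamily eH eΓ Δ)

/-- The index of the coset of `Δ j * eΓ γ`. -/
noncomputable def nxt (γ : Γ) (j : κ) : κ := (h.perm γ j).choose

/-- The cofactor: `Δ j * eΓ γ = eH (cof γ j) * Δ (nxt γ j)`. -/
noncomputable def cof (γ : Γ) (j : κ) : H := (h.perm γ j).choose_spec.choose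

theorem spec (γ : Γ) (j : κ) : Δ j * eΓ γ = eH (h.cof γ j) * Δ (h.nxt γ j) :=
  (h.perm γ j).choose_spec.choose_spec

theorem unique {γ : Γ} {η : H} {j j' : κ} (hij : Δ j * eΓ γ = eH η * Δ j') :
    h.nxt γ j = j' ∧ h.cof γ j = η := by
  have h1 := h.spec γ j
  rw [hij] at h1
  have h2 : Δ j' = eH (η⁻¹ * h.cof γ j) * Δ (h.nxt γ j) := by
    rw [map_mul, map_inv, mul_assoc, ← h1, inv_mul_cancel_left]
  have hj : j' = h.nxt γ j := h.distinct _ _ _ h2
  rw [← hj] at h1
  exact ⟨hj.symm, (h.inj_e (mul_right_cancel h1)).symm⟩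

theorem nxt_eq {γ : Γ} {η : H} {j j' : κ} (hij : Δ j * eΓ γ = eH η * Δ j') : h.nxt γ j = j' :=
  (h.unique hij).1

theorem cof_eq {γ : Γ} {η : H} {j j' : κ} (hij : Δ j * eΓ γ = eH η * Δ j') : h.cof γ j = η :=
  (h.unique hij).2

@[simp] theorem nxt_one (j : κ) : h.nxt 1 j = j := h.nxt_eq (η := 1) (by simp)

@[simp] theorem cof_one (j : κ) : h.cof 1 j = 1 := h.cof_eq (j' := j) (by simp)

theorem spec_mul (γ₁ γ₂ : Γ) (j : κ) :
    Δ j * eΓ (γ₁ * γ₂) = eH (h.cof γ₁ j * h.cof γ₂ (h.nxt γ₁ j)) * Δ (h.nxt γ₂ (h.nxt γ₁ j)) := by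
  rw [map_mul, ← mul_assoc, h.spec γ₁ j, mul_assoc, h.spec γ₂ (h.nxt γ₁ j), ← mul_assoc, map_mul]

theorem nxt_mul (γ₁ γ₂ : Γ) (j : κ) : h.nxt (γ₁ * γ₂) j = h.nxt γ₂ (h.nxt γ₁ j) :=
  h.nxt_eq (h.spec_mul γ₁ γ₂ j)

theorem cof_mul (γ₁ γ₂ : Γ) (j : κ) :
    h.cof (γ₁ * γ₂) j = h.cof γ₁ j * h.cof γ₂ (h.nxt γ₁ j) :=
  h.cof_eq (h.spec_mul γ₁ γ₂ j)

/-- `nxt γ` as a permutation of the index set. -/
noncomputable def nxtPerm (γ : Γ) : Equiv.Perm κ where
  toFun := h.nxt γ
  invFun := h.nxt γ⁻¹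
  left_inv j := by rw [← h.nxt_mul, mul_inv_cancel, h.nxt_one]
  right_inv j := by rw [← h.nxt_mul, inv_mul_cancel, h.nxt_one]

@[simp] theorem nxtPerm_apply (γ : Γ) (j : κ) : h.nxtPerm γ j = h.nxt γ j := rfl

section Hom

variable [Fintype κ] {A : Type*} [AddCommGroup A]

/-- The operator of the pair family, `Hom(H, A) → Hom(Γ, A)`: `(Θ φ)(γ) = ∑ j, φ (cof γ j)`. -/
noncomputable def pairHom (φ : Additive H →+ A) : Additive Γ →+ A where
  toFun γ := ∑ j, φ (Additive.ofMul (h.cof (Additive.toMul γ) j))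
  map_zero' := by simp
  map_add' γ₁ γ₂ := by
    simp only [toMul_add, h.cof_mul, ofMul_mul, map_add, Finset.sum_add_distrib]
    congr 1
    exact Equiv.sum_comp (h.nxtPerm (Additive.toMul γ₁))
      (fun j => φ (Additive.ofMul (h.cof (Additive.toMul γ₂) j)))

theorem pairHom_apply (φ : Additive H →+ A) (γ : Γ) :
    h.pairHom φ (Additive.ofMul γ) = ∑ j, φ (Additive.ofMul (h.cof γ j)) := rfl

theorem pairHom_add (φ ψ : Additive H →+ A) :
    h.pairHom (φ + ψ) = h.pairHom φ + h.pairHom ψ := by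
  refine AddMonoidHom.ext fun γ => ?_
  show ∑ j, (φ + ψ) _ = (∑ j, φ _) + ∑ j, ψ _
  simp only [AddMonoidHom.add_apply, Finset.sum_add_distrib]

/-- Naturality in the coefficient group. -/
theorem pairHom_comp {B : Type*} [AddCommGroup B] (ψ : A →+ B) (φ : Additive H →+ A) :
    h.pairHom (ψ.comp φ) = ψ.comp (h.pairHom φ) := by
  refine AddMonoidHom.ext fun γ => ?_
  show ∑ j, ψ (φ _) = ψ (∑ j, φ _)
  rw [map_sum]

/-- The operator of a pair family, as an additive map. -/
noncomputable def pairAddHom : (Additive H →+ A) →+ (Additive Γ →+ A) where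
  toFun := h.pairHom
  map_zero' := by
    refine AddMonoidHom.ext fun γ => ?_
    show ∑ j, (0 : Additive H →+ A) _ = 0
    simp
  map_add' := h.pairHom_add

@[simp] theorem pairAddHom_apply (φ : Additive H →+ A) : h.pairAddHom φ = h.pairHom φ := rfl

end Hom

section Char

variable [Fintype κ] {M : Type*} [CommGroup M]

/-- The operator of the pair family on multiplicative characters:
`(Θ ψ)(γ) = ∏ j, ψ (cof γ j)`. -/
noncomputable def pairChar (ψ : H →* M) : Γ →* M where
  toFun γ := ∏ j, ψ (h.cof γ j)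
  map_one' := by simp
  map_mul' γ₁ γ₂ := by
    simp only [h.cof_mul, map_mul, Finset.prod_mul_distrib]
    congr 1
    exact Equiv.prod_comp (h.nxtPerm γ₁) (fun j => ψ (h.cof γ₂ j))

theorem pairChar_apply (ψ : H →* M) (γ : Γ) : h.pairChar ψ γ = ∏ j, ψ (h.cof γ j) := rfl

/-- `pairChar` is `pairHom` read through `Additive`. -/
theorem pairHom_toAdditive (ψ : H →* M) :
    h.pairHom (MonoidHom.toAdditive ψ) = MonoidHom.toAdditive (h.pairChar ψ) := by
  refine AddMonoidHom.ext fun γa => ?_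
  obtain ⟨γ, rfl⟩ : ∃ γ : Γ, Additive.ofMul γ = γa := ⟨Additive.toMul γa, rfl⟩
  rw [h.pairHom_apply]
  show ∑ j, Additive.ofMul (ψ (h.cof γ j)) = Additive.ofMul (∏ j, ψ (h.cof γ j))
  rw [ofMul_prod]

/-- `pairHom` is `pairChar` read through `Multiplicative`. -/
theorem pairChar_toMultiplicative {A : Type*} [AddCommGroup A] (φ : Additive H →+ A) :
    h.pairChar (AddMonoidHom.toMultiplicativeRight φ) =
      AddMonoidHom.toMultiplicativeRight (h.pairHom φ) := by
  refine MonoidHom.ext fun γ => ?_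
  rw [h.pairChar_apply]
  show ∏ j, Multiplicative.ofAdd (φ (Additive.ofMul (h.cof γ j))) =
    Multiplicative.ofAdd (∑ j, φ (Additive.ofMul (h.cof γ j)))
  rw [ofAdd_sum]

end Char

end IsPairFamily

/-! ### The operator of a coset family is its pair operator -/

section Coset

variable {e : Γ →* G} {ι : Type*} {δ : ι → G} (h : IsCosetFamily e δ)

theorem toPair_cof (γ : Γ) (i : ι) : (isPairFamily_of_coset h).cof γ i = h.cof γ i :=
  (isPairFamily_of_coset h).cof_eq (h.spec γ i)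

theorem toPair_nxt (γ : Γ) (i : ι) : (isPairFamily_of_coset h).nxt γ i = h.nxt γ i :=
  (isPairFamily_of_coset h).nxt_eq (h.spec γ i)

theorem toPair_pairHom [Fintype ι] {A : Type*} [AddCommGroup A] (φ : Additive Γ →+ A) :
    (isPairFamily_of_coset h).pairHom φ = h.heckeHom φ := by
  refine AddMonoidHom.ext fun γa => ?_
  obtain ⟨γ, rfl⟩ : ∃ γ : Γ, Additive.ofMul γ = γa := ⟨Additive.toMul γa, rfl⟩
  rw [IsPairFamily.pairHom_apply, IsCosetFamily.heckeHom_apply]
  exact Finset.sum_congr rfl fun i _ => by rw [toPair_cof]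

end Coset

/-! ### Independence of the representatives -/

section Matching

variable {eH : H →* G} {eΓ : Γ →* G} {κ' : Type*} [Fintype κ] [Fintype κ'] {P : κ → G}
  {Q : κ' → G} {A : Type*} [AddCommGroup A]

/-- Two pair families whose cosets match up along a bijection define the same operator. -/
theorem pairHom_eq_of_equiv (hP : IsPairFamily eH eΓ P) (hQ : IsPairFamily eH eΓ Q) (π : κ ≃ κ')
    (u : κ → H) (hπ : ∀ x, P x = eH (u x) * Q (π x)) (φ : Additive H →+ A) :
    hP.pairHom φ = hQ.pairHom φ := by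
  refine AddMonoidHom.ext fun γa => ?_
  obtain ⟨γ, rfl⟩ : ∃ γ : Γ, Additive.ofMul γ = γa := ⟨Additive.toMul γa, rfl⟩
  rw [IsPairFamily.pairHom_apply, IsPairFamily.pairHom_apply]
  have key : ∀ x, Q (π x) * eΓ γ =
      eH ((u x)⁻¹ * hP.cof γ x * u (hP.nxt γ x)) * Q (π (hP.nxt γ x)) := by
    intro x
    have h1 := hP.spec γ x
    rw [hπ x, hπ (hP.nxt γ x)] at h1
    calc Q (π x) * eΓ γ = (eH (u x))⁻¹ * (eH (u x) * Q (π x) * eΓ γ) := by
          rw [mul_assoc, inv_mul_cancel_left]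
      _ = _ := by rw [h1]; simp only [map_mul, map_inv, mul_assoc]
  have hc : ∀ x, hQ.cof γ (π x) = (u x)⁻¹ * hP.cof γ x * u (hP.nxt γ x) :=
    fun x => hQ.cof_eq (key x)
  have h2 : ∑ y, φ (Additive.ofMul (hQ.cof γ y)) =
      ∑ x, φ (Additive.ofMul (hQ.cof γ (π x))) :=
    (Equiv.sum_comp π (fun y => φ (Additive.ofMul (hQ.cof γ y)))).symm
  rw [h2]
  simp only [hc, ofMul_mul, ofMul_inv, map_add, map_neg, Finset.sum_add_distrib,
    Finset.sum_neg_distrib]
  have h3 : ∑ x, φ (Additive.ofMul (u (hP.nxt γ x))) = ∑ x, φ (Additive.ofMul (u x)) :=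
    Equiv.sum_comp (hP.nxtPerm γ) (fun x => φ (Additive.ofMul (u x)))
  rw [h3]
  abel

/-- Two pair families with equally many members, each coset of the first being a coset of the
second, define the same operator. -/
theorem pairHom_eq_of_exists (hP : IsPairFamily eH eΓ P) (hQ : IsPairFamily eH eΓ Q)
    (hcard : Fintype.card κ = Fintype.card κ')
    (hm : ∀ x, ∃ (y : κ') (u : H), P x = eH u * Q y) (φ : Additive H →+ A) :
    hP.pairHom φ = hQ.pairHom φ := by
  choose π u hπ using hm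
  have hinj : Function.Injective π := by
    intro x x' hxx'
    refine hP.distinct x x' (u x * (u x')⁻¹) ?_
    rw [hπ x, hπ x', hxx', map_mul, map_inv, mul_assoc, inv_mul_cancel_left]
  have hbij : Function.Bijective π :=
    (Fintype.bijective_iff_injective_and_card π).mpr ⟨hinj, hcard⟩
  exact pairHom_eq_of_equiv hP hQ (Equiv.ofBijective π hbij) u hπ φ

end Matching

/-! ### Composition with Hecke operators -/

section Product

variable {eH : H →* G} {eΓ : Γ →* G} {Δ : κ → G} {ι ι' : Type*} {δ : ι → G} {δ' : ι' → G}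

/-- `δ i * Δ j` (a coset family of `H` times a pair family) is a pair family as soon as its
cosets are pairwise distinct. -/
theorem isPairFamily_mul_left (h : IsCosetFamily eH δ) (hΔ : IsPairFamily eH eΓ Δ)
    (hdist : ∀ i j k l η, δ i * Δ j = eH η * (δ k * Δ l) → i = k ∧ j = l) :
    IsPairFamily eH eΓ (fun x : ι × κ => δ x.1 * Δ x.2) where
  inj_e := hΔ.inj_e
  perm := by
    rintro γ ⟨i, j⟩
    refine ⟨(h.nxt (hΔ.cof γ j) i, hΔ.nxt γ j), h.cof (hΔ.cof γ j) i, ?_⟩
    show δ i * Δ j * eΓ γ =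
      eH (h.cof (hΔ.cof γ j) i) * (δ (h.nxt (hΔ.cof γ j) i) * Δ (hΔ.nxt γ j))
    rw [mul_assoc, hΔ.spec γ j, ← mul_assoc, h.spec (hΔ.cof γ j) i, mul_assoc]
  distinct := by
    rintro ⟨i, j⟩ ⟨k, l⟩ η hη
    obtain ⟨h1, h2⟩ := hdist i j k l η hη
    rw [h1, h2]

/-- `Δ j * δ' i` (a pair family times a coset family of `Γ`) is a pair family as soon as its
cosets are pairwise distinct. -/
theorem isPairFamily_mul_right (hΔ : IsPairFamily eH eΓ Δ) (h' : IsCosetFamily eΓ δ')
    (hdist : ∀ j i l k η, Δ j * δ' i = eH η * (Δ l * δ' k) → j = l ∧ i = k) :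
    IsPairFamily eH eΓ (fun x : κ × ι' => Δ x.1 * δ' x.2) where
  inj_e := hΔ.inj_e
  perm := by
    rintro γ ⟨j, i⟩
    refine ⟨(hΔ.nxt (h'.cof γ i) j, h'.nxt γ i), hΔ.cof (h'.cof γ i) j, ?_⟩
    show Δ j * δ' i * eΓ γ =
      eH (hΔ.cof (h'.cof γ i) j) * (Δ (hΔ.nxt (h'.cof γ i) j) * δ' (h'.nxt γ i))
    rw [mul_assoc, h'.spec γ i, ← mul_assoc, hΔ.spec (h'.cof γ i) j, mul_assoc]
  distinct := by
    rintro ⟨j, i⟩ ⟨l, k⟩ η hη
    obtain ⟨h1, h2⟩ := hdist j i l k η hη
    rw [h1, h2]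

variable [Fintype κ] [Fintype ι] [Fintype ι'] {A : Type*} [AddCommGroup A]

/-- The operator of the product family `δ i * Δ j` is `Θ_Δ ∘ T_H`. -/
theorem pairHom_mul_left (h : IsCosetFamily eH δ) (hΔ : IsPairFamily eH eΓ Δ)
    (hQ : IsPairFamily eH eΓ (fun x : ι × κ => δ x.1 * Δ x.2)) (φ : Additive H →+ A) :
    hQ.pairHom φ = hΔ.pairHom (h.heckeHom φ) := by
  refine AddMonoidHom.ext fun γa => ?_
  obtain ⟨γ, rfl⟩ : ∃ γ : Γ, Additive.ofMul γ = γa := ⟨Additive.toMul γa, rfl⟩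
  rw [IsPairFamily.pairHom_apply, IsPairFamily.pairHom_apply]
  have hc : ∀ x : ι × κ, hQ.cof γ x = h.cof (hΔ.cof γ x.2) x.1 := by
    rintro ⟨i, j⟩
    refine hQ.cof_eq (j' := (h.nxt (hΔ.cof γ j) i, hΔ.nxt γ j)) ?_
    show δ i * Δ j * eΓ γ =
      eH (h.cof (hΔ.cof γ j) i) * (δ (h.nxt (hΔ.cof γ j) i) * Δ (hΔ.nxt γ j))
    rw [mul_assoc, hΔ.spec γ j, ← mul_assoc, h.spec (hΔ.cof γ j) i, mul_assoc]
  simp only [hc, IsCosetFamily.heckeHom_apply]
  rw [Fintype.sum_prod_type_right]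

/-- The operator of the product family `Δ j * δ' i` is `T_Γ ∘ Θ_Δ`. -/
theorem pairHom_mul_right (hΔ : IsPairFamily eH eΓ Δ) (h' : IsCosetFamily eΓ δ')
    (hP : IsPairFamily eH eΓ (fun x : κ × ι' => Δ x.1 * δ' x.2)) (φ : Additive H →+ A) :
    hP.pairHom φ = h'.heckeHom (hΔ.pairHom φ) := by
  refine AddMonoidHom.ext fun γa => ?_
  obtain ⟨γ, rfl⟩ : ∃ γ : Γ, Additive.ofMul γ = γa := ⟨Additive.toMul γa, rfl⟩
  rw [IsPairFamily.pairHom_apply, IsCosetFamily.heckeHom_apply]
  have hc : ∀ x : κ × ι', hP.cof γ x = hΔ.cof (h'.cof γ x.2) x.1 := by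
    rintro ⟨j, i⟩
    refine hP.cof_eq (j' := (hΔ.nxt (h'.cof γ i) j, h'.nxt γ i)) ?_
    show Δ j * δ' i * eΓ γ =
      eH (hΔ.cof (h'.cof γ i) j) * (Δ (hΔ.nxt (h'.cof γ i) j) * δ' (h'.nxt γ i))
    rw [mul_assoc, h'.spec γ i, ← mul_assoc, hΔ.spec (h'.cof γ i) j, mul_assoc]
  simp only [hc, IsPairFamily.pairHom_apply]
  rw [Fintype.sum_prod_type_right]

/-- **Commutation, existence form.**  `Θ_Δ ∘ T_H = T_Γ ∘ Θ_Δ` as soon as both product families
have pairwise distinct cosets and every coset `eH H · δ i · Δ j` is a coset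
`eH H · Δ l · δ' k`. -/
theorem pairHom_comm_of_exists (h : IsCosetFamily eH δ) (hΔ : IsPairFamily eH eΓ Δ)
    (h' : IsCosetFamily eΓ δ')
    (hdist : ∀ i j k l η, δ i * Δ j = eH η * (δ k * Δ l) → i = k ∧ j = l)
    (hdist' : ∀ j i l k η, Δ j * δ' i = eH η * (Δ l * δ' k) → j = l ∧ i = k)
    (hcard : Fintype.card ι = Fintype.card ι')
    (hm : ∀ i j, ∃ (l : κ) (k : ι') (η : H), δ i * Δ j = eH η * (Δ l * δ' k))
    (φ : Additive H →+ A) :
    hΔ.pairHom (h.heckeHom φ) = h'.heckeHom (hΔ.pairHom φ) := by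
  have hQ := isPairFamily_mul_left h hΔ hdist
  have hP := isPairFamily_mul_right hΔ h' hdist'
  rw [← pairHom_mul_left h hΔ hQ φ, ← pairHom_mul_right hΔ h' hP φ]
  refine pairHom_eq_of_exists hQ hP ?_ ?_ φ
  · rw [Fintype.card_prod, Fintype.card_prod, hcard, mul_comm]
  · rintro ⟨i, j⟩
    obtain ⟨l, k, η, hη⟩ := hm i j
    exact ⟨(l, k), η, hη⟩

end Product

/-! ### The transfer along a subgroup of finite index -/

section Transfer

variable {Γ G : Type*} [Group Γ] [Group G] (H : Subgroup Γ) (e : Γ →* G)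

/-- The family of the inverses of the chosen representatives of the left cosets of `H`. -/
noncomputable def outFam : Γ ⧸ H → G := fun q => e (q.out)⁻¹

theorem outFam_apply (q : Γ ⧸ H) : outFam H e q = e (q.out)⁻¹ := rfl

theorem out_mul_mem (γ : Γ) (q : Γ ⧸ H) : q.out⁻¹ * γ * (γ⁻¹ • q).out ∈ H := by
  have h1 : ((γ⁻¹ * q.out : Γ) : Γ ⧸ H) = (((γ⁻¹ • q).out : Γ) : Γ ⧸ H) := by
    rw [QuotientGroup.out_eq', ← smul_eq_mul, ← MulAction.Quotient.smul_mk,
      QuotientGroup.out_eq']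
  have h2 := QuotientGroup.eq.mp h1
  rwa [mul_inv_rev, inv_inv] at h2

/-- The inverses of a system of representatives of `Γ ⧸ H` form a pair family for `(H, Γ)`;
its operator is the transfer (`transfer_eq_pairChar`). -/
theorem isPairFamily_outFam (he : Function.Injective e) :
    IsPairFamily (e.comp H.subtype) e (outFam H e) where
  inj_e := he.comp H.subtype_injective
  perm := by
    intro γ q
    refine ⟨γ⁻¹ • q, ⟨q.out⁻¹ * γ * (γ⁻¹ • q).out, out_mul_mem H γ q⟩, ?_⟩
    show e (q.out)⁻¹ * e γ = e (q.out⁻¹ * γ * (γ⁻¹ • q).out) * e ((γ⁻¹ • q).out)⁻¹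
    rw [← map_mul, ← map_mul, mul_assoc, mul_assoc, mul_inv_cancel, mul_one]
  distinct := by
    intro q q' η hη
    have h1 : (q.out)⁻¹ = (η : Γ) * (q'.out)⁻¹ := by
      apply he
      rw [map_mul]
      exact hη
    have h2 : (q'.out)⁻¹ * q.out = ((η : Γ))⁻¹ := by
      rw [← inv_inj, mul_inv_rev, inv_inv, inv_inv, h1, mul_assoc, inv_mul_cancel, mul_one]
    have h3 : ((q'.out : Γ) : Γ ⧸ H) = ((q.out : Γ) : Γ ⧸ H) := by
      rw [QuotientGroup.eq, h2]
      exact H.inv_mem η.2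
    rw [QuotientGroup.out_eq', QuotientGroup.out_eq'] at h3
    exact h3.symm

variable [H.FiniteIndex]

/-- **Mathlib's transfer is the operator of the pair family `outFam`.** -/
theorem transfer_eq_pairChar (he : Function.Injective e) {M : Type*} [CommGroup M]
    (ψ : H →* M) :
    letI := H.fintypeQuotientOfFiniteIndex
    MonoidHom.transfer ψ = (isPairFamily_outFam H e he).pairChar ψ := by
  letI := H.fintypeQuotientOfFiniteIndex
  refine MonoidHom.ext fun γ => ?_
  rw [MonoidHom.transfer_def ψ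
    ⟨Set.range Quotient.out, Subgroup.isComplement_range_left Quotient.out_eq'⟩ γ,
    IsPairFamily.pairChar_apply]
  unfold Subgroup.leftTransversals.diff
  refine Finset.prod_congr rfl fun q _ => ?_
  congr 1
  apply Subtype.ext
  have hc : (isPairFamily_outFam H e he).cof γ q =
      ⟨q.out⁻¹ * γ * (γ⁻¹ • q).out, out_mul_mem H γ q⟩ := by
    refine (isPairFamily_outFam H e he).cof_eq (j' := γ⁻¹ • q) ?_
    show e (q.out)⁻¹ * e γ = e (q.out⁻¹ * γ * (γ⁻¹ • q).out) * e ((γ⁻¹ • q).out)⁻¹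
    rw [← map_mul, ← map_mul, mul_assoc, mul_assoc, mul_inv_cancel, mul_one]
  rw [hc]
  show (_ : Γ)⁻¹ * (_ : Γ) = q.out⁻¹ * γ * (γ⁻¹ • q).out
  rw [Subgroup.smul_apply_eq_smul_apply_inv_smul,
    Subgroup.IsComplement.leftQuotientEquiv_apply Quotient.out_eq',
    Subgroup.IsComplement.leftQuotientEquiv_apply Quotient.out_eq', smul_eq_mul, mul_assoc]

/-- The transfer `Hom(H, A) → Hom(Γ, A)` along a subgroup of finite index, for additive
coefficients: Mathlib's `MonoidHom.transfer` read through `Multiplicative A`. -/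
noncomputable def trHom {A : Type*} [AddCommGroup A] (φ : Additive H →+ A) : Additive Γ →+ A :=
  MonoidHom.toAdditiveLeft (MonoidHom.transfer (AddMonoidHom.toMultiplicativeRight φ))

/-- `trHom` is the operator of the pair family `outFam`. -/
theorem trHom_eq_pairHom (he : Function.Injective e) {A : Type*} [AddCommGroup A]
    (φ : Additive H →+ A) :
    letI := H.fintypeQuotientOfFiniteIndex
    trHom H φ = (isPairFamily_outFam H e he).pairHom φ := by
  letI := H.fintypeQuotientOfFiniteIndex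
  rw [trHom, transfer_eq_pairChar H e he, IsPairFamily.pairChar_toMultiplicative]
  rfl

/-- `trHom` on `toAdditive ψ` is Mathlib's transfer of `ψ`. -/
theorem trHom_toAdditive {M : Type*} [CommGroup M] (ψ : H →* M) :
    trHom H (MonoidHom.toAdditive ψ) = MonoidHom.toAdditive (MonoidHom.transfer ψ) := by
  letI := H.fintypeQuotientOfFiniteIndex
  rw [trHom_eq_pairHom H (MonoidHom.id Γ) Function.injective_id,
    transfer_eq_pairChar H (MonoidHom.id Γ) Function.injective_id,
    IsPairFamily.pairHom_toAdditive]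

theorem trHom_add {A : Type*} [AddCommGroup A] (φ ψ : Additive H →+ A) :
    trHom H (φ + ψ) = trHom H φ + trHom H ψ := by
  letI := H.fintypeQuotientOfFiniteIndex
  simp only [trHom_eq_pairHom H (MonoidHom.id Γ) Function.injective_id]
  exact IsPairFamily.pairHom_add _ φ ψ

/-- Naturality of `trHom` in the coefficient group. -/
theorem trHom_comp {A B : Type*} [AddCommGroup A] [AddCommGroup B] (f : A →+ B)
    (φ : Additive H →+ A) : trHom H (f.comp φ) = f.comp (trHom H φ) := by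
  letI := H.fintypeQuotientOfFiniteIndex
  simp only [trHom_eq_pairHom H (MonoidHom.id Γ) Function.injective_id]
  exact IsPairFamily.pairHom_comp _ f φ

/-- Any complete system `t` of representatives of the cosets `H · t j` computes the transfer:
a pair family `Δ j = e (t j)` with `H.index` members has operator `trHom`. -/
theorem pairHom_eq_trHom (he : Function.Injective e) {κ : Type*} [Fintype κ] (t : κ → Γ)
    (hΔ : IsPairFamily (e.comp H.subtype) e (fun j => e (t j)))
    (hcard : Fintype.card κ = H.index) {A : Type*} [AddCommGroup A] (φ : Additive H →+ A) :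
    hΔ.pairHom φ = trHom H φ := by
  letI := H.fintypeQuotientOfFiniteIndex
  rw [trHom_eq_pairHom H e he]
  refine pairHom_eq_of_exists hΔ (isPairFamily_outFam H e he) ?_ ?_ φ
  · rw [hcard, Subgroup.index_eq_card, Nat.card_eq_fintype_card]
  · intro j
    refine ⟨((t j)⁻¹ : Γ), ⟨t j * (((t j)⁻¹ : Γ) : Γ ⧸ H).out, ?_⟩, ?_⟩
    · have h1 : ((((t j)⁻¹ : Γ) : Γ ⧸ H).out : Γ ⧸ H) = (((t j)⁻¹ : Γ) : Γ ⧸ H) :=
        QuotientGroup.out_eq' _
      have h2 := QuotientGroup.eq.mp h1.symm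
      rwa [inv_inv] at h2
    · show e (t j) = e (t j * (((t j)⁻¹ : Γ) : Γ ⧸ H).out) * e ((((t j)⁻¹ : Γ) : Γ ⧸ H).out)⁻¹
      rw [← map_mul, mul_assoc, mul_inv_cancel, mul_one]

end Transfer

/-! ### The transfer commutes with Hecke operators -/

section SubgroupComm

variable {Γ G : Type*} [Group Γ] [Group G] (H : Subgroup Γ) [H.FiniteIndex] {e : Γ →* G}
  {ι : Type*} [Fintype ι] {δ : ι → G}

/-- **The transfer along `H ≤ Γ` commutes with the Hecke operators of a family `δ`** which is a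
coset family for `Γ` and for `H`, provided `δ i * e u = e η * δ k` with `η ∈ H` forces `u ∈ H`
(additive coefficients). -/
theorem trHom_heckeHom (hΓ : IsCosetFamily e δ) (hH : IsCosetFamily (e.comp H.subtype) δ)
    (hrefl : ∀ (u : Γ) (i k : ι) (η : H), δ i * e u = e (η : Γ) * δ k → u ∈ H)
    {A : Type*} [AddCommGroup A] (φ : Additive H →+ A) :
    trHom H (hH.heckeHom φ) = hΓ.heckeHom (trHom H φ) := by
  letI := H.fintypeQuotientOfFiniteIndex
  have he := hΓ.inj_e
  rw [trHom_eq_pairHom H e he, trHom_eq_pairHom H e he]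
  refine pairHom_comm_of_exists hH (isPairFamily_outFam H e he) hΓ ?_ ?_ rfl ?_ φ
  · intro i q k q' η hη
    have h0 : δ i * e (q.out)⁻¹ = e (η : Γ) * (δ k * e (q'.out)⁻¹) := hη
    have h1 : δ i * e (q.out⁻¹ * q'.out) = e (η : Γ) * δ k := by
      rw [map_mul, ← mul_assoc, h0, mul_assoc, mul_assoc, ← map_mul, inv_mul_cancel, map_one,
        mul_one]
    have h2 : q.out⁻¹ * q'.out ∈ H := hrefl _ i k η h1
    have hq : q = q' := by
      have h3 := QuotientGroup.eq.mpr h2
      rwa [QuotientGroup.out_eq', QuotientGroup.out_eq'] at h3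
    subst hq
    refine ⟨hH.distinct i k η ?_, rfl⟩
    rw [← mul_assoc] at h0
    exact mul_right_cancel h0
  · intro q i q' k η hη
    have h0 : e (q.out)⁻¹ * δ i = e (η : Γ) * (e (q'.out)⁻¹ * δ k) := hη
    have h1 : δ i = e (q.out * η * (q'.out)⁻¹) * δ k := by
      rw [map_mul, map_mul, mul_assoc, mul_assoc, ← h0, ← mul_assoc, ← map_mul, mul_inv_cancel,
        map_one, one_mul]
    have hik : i = k := hΓ.distinct i k _ h1
    subst hik
    have h3 : e (q.out * η * (q'.out)⁻¹) = 1 := by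
      have h2 : (1 : G) * δ i = e (q.out * η * (q'.out)⁻¹) * δ i := by rw [one_mul]; exact h1
      exact (mul_right_cancel h2).symm
    have h4 : q.out * η * (q'.out)⁻¹ = 1 := he (by rw [h3, map_one])
    have h5 : q.out⁻¹ * q'.out = η := by
      have h6 : q.out * η = q'.out := mul_inv_eq_one.mp h4
      rw [← h6, inv_mul_cancel_left]
    refine ⟨?_, rfl⟩
    have h7 := QuotientGroup.eq.mpr (show q.out⁻¹ * q'.out ∈ H by rw [h5]; exact η.2)
    rwa [QuotientGroup.out_eq', QuotientGroup.out_eq'] at h7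
  · intro i q
    refine ⟨(((hΓ.cof (q.out)⁻¹ i)⁻¹ : Γ) : Γ ⧸ H), hΓ.nxt (q.out)⁻¹ i,
      ⟨hΓ.cof (q.out)⁻¹ i * (((hΓ.cof (q.out)⁻¹ i)⁻¹ : Γ) : Γ ⧸ H).out, ?_⟩, ?_⟩
    · have h1 : (((((hΓ.cof (q.out)⁻¹ i)⁻¹ : Γ) : Γ ⧸ H).out : Γ) : Γ ⧸ H) =
          (((hΓ.cof (q.out)⁻¹ i)⁻¹ : Γ) : Γ ⧸ H) := QuotientGroup.out_eq' _
      have h2 := QuotientGroup.eq.mp h1.symm
      rwa [inv_inv] at h2
    · show δ i * e (q.out)⁻¹ =
        e (hΓ.cof (q.out)⁻¹ i * (((hΓ.cof (q.out)⁻¹ i)⁻¹ : Γ) : Γ ⧸ H).out) *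
          (e ((((hΓ.cof (q.out)⁻¹ i)⁻¹ : Γ) : Γ ⧸ H).out)⁻¹ * δ (hΓ.nxt (q.out)⁻¹ i))
      rw [hΓ.spec, ← mul_assoc, ← map_mul, mul_assoc, mul_inv_cancel, mul_one]

/-- **The transfer along `H ≤ Γ` commutes with the Hecke operators** (multiplicative
coefficients, Mathlib's `MonoidHom.transfer`). -/
theorem transfer_heckeChar (hΓ : IsCosetFamily e δ) (hH : IsCosetFamily (e.comp H.subtype) δ)
    (hrefl : ∀ (u : Γ) (i k : ι) (η : H), δ i * e u = e (η : Γ) * δ k → u ∈ H)
    {M : Type*} [CommGroup M] (ψ : H →* M) :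
    MonoidHom.transfer (Fermat.Agent.Lib.TransferChar.heckeChar hH ψ) =
      Fermat.Agent.Lib.TransferChar.heckeChar hΓ (MonoidHom.transfer ψ) := by
  apply MonoidHom.toAdditive.injective
  rw [← trHom_toAdditive, ← Fermat.Agent.Lib.TransferChar.heckeHom_toAdditive,
    ← Fermat.Agent.Lib.TransferChar.heckeHom_toAdditive, ← trHom_toAdditive]
  exact trHom_heckeHom H hΓ hH hrefl _

end SubgroupComm

/-! ### Transport of a coset family along a group isomorphism -/

section Transport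

variable {H Γ G : Type*} [Group H] [Group Γ] [Group G] {ι : Type*} {e : Γ →* G} {δ : ι → G}

/-- A coset family for `Γ` is a coset family for every group `H ≃* Γ`. -/
theorem isCosetFamily_of_equiv (h : IsCosetFamily e δ) (f : H ≃* Γ) (e' : H →* G)
    (he' : ∀ x, e' x = e (f x)) : IsCosetFamily e' δ where
  inj_e := fun a b hab => f.injective (h.inj_e (by rw [← he', ← he', hab]))
  perm := fun γ i => by
    obtain ⟨j, γ', hγ'⟩ := h.perm (f γ) i
    exact ⟨j, f.symm γ', by rw [he', he', f.apply_symm_apply]; exact hγ'⟩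
  distinct := fun i j γ hγ => h.distinct i j (f γ) (by rw [← he']; exact hγ)

theorem cof_of_equiv (h : IsCosetFamily e δ) (f : H ≃* Γ) (e' : H →* G)
    (he' : ∀ x, e' x = e (f x)) (h' : IsCosetFamily e' δ) (γ : H) (i : ι) :
    f (h'.cof γ i) = h.cof (f γ) i := by
  refine (h.cof_eq (j := h'.nxt γ i) ?_).symm
  have h1 := h'.spec γ i
  rw [he', he'] at h1
  exact h1

variable [Fintype ι]

theorem heckeChar_of_equiv (h : IsCosetFamily e δ) (f : H ≃* Γ) (e' : H →* G)
    (he' : ∀ x, e' x = e (f x)) (h' : IsCosetFamily e' δ) {M : Type*} [CommGroup M]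
    (ψ : Γ →* M) :
    Fermat.Agent.Lib.TransferChar.heckeChar h' (ψ.comp f.toMonoidHom) =
      (Fermat.Agent.Lib.TransferChar.heckeChar h ψ).comp f.toMonoidHom := by
  refine MonoidHom.ext fun γ => ?_
  show ∏ i, ψ (f (h'.cof γ i)) = ∏ i, ψ (h.cof (f γ) i)
  exact Finset.prod_congr rfl fun i _ => by rw [cof_of_equiv h f e' he' h']

theorem heckeHom_of_equiv (h : IsCosetFamily e δ) (f : H ≃* Γ) (e' : H →* G)
    (he' : ∀ x, e' x = e (f x)) (h' : IsCosetFamily e' δ) {A : Type*} [AddCommGroup A]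
    (φ : Additive Γ →+ A) :
    h'.heckeHom (φ.comp (MonoidHom.toAdditive f.toMonoidHom)) =
      (h.heckeHom φ).comp (MonoidHom.toAdditive f.toMonoidHom) := by
  refine AddMonoidHom.ext fun γa => ?_
  obtain ⟨γ, rfl⟩ : ∃ γ : H, Additive.ofMul γ = γa := ⟨Additive.toMul γa, rfl⟩
  show ∑ i, φ (Additive.ofMul (f (h'.cof γ i))) = ∑ i, φ (Additive.ofMul (h.cof (f γ) i))
  exact Finset.sum_congr rfl fun i _ => by rw [cof_of_equiv h f e' he' h']

end Transport

end Fermat.Agent.S35.PairFamily
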