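import Mathlib
import Fermat.Agent.S35.PairFamily
import Fermat.Agent.Lib.HeckeHomComm
import Fermat.Agent.P5.HeckeKappa.Plan
import Fermat.Agent.P5.Per.Basic

/-!
# S35 / [COH-DEGEN] (helper37): the transfer `Γ₀(M') → Γ₀(M)` commutes with `T^coh_ℓ`

`Γ₀(M') ≤ Γ₀(M)` (e.g. `M' = M * q`), `ℓ` a prime with `ℓ ∤ M'` (hence `ℓ ∤ M` when `M ∣ M'`).
The transfer (corestriction) `Hom(Γ₀(M'), A) → Hom(Γ₀(M), A)` along `Γ₀(M') ≤ Γ₀(M)` commutes
with the cohomological Hecke operators `T^coh_ℓ` of the two levels: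

* `transfer_heckeChar_Gamma0`, `transfer_tcohChar` — multiplicative coefficients, Mathlib's
  `MonoidHom.transfer` along `(Gamma0 M').subgroupOf (Gamma0 M)`;
* `trHom_heckeHom_Gamma0`, `trHom_tcoh` — additive coefficients (`Per.tcoh`), with the additive
  transfer `PairFamily.trHom`.

Proof: `PairFamily.transfer_heckeChar` for the family `heckeRep ℓ`, which is a coset family at
both levels; the reflection hypothesis is `mem_Gamma0_of_heckeRep_mul`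
(`R_i u = η R_k`, `η ∈ Γ₀(M')`, `ℓ ∤ M'` `⇒` `u ∈ Γ₀(M')`: compare the lower left entries).
-/

set_option autoImplicit false
set_option linter.style.haveILetI false

noncomputable section

namespace Fermat.Agent.S35.CohDegen

open CongruenceSubgroup Matrix.SpecialLinearGroup
open Fermat.Agent.Lib.HeckeHom Fermat.Agent.Lib.HeckePeriod Fermat.Agent.Lib.HeckeHomGL
open Fermat.Agent.Lib.HeckeHomComm Fermat.Agent.Lib.TransferChar
open Fermat.Agent.S35.PairFamily Fermat.Agent.P5.HeckeKappa Fermat.Agent.P5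
open P2MW.S_ModularForm_heckeT_slash_eq_self_of_mem_Gamma0.ModularForm.HeckeSlashInvariance
open scoped MatrixGroups

/-- **Reflection.**  If `R_i · u = η · R_k` with `R` the standard representatives of `T_ℓ`,
`η ∈ Γ₀(M')` and `ℓ ∤ M'`, then `u ∈ Γ₀(M')`. -/
theorem mem_Gamma0_of_heckeRep_mul {M' ℓ : ℕ} [Fact ℓ.Prime] (hℓM' : ¬ ℓ ∣ M')
    (u η : SL(2, ℤ)) (hη : η ∈ Gamma0 M') (i k : OnePoint (ZMod ℓ))
    (h : heckeRep ℓ i * mapGL ℝ u = mapGL ℝ η * heckeRep ℓ k) : u ∈ Gamma0 M' := by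
  have hM : ((heckeRep ℓ i : GL (Fin 2) ℝ) : Matrix (Fin 2) (Fin 2) ℝ) *
      ((mapGL ℝ u : GL (Fin 2) ℝ) : Matrix (Fin 2) (Fin 2) ℝ) =
      ((mapGL ℝ η : GL (Fin 2) ℝ) : Matrix (Fin 2) (Fin 2) ℝ) *
        ((heckeRep ℓ k : GL (Fin 2) ℝ) : Matrix (Fin 2) (Fin 2) ℝ) := by
    rw [← Units.val_mul, ← Units.val_mul, h]
  rw [(isUT_heckeRep ℓ i).val, (isUT_heckeRep ℓ k).val, coe_mapGL, coe_mapGL] at hM
  have e10 := congrFun (congrFun hM 1) 0
  simp [Matrix.mul_apply, Fin.sum_univ_two] at e10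
  have i10 : dT ℓ i * u 1 0 = η 1 0 * aT ℓ k := by exact_mod_cast e10
  have hηd : (M' : ℤ) ∣ η 1 0 := (ZMod.intCast_zmod_eq_zero_iff_dvd _ _).mp (Gamma0_mem.mp hη)
  have hd : (M' : ℤ) ∣ dT ℓ i * u 1 0 := by
    rw [i10]
    exact Dvd.dvd.mul_right hηd _
  have hcop : IsCoprime (M' : ℤ) (dT ℓ i) := by
    have h1 : IsCoprime (M' : ℤ) (ℓ : ℤ) := by
      rw [Nat.isCoprime_iff_coprime]
      exact (Nat.Coprime.symm ((Nat.Prime.coprime_iff_not_dvd Fact.out).mpr hℓM'))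
    exact h1.of_isCoprime_of_dvd_right (dT_dvd ℓ i)
  exact Gamma0_mem.mpr ((ZMod.intCast_zmod_eq_zero_iff_dvd _ _).mpr (hcop.dvd_of_dvd_mul_left hd))

section Levels

variable {M M' : ℕ} (hle : Gamma0 M' ≤ Gamma0 M) {ℓ : ℕ} [Fact ℓ.Prime]

include hle in
/-- The family `heckeRep ℓ` is a coset family for `Γ₀(M')` seen as a subgroup of `Γ₀(M)`. -/
theorem isCosetFamily_sub (hℓM' : ¬ ℓ ∣ M') :
    IsCosetFamily ((eG M).comp ((Gamma0 M').subgroupOf (Gamma0 M)).subtype) (heckeRep ℓ) :=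
  isCosetFamily_of_equiv (isCosetFamily_heckeRep M' ℓ hℓM') (Subgroup.subgroupOfEquivOfLe hle)
    _ (fun _ => rfl)

theorem reflection (hℓM' : ¬ ℓ ∣ M') (u : ↥(Gamma0 M)) (i k : OnePoint (ZMod ℓ))
    (η : ↥((Gamma0 M').subgroupOf (Gamma0 M)))
    (h : heckeRep ℓ i * eG M u = eG M (η : ↥(Gamma0 M)) * heckeRep ℓ k) :
    u ∈ (Gamma0 M').subgroupOf (Gamma0 M) :=
  Subgroup.mem_subgroupOf.mpr
    (mem_Gamma0_of_heckeRep_mul hℓM' (u : SL(2, ℤ)) ((η : ↥(Gamma0 M)) : SL(2, ℤ))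
      (Subgroup.mem_subgroupOf.mp η.2) i k h)

variable [NeZero M']

/-- **[COH-DEGEN], multiplicative form, any coefficient group.**  The transfer along
`Γ₀(M') ≤ Γ₀(M)` intertwines the Hecke operators `T_ℓ` (`ℓ ∤ M'`, `ℓ ∤ M`) of the two levels. -/
theorem transfer_heckeChar_Gamma0 (hℓM : ¬ ℓ ∣ M) (hℓM' : ¬ ℓ ∣ M') {X : Type*} [CommGroup X]
    (ψ : ↥(Gamma0 M') →* X) :
    MonoidHom.transfer
        ((heckeChar (isCosetFamily_heckeRep M' ℓ hℓM') ψ).comp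
          (Subgroup.subgroupOfEquivOfLe hle).toMonoidHom) =
      heckeChar (isCosetFamily_heckeRep M ℓ hℓM)
        (MonoidHom.transfer (ψ.comp (Subgroup.subgroupOfEquivOfLe hle).toMonoidHom)) := by
  rw [← heckeChar_of_equiv (isCosetFamily_heckeRep M' ℓ hℓM') (Subgroup.subgroupOfEquivOfLe hle)
    _ (fun _ => rfl) (isCosetFamily_sub hle hℓM') ψ]
  exact transfer_heckeChar ((Gamma0 M').subgroupOf (Gamma0 M)) (isCosetFamily_heckeRep M ℓ hℓM)
    (isCosetFamily_sub hle hℓM') (reflection hℓM') _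

/-- **[COH-DEGEN], additive form, any coefficient group.** -/
theorem trHom_heckeHom_Gamma0 (hℓM : ¬ ℓ ∣ M) (hℓM' : ¬ ℓ ∣ M') {A : Type*} [AddCommGroup A]
    (φ : Additive ↥(Gamma0 M') →+ A) :
    trHom ((Gamma0 M').subgroupOf (Gamma0 M))
        (((isCosetFamily_heckeRep M' ℓ hℓM').heckeHom φ).comp
          (MonoidHom.toAdditive (Subgroup.subgroupOfEquivOfLe hle).toMonoidHom)) =
      (isCosetFamily_heckeRep M ℓ hℓM).heckeHom
        (trHom ((Gamma0 M').subgroupOf (Gamma0 M))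
          (φ.comp (MonoidHom.toAdditive (Subgroup.subgroupOfEquivOfLe hle).toMonoidHom))) := by
  rw [← heckeHom_of_equiv (isCosetFamily_heckeRep M' ℓ hℓM') (Subgroup.subgroupOfEquivOfLe hle)
    _ (fun _ => rfl) (isCosetFamily_sub hle hℓM') φ]
  exact trHom_heckeHom ((Gamma0 M').subgroupOf (Gamma0 M)) (isCosetFamily_heckeRep M ℓ hℓM)
    (isCosetFamily_sub hle hℓM') (reflection hℓM') _

end Levels

/-! ### The statements in the vocabulary of `P5/HeckeKappa` and `P5/Per` -/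

section Final

variable {M M' : ℕ} [NeZero M'] (hle : Gamma0 M' ≤ Gamma0 M)

/-- The transfer `Hom(Γ₀(M'), X) → Hom(Γ₀(M), X)` (multiplicative coefficients): Mathlib's
transfer along `(Gamma0 M').subgroupOf (Gamma0 M)`. -/
def trA {X : Type*} [CommGroup X] (ψ : ↥(Gamma0 M') →* X) : ↥(Gamma0 M) →* X :=
  MonoidHom.transfer (ψ.comp (Subgroup.subgroupOfEquivOfLe hle).toMonoidHom)

/-- The transfer `Hom(Γ₀(M'), A) → Hom(Γ₀(M), A)` (additive coefficients). -/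
def trAHom {A : Type*} [AddCommGroup A] (φ : Additive ↥(Gamma0 M') →+ A) :
    Additive ↥(Gamma0 M) →+ A :=
  trHom ((Gamma0 M').subgroupOf (Gamma0 M))
    (φ.comp (MonoidHom.toAdditive (Subgroup.subgroupOfEquivOfLe hle).toMonoidHom))

theorem trA_def {X : Type*} [CommGroup X] (ψ : ↥(Gamma0 M') →* X) :
    trA hle ψ = MonoidHom.transfer (ψ.comp (Subgroup.subgroupOfEquivOfLe hle).toMonoidHom) := rfl

/-- `trAHom` is `trA` read through `Additive`. -/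
theorem trAHom_toAdditive {X : Type*} [CommGroup X] (ψ : ↥(Gamma0 M') →* X) :
    trAHom hle (MonoidHom.toAdditive ψ) = MonoidHom.toAdditive (trA hle ψ) := by
  have h1 : (MonoidHom.toAdditive ψ).comp
      (MonoidHom.toAdditive (Subgroup.subgroupOfEquivOfLe hle).toMonoidHom) =
      MonoidHom.toAdditive (ψ.comp (Subgroup.subgroupOfEquivOfLe hle).toMonoidHom) := rfl
  unfold trAHom trA
  rw [h1]
  exact trHom_toAdditive ((Gamma0 M').subgroupOf (Gamma0 M)) _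

theorem trAHom_add {A : Type*} [AddCommGroup A] (φ ψ : Additive ↥(Gamma0 M') →+ A) :
    trAHom hle (φ + ψ) = trAHom hle φ + trAHom hle ψ := by
  unfold trAHom
  rw [AddMonoidHom.add_comp, trHom_add]

/-- Naturality of `trAHom` in the coefficient group. -/
theorem trAHom_comp {A B : Type*} [AddCommGroup A] [AddCommGroup B] (f : A →+ B)
    (φ : Additive ↥(Gamma0 M') →+ A) : trAHom hle (f.comp φ) = f.comp (trAHom hle φ) := by
  unfold trAHom
  rw [AddMonoidHom.comp_assoc, trHom_comp]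

/-- **[COH-DEGEN] for `tcohChar`** (`ℂˣ`-valued characters, block [HECKE-κ]):
`trA (T^coh_ℓ ψ) = T^coh_ℓ (trA ψ)`. -/
theorem transfer_tcohChar {ℓ : ℕ} (hℓ : ℓ.Prime) (hℓM : ¬ ℓ ∣ M) (hℓM' : ¬ ℓ ∣ M')
    (ψ : ↥(Gamma0 M') →* ℂˣ) :
    trA hle (tcohChar M' hℓ hℓM' ψ) = tcohChar M hℓ hℓM (trA hle ψ) := by
  haveI : Fact ℓ.Prime := ⟨hℓ⟩
  exact transfer_heckeChar_Gamma0 hle hℓM hℓM' ψ

/-- **[COH-DEGEN] for `Per.tcoh`** (additive coefficients, block [PER]):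
`trAHom (T^coh_ℓ φ) = T^coh_ℓ (trAHom φ)`. -/
theorem trHom_tcoh {ℓ : ℕ} (hℓ : ℓ.Prime) (hℓM : ¬ ℓ ∣ M) (hℓM' : ¬ ℓ ∣ M') {A : Type*}
    [AddCommGroup A] (φ : Additive ↥(Gamma0 M') →+ A) :
    trAHom hle (Per.tcoh M' hℓ hℓM' A φ) = Per.tcoh M hℓ hℓM A (trAHom hle φ) := by
  haveI : Fact ℓ.Prime := ⟨hℓ⟩
  exact trHom_heckeHom_Gamma0 hle hℓM hℓM' φ

end Final

end Fermat.Agent.S35.CohDegen

end
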