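/-
P6 / S35 — leaf [KPUSH] (helper97): **the Kummer relation and the degeneracy push-forward `α_*`.**

`q` prime, `q ∤ M`; `α = heckeAlphaBar Kbar M q : F_M → F_{Mq}` (the inclusion of function
fields, i.e. the degeneracy map `X₀(Mq) → X₀(M)`, `τ ↦ τ`).

* `prodT`, `prodT_smul`          : abstract transfer for semi-invariants of a contravariant action,
                                   in the vocabulary of Mathlib's `MonoidHom.transfer`;
* `trA M q hq hqM ψ`             : the transfer `Hom(Γ₀(Mq), A) → Hom(Γ₀(M), A)` (Mathlib's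
                                   `MonoidHom.transfer` along `Γ₀(Mq) ≤ Γ₀(M)`), natural in `A`;
* `isKummerDatum_pushA`          : a Kummer datum `(D, f, G, ψ)` of level `Mq` gives the Kummer
                                   datum `(α_* D, Norm_α f, ∏ G ∘ γ⁻¹, trA ψ)` of level `M`;
* `kummerRel_pushA`              : for any map `pA` on classes with the `mk`-formula of `α_*`:
                                   `KummerRel (realQ (M*q)) n x ψ → KummerRel (realQ M) n (pA x) (trA ψ)`.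
-/
import Mathlib
import Fermat.Agent.P5.HeckeKappa.Unfold
import Fermat.Agent.P5.Kappa.AmbientBridge
import Fermat.Agent.Lib.NormOnH
import Fermat.Agent.S37.HeckeInputs

set_option autoImplicit false
set_option linter.style.haveILetI false

noncomputable section

namespace Fermat.Agent.S35.KPush

open UpperHalfPlane CongruenceSubgroup ModularCurve AlgebraicCurve
open Fermat.Agent.Lib Fermat.Agent.Lib.HolVal Fermat.Agent.S24
open Fermat.Agent.P5.HeckeKappa Fermat.Agent.P5
open Fermat.Agent.S37.HeckeInputs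
open scoped MatrixGroups Manifold

/-! ### Abstract transfer for semi-invariants -/

section Abstract

open Subgroup Subgroup.leftTransversals

variable {G : Type*} [Group G] {H : Subgroup G} [H.FiniteIndex] {A : Type*} [CommGroup A]
variable {K : Type*} [CommMonoid K]

/-- The product of the translates `P t⁻¹ F` over a left transversal `T` of `H` in `G`. -/
def prodT (P : G → K →* K) (F : K) (T : H.LeftTransversal) : K :=
  letI := H.fintypeQuotientOfFiniteIndex
  ∏ x : G ⧸ H, P ((T.2.leftQuotientEquiv x : G)⁻¹) F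

variable (P : G → K →* K) (hP : ∀ (a b : G) (m : K), P (a * b) m = P b (P a m))
  (c : A →* K) (hc : ∀ (g : G) (a : A), P g (c a) = c a)
  (ψ : H →* A) (F : K) (hF : ∀ h : H, P (h : G) F = c (ψ h) * F)

include hP hc hF in
/-- Change of transversal. -/
theorem prodT_eq_diff_mul (S T : H.LeftTransversal) :
    prodT P F S = c (diff ψ S T) * prodT P F T := by
  letI := H.fintypeQuotientOfFiniteIndex
  show ∏ x : G ⧸ H, P ((S.2.leftQuotientEquiv x : G)⁻¹) F =
    c (∏ x : G ⧸ H, ψ ⟨(S.2.leftQuotientEquiv x : G)⁻¹ * T.2.leftQuotientEquiv x, _⟩) *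
      ∏ x : G ⧸ H, P ((T.2.leftQuotientEquiv x : G)⁻¹) F
  rw [map_prod, ← Finset.prod_mul_distrib]
  refine Finset.prod_congr rfl fun x _ => ?_
  have hmem : (S.2.leftQuotientEquiv x : G)⁻¹ * T.2.leftQuotientEquiv x ∈ H :=
    QuotientGroup.leftRel_apply.mp <| Quotient.exact'
      ((S.2.leftQuotientEquiv.symm_apply_apply x).trans
        (T.2.leftQuotientEquiv.symm_apply_apply x).symm)
  have h1 : ((S.2.leftQuotientEquiv x : G)⁻¹) =
      ((S.2.leftQuotientEquiv x : G)⁻¹ * T.2.leftQuotientEquiv x) *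
        (T.2.leftQuotientEquiv x : G)⁻¹ := by
    rw [mul_assoc, mul_inv_cancel, mul_one]
  have h2 := hF ⟨_, hmem⟩
  calc P ((S.2.leftQuotientEquiv x : G)⁻¹) F
      = P (((S.2.leftQuotientEquiv x : G)⁻¹ * T.2.leftQuotientEquiv x) *
          (T.2.leftQuotientEquiv x : G)⁻¹) F := congrArg (fun g => P g F) h1
    _ = P ((T.2.leftQuotientEquiv x : G)⁻¹)
          (P ((S.2.leftQuotientEquiv x : G)⁻¹ * T.2.leftQuotientEquiv x) F) := hP _ _ _
    _ = P ((T.2.leftQuotientEquiv x : G)⁻¹) (c (ψ ⟨_, hmem⟩) * F) := by rw [← h2]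
    _ = c (ψ ⟨_, hmem⟩) * P ((T.2.leftQuotientEquiv x : G)⁻¹) F := by rw [map_mul, hc]

include hP in
/-- Translation of the product by `g` is the product over the translated transversal. -/
theorem map_prodT (g : G) (T : H.LeftTransversal) :
    P g (prodT P F T) = prodT P F (g⁻¹ • T) := by
  letI := H.fintypeQuotientOfFiniteIndex
  show P g (∏ x : G ⧸ H, P ((T.2.leftQuotientEquiv x : G)⁻¹) F) =
    ∏ x : G ⧸ H, P (((g⁻¹ • T).2.leftQuotientEquiv x : G)⁻¹) F
  rw [map_prod]
  refine (Fintype.prod_equiv (MulAction.toPerm g⁻¹) _ _ fun x => ?_)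
  rw [← hP, smul_apply_eq_smul_apply_inv_smul]
  simp [mul_inv_rev]

include hP hc hF in
/-- **Transfer for semi-invariants**: `P g (∏_T P t⁻¹ F) = c (transfer ψ g) * ∏_T P t⁻¹ F`. -/
theorem map_prodT_eq_transfer (g : G) (T : H.LeftTransversal) :
    P g (prodT P F T) = c (MonoidHom.transfer ψ g) * prodT P F T := by
  rw [map_prodT P hP F g T, prodT_eq_diff_mul P hP c hc ψ F hF (g⁻¹ • T) T,
    MonoidHom.transfer_def ψ T g, ← smul_diff_smul ψ (g⁻¹ • T) T g, smul_inv_smul]

/-- Naturality of the transfer in the coefficient group. -/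
theorem transfer_comp {B : Type*} [CommGroup B] (f : A →* B) (ψ : H →* A) :
    MonoidHom.transfer (f.comp ψ) = f.comp (MonoidHom.transfer ψ) := by
  refine MonoidHom.ext fun g => ?_
  letI := H.fintypeQuotientOfFiniteIndex
  rw [MonoidHom.transfer_def (f.comp ψ) default g, MonoidHom.comp_apply,
    MonoidHom.transfer_def ψ default g]
  show ∏ x : G ⧸ H, f (ψ _) = f (∏ x : G ⧸ H, ψ _)
  rw [map_prod]

end Abstract

/-! ### The transfer along `Γ₀(Mq) ≤ Γ₀(M)` -/

section Transfer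

variable (M q : ℕ)

theorem gamma0_mul_le : Gamma0 (M * q) ≤ Gamma0 M := by
  intro γ hγ
  rw [Gamma0_mem, ZMod.intCast_zmod_eq_zero_iff_dvd] at hγ ⊢
  exact dvd_trans (by push_cast; exact dvd_mul_right _ _) hγ

/-- `Γ₀(Mq)` as a subgroup of the group `Γ₀(M)`. -/
abbrev subH : Subgroup ↥(Gamma0 M) := (Gamma0 (M * q)).subgroupOf (Gamma0 M)

/-- The identification of `subH M q` with `Γ₀(Mq)`. -/
def resH : ↥(subH M q) →* ↥(Gamma0 (M * q)) :=
  (Subgroup.subgroupOfEquivOfLe (gamma0_mul_le M q)).toMonoidHom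

theorem coe_resH (h : ↥(subH M q)) :
    ((resH M q h : ↥(Gamma0 (M * q))) : SL(2, ℤ)) = ((h : ↥(Gamma0 M)) : SL(2, ℤ)) := rfl

variable [NeZero M]

theorem index_subH (hq : q.Prime) (hqM : ¬ q ∣ M) : (subH M q).index = q + 1 := by
  haveI : Fact q.Prime := ⟨hq⟩
  have h := Fermat.Agent.Lib.Gamma0Count.relIndex_of_not_dvd (NeZero.ne M) hqM
  rw [mul_comm q M] at h
  exact h

theorem finiteIndex_subH (hq : q.Prime) (hqM : ¬ q ∣ M) : (subH M q).FiniteIndex :=
  ⟨by rw [index_subH M q hq hqM]; omega⟩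

/-- **The transfer** `Hom(Γ₀(Mq), A) → Hom(Γ₀(M), A)` (`q` prime, `q ∤ M`): Mathlib's
`MonoidHom.transfer` along `Γ₀(Mq) ≤ Γ₀(M)`. -/
def trA {A : Type*} [CommGroup A] (hq : q.Prime) (hqM : ¬ q ∣ M)
    (ψ : ↥(Gamma0 (M * q)) →* A) : ↥(Gamma0 M) →* A :=
  haveI := finiteIndex_subH M q hq hqM
  MonoidHom.transfer (ψ.comp (resH M q))

theorem trA_def {A : Type*} [CommGroup A] (hq : q.Prime) (hqM : ¬ q ∣ M)
    (ψ : ↥(Gamma0 (M * q)) →* A) :
    trA M q hq hqM ψ =
      (haveI := finiteIndex_subH M q hq hqM; MonoidHom.transfer (ψ.comp (resH M q))) := rfl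

/-- Naturality of `trA` in the coefficient group. -/
theorem trA_comp {A B : Type*} [CommGroup A] [CommGroup B] (hq : q.Prime) (hqM : ¬ q ∣ M)
    (f : A →* B) (ψ : ↥(Gamma0 (M * q)) →* A) :
    trA M q hq hqM (f.comp ψ) = f.comp (trA M q hq hqM ψ) := by
  haveI := finiteIndex_subH M q hq hqM
  exact transfer_comp f (ψ.comp (resH M q))

theorem trA_one {A : Type*} [CommGroup A] (hq : q.Prime) (hqM : ¬ q ∣ M) :
    trA M q hq hqM (1 : ↥(Gamma0 (M * q)) →* A) = 1 := by
  haveI := finiteIndex_subH M q hq hqM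
  have h := trA_comp M q hq hqM (1 : Unit →* A) (1 : ↥(Gamma0 (M * q)) →* Unit)
  rw [MonoidHom.one_comp, MonoidHom.one_comp] at h
  exact h

end Transfer

/-! ### The Kummer datum of `α_* D` -/

section Pre

variable (M : ℕ)

/-- `F ↦ F ∘ g` on `Mer(ℍ)` for `g ∈ Γ₀(M)`, as a monoid hom. -/
def preM (g : ↥(Gamma0 M)) : MerH →* MerH := (pre (slp (g : SL(2, ℤ)))).toRingHom.toMonoidHom

theorem preM_apply (g : ↥(Gamma0 M)) (m : MerH) : preM M g m = pre (slp (g : SL(2, ℤ))) m := rfl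

theorem preM_mul (a b : ↥(Gamma0 M)) (m : MerH) : preM M (a * b) m = preM M b (preM M a m) := by
  rw [preM_apply, preM_apply, preM_apply]
  show pre (slp ((a : SL(2, ℤ)) * (b : SL(2, ℤ)))) m = _
  rw [map_mul, pre_mul]

/-- The constants `ℂˣ → Mer(ℍ)`. -/
def cstU : ℂˣ →* MerH := (cstM : ℂ →+* MerH).toMonoidHom.comp (Units.coeHom ℂ)

theorem cstU_apply (u : ℂˣ) : cstU u = cstM ((u : ℂˣ) : ℂ) := rfl

theorem preM_cstU (g : ↥(Gamma0 M)) (u : ℂˣ) : preM M g (cstU u) = cstU u := by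
  rw [preM_apply, cstU_apply, pre_cstM]

end Pre

section Root

variable (M q : ℕ) [NeZero M]

/-- The root of the norm: the product of the translates of `G` over a left transversal of
`Γ₀(Mq)` in `Γ₀(M)`. -/
def rootA (hq : q.Prime) (hqM : ¬ q ∣ M) (G : MerH) (T : (subH M q).LeftTransversal) : MerH :=
  haveI := finiteIndex_subH M q hq hqM
  prodT (preM M) G T

/-- **The transfer of a semi-invariant.** -/
theorem pre_rootA (hq : q.Prime) (hqM : ¬ q ∣ M) (G : MerH) (ψ : ↥(Gamma0 (M * q)) →* ℂˣ)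
    (hG : ∀ γ : ↥(Gamma0 (M * q)), pre (slp (γ : SL(2, ℤ))) G = cstM ((ψ γ : ℂˣ) : ℂ) * G)
    (T : (subH M q).LeftTransversal) (γ : ↥(Gamma0 M)) :
    pre (slp (γ : SL(2, ℤ))) (rootA M q hq hqM G T) =
      cstM ((trA M q hq hqM ψ γ : ℂˣ) : ℂ) * rootA M q hq hqM G T := by
  haveI := finiteIndex_subH M q hq hqM
  exact map_prodT_eq_transfer (preM M) (preM_mul M) cstU (preM_cstU M) (ψ.comp (resH M q)) G
    (fun h => hG (resH M q h)) γ T

end Root

section Alpha

variable (M q : ℕ) [NeZero M] [NeZero q]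

/-- **The norm along `α` on `ℍ`, over a left transversal.** -/
theorem E_norm_alpha (hq : q.Prime) (hqM : ¬ q ∣ M) (T : (subH M q).LeftTransversal)
    (f : FN (M * q)) :
    letI := algebraAlong (heckeAlphaBar Kbar M q)
    E M (Algebra.norm (FN M) f) = rootA M q hq hqM (E (M * q) f) T := by
  haveI := finiteIndex_subH M q hq hqM
  letI := (subH M q).fintypeQuotientOfFiniteIndex
  have hcard : Fintype.card (↥(Gamma0 M) ⧸ subH M q) = q + 1 := by
    rw [← Nat.card_eq_fintype_card, ← Subgroup.index_eq_card, index_subH M q hq hqM]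
  have h := NormOnH.norm_on_H M q hq hqM
    (fun x : ↥(Gamma0 M) ⧸ subH M q =>
      (((T.2.leftQuotientEquiv x : ↥(Gamma0 M))⁻¹ : ↥(Gamma0 M)) : SL(2, ℤ)))
    (fun x => SetLike.coe_mem _) ?_ hcard f
  · exact h
  · intro x y hxy
    have h1 : ((T.2.leftQuotientEquiv x : ↥(Gamma0 M)))⁻¹ * (T.2.leftQuotientEquiv y : ↥(Gamma0 M))
        ∈ subH M q := by
      rw [Subgroup.mem_subgroupOf]
      simpa using hxy
    have h2 : ((T.2.leftQuotientEquiv x : ↥(Gamma0 M)) : ↥(Gamma0 M) ⧸ subH M q) =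
        ((T.2.leftQuotientEquiv y : ↥(Gamma0 M)) : ↥(Gamma0 M) ⧸ subH M q) :=
      QuotientGroup.eq.mpr h1
    have hx := T.2.quotientGroupMk_leftQuotientEquiv x
    have hy := T.2.quotientGroupMk_leftQuotientEquiv y
    exact hx.symm.trans (h2.trans hy)

/-- **[KPUSH], datum level.**  A Kummer datum `(D, f, G, ψ)` of level `Mq` gives the Kummer datum
`(α_* D, Norm_α f, ∏_T G ∘ t⁻¹, trA ψ)` of level `M`. -/
theorem isKummerDatum_pushA (hq : q.Prime) (hqM : ¬ q ∣ M) {n : ℕ}
    {D : Divisor Kbar (FN (M * q))} {f : FN (M * q)} {G : Kappa.Mer}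
    {ψ : ↥(Gamma0 (M * q)) →* ℂˣ}
    (hD : Kappa.IsKummerDatum (Kappa.realQ (M * q)) n D f G ψ)
    (T : (subH M q).LeftTransversal) :
    Kappa.IsKummerDatum (Kappa.realQ M) n
      (Divisor.pushforwardAlong (heckeAlphaBar Kbar M q) (heckeAlphaBarIntegral M q) D)
      (letI := algebraAlong (heckeAlphaBar Kbar M q); Algebra.norm (FN M) f)
      (rootA M q hq hqM G T) (trA M q hq hqM ψ) := by
  haveI := finiteIndex_subH M q hq hqM
  letI := (subH M q).fintypeQuotientOfFiniteIndex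
  refine Kappa.isKummerDatum_realQ_of_pre M ?_ ?_ ?_ ?_
  · exact norm_along_ne_zero _ (finiteAlong_alpha M q) hD.ne_zero
  · intro v
    letI := algebraAlong (heckeAlphaBar Kbar M q)
    haveI := isScalarTower_along (heckeAlphaBar Kbar M q)
    haveI := isIntegral_along (heckeAlphaBar Kbar M q) (heckeAlphaBarIntegral M q)
    haveI : Module.Finite (FN M) (FN (M * q)) := finiteAlong_alpha M q
    have hN' : Divisor.PushforwardNormFormula Kbar (FN M) (FN (M * q)) :=
      normFormulaAlong_alpha M q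
    have h1 : ∀ w : Place Kbar (FN (M * q)), (n • D) w = w.ord f := by
      intro w
      rw [Finsupp.smul_apply, nsmul_eq_mul]
      exact hD.div_eq w
    have h2 := hN' f hD.ne_zero (n • D) h1 v
    rw [map_nsmul, Finsupp.smul_apply, nsmul_eq_mul] at h2
    rw [← h2]
    rfl
  · rw [E_norm_alpha M q hq hqM T f, ← hD.root_E]
    show (∏ x : ↥(Gamma0 M) ⧸ subH M q, preM M _ G) ^ n =
      ∏ x : ↥(Gamma0 M) ⧸ subH M q, preM M _ (G ^ n)
    rw [← Finset.prod_pow]
    refine Finset.prod_congr rfl fun x _ => ?_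
    rw [map_pow]
  · intro γ
    exact pre_rootA M q hq hqM G ψ hD.pre_char T γ

/-- **[KPUSH], class level.**  For any map `pA` on classes with the `mk`-formula of `α_*`:
if `ψ` is the Kummer character of `x ∈ J₀(Mq)` then `trA ψ` is the Kummer character of
`pA x ∈ J₀(M)`. -/
theorem kummerRel_pushA (hq : q.Prime) (hqM : ¬ q ∣ M) (pA : JZero (M * q) → JZero M)
    (hpA : ∀ D : Divisor.degZero (K := Kbar) (F := FN (M * q)),
      pA (Pic0.mk D) = Pic0.mk ⟨Divisor.pushforwardAlong (heckeAlphaBar Kbar M q)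
        (heckeAlphaBarIntegral M q) (D : Divisor Kbar (FN (M * q))),
        Divisor.pushforwardAlong_mem_degZero _ _ D.2⟩)
    {n : ℕ} {x : JZero (M * q)} {ψ : ↥(Gamma0 (M * q)) →* ℂˣ}
    (hx : Kappa.KummerRel (Kappa.realQ (M * q)) n x ψ) :
    Kappa.KummerRel (Kappa.realQ M) n (pA x) (trA M q hq hqM ψ) := by
  haveI := finiteIndex_subH M q hq hqM
  obtain ⟨D, f, G, rfl, hD⟩ := hx
  exact ⟨⟨_, Divisor.pushforwardAlong_mem_degZero _ _ D.2⟩, _, _, (hpA D).symm,
    isKummerDatum_pushA M q hq hqM hD default⟩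

end Alpha

end Fermat.Agent.S35.KPush
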