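/-
P6 / S35 — leaf [KPUSH], β-half (helper97): **the Kummer relation and the degeneracy push-forward
`β_*`.**

`q` prime, `q ∤ M`; `β = heckeBetaBar Kbar M q : F_M → F_{Mq}` (`f(τ) ↦ f(qτ)`).  Fix Bezout
coefficients `a q - b M = 1` and the Atkin–Lehner matrix `W = [[a q, b], [M q, q]]
= [[a, b], [M, q]] · diag(q, 1)` (determinant `q`).

* `conjW M q a b hab : Γ₀(Mq) →* Γ₀(Mq)`  : `h ↦ W h W⁻¹` (`Wp * slp h = slp (conjW h) * Wp`),
                                             trace preserving;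
* `trB … ψ := trA … (ψ.comp (conjW …))`   : the β-transfer `Hom(Γ₀(Mq), A) → Hom(Γ₀(M), A)`;
* `E_atkinLehner`                          : every automorphism `w` of `F_{Mq}` exchanging `α` and
                                             `β` is `F ↦ F ∘ W` on `ℍ`;
* `isKummerDatum_pushB`, `kummerRel_pushB` : the β-analogues of `KPush.isKummerDatum_pushA`,
                                             `KPush.kummerRel_pushA`.
-/
import Mathlib
import Fermat.Agent.S35.KPush
import Fermat.Agent.S37.Kron.AtkinLehner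
import Fermat.Agent.Lib.HeckeHomInt

set_option autoImplicit false
set_option linter.style.haveILetI false

noncomputable section

namespace Fermat.Agent.S35.KPushB

open UpperHalfPlane CongruenceSubgroup ModularCurve AlgebraicCurve
open Fermat.Agent.Lib Fermat.Agent.Lib.HolVal Fermat.Agent.Lib.JStab Fermat.Agent.S24
open Fermat.Agent.P5.HeckeKappa Fermat.Agent.P5
open Fermat.Agent.S37.HeckeInputs Fermat.Agent.S35.KPush
open Fermat.Agent.S37.Kron.AtkinLehner
open Fermat.Agent.Lib.HeckeHomGL (coe_mapGL_eq_map)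
open Matrix.SpecialLinearGroup (mapGL)
open scoped MatrixGroups Manifold

/-! ### Conjugation by the Atkin–Lehner matrix, over `ℤ` -/

/-- The Atkin–Lehner matrix `[[a q, b], [M q, q]]` over `ℤ`. -/
def wInt (a b : ℤ) (M q : ℕ) : Matrix (Fin 2) (Fin 2) ℤ := !![a * q, b; (M : ℤ) * q, q]

theorem det_wInt (a b : ℤ) (M q : ℕ) (hab : a * q - b * M = 1) : (wInt a b M q).det = q := by
  rw [wInt, Matrix.det_fin_two_of]
  linear_combination (q : ℤ) * hab

/-- **Conjugation by `W` preserves the integer matrices with lower left entry divisible by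
`M q`.** -/
theorem exists_conj_int (a b : ℤ) (M q : ℕ) (hab : a * q - b * M = 1) (x y c t : ℤ) :
    ∃ p r s u : ℤ,
      wInt a b M q * !![x, y; (M : ℤ) * q * c, t] = !![p, r; (M : ℤ) * q * s, u] * wInt a b M q ∧
        p + u = x + t := by
  refine ⟨a * q * x + b * ((M : ℤ) * q * c) - a * q * M * y - b * M * t,
    a ^ 2 * q * y + a * b * t - a * b * x - b ^ 2 * M * c,
    x + q * c - M * y - t,
    a * M * q * y + a * q * t - b * M * x - b * ((M : ℤ) * q * c), ?_, ?_⟩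
  · rw [wInt, Matrix.mul_fin_two, Matrix.mul_fin_two]
    have e00 : a * q * x + b * ((M : ℤ) * q * c) =
        (a * q * x + b * ((M : ℤ) * q * c) - a * q * M * y - b * M * t) * (a * q) +
          (a ^ 2 * q * y + a * b * t - a * b * x - b ^ 2 * M * c) * ((M : ℤ) * q) := by
      linear_combination (-(a * q * x + b * ((M : ℤ) * q * c))) * hab
    have e01 : a * q * y + b * t =
        (a * q * x + b * ((M : ℤ) * q * c) - a * q * M * y - b * M * t) * b +
          (a ^ 2 * q * y + a * b * t - a * b * x - b ^ 2 * M * c) * q := by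
      linear_combination (-(a * q * y + b * t)) * hab
    have e10 : (M : ℤ) * q * x + q * ((M : ℤ) * q * c) =
        (M : ℤ) * q * (x + q * c - M * y - t) * (a * q) +
          (a * M * q * y + a * q * t - b * M * x - b * ((M : ℤ) * q * c)) * ((M : ℤ) * q) := by
      linear_combination (-((M : ℤ) * q * x + q * ((M : ℤ) * q * c))) * hab
    have e11 : (M : ℤ) * q * y + q * t =
        (M : ℤ) * q * (x + q * c - M * y - t) * b +
          (a * M * q * y + a * q * t - b * M * x - b * ((M : ℤ) * q * c)) * q := by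
      linear_combination (-((M : ℤ) * q * y + q * t)) * hab
    rw [← e00, ← e01, ← e10, ← e11]
  · linear_combination (x + t) * hab

/-! ### The Atkin–Lehner element of `GL₂(ℝ)⁺` and its conjugation on `Γ₀(Mq)` -/

section ConjW

variable (M q : ℕ) [NeZero q] (a b : ℤ) (hab : a * q - b * M = 1)

/-- The Atkin–Lehner element of `GL₂(ℝ)⁺`: `W = [[a, b], [M, q]] · diag(q, 1)`. -/
def Wp : GLp := slp (gam a b M q hab) * dilG q

theorem coe_Wp :
    (((Wp M q a b hab : GLp) : GL (Fin 2) ℝ) : Matrix (Fin 2) (Fin 2) ℝ) =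
      (wInt a b M q).map (Int.castRingHom ℝ) := by
  have h1 : (((Wp M q a b hab : GLp) : GL (Fin 2) ℝ) : Matrix (Fin 2) (Fin 2) ℝ) =
      ((mapGL ℝ (gam a b M q hab) : GL (Fin 2) ℝ) : Matrix (Fin 2) (Fin 2) ℝ) *
        !![(q : ℝ), 0; 0, 1] := rfl
  rw [h1, coe_mapGL_eq_map]
  ext i j
  fin_cases i <;> fin_cases j <;> simp [wInt, gam, Matrix.mul_apply, Fin.sum_univ_two]

/-- An integer relation `W h = h' W` is a relation in `GL₂(ℝ)⁺`. -/
theorem Wp_mul_slp_of_int (h h' : SL(2, ℤ))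
    (hh : wInt a b M q * (h : Matrix (Fin 2) (Fin 2) ℤ) =
      (h' : Matrix (Fin 2) (Fin 2) ℤ) * wInt a b M q) :
    Wp M q a b hab * slp h = slp h' * Wp M q a b hab := by
  apply Subtype.ext
  apply Units.ext
  show (((Wp M q a b hab : GLp) : GL (Fin 2) ℝ) : Matrix (Fin 2) (Fin 2) ℝ) *
      ((mapGL ℝ h : GL (Fin 2) ℝ) : Matrix (Fin 2) (Fin 2) ℝ) =
    ((mapGL ℝ h' : GL (Fin 2) ℝ) : Matrix (Fin 2) (Fin 2) ℝ) *
      (((Wp M q a b hab : GLp) : GL (Fin 2) ℝ) : Matrix (Fin 2) (Fin 2) ℝ)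
  rw [coe_Wp, coe_mapGL_eq_map, coe_mapGL_eq_map, ← Matrix.map_mul, ← Matrix.map_mul, hh]

include hab in
/-- `W` normalises `Γ₀(Mq)`, preserving traces. -/
theorem exists_conj (h : ↥(Gamma0 (M * q))) :
    ∃ h' : ↥(Gamma0 (M * q)),
      wInt a b M q * ((h : SL(2, ℤ)) : Matrix (Fin 2) (Fin 2) ℤ) =
        ((h' : SL(2, ℤ)) : Matrix (Fin 2) (Fin 2) ℤ) * wInt a b M q ∧
      ((h' : SL(2, ℤ)) : Matrix (Fin 2) (Fin 2) ℤ).trace =
        ((h : SL(2, ℤ)) : Matrix (Fin 2) (Fin 2) ℤ).trace := by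
  have hq0 : (q : ℤ) ≠ 0 := Nat.cast_ne_zero.mpr (NeZero.ne q)
  have hmem := h.2
  rw [Gamma0_mem, ZMod.intCast_zmod_eq_zero_iff_dvd] at hmem
  obtain ⟨c, hc⟩ := hmem
  have hc' : (h : SL(2, ℤ)) 1 0 = (M : ℤ) * q * c := by rw [hc]; push_cast; ring
  have heta : ((h : SL(2, ℤ)) : Matrix (Fin 2) (Fin 2) ℤ) =
      !![(h : SL(2, ℤ)) 0 0, (h : SL(2, ℤ)) 0 1; (M : ℤ) * q * c, (h : SL(2, ℤ)) 1 1] := by
    rw [← hc']
    exact Matrix.eta_fin_two _
  obtain ⟨p, r, s, u, hmul, htr⟩ := exists_conj_int a b M q hab ((h : SL(2, ℤ)) 0 0)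
    ((h : SL(2, ℤ)) 0 1) c ((h : SL(2, ℤ)) 1 1)
  rw [← heta] at hmul
  have hdet : (!![p, r; (M : ℤ) * q * s, u] : Matrix (Fin 2) (Fin 2) ℤ).det = 1 := by
    have h1 := congrArg Matrix.det hmul
    rw [Matrix.det_mul, Matrix.det_mul, det_wInt a b M q hab, (h : SL(2, ℤ)).2, mul_one] at h1
    have h2 : (q : ℤ) * 1 = (q : ℤ) * (!![p, r; (M : ℤ) * q * s, u] :
        Matrix (Fin 2) (Fin 2) ℤ).det := by
      rw [mul_one, mul_comm]
      exact h1
    exact (mul_left_cancel₀ hq0 h2).symm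
  refine ⟨⟨⟨!![p, r; (M : ℤ) * q * s, u], hdet⟩, ?_⟩, hmul, ?_⟩
  · rw [Gamma0_mem, ZMod.intCast_zmod_eq_zero_iff_dvd]
    show ((M * q : ℕ) : ℤ) ∣ (M : ℤ) * q * s
    exact ⟨s, by push_cast; ring⟩
  · show (!![p, r; (M : ℤ) * q * s, u] : Matrix (Fin 2) (Fin 2) ℤ).trace = _
    rw [Matrix.trace_fin_two_of, htr, Matrix.trace_fin_two]

/-- Conjugation by `W` on `Γ₀(Mq)`, as a function. -/
def conjFun (h : ↥(Gamma0 (M * q))) : ↥(Gamma0 (M * q)) := (exists_conj M q a b hab h).choose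

theorem conjFun_int (h : ↥(Gamma0 (M * q))) :
    wInt a b M q * ((h : SL(2, ℤ)) : Matrix (Fin 2) (Fin 2) ℤ) =
      ((conjFun M q a b hab h : SL(2, ℤ)) : Matrix (Fin 2) (Fin 2) ℤ) * wInt a b M q :=
  (exists_conj M q a b hab h).choose_spec.1

theorem Wp_mul_slp (h : ↥(Gamma0 (M * q))) :
    Wp M q a b hab * slp (h : SL(2, ℤ)) =
      slp (conjFun M q a b hab h : SL(2, ℤ)) * Wp M q a b hab :=
  Wp_mul_slp_of_int M q a b hab _ _ (conjFun_int M q a b hab h)

theorem slp_injective : Function.Injective slp := by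
  intro g g' h
  have h1 : (mapGL ℝ g : GL (Fin 2) ℝ) = mapGL ℝ g' := congrArg Subtype.val h
  exact Matrix.SpecialLinearGroup.mapGL_injective h1

/-- **Conjugation by the Atkin–Lehner matrix `W` on `Γ₀(Mq)`**: `W h = conjW h · W`. -/
def conjW : ↥(Gamma0 (M * q)) →* ↥(Gamma0 (M * q)) where
  toFun := conjFun M q a b hab
  map_one' := by
    apply Subtype.ext
    apply slp_injective
    have h := Wp_mul_slp M q a b hab 1
    have h1 : slp ((1 : ↥(Gamma0 (M * q))) : SL(2, ℤ)) = 1 := map_one slp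
    rw [h1, mul_one] at h
    have h2 : slp (conjFun M q a b hab 1 : SL(2, ℤ)) = 1 :=
      mul_right_cancel (h.symm.trans (one_mul _).symm)
    rw [h2]
    exact (map_one slp).symm
  map_mul' h₁ h₂ := by
    apply Subtype.ext
    apply slp_injective
    have h12 := Wp_mul_slp M q a b hab (h₁ * h₂)
    have e1 : slp ((h₁ * h₂ : ↥(Gamma0 (M * q))) : SL(2, ℤ)) =
        slp (h₁ : SL(2, ℤ)) * slp (h₂ : SL(2, ℤ)) := map_mul slp _ _
    rw [e1, ← mul_assoc, Wp_mul_slp M q a b hab h₁, mul_assoc, Wp_mul_slp M q a b hab h₂,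
      ← mul_assoc] at h12
    have h3 := mul_right_cancel h12
    rw [← h3]
    exact (map_mul slp _ _).symm

theorem conjW_apply (h : ↥(Gamma0 (M * q))) : conjW M q a b hab h = conjFun M q a b hab h := rfl

/-- The defining relation of `conjW`, over `ℤ`. -/
theorem conjW_int (h : ↥(Gamma0 (M * q))) :
    wInt a b M q * ((h : SL(2, ℤ)) : Matrix (Fin 2) (Fin 2) ℤ) =
      ((conjW M q a b hab h : SL(2, ℤ)) : Matrix (Fin 2) (Fin 2) ℤ) * wInt a b M q :=
  conjFun_int M q a b hab h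

/-- The defining relation of `conjW`, in `GL₂(ℝ)⁺`. -/
theorem Wp_mul_slp_conjW (h : ↥(Gamma0 (M * q))) :
    Wp M q a b hab * slp (h : SL(2, ℤ)) =
      slp (conjW M q a b hab h : SL(2, ℤ)) * Wp M q a b hab :=
  Wp_mul_slp M q a b hab h

/-- The defining relation of `conjW`, in `GL₂(ℝ)` (`eG` = `Lib.HeckeHomGL.eG`): `conjW` is induced
by the inner automorphism of `GL₂(ℝ)` given by `W`. -/
theorem Wp_mul_eG (h : ↥(Gamma0 (M * q))) :
    ((Wp M q a b hab : GLp) : GL (Fin 2) ℝ) * Fermat.Agent.Lib.HeckeHomGL.eG (M * q) h =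
      Fermat.Agent.Lib.HeckeHomGL.eG (M * q) (conjW M q a b hab h) *
        ((Wp M q a b hab : GLp) : GL (Fin 2) ℝ) :=
  congrArg Subtype.val (Wp_mul_slp_conjW M q a b hab h)

/-- `conjW` preserves traces (hence parabolic elements). -/
theorem trace_conjW (h : ↥(Gamma0 (M * q))) :
    ((conjW M q a b hab h : SL(2, ℤ)) : Matrix (Fin 2) (Fin 2) ℤ).trace =
      ((h : SL(2, ℤ)) : Matrix (Fin 2) (Fin 2) ℤ).trace :=
  (exists_conj M q a b hab h).choose_spec.2

end ConjW

/-! ### The Atkin–Lehner automorphism on `ℍ` -/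

section AL

variable (M q : ℕ) [NeZero M] [NeZero q] (a b : ℤ) (hab : a * q - b * M = 1)

omit [NeZero M] in
theorem Wp_smul (τ : ℍ) :
    ((Wp M q a b hab : GLp) : GL (Fin 2) ℝ) • τ = wSub (gam a b M q hab) q τ := by
  show ((slp (gam a b M q hab) * dilG q : GLp) : GL (Fin 2) ℝ) • τ = _
  rw [Subgroup.coe_mul, mul_smul, coe_dilG_smul, slp_smul]
  rfl

theorem gen_congr' {d e : ℕ} [NeZero d] [NeZero e] (h : d = e) :
    FFBridge.gen d = FFBridge.gen e := by
  subst h
  rfl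

/-- `j(d · W τ) = j(q d · τ)` for `d ∣ M`. -/
theorem preHol_Wp_jHol {d : ℕ} [NeZero d] [NeZero (q * d)] (hd : d ∣ M) :
    preHol (Wp M q a b hab) (jHol d) = jHol (q * d) := by
  apply Subtype.ext
  funext τ
  show jN d (((Wp M q a b hab : GLp) : GL (Fin 2) ℝ) • τ) = jN (q * d) τ
  rw [Wp_smul]
  have h := jN_wSub a b hab (d := d) (d' := M / d) (m := 1) (m' := q)
    (Nat.mul_div_cancel' hd) (one_mul q) (NeZero.ne M) (NeZero.ne q) τ
  rw [mul_one] at h
  rw [h, mul_comm]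

/-- `j(q d · W τ) = j(d · τ)` for `d ∣ M`. -/
theorem preHol_Wp_jHol_mul {d : ℕ} [NeZero d] [NeZero (q * d)] (hd : d ∣ M) :
    preHol (Wp M q a b hab) (jHol (q * d)) = jHol d := by
  apply Subtype.ext
  funext τ
  show jN (q * d) (((Wp M q a b hab : GLp) : GL (Fin 2) ℝ) • τ) = jN d τ
  rw [Wp_smul]
  have h := jN_wSub a b hab (d := d) (d' := M / d) (m := q) (m' := 1)
    (Nat.mul_div_cancel' hd) (mul_one q) (NeZero.ne M) (NeZero.ne q) τ
  rw [mul_one] at h
  rw [mul_comm q d, h]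

/-- **Every automorphism of `F_{Mq}` exchanging the two degeneracy maps is `F ↦ F ∘ W` on
`ℍ`.** -/
theorem E_atkinLehner (hq : q.Prime) (w : FN (M * q) →+* FN (M * q))
    (hwc : ∀ c : Kbar, w (algebraMap Kbar (FN (M * q)) c) = algebraMap Kbar (FN (M * q)) c)
    (hwα : ∀ f, w (heckeAlphaBar Kbar M q f) = heckeBetaBar Kbar M q f)
    (hwβ : ∀ f, w (heckeBetaBar Kbar M q f) = heckeAlphaBar Kbar M q f)
    (z : FN (M * q)) :
    E (M * q) (w z) = pre (Wp M q a b hab) (E (M * q) z) := by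
  have h : (E (M * q)).comp w = (pre (Wp M q a b hab)).toRingHom.comp (E (M * q)) := by
    refine hom_ext_FN (M * q) _ _ (fun c => ?_) (fun e _ he => ?_)
    · show E (M * q) (w (algebraMap Kbar (FN (M * q)) c)) =
        pre (Wp M q a b hab) (E (M * q) (algebraMap Kbar (FN (M * q)) c))
      rw [hwc, E_const, pre_cstM]
    · show E (M * q) (w ⟨FFBridge.gen e, FFBridge.gen_mem he⟩) =
        pre (Wp M q a b hab) (E (M * q) ⟨FFBridge.gen e, FFBridge.gen_mem he⟩)
      obtain ⟨d, m, hd, hm, rfl⟩ := Nat.dvd_mul.mp he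
      have hd0 : d ≠ 0 := fun h0 => NeZero.ne M (by rw [h0] at hd; exact zero_dvd_iff.mp hd)
      haveI : NeZero d := ⟨hd0⟩
      haveI : NeZero (q * d) := ⟨Nat.mul_ne_zero (NeZero.ne q) hd0⟩
      rcases (Nat.dvd_prime hq).mp hm with hm1 | hmq
      · have e1 : (⟨FFBridge.gen (d * m), FFBridge.gen_mem he⟩ : FN (M * q)) =
            heckeAlphaBar Kbar M q ⟨FFBridge.gen d, FFBridge.gen_mem hd⟩ := by
          rw [alpha_gen M q hd]
          apply Subtype.ext
          show FFBridge.gen (d * m) = FFBridge.gen d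
          exact gen_congr' (by rw [hm1, mul_one])
        rw [e1, hwα, E_beta, E_alpha, E_gen M d hd, pre_algebraMap, pre_algebraMap,
          preHol_dilG_jHol, preHol_Wp_jHol M q a b hab hd]
      · have e1 : (⟨FFBridge.gen (d * m), FFBridge.gen_mem he⟩ : FN (M * q)) =
            heckeBetaBar Kbar M q ⟨FFBridge.gen d, FFBridge.gen_mem hd⟩ := by
          rw [beta_gen M q hd]
          apply Subtype.ext
          show FFBridge.gen (d * m) = FFBridge.gen (q * d)
          exact gen_congr' (by rw [hmq, mul_comm])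
        rw [e1, hwβ, E_beta, E_alpha, E_gen M d hd, pre_algebraMap, pre_algebraMap,
          preHol_dilG_jHol, preHol_Wp_jHol_mul M q a b hab hd]
  exact congrArg (fun φ : FN (M * q) →+* MerH => φ z) h

end AL

/-! ### The Kummer datum of `β_* D` -/

section Beta

variable (M q : ℕ) [NeZero M] [NeZero q] (a b : ℤ) (hab : a * q - b * M = 1)

/-- **The β-transfer** `Hom(Γ₀(Mq), A) → Hom(Γ₀(M), A)`: `trA` of `ψ ∘ conjW`. -/
def trB {A : Type*} [CommGroup A] (hq : q.Prime) (hqM : ¬ q ∣ M)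
    (ψ : ↥(Gamma0 (M * q)) →* A) : ↥(Gamma0 M) →* A :=
  trA M q hq hqM (ψ.comp (conjW M q a b hab))

theorem trB_def {A : Type*} [CommGroup A] (hq : q.Prime) (hqM : ¬ q ∣ M)
    (ψ : ↥(Gamma0 (M * q)) →* A) :
    trB M q a b hab hq hqM ψ = trA M q hq hqM (ψ.comp (conjW M q a b hab)) := rfl

/-- Naturality of `trB` in the coefficient group. -/
theorem trB_comp {A B : Type*} [CommGroup A] [CommGroup B] (hq : q.Prime) (hqM : ¬ q ∣ M)
    (f : A →* B) (ψ : ↥(Gamma0 (M * q)) →* A) :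
    trB M q a b hab hq hqM (f.comp ψ) = f.comp (trB M q a b hab hq hqM ψ) := by
  rw [trB_def, trB_def, MonoidHom.comp_assoc, trA_comp]

omit [NeZero q] in
theorem rootA_pow (hq : q.Prime) (hqM : ¬ q ∣ M) (G : MerH) (T : (subH M q).LeftTransversal)
    (n : ℕ) : rootA M q hq hqM G T ^ n = rootA M q hq hqM (G ^ n) T := by
  haveI := finiteIndex_subH M q hq hqM
  letI := (subH M q).fintypeQuotientOfFiniteIndex
  show (∏ x : ↥(Gamma0 M) ⧸ subH M q, preM M _ G) ^ n =
    ∏ x : ↥(Gamma0 M) ⧸ subH M q, preM M _ (G ^ n)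
  rw [← Finset.prod_pow]
  refine Finset.prod_congr rfl fun x _ => ?_
  rw [map_pow]

/-- Two embeddings that differ by an automorphism `w` of the target have the same norm, up to
`w`. -/
theorem norm_along_swap {K F F' : Type*} [Field K] [Field F] [Field F'] [Algebra K F]
    [Algebra K F'] (φ ψ : F →ₐ[K] F') (w : F' ≃+* F') (h : ∀ x, w (φ x) = ψ x) (z : F') :
    @Algebra.norm F F' _ _ (algebraAlong φ) z = @Algebra.norm F F' _ _ (algebraAlong ψ) (w z) := by
  have h1 := @Algebra.norm_eq_of_equiv_equiv F F' F F' _ _ _ _ (algebraAlong φ) (algebraAlong ψ)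
    (RingEquiv.refl F) w (by
      ext x
      exact (h x).symm) z
  exact h1

/-- **The norm along `β` on `ℍ`.** -/
theorem E_norm_beta (hq : q.Prime) (hqM : ¬ q ∣ M) (T : (subH M q).LeftTransversal)
    (f : FN (M * q)) :
    letI := algebraAlong (heckeBetaBar Kbar M q)
    E M (Algebra.norm (FN M) f) =
      rootA M q hq hqM (pre (Wp M q a b hab) (E (M * q) f)) T := by
  have hcop : Nat.Coprime M q := ((Nat.Prime.coprime_iff_not_dvd hq).mpr hqM).symm
  obtain ⟨w, hwα, hwβ⟩ := exists_atkinLehner M q hcop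
  have h1 := norm_along_swap (heckeBetaBar Kbar M q) (heckeAlphaBar Kbar M q)
    w.toRingEquiv (fun x => hwβ x) f
  show E M (@Algebra.norm (FN M) (FN (M * q)) _ _ (algebraAlong (heckeBetaBar Kbar M q)) f) = _
  rw [h1]
  have h2 := E_norm_alpha M q hq hqM T (w.toRingEquiv f)
  have h3 := E_atkinLehner M q a b hab hq (w : FN (M * q) →+* FN (M * q))
    (fun c => w.commutes c) hwα hwβ f
  rw [← h3]
  exact h2

omit [NeZero M] in
/-- The translate `G ∘ W` of a `Γ₀(Mq)`-semi-invariant with character `ψ` is semi-invariant with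
character `ψ ∘ conjW`. -/
theorem pre_Wp_semi (G : MerH) (ψ : ↥(Gamma0 (M * q)) →* ℂˣ)
    (hG : ∀ γ : ↥(Gamma0 (M * q)), pre (slp (γ : SL(2, ℤ))) G = cstM ((ψ γ : ℂˣ) : ℂ) * G)
    (γ : ↥(Gamma0 (M * q))) :
    pre (slp (γ : SL(2, ℤ))) (pre (Wp M q a b hab) G) =
      cstM (((ψ.comp (conjW M q a b hab)) γ : ℂˣ) : ℂ) * pre (Wp M q a b hab) G := by
  rw [← pre_mul, Wp_mul_slp_conjW, pre_mul, hG, map_mul, pre_cstM]
  rfl

/-- **[KPUSH] β, datum level.**  A Kummer datum `(D, f, G, ψ)` of level `Mq` gives the Kummer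
datum `(β_* D, Norm_β f, ∏_T (G ∘ W) ∘ t⁻¹, trB ψ)` of level `M`. -/
theorem isKummerDatum_pushB (hq : q.Prime) (hqM : ¬ q ∣ M) {n : ℕ}
    {D : Divisor Kbar (FN (M * q))} {f : FN (M * q)} {G : Kappa.Mer}
    {ψ : ↥(Gamma0 (M * q)) →* ℂˣ}
    (hD : Kappa.IsKummerDatum (Kappa.realQ (M * q)) n D f G ψ)
    (T : (subH M q).LeftTransversal) :
    Kappa.IsKummerDatum (Kappa.realQ M) n
      (Divisor.pushforwardAlong (heckeBetaBar Kbar M q) (heckeBetaBarIntegral M q) D)
      (letI := algebraAlong (heckeBetaBar Kbar M q); Algebra.norm (FN M) f)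
      (rootA M q hq hqM (pre (Wp M q a b hab) G) T) (trB M q a b hab hq hqM ψ) := by
  refine Kappa.isKummerDatum_realQ_of_pre M ?_ ?_ ?_ ?_
  · exact norm_along_ne_zero _ (finiteAlong_beta M q) hD.ne_zero
  · intro v
    letI := algebraAlong (heckeBetaBar Kbar M q)
    haveI := isScalarTower_along (heckeBetaBar Kbar M q)
    haveI := isIntegral_along (heckeBetaBar Kbar M q) (heckeBetaBarIntegral M q)
    haveI : Module.Finite (FN M) (FN (M * q)) := finiteAlong_beta M q
    have hN' : Divisor.PushforwardNormFormula Kbar (FN M) (FN (M * q)) :=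
      normFormulaAlong_beta M q
    have h1 : ∀ w : Place Kbar (FN (M * q)), (n • D) w = w.ord f := by
      intro w
      rw [Finsupp.smul_apply, nsmul_eq_mul]
      exact hD.div_eq w
    have h2 := hN' f hD.ne_zero (n • D) h1 v
    rw [map_nsmul, Finsupp.smul_apply, nsmul_eq_mul] at h2
    rw [← h2]
    rfl
  · rw [E_norm_beta M q a b hab hq hqM T f, ← hD.root_E, rootA_pow, map_pow]
  · intro γ
    exact pre_rootA M q hq hqM (pre (Wp M q a b hab) G) (ψ.comp (conjW M q a b hab))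
      (pre_Wp_semi M q a b hab G ψ hD.pre_char) T γ

/-- **[KPUSH] β, class level.**  For any map `pB` on classes with the `mk`-formula of `β_*`:
if `ψ` is the Kummer character of `x ∈ J₀(Mq)` then `trB ψ` is the Kummer character of
`pB x ∈ J₀(M)`. -/
theorem kummerRel_pushB (hq : q.Prime) (hqM : ¬ q ∣ M) (pB : JZero (M * q) → JZero M)
    (hpB : ∀ D : Divisor.degZero (K := Kbar) (F := FN (M * q)),
      pB (Pic0.mk D) = Pic0.mk ⟨Divisor.pushforwardAlong (heckeBetaBar Kbar M q)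
        (heckeBetaBarIntegral M q) (D : Divisor Kbar (FN (M * q))),
        Divisor.pushforwardAlong_mem_degZero _ _ D.2⟩)
    {n : ℕ} {x : JZero (M * q)} {ψ : ↥(Gamma0 (M * q)) →* ℂˣ}
    (hx : Kappa.KummerRel (Kappa.realQ (M * q)) n x ψ) :
    Kappa.KummerRel (Kappa.realQ M) n (pB x) (trB M q a b hab hq hqM ψ) := by
  haveI := finiteIndex_subH M q hq hqM
  obtain ⟨D, f, G, rfl, hD⟩ := hx
  exact ⟨⟨_, Divisor.pushforwardAlong_mem_degZero _ _ D.2⟩, _, _, (hpB D).symm,
    isKummerDatum_pushB M q a b hab hq hqM hD default⟩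

end Beta

end Fermat.Agent.S35.KPushB
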