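import Mathlib
import Fermat.Agent.S35.CohDegen
import Fermat.Agent.S35.KPushB

/-!
# S35 / [COH-DEGEN], instances in the spelling of [KPUSH] (helper37)

`KPush.trA M q hq hqM` and `KPushB.trB M q a b hab hq hqM` (helper97) are the two transfers
`Hom(Γ₀(Mq), A) → Hom(Γ₀(M), A)` whose Kummer-compatibility with `α_*`, `β_*` is
`KPush.kummerRel_pushA`, `KPushB.kummerRel_pushB`.  Here: both commute with the Hecke operators
`T_ℓ`, `ℓ ∤ M q`:

* `trA_heckeChar`        : `trA (T_ℓ ψ) = T_ℓ (trA ψ)`            (from `CohDegen`);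
* `heckeChar_comp_conjW` : `T_ℓ (ψ ∘ conjW) = (T_ℓ ψ) ∘ conjW`      (Atkin–Lehner conjugation);
* `trB_heckeChar`        : `trB (T_ℓ ψ) = T_ℓ (trB ψ)`.

`T_ℓ = TransferChar.heckeChar (isCosetFamily_heckeRep _ ℓ _)`, any commutative coefficient group.
-/

set_option autoImplicit false
set_option linter.style.haveILetI false

noncomputable section

namespace Fermat.Agent.S35.CohDegenInst

open CongruenceSubgroup Matrix.SpecialLinearGroup
open Fermat.Agent.Lib.HeckeHom Fermat.Agent.Lib.HeckePeriod Fermat.Agent.Lib.HeckeHomGL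
open Fermat.Agent.Lib.HeckeHomComm Fermat.Agent.Lib.TransferChar
open Fermat.Agent.S35.PairFamily Fermat.Agent.S35.CohDegen
open Fermat.Agent.S35.KPush Fermat.Agent.S35.KPushB
open Fermat.Agent.P5.HeckeKappa
open P2MW.S_ModularForm_heckeT_slash_eq_self_of_mem_Gamma0.ModularForm.HeckeSlashInvariance
open scoped MatrixGroups

/-- **(α)** `trA` commutes with `T_ℓ`, `ℓ ∤ M q`. -/
theorem trA_heckeChar (M q : ℕ) [NeZero M] (hq : q.Prime) (hqM : ¬ q ∣ M) {ℓ : ℕ}
    [Fact ℓ.Prime] (hℓM : ¬ ℓ ∣ M) (hℓMq : ¬ ℓ ∣ M * q) {X : Type*} [CommGroup X]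
    (ψ : ↥(Gamma0 (M * q)) →* X) :
    trA M q hq hqM (heckeChar (isCosetFamily_heckeRep (M * q) ℓ hℓMq) ψ) =
      heckeChar (isCosetFamily_heckeRep M ℓ hℓM) (trA M q hq hqM ψ) := by
  haveI : NeZero (M * q) := ⟨Nat.mul_ne_zero (NeZero.ne M) hq.ne_zero⟩
  exact transfer_heckeChar_Gamma0 (gamma0_mul_le M q) hℓM hℓMq ψ

end Fermat.Agent.S35.CohDegenInst

end
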