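import Mathlib
import Fermat.Agent.S35.CohDegenInst

/-!
# S35 / [COH-DEGEN], β-half (helper37): `T_ℓ` commutes with the Atkin–Lehner conjugation

`W = [[a q, b], [M q, q]] = γ₀ · diag(q, 1)`, `γ₀ = [[a, b], [M, q]] ∈ Γ₀(M)`, `a q - b M = 1`;
`conjW : Γ₀(Mq) →* Γ₀(Mq)`, `h ↦ W h W⁻¹` (`KPushB.conjW`, helper97).  For a prime `ℓ ∤ M q` and
the standard representatives `R_x` of `T_ℓ`:

  `W R_x = u_x R_{τ x} W`,  `u_x ∈ Γ₀(Mq)`,  `τ` a permutation of `ℙ¹(𝔽_ℓ)`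

(`diag(q,1) R_x = n_x R_{σ x} diag(q,1)` with `n_x` unipotent, then `R_y γ₀⁻¹ = c R_{y'}` at level
`M`; `u_x = γ₀ n_x c` lies in `Γ₀(Mq)` by comparing the lower right entries modulo `q`).  Hence, by
`Lib.HeckeHom.heckeHom_comp_conj`:

* `heckeHom_comp_conjW`, `tcoh_comp_conjW` : `T_ℓ (φ ∘ conjW) = (T_ℓ φ) ∘ conjW` (additive);
* `heckeChar_comp_conjW`                   : the same for multiplicative characters;
* `trB_heckeChar`                          : `KPushB.trB (T_ℓ ψ) = T_ℓ (KPushB.trB ψ)`;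
* `trAHom_comp_conjW_tcoh`                 : the additive form for `cB := cA ∘ (· ∘ conjW)`.
-/

set_option autoImplicit false
set_option linter.style.haveILetI false

noncomputable section

namespace Fermat.Agent.S35.CohDegenB

open CongruenceSubgroup Matrix.SpecialLinearGroup
open Fermat.Agent.Lib.HeckeHom Fermat.Agent.Lib.HeckePeriod Fermat.Agent.Lib.HeckeHomGL
open Fermat.Agent.Lib.HeckeHomComm Fermat.Agent.Lib.TransferChar
open Fermat.Agent.S35.PairFamily Fermat.Agent.S35.CohDegen Fermat.Agent.S35.CohDegenInst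
open Fermat.Agent.S35.KPush Fermat.Agent.S35.KPushB
open Fermat.Agent.P5.HeckeKappa Fermat.Agent.P5
open Fermat.Agent.S37.Kron.AtkinLehner (gam)
open P2MW.S_ModularForm_heckeT_slash_eq_self_of_mem_Gamma0.ModularForm.HeckeSlashInvariance
open scoped MatrixGroups

/-! ### `diag(q, 1)` and the representatives of `T_ℓ` -/

/-- `diag(q, 1)` as an element of `GL₂(ℝ)`. -/
abbrev dG (q : ℕ) [NeZero q] : GL (Fin 2) ℝ := ((dilG q : GLp) : GL (Fin 2) ℝ)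

theorem isUT_dG (q : ℕ) [NeZero q] : IsUT (dG q) q 0 1 where
  val := by
    show (!![(q : ℝ), 0; 0, 1] : Matrix (Fin 2) (Fin 2) ℝ) = _
    simp
  apos := by exact_mod_cast Nat.pos_of_ne_zero (NeZero.ne q)
  dpos := one_pos

/-- `diag(q,1) · R_x = n · R_y · diag(q,1)` with `n` unipotent, as soon as `R_y` has the diagonal
of `R_x` and upper right entry `≡ q b_x` modulo `d_x`. -/
theorem dG_mul_heckeRep (N q : ℕ) [NeZero q] {ℓ : ℕ} [Fact ℓ.Prime] (x y : OnePoint (ZMod ℓ))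
    (hay : aT ℓ y = aT ℓ x) (hby : dT ℓ x ∣ bT ℓ y - q * bT ℓ x) :
    ∃ m : ℤ, dG q * heckeRep ℓ x = eG N (unipG N m) * (heckeRep ℓ y * dG q) := by
  obtain ⟨w, hw⟩ := hby
  have hd : dT ℓ y = dT ℓ x := dT_eq_of_aT_eq ℓ hay
  refine ⟨-w, ut_mul_eq_unip_mul N (isUT_dG q) (isUT_heckeRep ℓ x) (isUT_heckeRep ℓ y)
    (isUT_dG q) ?_ ?_ ?_⟩
  · rw [hay, mul_comm]
  · rw [hd, one_mul, mul_one]
  · rw [hd]
    linear_combination (-1 : ℤ) * hw

section Sigma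

variable (q : ℕ) {ℓ : ℕ} [Fact ℓ.Prime]

/-- The permutation `x ↦ q x` of `ℙ¹(𝔽_ℓ)` (`∞ ↦ ∞`), through the entries of the
representatives. -/
def sig (x : OnePoint (ZMod ℓ)) : OnePoint (ZMod ℓ) :=
  (exists_bT ℓ x ((q : ℤ) * bT ℓ x)).choose

theorem aT_sig (x : OnePoint (ZMod ℓ)) : aT ℓ (sig q x) = aT ℓ x :=
  (exists_bT ℓ x ((q : ℤ) * bT ℓ x)).choose_spec.1

theorem dvd_sig (x : OnePoint (ZMod ℓ)) : dT ℓ x ∣ bT ℓ (sig q x) - q * bT ℓ x :=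
  (exists_bT ℓ x ((q : ℤ) * bT ℓ x)).choose_spec.2

theorem sig_injective (hℓq : ¬ ℓ ∣ q) : Function.Injective (sig q (ℓ := ℓ)) := by
  intro x x' h
  have ha : aT ℓ x = aT ℓ x' := by rw [← aT_sig q x, ← aT_sig q x', h]
  have hd : dT ℓ x = dT ℓ x' := dT_eq_of_aT_eq ℓ ha
  refine eq_of_aT_eq_of_dvd ℓ ha ?_
  have h1 := dvd_sig q x
  have h2 := dvd_sig q x'
  rw [← hd, ← h] at h2
  have h3 : dT ℓ x ∣ (q : ℤ) * (bT ℓ x - bT ℓ x') := by
    have h4 := dvd_sub h2 h1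
    have e : bT ℓ (sig q x) - q * bT ℓ x' - (bT ℓ (sig q x) - q * bT ℓ x) =
        (q : ℤ) * (bT ℓ x - bT ℓ x') := by ring
    rwa [e] at h4
  have hcop : IsCoprime (dT ℓ x) (q : ℤ) := by
    have h5 : IsCoprime (ℓ : ℤ) (q : ℤ) := by
      rw [Nat.isCoprime_iff_coprime]
      exact (Nat.Prime.coprime_iff_not_dvd Fact.out).mpr hℓq
    exact h5.of_isCoprime_of_dvd_left (dT_dvd ℓ x)
  exact hcop.dvd_of_dvd_mul_left h3

theorem sig_bijective (hℓq : ¬ ℓ ∣ q) : Function.Bijective (sig q (ℓ := ℓ)) :=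
  Finite.injective_iff_bijective.mp (sig_injective q hℓq)

end Sigma

/-! ### The conjugates `W R_x W⁻¹` -/

section Conj

variable (M q : ℕ) [NeZero q] (a b : ℤ) (hab : a * q - b * M = 1) {ℓ : ℕ} [Fact ℓ.Prime]

/-- `γ₀ = [[a, b], [M, q]]` as an element of `Γ₀(M)`. -/
def gamG : ↥(Gamma0 M) :=
  ⟨gam a b M q hab, by
    rw [Gamma0_mem]
    show (((M : ℤ) : ℤ) : ZMod M) = 0
    simp⟩

/-- `W` in `GL₂(ℝ)`. -/
abbrev WG : GL (Fin 2) ℝ := ((Wp M q a b hab : GLp) : GL (Fin 2) ℝ)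

theorem WG_eq : WG M q a b hab = eG M (gamG M q a b hab) * dG q := rfl

/-- The permutation `τ` of `ℙ¹(𝔽_ℓ)` with `W R_x W⁻¹ ∈ Γ₀(Mq) R_{τ x}`. -/
def tau (hℓM : ¬ ℓ ∣ M) (x : OnePoint (ZMod ℓ)) : OnePoint (ZMod ℓ) :=
  (isCosetFamily_heckeRep M ℓ hℓM).nxt (gamG M q a b hab)⁻¹ (sig q x)

omit [NeZero q] in
theorem tau_bijective (hℓM : ¬ ℓ ∣ M) (hℓq : ¬ ℓ ∣ q) :
    Function.Bijective (tau M q a b hab hℓM (ℓ := ℓ)) :=
  ((isCosetFamily_heckeRep M ℓ hℓM).nxtPerm (gamG M q a b hab)⁻¹).bijective.comp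
    (sig_bijective q hℓq)

/-- `W R_x = v R_{τ x} W` with `v ∈ Γ₀(M)`. -/
theorem exists_WG_mul (hℓM : ¬ ℓ ∣ M) (x : OnePoint (ZMod ℓ)) :
    ∃ v : ↥(Gamma0 M), WG M q a b hab * heckeRep ℓ x =
      eG M v * (heckeRep ℓ (tau M q a b hab hℓM x) * WG M q a b hab) := by
  obtain ⟨m, hm⟩ := dG_mul_heckeRep M q x (sig q x) (aT_sig q x) (dvd_sig q x)
  have hs := (isCosetFamily_heckeRep M ℓ hℓM).spec (gamG M q a b hab)⁻¹ (sig q x)
  refine ⟨gamG M q a b hab * unipG M m *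
    (isCosetFamily_heckeRep M ℓ hℓM).cof (gamG M q a b hab)⁻¹ (sig q x), ?_⟩
  have h1 : heckeRep ℓ (sig q x) =
      eG M ((isCosetFamily_heckeRep M ℓ hℓM).cof (gamG M q a b hab)⁻¹ (sig q x)) *
        heckeRep ℓ (tau M q a b hab hℓM x) * eG M (gamG M q a b hab) := by
    rw [tau, ← hs, mul_assoc, ← map_mul, inv_mul_cancel, map_one, mul_one]
  rw [WG_eq, mul_assoc, hm, h1, map_mul, map_mul]
  simp only [mul_assoc]

/-- The cofactor `v` of `exists_WG_mul` lies in `Γ₀(Mq)`. -/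
theorem mem_of_WG_mul (hℓq : ¬ ℓ ∣ q) (x z : OnePoint (ZMod ℓ)) (v : ↥(Gamma0 M))
    (h : WG M q a b hab * heckeRep ℓ x = eG M v * (heckeRep ℓ z * WG M q a b hab)) :
    (v : SL(2, ℤ)) ∈ Gamma0 (M * q) := by
  -- the relation over `ℤ`
  have hint : wInt a b M q * repT ℓ x =
      ((v : SL(2, ℤ)) : Matrix (Fin 2) (Fin 2) ℤ) * (repT ℓ z * wInt a b M q) := by
    have h' := congrArg (fun g : GL (Fin 2) ℝ => (g : Matrix (Fin 2) (Fin 2) ℝ)) h
    simp only [Units.val_mul] at h'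
    rw [coe_Wp, val_heckeRep_eq_map, val_heckeRep_eq_map, eG_apply, coe_mapGL_eq_map,
      ← Matrix.map_mul, ← Matrix.map_mul, ← Matrix.map_mul] at h'
    exact Matrix.map_injective (Int.cast_injective (α := ℝ)) h'
  have e11 := congrFun (congrFun hint 1) 1
  simp only [Matrix.mul_apply, Fin.sum_univ_two, repT_one_zero] at e11
  have w01 : wInt a b M q 0 1 = b := by simp [wInt]
  have w10 : wInt a b M q 1 0 = (M : ℤ) * q := by simp [wInt]
  have w11 : wInt a b M q 1 1 = q := by simp [wInt]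
  rw [w01, w10, w11] at e11
  -- `q ∣ v₁₀ * (Z₀₀ * b)`
  have hq1 : (q : ℤ) ∣ (v : SL(2, ℤ)) 1 0 * (repT ℓ z 0 0 * b) :=
    ⟨(M : ℤ) * repT ℓ x 0 1 + repT ℓ x 1 1 - (v : SL(2, ℤ)) 1 0 * repT ℓ z 0 1 -
      (v : SL(2, ℤ)) 1 1 * repT ℓ z 1 1, by linear_combination (-1 : ℤ) * e11⟩
  have hcb : IsCoprime (q : ℤ) b := ⟨a, -(M : ℤ), by linear_combination hab⟩
  have hcℓ : IsCoprime (q : ℤ) (ℓ : ℤ) := by
    rw [Nat.isCoprime_iff_coprime]
    exact ((Nat.Prime.coprime_iff_not_dvd Fact.out).mpr hℓq).symm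
  have hcz : IsCoprime (q : ℤ) (repT ℓ z 0 0) := by
    rcases repT_zero_zero ℓ z with h0 | h0
    · rw [h0]; exact isCoprime_one_right
    · rw [h0]; exact hcℓ
  have hq2 : (q : ℤ) ∣ (v : SL(2, ℤ)) 1 0 := (hcz.mul_right hcb).dvd_of_dvd_mul_right hq1
  have hM : (M : ℤ) ∣ (v : SL(2, ℤ)) 1 0 :=
    (ZMod.intCast_zmod_eq_zero_iff_dvd _ _).mp (Gamma0_mem.mp v.2)
  have hcM : IsCoprime (M : ℤ) (q : ℤ) := ⟨-b, a, by linear_combination hab⟩
  rw [Gamma0_mem, ZMod.intCast_zmod_eq_zero_iff_dvd]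
  push_cast
  exact hcM.mul_dvd hM hq2

/-- **`W R_x = u R_{τ x} W` with `u ∈ Γ₀(Mq)`.** -/
theorem exists_WG_mul' (hℓM : ¬ ℓ ∣ M) (hℓq : ¬ ℓ ∣ q) (x : OnePoint (ZMod ℓ)) :
    ∃ u : ↥(Gamma0 (M * q)), WG M q a b hab * heckeRep ℓ x =
      eG (M * q) u * (heckeRep ℓ (tau M q a b hab hℓM x) * WG M q a b hab) := by
  obtain ⟨v, hv⟩ := exists_WG_mul M q a b hab hℓM x
  exact ⟨⟨(v : SL(2, ℤ)), mem_of_WG_mul M q a b hab hℓq x _ v hv⟩, hv⟩

/-- **`T_ℓ` commutes with the Atkin–Lehner conjugation** (additive coefficients). -/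
theorem heckeHom_comp_conjW (hℓMq : ¬ ℓ ∣ M * q) {A : Type*} [AddCommGroup A]
    (φ : Additive ↥(Gamma0 (M * q)) →+ A) :
    (isCosetFamily_heckeRep (M * q) ℓ hℓMq).heckeHom
        (φ.comp (MonoidHom.toAdditive (conjW M q a b hab))) =
      ((isCosetFamily_heckeRep (M * q) ℓ hℓMq).heckeHom φ).comp
        (MonoidHom.toAdditive (conjW M q a b hab)) := by
  have hℓM : ¬ ℓ ∣ M := fun h => hℓMq (Dvd.dvd.mul_right h q)
  have hℓq : ¬ ℓ ∣ q := fun h => hℓMq (Dvd.dvd.mul_left h M)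
  choose u hu using exists_WG_mul' M q a b hab hℓM hℓq (ℓ := ℓ)
  refine (isCosetFamily_heckeRep (M * q) ℓ hℓMq).heckeHom_comp_conj (conjW M q a b hab)
    (MulAut.conj (WG M q a b hab)).toMonoidHom ?_ (tau M q a b hab hℓM)
    (tau_bijective M q a b hab hℓM hℓq) u ?_ φ
  · intro γ
    show WG M q a b hab * eG (M * q) γ * (WG M q a b hab)⁻¹ = eG (M * q) (conjW M q a b hab γ)
    rw [Wp_mul_eG, mul_inv_cancel_right]
  · intro x
    show WG M q a b hab * heckeRep ℓ x * (WG M q a b hab)⁻¹ =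
      eG (M * q) (u x) * heckeRep ℓ (tau M q a b hab hℓM x)
    rw [hu x, ← mul_assoc, mul_inv_cancel_right]

/-- **`T_ℓ` commutes with the Atkin–Lehner conjugation** (multiplicative characters). -/
theorem heckeChar_comp_conjW (hℓMq : ¬ ℓ ∣ M * q) {X : Type*} [CommGroup X]
    (ψ : ↥(Gamma0 (M * q)) →* X) :
    heckeChar (isCosetFamily_heckeRep (M * q) ℓ hℓMq) (ψ.comp (conjW M q a b hab)) =
      (heckeChar (isCosetFamily_heckeRep (M * q) ℓ hℓMq) ψ).comp (conjW M q a b hab) := by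
  apply MonoidHom.toAdditive.injective
  have h1 : MonoidHom.toAdditive (ψ.comp (conjW M q a b hab)) =
      (MonoidHom.toAdditive ψ).comp (MonoidHom.toAdditive (conjW M q a b hab)) := rfl
  have h2 : MonoidHom.toAdditive
      ((heckeChar (isCosetFamily_heckeRep (M * q) ℓ hℓMq) ψ).comp (conjW M q a b hab)) =
      (MonoidHom.toAdditive (heckeChar (isCosetFamily_heckeRep (M * q) ℓ hℓMq) ψ)).comp
        (MonoidHom.toAdditive (conjW M q a b hab)) := rfl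
  rw [← heckeHom_toAdditive, h1, h2, ← heckeHom_toAdditive]
  exact heckeHom_comp_conjW M q a b hab hℓMq _

end Conj

/-! ### The statements in the vocabulary of `P5/Per`, `KPushB` and `CohDegen` -/

section Final

variable (M q : ℕ) [NeZero q] (a b : ℤ) (hab : a * q - b * M = 1)

/-- **`Per.tcoh` commutes with the Atkin–Lehner conjugation.** -/
theorem tcoh_comp_conjW {ℓ : ℕ} (hℓ : ℓ.Prime) (hℓMq : ¬ ℓ ∣ M * q) {A : Type*}
    [AddCommGroup A] (φ : Additive ↥(Gamma0 (M * q)) →+ A) :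
    Per.tcoh (M * q) hℓ hℓMq A (φ.comp (MonoidHom.toAdditive (conjW M q a b hab))) =
      (Per.tcoh (M * q) hℓ hℓMq A φ).comp (MonoidHom.toAdditive (conjW M q a b hab)) := by
  haveI : Fact ℓ.Prime := ⟨hℓ⟩
  exact heckeHom_comp_conjW M q a b hab hℓMq φ

/-- **(β)** `KPushB.trB` commutes with `T_ℓ`, `ℓ ∤ M q`. -/
theorem trB_heckeChar [NeZero M] (hq : q.Prime) (hqM : ¬ q ∣ M) {ℓ : ℕ} [Fact ℓ.Prime]
    (hℓM : ¬ ℓ ∣ M) (hℓMq : ¬ ℓ ∣ M * q) {X : Type*} [CommGroup X]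
    (ψ : ↥(Gamma0 (M * q)) →* X) :
    trB M q a b hab hq hqM (heckeChar (isCosetFamily_heckeRep (M * q) ℓ hℓMq) ψ) =
      heckeChar (isCosetFamily_heckeRep M ℓ hℓM) (trB M q a b hab hq hqM ψ) := by
  rw [trB_def, trB_def, ← heckeChar_comp_conjW M q a b hab hℓMq ψ]
  exact trA_heckeChar M q hq hqM hℓM hℓMq _

/-- **(β), additive form**: `φ ↦ trAHom (φ ∘ conjW)` (the `cB := cA ∘ (· ∘ conjW)` of the
[DEGEN] junction) commutes with `Per.tcoh`. -/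
theorem trAHom_comp_conjW_tcoh {M' : ℕ} [NeZero (M * q)] (hle : Gamma0 (M * q) ≤ Gamma0 M')
    {ℓ : ℕ} (hℓ : ℓ.Prime) (hℓM' : ¬ ℓ ∣ M') (hℓMq : ¬ ℓ ∣ M * q) {A : Type*} [AddCommGroup A]
    (φ : Additive ↥(Gamma0 (M * q)) →+ A) :
    trAHom hle ((Per.tcoh (M * q) hℓ hℓMq A φ).comp
        (MonoidHom.toAdditive (conjW M q a b hab))) =
      Per.tcoh M' hℓ hℓM' A
        (trAHom hle (φ.comp (MonoidHom.toAdditive (conjW M q a b hab)))) := by
  rw [← tcoh_comp_conjW M q a b hab hℓ hℓMq φ]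
  exact trHom_tcoh hle hℓ hℓM' hℓMq _

end Final

end Fermat.Agent.S35.CohDegenB

end
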