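import Mathlib
import Fermat.Prelude.Def_ModularCurve_PeriodMap

/-!
# S35 — the two transfer maps `Hom(Γ₀(Nℓ), A) → Hom(Γ₀(N), A)` (helper21, leaf [TR])

`Γ' = Γ₀(N)`, `Γ = Γ₀(Nℓ) ≤ Γ'`.  For a commutative group `A`:

* `trA N ℓ ψ : Γ₀(N) →* A` — the transfer (Verlagerung, Mathlib's `MonoidHom.transfer`) of
  `ψ : Γ₀(Nℓ) →* A` along `subA N ℓ = Γ₀(Nℓ) ≤ Γ₀(N)`;
* `trB N ℓ ψ : Γ₀(N) →* A` — the transfer along `subB N ℓ = Γ₀(N) ∩ Γ⁰(ℓ) ≤ Γ₀(N)` of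
  `ψ ∘ conjB`, where `conjB : Γ₀(N) ∩ Γ⁰(ℓ) → Γ₀(Nℓ)`,
  `[[a, b], [c, d]] ↦ [[a, b / ℓ], [c ℓ, d]]` is conjugation by `δ = diag(ℓ, 1)`
  (`γ ↦ δ⁻¹ γ δ`);
* `corA N ℓ`, `corB N ℓ : (Additive Γ₀(Nℓ) →+ A) →+ (Additive Γ₀(N) →+ A)` — the same maps on
  additive homomorphisms (`A` an additive commutative group);
* `cA N ℓ`, `cB N ℓ : parabolicHoms ℤ Γ₀(Nℓ) ℤ →+ parabolicHoms ℤ Γ₀(N) ℤ` — their restrictions
  to the parabolic lattices (`P5.Per.Lat`).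

These are the cohomological counterparts of the two degeneracy push-forwards
`α_*, β_* : J₀(Nℓ) → J₀(N)` (`S35/Push`): if `G` is a function on `ℍ` with `G ∘ γ = ψ γ · G`
(`γ ∈ Γ₀(Nℓ)`), then `∏_i G ∘ γ_i` (`γ_i` representatives of `Γ₀(Nℓ) \ Γ₀(N)`) transforms under
`Γ₀(N)` by `trA ψ`, and `∏_i G ∘ δ⁻¹ ∘ γ_i` (`γ_i` representatives of
`(Γ₀(N) ∩ Γ⁰(ℓ)) \ Γ₀(N)`) transforms by `trB ψ`.

Main results: `trA_map`, `trB_map` (naturality in `A`), `trA_mul`, `trB_mul`,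
`trA_apply_eq_one_of_par`, `trB_apply_eq_one_of_par` (a homomorphism killing the parabolic
elements — trace `± 2` — has transfers killing the parabolic elements), and the additive forms
`corA_isParabolicHom`, `corB_isParabolicHom`, `corA_comp`, `corB_comp`, `trA_comp_toMul`,
`trB_comp_toMul`.
-/

set_option autoImplicit false
set_option linter.style.haveILetI false
set_option linter.unusedSectionVars false

noncomputable section

namespace Fermat.Agent.S35.Transfer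

open CongruenceSubgroup Matrix ModularCurve.Period
open scoped MatrixGroups

/-! ### Generalities on the transfer -/

section Generic

open Subgroup Subgroup.leftTransversals

variable {G : Type*} [Group G] {H : Subgroup G} [H.FiniteIndex]
  {A B : Type*} [CommGroup A] [CommGroup B]

/-- Naturality of the transfer in the coefficient group. -/
theorem transfer_map (f : A →* B) (ϕ : H →* A) :
    MonoidHom.transfer (f.comp ϕ) = f.comp (MonoidHom.transfer ϕ) := by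
  refine MonoidHom.ext fun g => ?_
  letI := H.fintypeQuotientOfFiniteIndex
  rw [MonoidHom.transfer_def (f.comp ϕ) default g, MonoidHom.comp_apply,
    MonoidHom.transfer_def ϕ default g]
  show ∏ x : G ⧸ H, f (ϕ _) = f (∏ x : G ⧸ H, ϕ _)
  rw [map_prod]

/-- The transfer is multiplicative in the homomorphism. -/
theorem transfer_mul (ϕ ϕ' : H →* A) :
    MonoidHom.transfer (ϕ * ϕ') = MonoidHom.transfer ϕ * MonoidHom.transfer ϕ' := by
  refine MonoidHom.ext fun g => ?_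
  letI := H.fintypeQuotientOfFiniteIndex
  rw [MonoidHom.mul_apply, MonoidHom.transfer_def (ϕ * ϕ') default g,
    MonoidHom.transfer_def ϕ default g, MonoidHom.transfer_def ϕ' default g]
  show ∏ x : G ⧸ H, (ϕ _ * ϕ' _) = (∏ x : G ⧸ H, ϕ _) * ∏ x : G ⧸ H, ϕ' _
  rw [Finset.prod_mul_distrib]

/-- The transfer of the trivial homomorphism is trivial. -/
theorem transfer_one : MonoidHom.transfer (1 : H →* A) = 1 := by
  refine MonoidHom.ext fun g => ?_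
  letI := H.fintypeQuotientOfFiniteIndex
  rw [MonoidHom.transfer_def (1 : H →* A) default g]
  show ∏ _x : G ⧸ H, (1 : A) = 1
  rw [Finset.prod_const_one]

/-- If `ϕ` is trivial on all elements of `H` of the form `x⁻¹ g ^ k x`, then the transfer of `ϕ`
is trivial at `g`. -/
theorem transfer_eq_one_of_conj_pow (ϕ : H →* A) (g : G)
    (h : ∀ (x : G) (k : ℕ) (hx : x⁻¹ * g ^ k * x ∈ H), ϕ ⟨_, hx⟩ = 1) :
    MonoidHom.transfer ϕ g = 1 := by
  classical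
  haveI : Fintype (Quotient (MulAction.orbitRel (Subgroup.zpowers g) (G ⧸ H))) :=
    Fintype.ofFinite _
  rw [MonoidHom.transfer_eq_prod_quotient_orbitRel_zpowers_quot]
  exact Finset.prod_eq_one fun q _ => h _ _ _

end Generic

/-! ### Parabolic elements of `SL(2, ℤ)` -/

/-- Cayley–Hamilton for `2 × 2` matrices of determinant one. -/
theorem mul_self_eq_trace_smul_sub_one (m : Matrix (Fin 2) (Fin 2) ℤ) (hm : m.det = 1) :
    m * m = m.trace • m - 1 := by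
  rw [Matrix.det_fin_two] at hm
  ext i j
  fin_cases i <;> fin_cases j
  · show (m * m) 0 0 = (m.trace • m - 1) 0 0
    rw [Matrix.mul_apply, Fin.sum_univ_two, Matrix.sub_apply, Matrix.smul_apply,
      Matrix.trace_fin_two, Matrix.one_apply_eq, smul_eq_mul]
    linear_combination -hm
  · show (m * m) 0 1 = (m.trace • m - 1) 0 1
    rw [Matrix.mul_apply, Fin.sum_univ_two, Matrix.sub_apply, Matrix.smul_apply,
      Matrix.trace_fin_two, Matrix.one_apply_ne (by decide), smul_eq_mul]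
    ring
  · show (m * m) 1 0 = (m.trace • m - 1) 1 0
    rw [Matrix.mul_apply, Fin.sum_univ_two, Matrix.sub_apply, Matrix.smul_apply,
      Matrix.trace_fin_two, Matrix.one_apply_ne (by decide), smul_eq_mul]
    ring
  · show (m * m) 1 1 = (m.trace • m - 1) 1 1
    rw [Matrix.mul_apply, Fin.sum_univ_two, Matrix.sub_apply, Matrix.smul_apply,
      Matrix.trace_fin_two, Matrix.one_apply_eq, smul_eq_mul]
    linear_combination -hm

theorem trace_pow_rec (m : Matrix (Fin 2) (Fin 2) ℤ) (hm : m.det = 1) (k : ℕ) :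
    (m ^ (k + 1 + 1)).trace = m.trace * (m ^ (k + 1)).trace - (m ^ k).trace := by
  have h : m ^ (k + 1 + 1) = m.trace • m ^ (k + 1) - m ^ k := by
    rw [pow_succ, pow_succ, Matrix.mul_assoc, mul_self_eq_trace_smul_sub_one m hm, Matrix.mul_sub,
      Matrix.mul_one, Matrix.mul_smul, ← pow_succ]
  rw [h, Matrix.trace_sub, Matrix.trace_smul, smul_eq_mul]

/-- Powers of a parabolic matrix (trace `± 2`, determinant `1`) are parabolic. -/
theorem trace_pow_sq (m : Matrix (Fin 2) (Fin 2) ℤ) (hm : m.det = 1) (h : m.trace ^ 2 = 4)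
    (k : ℕ) :
    (m ^ k).trace ^ 2 = 4 ∧ 2 * (m ^ (k + 1)).trace = m.trace * (m ^ k).trace := by
  induction k with
  | zero =>
    have h1 : (1 : Matrix (Fin 2) (Fin 2) ℤ).trace = 2 := by
      rw [Matrix.trace_fin_two, Matrix.one_apply_eq, Matrix.one_apply_eq]; norm_num
    refine ⟨?_, ?_⟩
    · rw [pow_zero, h1]; norm_num
    · rw [pow_zero, h1, zero_add, pow_one]; ring
  | succ k ih =>
    obtain ⟨ih1, ih2⟩ := ih
    have hrec := trace_pow_rec m hm k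
    have h3 : 2 * (m.trace * (m ^ (k + 1)).trace) = 4 * (m ^ k).trace := by
      calc 2 * (m.trace * (m ^ (k + 1)).trace) = m.trace * (2 * (m ^ (k + 1)).trace) := by ring
        _ = m.trace * (m.trace * (m ^ k).trace) := by rw [ih2]
        _ = m.trace ^ 2 * (m ^ k).trace := by ring
        _ = 4 * (m ^ k).trace := by rw [h]
    refine ⟨?_, ?_⟩
    · have h4 : (2 * (m ^ (k + 1)).trace) ^ 2 = 16 := by
        rw [ih2, mul_pow, h, ih1]; norm_num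
      have h5 : 4 * (m ^ (k + 1)).trace ^ 2 = 16 := by rw [← h4]; ring
      linarith
    · rw [hrec]; linarith

/-- Conjugates of powers of a parabolic element of `SL(2, ℤ)` are parabolic. -/
theorem trace_conj_pow_sq (x g : SL(2, ℤ))
    (h : (g : Matrix (Fin 2) (Fin 2) ℤ).trace ^ 2 = 4) (k : ℕ) :
    ((x⁻¹ * g ^ k * x : SL(2, ℤ)) : Matrix (Fin 2) (Fin 2) ℤ).trace ^ 2 = 4 := by
  have h1 : ((x⁻¹ * g ^ k * x : SL(2, ℤ)) : Matrix (Fin 2) (Fin 2) ℤ).trace =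
      ((g : Matrix (Fin 2) (Fin 2) ℤ) ^ k).trace := by
    rw [Matrix.SpecialLinearGroup.coe_mul, Matrix.SpecialLinearGroup.coe_mul, Matrix.trace_mul_comm,
      ← Matrix.mul_assoc, ← Matrix.SpecialLinearGroup.coe_mul, mul_inv_cancel, Matrix.SpecialLinearGroup.coe_one,
      Matrix.one_mul, Matrix.SpecialLinearGroup.coe_pow]
  rw [h1]
  exact (trace_pow_sq _ g.det_coe h k).1

/-! ### Entries of products in `SL(2, ℤ)` -/

theorem mul_zero_zero (g g' : SL(2, ℤ)) : (g * g') 0 0 = g 0 0 * g' 0 0 + g 0 1 * g' 1 0 := by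
  rw [Matrix.SpecialLinearGroup.coe_mul, Matrix.mul_apply, Fin.sum_univ_two]

theorem mul_zero_one (g g' : SL(2, ℤ)) : (g * g') 0 1 = g 0 0 * g' 0 1 + g 0 1 * g' 1 1 := by
  rw [Matrix.SpecialLinearGroup.coe_mul, Matrix.mul_apply, Fin.sum_univ_two]

theorem mul_one_zero (g g' : SL(2, ℤ)) : (g * g') 1 0 = g 1 0 * g' 0 0 + g 1 1 * g' 1 0 := by
  rw [Matrix.SpecialLinearGroup.coe_mul, Matrix.mul_apply, Fin.sum_univ_two]

theorem mul_one_one (g g' : SL(2, ℤ)) : (g * g') 1 1 = g 1 0 * g' 0 1 + g 1 1 * g' 1 1 := by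
  rw [Matrix.SpecialLinearGroup.coe_mul, Matrix.mul_apply, Fin.sum_univ_two]

/-! ### Conjugation by `diag(ℓ, 1)` -/

section ConjMat

variable (ℓ : ℕ)

/-- `δ⁻¹ g δ` for `δ = diag(ℓ, 1)` and `g = [[a, b], [c, d]] ∈ SL(2, ℤ)` with `ℓ ∣ b`:
the matrix `[[a, b / ℓ], [c ℓ, d]]`. -/
def conjMat (g : SL(2, ℤ)) (h : (ℓ : ℤ) ∣ g 0 1) : SL(2, ℤ) :=
  ⟨!![g 0 0, g 0 1 / (ℓ : ℤ); g 1 0 * (ℓ : ℤ), g 1 1], by
    have hd := g.det_coe
    rw [Matrix.det_fin_two] at hd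
    have hb : (ℓ : ℤ) * (g 0 1 / (ℓ : ℤ)) = g 0 1 := Int.mul_ediv_cancel' h
    rw [Matrix.det_fin_two_of]
    linear_combination hd - g 1 0 * hb⟩

variable {ℓ}

theorem conjMat_zero_zero (g : SL(2, ℤ)) (h : (ℓ : ℤ) ∣ g 0 1) : conjMat ℓ g h 0 0 = g 0 0 := rfl

theorem conjMat_zero_one (g : SL(2, ℤ)) (h : (ℓ : ℤ) ∣ g 0 1) :
    (ℓ : ℤ) * conjMat ℓ g h 0 1 = g 0 1 := Int.mul_ediv_cancel' h

theorem conjMat_one_zero (g : SL(2, ℤ)) (h : (ℓ : ℤ) ∣ g 0 1) :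
    conjMat ℓ g h 1 0 = g 1 0 * (ℓ : ℤ) := rfl

theorem conjMat_one_one (g : SL(2, ℤ)) (h : (ℓ : ℤ) ∣ g 0 1) : conjMat ℓ g h 1 1 = g 1 1 := rfl

theorem trace_conjMat (g : SL(2, ℤ)) (h : (ℓ : ℤ) ∣ g 0 1) :
    (conjMat ℓ g h : Matrix (Fin 2) (Fin 2) ℤ).trace = (g : Matrix (Fin 2) (Fin 2) ℤ).trace := by
  rw [Matrix.trace_fin_two, Matrix.trace_fin_two, conjMat_zero_zero, conjMat_one_one]

theorem conjMat_mul [NeZero ℓ] (g g' : SL(2, ℤ)) (h : (ℓ : ℤ) ∣ g 0 1) (h' : (ℓ : ℤ) ∣ g' 0 1)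
    (hh : (ℓ : ℤ) ∣ (g * g') 0 1) :
    conjMat ℓ (g * g') hh = conjMat ℓ g h * conjMat ℓ g' h' := by
  have hℓ : (ℓ : ℤ) ≠ 0 := by exact_mod_cast NeZero.ne ℓ
  have e1 := conjMat_zero_one g h
  have e2 := conjMat_zero_one g' h'
  have e3 := conjMat_zero_one (g * g') hh
  rw [mul_zero_one] at e3
  ext i j
  fin_cases i <;> fin_cases j
  · show conjMat ℓ (g * g') hh 0 0 = (conjMat ℓ g h * conjMat ℓ g' h') 0 0
    rw [mul_zero_zero, conjMat_zero_zero, conjMat_zero_zero, conjMat_zero_zero, conjMat_one_zero,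
      mul_zero_zero]
    linear_combination (-(g' 1 0)) * e1
  · show conjMat ℓ (g * g') hh 0 1 = (conjMat ℓ g h * conjMat ℓ g' h') 0 1
    refine mul_left_cancel₀ hℓ ?_
    rw [mul_zero_one, conjMat_zero_zero, conjMat_one_one, e3]
    linear_combination (-(g 0 0)) * e2 - g' 1 1 * e1
  · show conjMat ℓ (g * g') hh 1 0 = (conjMat ℓ g h * conjMat ℓ g' h') 1 0
    rw [mul_one_zero, conjMat_one_zero, conjMat_one_zero, conjMat_zero_zero, conjMat_one_one,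
      conjMat_one_zero, mul_one_zero]
    ring
  · show conjMat ℓ (g * g') hh 1 1 = (conjMat ℓ g h * conjMat ℓ g' h') 1 1
    rw [mul_one_one, conjMat_one_one, conjMat_one_zero, conjMat_one_one, conjMat_one_one,
      mul_one_one]
    linear_combination (-(g 1 0)) * e2

end ConjMat

variable (N ℓ : ℕ)

/-! ### The two subgroups of `Γ₀(N)` -/

theorem gamma0_mul_le : Gamma0 (N * ℓ) ≤ Gamma0 N := by
  intro γ hγ
  rw [Gamma0_mem, ZMod.intCast_zmod_eq_zero_iff_dvd] at hγ ⊢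
  exact dvd_trans (by push_cast; exact dvd_mul_right _ _) hγ

/-- `Γ₀(Nℓ)` as a subgroup of the group `Γ₀(N)`. -/
def subA : Subgroup ↥(Gamma0 N) := (Gamma0 (N * ℓ)).subgroupOf (Gamma0 N)

/-- The identification of `subA N ℓ` with `Γ₀(Nℓ)`. -/
def inclA : ↥(subA N ℓ) →* ↥(Gamma0 (N * ℓ)) :=
  (Subgroup.subgroupOfEquivOfLe (gamma0_mul_le N ℓ)).toMonoidHom

theorem coe_inclA (γ : ↥(subA N ℓ)) :
    ((inclA N ℓ γ : ↥(Gamma0 (N * ℓ))) : SL(2, ℤ)) = ((γ : ↥(Gamma0 N)) : SL(2, ℤ)) := rfl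

/-- `Γ₀(N) ∩ Γ⁰(ℓ)` as a subgroup of the group `Γ₀(N)`: upper right entry divisible by `ℓ`. -/
def subB : Subgroup ↥(Gamma0 N) where
  carrier := {γ | (ℓ : ℤ) ∣ (γ : SL(2, ℤ)) 0 1}
  one_mem' := by
    show (ℓ : ℤ) ∣ ((1 : ↥(Gamma0 N)) : SL(2, ℤ)) 0 1
    rw [Subgroup.coe_one, Matrix.SpecialLinearGroup.coe_one, Matrix.one_apply_ne (by decide)]
    exact dvd_zero _
  mul_mem' := by
    intro a b ha hb
    show (ℓ : ℤ) ∣ (((a * b : ↥(Gamma0 N)) : SL(2, ℤ))) 0 1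
    have ha' : (ℓ : ℤ) ∣ (a : SL(2, ℤ)) 0 1 := ha
    have hb' : (ℓ : ℤ) ∣ (b : SL(2, ℤ)) 0 1 := hb
    rw [Subgroup.coe_mul, mul_zero_one]
    exact dvd_add (dvd_mul_of_dvd_right hb' _) (dvd_mul_of_dvd_left ha' _)
  inv_mem' := by
    intro a ha
    show (ℓ : ℤ) ∣ (((a⁻¹ : ↥(Gamma0 N)) : SL(2, ℤ))) 0 1
    have ha' : (ℓ : ℤ) ∣ (a : SL(2, ℤ)) 0 1 := ha
    rw [Subgroup.coe_inv, Matrix.SpecialLinearGroup.SL2_inv_expl]
    simpa using ha'

theorem mem_subB {γ : ↥(Gamma0 N)} : γ ∈ subB N ℓ ↔ (ℓ : ℤ) ∣ (γ : SL(2, ℤ)) 0 1 := Iff.rfl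

/-- Conjugation by `δ = diag(ℓ, 1)`, `γ ↦ δ⁻¹ γ δ`, from `Γ₀(N) ∩ Γ⁰(ℓ)` to `Γ₀(Nℓ)`:
`[[a, b], [c, d]] ↦ [[a, b / ℓ], [c ℓ, d]]`. -/
def conjB [NeZero ℓ] : ↥(subB N ℓ) →* ↥(Gamma0 (N * ℓ)) :=
  MonoidHom.mk'
    (fun γ => ⟨conjMat ℓ ((γ : ↥(Gamma0 N)) : SL(2, ℤ)) ((mem_subB N ℓ).1 γ.2), by
      have hγ := (γ : ↥(Gamma0 N)).2
      rw [Gamma0_mem, ZMod.intCast_zmod_eq_zero_iff_dvd] at hγ ⊢
      rw [conjMat_one_zero]
      push_cast
      exact mul_dvd_mul_right hγ _⟩)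
    (fun γ γ' => Subtype.ext
      (conjMat_mul _ _ ((mem_subB N ℓ).1 γ.2) ((mem_subB N ℓ).1 γ'.2)
        ((mem_subB N ℓ).1 (γ * γ').2)))

theorem coe_conjB [NeZero ℓ] (γ : ↥(subB N ℓ)) :
    ((conjB N ℓ γ : ↥(Gamma0 (N * ℓ))) : SL(2, ℤ)) =
      conjMat ℓ ((γ : ↥(Gamma0 N)) : SL(2, ℤ)) ((mem_subB N ℓ).1 γ.2) := rfl

variable [NeZero N] [NeZero ℓ]

instance instFiniteIndexSubA : (subA N ℓ).FiniteIndex :=
  haveI : NeZero (N * ℓ) := ⟨Nat.mul_ne_zero (NeZero.ne N) (NeZero.ne ℓ)⟩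
  Subgroup.instFiniteIndex_subgroupOf _ _

instance instFiniteIndexSubB : (subB N ℓ).FiniteIndex := by
  haveI : ((Gamma ℓ).subgroupOf (Gamma0 N)).FiniteIndex := Subgroup.instFiniteIndex_subgroupOf _ _
  refine Subgroup.finiteIndex_of_le (H := (Gamma ℓ).subgroupOf (Gamma0 N)) ?_
  intro γ hγ
  rw [Subgroup.mem_subgroupOf, Gamma_mem] at hγ
  rw [mem_subB]
  exact (ZMod.intCast_zmod_eq_zero_iff_dvd _ _).1 hγ.2.1

/-! ### The two transfers, multiplicative form -/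

section Mul

variable {A B : Type*} [CommGroup A] [CommGroup B]

/-- **The `α`-transfer** `Hom(Γ₀(Nℓ), A) → Hom(Γ₀(N), A)`: Mathlib's `MonoidHom.transfer` along
`Γ₀(Nℓ) ≤ Γ₀(N)`. -/
def trA (ψ : ↥(Gamma0 (N * ℓ)) →* A) : ↥(Gamma0 N) →* A :=
  MonoidHom.transfer (ψ.comp (inclA N ℓ))

/-- **The `β`-transfer** `Hom(Γ₀(Nℓ), A) → Hom(Γ₀(N), A)`: Mathlib's `MonoidHom.transfer` along
`Γ₀(N) ∩ Γ⁰(ℓ) ≤ Γ₀(N)` of `ψ ∘ conjB`. -/
def trB (ψ : ↥(Gamma0 (N * ℓ)) →* A) : ↥(Gamma0 N) →* A :=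
  MonoidHom.transfer (ψ.comp (conjB N ℓ))

theorem trA_def (ψ : ↥(Gamma0 (N * ℓ)) →* A) :
    trA N ℓ ψ = MonoidHom.transfer (ψ.comp (inclA N ℓ)) := rfl

theorem trB_def (ψ : ↥(Gamma0 (N * ℓ)) →* A) :
    trB N ℓ ψ = MonoidHom.transfer (ψ.comp (conjB N ℓ)) := rfl

/-- Naturality of `trA` in the coefficient group. -/
theorem trA_map (f : A →* B) (ψ : ↥(Gamma0 (N * ℓ)) →* A) :
    trA N ℓ (f.comp ψ) = f.comp (trA N ℓ ψ) :=
  transfer_map f (ψ.comp (inclA N ℓ))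

/-- Naturality of `trB` in the coefficient group. -/
theorem trB_map (f : A →* B) (ψ : ↥(Gamma0 (N * ℓ)) →* A) :
    trB N ℓ (f.comp ψ) = f.comp (trB N ℓ ψ) :=
  transfer_map f (ψ.comp (conjB N ℓ))

theorem trA_mul (ψ ψ' : ↥(Gamma0 (N * ℓ)) →* A) :
    trA N ℓ (ψ * ψ') = trA N ℓ ψ * trA N ℓ ψ' :=
  transfer_mul (ψ.comp (inclA N ℓ)) (ψ'.comp (inclA N ℓ))

theorem trB_mul (ψ ψ' : ↥(Gamma0 (N * ℓ)) →* A) :
    trB N ℓ (ψ * ψ') = trB N ℓ ψ * trB N ℓ ψ' :=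
  transfer_mul (ψ.comp (conjB N ℓ)) (ψ'.comp (conjB N ℓ))

theorem trA_one : trA N ℓ (1 : ↥(Gamma0 (N * ℓ)) →* A) = 1 :=
  transfer_one (H := subA N ℓ)

theorem trB_one : trB N ℓ (1 : ↥(Gamma0 (N * ℓ)) →* A) = 1 :=
  transfer_one (H := subB N ℓ)

/-- If `ψ` kills the parabolic elements of `Γ₀(Nℓ)`, then `trA ψ` kills the parabolic elements
of `Γ₀(N)`. -/
theorem trA_apply_eq_one_of_par (ψ : ↥(Gamma0 (N * ℓ)) →* A)
    (hψ : ∀ γ : ↥(Gamma0 (N * ℓ)),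
      ((γ : SL(2, ℤ)) : Matrix (Fin 2) (Fin 2) ℤ).trace ^ 2 = 4 → ψ γ = 1)
    (γ : ↥(Gamma0 N)) (hγ : ((γ : SL(2, ℤ)) : Matrix (Fin 2) (Fin 2) ℤ).trace ^ 2 = 4) :
    trA N ℓ ψ γ = 1 := by
  refine transfer_eq_one_of_conj_pow _ γ fun x k hx => ?_
  refine hψ _ ?_
  rw [coe_inclA]
  have h1 : ((x⁻¹ * γ ^ k * x : ↥(Gamma0 N)) : SL(2, ℤ)) =
      (x : SL(2, ℤ))⁻¹ * (γ : SL(2, ℤ)) ^ k * (x : SL(2, ℤ)) := by
    rw [Subgroup.coe_mul, Subgroup.coe_mul, Subgroup.coe_inv, Subgroup.coe_pow]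
  show (((x⁻¹ * γ ^ k * x : ↥(Gamma0 N)) : SL(2, ℤ)) : Matrix (Fin 2) (Fin 2) ℤ).trace ^ 2 = 4
  rw [h1]
  exact trace_conj_pow_sq _ _ hγ k

/-- If `ψ` kills the parabolic elements of `Γ₀(Nℓ)`, then `trB ψ` kills the parabolic elements
of `Γ₀(N)`. -/
theorem trB_apply_eq_one_of_par (ψ : ↥(Gamma0 (N * ℓ)) →* A)
    (hψ : ∀ γ : ↥(Gamma0 (N * ℓ)),
      ((γ : SL(2, ℤ)) : Matrix (Fin 2) (Fin 2) ℤ).trace ^ 2 = 4 → ψ γ = 1)
    (γ : ↥(Gamma0 N)) (hγ : ((γ : SL(2, ℤ)) : Matrix (Fin 2) (Fin 2) ℤ).trace ^ 2 = 4) :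
    trB N ℓ ψ γ = 1 := by
  refine transfer_eq_one_of_conj_pow _ γ fun x k hx => ?_
  refine hψ _ ?_
  rw [coe_conjB, trace_conjMat]
  have h1 : ((x⁻¹ * γ ^ k * x : ↥(Gamma0 N)) : SL(2, ℤ)) =
      (x : SL(2, ℤ))⁻¹ * (γ : SL(2, ℤ)) ^ k * (x : SL(2, ℤ)) := by
    rw [Subgroup.coe_mul, Subgroup.coe_mul, Subgroup.coe_inv, Subgroup.coe_pow]
  show (((x⁻¹ * γ ^ k * x : ↥(Gamma0 N)) : SL(2, ℤ)) : Matrix (Fin 2) (Fin 2) ℤ).trace ^ 2 = 4
  rw [h1]
  exact trace_conj_pow_sq _ _ hγ k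

end Mul

/-! ### The two transfers, additive form -/

section Add

variable {A B : Type*} [AddCommGroup A] [AddCommGroup B]

/-- The `α`-transfer on additive homomorphisms. -/
def corA : (Additive ↥(Gamma0 (N * ℓ)) →+ A) →+ (Additive ↥(Gamma0 N) →+ A) where
  toFun φ := MonoidHom.toAdditiveLeft (trA N ℓ (AddMonoidHom.toMultiplicativeRight φ))
  map_zero' := by
    have h : AddMonoidHom.toMultiplicativeRight (0 : Additive ↥(Gamma0 (N * ℓ)) →+ A) = 1 := rfl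
    rw [h, trA_one]; rfl
  map_add' φ φ' := by
    have h : AddMonoidHom.toMultiplicativeRight (φ + φ') =
        AddMonoidHom.toMultiplicativeRight φ * AddMonoidHom.toMultiplicativeRight φ' := rfl
    rw [h, trA_mul]; rfl

/-- The `β`-transfer on additive homomorphisms. -/
def corB : (Additive ↥(Gamma0 (N * ℓ)) →+ A) →+ (Additive ↥(Gamma0 N) →+ A) where
  toFun φ := MonoidHom.toAdditiveLeft (trB N ℓ (AddMonoidHom.toMultiplicativeRight φ))
  map_zero' := by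
    have h : AddMonoidHom.toMultiplicativeRight (0 : Additive ↥(Gamma0 (N * ℓ)) →+ A) = 1 := rfl
    rw [h, trB_one]; rfl
  map_add' φ φ' := by
    have h : AddMonoidHom.toMultiplicativeRight (φ + φ') =
        AddMonoidHom.toMultiplicativeRight φ * AddMonoidHom.toMultiplicativeRight φ' := rfl
    rw [h, trB_mul]; rfl

theorem corA_apply (φ : Additive ↥(Gamma0 (N * ℓ)) →+ A) (γ : ↥(Gamma0 N)) :
    corA N ℓ φ (Additive.ofMul γ) =
      Multiplicative.toAdd (trA N ℓ (AddMonoidHom.toMultiplicativeRight φ) γ) := rfl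

theorem corB_apply (φ : Additive ↥(Gamma0 (N * ℓ)) →+ A) (γ : ↥(Gamma0 N)) :
    corB N ℓ φ (Additive.ofMul γ) =
      Multiplicative.toAdd (trB N ℓ (AddMonoidHom.toMultiplicativeRight φ) γ) := rfl

theorem toMultiplicativeRight_corA (φ : Additive ↥(Gamma0 (N * ℓ)) →+ A) :
    AddMonoidHom.toMultiplicativeRight (corA N ℓ φ) = trA N ℓ (AddMonoidHom.toMultiplicativeRight φ) :=
  rfl

theorem toMultiplicativeRight_corB (φ : Additive ↥(Gamma0 (N * ℓ)) →+ A) :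
    AddMonoidHom.toMultiplicativeRight (corB N ℓ φ) = trB N ℓ (AddMonoidHom.toMultiplicativeRight φ) :=
  rfl

/-- Naturality of `corA` in the coefficient group. -/
theorem corA_comp (f : A →+ B) (φ : Additive ↥(Gamma0 (N * ℓ)) →+ A) :
    corA N ℓ (f.comp φ) = f.comp (corA N ℓ φ) := by
  have h : AddMonoidHom.toMultiplicativeRight (f.comp φ) =
      (AddMonoidHom.toMultiplicative f).comp (AddMonoidHom.toMultiplicativeRight φ) := rfl
  show MonoidHom.toAdditiveLeft (trA N ℓ (AddMonoidHom.toMultiplicativeRight (f.comp φ))) = _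
  rw [h, trA_map]; rfl

/-- Naturality of `corB` in the coefficient group. -/
theorem corB_comp (f : A →+ B) (φ : Additive ↥(Gamma0 (N * ℓ)) →+ A) :
    corB N ℓ (f.comp φ) = f.comp (corB N ℓ φ) := by
  have h : AddMonoidHom.toMultiplicativeRight (f.comp φ) =
      (AddMonoidHom.toMultiplicative f).comp (AddMonoidHom.toMultiplicativeRight φ) := rfl
  show MonoidHom.toAdditiveLeft (trB N ℓ (AddMonoidHom.toMultiplicativeRight (f.comp φ))) = _
  rw [h, trB_map]; rfl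

/-- Characters of an additive homomorphism: for a character `e` of `A` (written
multiplicatively), `trA (e ∘ φ) = e ∘ corA φ`. -/
theorem trA_comp_toMul {C : Type*} [CommGroup C] (e : Multiplicative A →* C)
    (φ : Additive ↥(Gamma0 (N * ℓ)) →+ A) :
    trA N ℓ (e.comp (AddMonoidHom.toMultiplicativeRight φ)) =
      e.comp (AddMonoidHom.toMultiplicativeRight (corA N ℓ φ)) := by
  rw [trA_map, toMultiplicativeRight_corA]

/-- Characters of an additive homomorphism: for a character `e` of `A` (written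
multiplicatively), `trB (e ∘ φ) = e ∘ corB φ`. -/
theorem trB_comp_toMul {C : Type*} [CommGroup C] (e : Multiplicative A →* C)
    (φ : Additive ↥(Gamma0 (N * ℓ)) →+ A) :
    trB N ℓ (e.comp (AddMonoidHom.toMultiplicativeRight φ)) =
      e.comp (AddMonoidHom.toMultiplicativeRight (corB N ℓ φ)) := by
  rw [trB_map, toMultiplicativeRight_corB]

/-- `corA` preserves parabolic homomorphisms. -/
theorem corA_isParabolicHom {φ : Additive ↥(Gamma0 (N * ℓ)) →+ A}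
    (hφ : IsParabolicHom (Gamma0 (N * ℓ)) φ) : IsParabolicHom (Gamma0 N) (corA N ℓ φ) := by
  intro γ hγ
  have h := trA_apply_eq_one_of_par N ℓ (AddMonoidHom.toMultiplicativeRight φ)
    (fun γ' hγ' => by
      show Multiplicative.ofAdd (φ (Additive.ofMul γ')) = 1
      rw [hφ γ' hγ']; rfl) γ hγ
  rw [corA_apply, h]; rfl

/-- `corB` preserves parabolic homomorphisms. -/
theorem corB_isParabolicHom {φ : Additive ↥(Gamma0 (N * ℓ)) →+ A}
    (hφ : IsParabolicHom (Gamma0 (N * ℓ)) φ) : IsParabolicHom (Gamma0 N) (corB N ℓ φ) := by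
  intro γ hγ
  have h := trB_apply_eq_one_of_par N ℓ (AddMonoidHom.toMultiplicativeRight φ)
    (fun γ' hγ' => by
      show Multiplicative.ofAdd (φ (Additive.ofMul γ')) = 1
      rw [hφ γ' hγ']; rfl) γ hγ
  rw [corB_apply, h]; rfl

theorem corA_mem_parabolicHoms {R : Type*} [Semiring R] [Module R A]
    {φ : Additive ↥(Gamma0 (N * ℓ)) →+ A} (hφ : φ ∈ parabolicHoms R (Gamma0 (N * ℓ)) A) :
    corA N ℓ φ ∈ parabolicHoms R (Gamma0 N) A :=
  corA_isParabolicHom N ℓ hφ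

theorem corB_mem_parabolicHoms {R : Type*} [Semiring R] [Module R A]
    {φ : Additive ↥(Gamma0 (N * ℓ)) →+ A} (hφ : φ ∈ parabolicHoms R (Gamma0 (N * ℓ)) A) :
    corB N ℓ φ ∈ parabolicHoms R (Gamma0 N) A :=
  corB_isParabolicHom N ℓ hφ

end Add

/-! ### The two transfers on the parabolic lattices -/

/-- The `α`-transfer `Lat(Nℓ) → Lat(N)` on the integral parabolic lattices
(`P5.Per.Lat M = parabolicHoms ℤ (Gamma0 M) ℤ`). -/
def cA : ↥(parabolicHoms ℤ (Gamma0 (N * ℓ)) ℤ) →+ ↥(parabolicHoms ℤ (Gamma0 N) ℤ) :=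
  ((corA N ℓ).comp (parabolicHoms ℤ (Gamma0 (N * ℓ)) ℤ).subtype.toAddMonoidHom).codRestrict
    (parabolicHoms ℤ (Gamma0 N) ℤ) (fun φ => corA_mem_parabolicHoms N ℓ φ.2)

/-- The `β`-transfer `Lat(Nℓ) → Lat(N)` on the integral parabolic lattices. -/
def cB : ↥(parabolicHoms ℤ (Gamma0 (N * ℓ)) ℤ) →+ ↥(parabolicHoms ℤ (Gamma0 N) ℤ) :=
  ((corB N ℓ).comp (parabolicHoms ℤ (Gamma0 (N * ℓ)) ℤ).subtype.toAddMonoidHom).codRestrict
    (parabolicHoms ℤ (Gamma0 N) ℤ) (fun φ => corB_mem_parabolicHoms N ℓ φ.2)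

@[simp] theorem coe_cA (φ : ↥(parabolicHoms ℤ (Gamma0 (N * ℓ)) ℤ)) :
    ((cA N ℓ φ : ↥(parabolicHoms ℤ (Gamma0 N) ℤ)) : Additive ↥(Gamma0 N) →+ ℤ) =
      corA N ℓ (φ : Additive ↥(Gamma0 (N * ℓ)) →+ ℤ) := rfl

@[simp] theorem coe_cB (φ : ↥(parabolicHoms ℤ (Gamma0 (N * ℓ)) ℤ)) :
    ((cB N ℓ φ : ↥(parabolicHoms ℤ (Gamma0 N) ℤ)) : Additive ↥(Gamma0 N) →+ ℤ) =
      corB N ℓ (φ : Additive ↥(Gamma0 (N * ℓ)) →+ ℤ) := rfl

end Fermat.Agent.S35.Transfer
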