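import Mathlib
import Fermat.Agent.S35.Plan
import Fermat.Agent.S35.Push
import Fermat.Agent.S35.Transfer
import Fermat.Agent.S35.KPush
import Fermat.Agent.S35.KPushB
import Fermat.Agent.S35.CohDegen

/-!
# S35 — the junction [DEGEN] (helper21): `Plan.DegenStmt` for `α_*`, `β_*`

`M` a level, `q` a prime not dividing `M`, `a q - b M = 1` a Bezout pair, `W` the Atkin–Lehner
matrix of `KPushB`.

* `cA := Transfer.cA M q : Lat (M q) →+ Lat M` — the additive transfer along `Γ₀(Mq) ≤ Γ₀(M)`;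
* `cBW M q a b hab : Lat (M q) →+ Lat M` — `cA ∘ (φ ↦ φ ∘ conjW)`.

Results:

* `chi_cA`, `chi_cBW` — the characters `e(cA φ / n)`, `e(cB φ / n)` are the transfers
  `KPush.trA`, `KPushB.trB` of `e(φ / n)`;
* `kummer` — the Kummer half of `Plan.DegenStmt` (from helper97's `KPush.kummerRel_pushA`,
  `KPushB.kummerRel_pushB`);
* `cA_tcohL` — `cA` commutes with `T^coh_ℓ` (from helper37's `CohDegen.trHom_tcoh`);
* `CommB` — the typed statement "`cB` commutes with `T^coh_ℓ`" on `Hom(Γ₀(Mq), ℤ)`;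
* `degenStmt_of` — `Plan.DegenStmt M q (pushA M q) (pushB M q)` from `CommB`.
-/

set_option autoImplicit false
set_option linter.unusedSectionVars false

noncomputable section

namespace Fermat.Agent.S35.Degen

open CongruenceSubgroup ModularCurve ModularCurve.Period
open Fermat.Agent.P5.Per (Lat tcohL tcoh)
open Fermat.Agent.P5.Kappa (KummerRel realQ)
open Fermat.Agent.P5.Lambda (chi)
open Fermat.Agent.Lib.EisChar (expChar expChar_apply)
open scoped MatrixGroups

/-! ### `expChar` as a composite -/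

/-- The character `k ↦ e(k / n)` of `ℤ`. -/
def eN (n : ℕ) : Multiplicative ℤ →* ℂˣ :=
  MonoidHom.toHomUnits
    { toFun := fun k =>
        Complex.exp (((2 * Real.pi * ((Multiplicative.toAdd k : ℤ) : ℝ) / (n : ℝ) : ℝ) : ℂ) *
          Complex.I)
      map_one' := by
        have h : Multiplicative.toAdd (1 : Multiplicative ℤ) = 0 := rfl
        rw [h]
        simp
      map_mul' := fun k k' => by
        have h : Multiplicative.toAdd (k * k') =
            Multiplicative.toAdd k + Multiplicative.toAdd k' := rfl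
        rw [h, ← Complex.exp_add]
        congr 1
        push_cast
        ring }

theorem expChar_eq_comp {Γ : Subgroup SL(2, ℤ)} (φ : Additive Γ →+ ℤ) (n : ℕ) :
    expChar Γ φ n = (eN n).comp (AddMonoidHom.toMultiplicativeRight φ) := by
  refine MonoidHom.ext fun γ => Units.ext ?_
  rw [expChar_apply]
  rfl

variable (M q : ℕ) [NeZero M] [NeZero q]

/-! ### The two maps on the parabolic lattices -/

section ConjW

variable (a b : ℤ) (hab : a * q - b * M = 1)

/-- `φ ↦ φ ∘ conjW` on additive homomorphisms of `Γ₀(Mq)`. -/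
def conjWHom {A : Type*} [AddCommGroup A] :
    (Additive ↥(Gamma0 (M * q)) →+ A) →+ (Additive ↥(Gamma0 (M * q)) →+ A) where
  toFun φ := φ.comp (MonoidHom.toAdditive (KPushB.conjW M q a b hab))
  map_zero' := rfl
  map_add' _ _ := rfl

theorem conjWHom_apply {A : Type*} [AddCommGroup A] (φ : Additive ↥(Gamma0 (M * q)) →+ A)
    (γ : ↥(Gamma0 (M * q))) :
    conjWHom M q a b hab φ (Additive.ofMul γ) =
      φ (Additive.ofMul (KPushB.conjW M q a b hab γ)) := rfl

theorem conjWHom_isParabolicHom {A : Type*} [AddCommGroup A]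
    {φ : Additive ↥(Gamma0 (M * q)) →+ A} (hφ : IsParabolicHom (Gamma0 (M * q)) φ) :
    IsParabolicHom (Gamma0 (M * q)) (conjWHom M q a b hab φ) := by
  intro γ hγ
  rw [conjWHom_apply]
  exact hφ _ (by rw [KPushB.trace_conjW]; exact hγ)

/-- The `β`-transfer on the parabolic lattices, in the Atkin–Lehner spelling:
`cB φ = cA (φ ∘ conjW)`. -/
def cBW : Lat (M * q) →+ Lat M :=
  (((Transfer.corA M q).comp (conjWHom M q a b hab)).comp
      (Lat (M * q)).subtype.toAddMonoidHom).codRestrict (Lat M)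
    (fun φ => Transfer.corA_mem_parabolicHoms M q (conjWHom_isParabolicHom M q a b hab φ.2))

theorem coe_cBW (φ : Lat (M * q)) :
    ((cBW M q a b hab φ : Lat M) : Additive ↥(Gamma0 M) →+ ℤ) =
      Transfer.corA M q (conjWHom M q a b hab (φ : Additive ↥(Gamma0 (M * q)) →+ ℤ)) := rfl

end ConjW

/-! ### The characters -/

theorem chi_cA (hq : q.Prime) (hqM : ¬ q ∣ M) (φ : Lat (M * q)) (n : ℕ) :
    chi M (Transfer.cA M q φ) n = KPush.trA M q hq hqM (chi (M * q) φ n) := by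
  show expChar (Gamma0 M) (Transfer.corA M q (φ : Additive ↥(Gamma0 (M * q)) →+ ℤ)) n =
    Transfer.trA M q (expChar (Gamma0 (M * q)) (φ : Additive ↥(Gamma0 (M * q)) →+ ℤ) n)
  rw [expChar_eq_comp, expChar_eq_comp, Transfer.trA_comp_toMul]

theorem chi_cBW (a b : ℤ) (hab : a * q - b * M = 1) (hq : q.Prime) (hqM : ¬ q ∣ M)
    (φ : Lat (M * q)) (n : ℕ) :
    chi M (cBW M q a b hab φ) n = KPushB.trB M q a b hab hq hqM (chi (M * q) φ n) := by
  have h : (expChar (Gamma0 (M * q)) (φ : Additive ↥(Gamma0 (M * q)) →+ ℤ) n).comp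
      (KPushB.conjW M q a b hab) =
      expChar (Gamma0 (M * q))
        (conjWHom M q a b hab (φ : Additive ↥(Gamma0 (M * q)) →+ ℤ)) n := by
    refine MonoidHom.ext fun γ => Units.ext ?_
    rw [MonoidHom.comp_apply, expChar_apply, expChar_apply]
    rfl
  show expChar (Gamma0 M)
      (Transfer.corA M q (conjWHom M q a b hab (φ : Additive ↥(Gamma0 (M * q)) →+ ℤ))) n =
    Transfer.trA M q ((expChar (Gamma0 (M * q)) (φ : Additive ↥(Gamma0 (M * q)) →+ ℤ) n).comp
      (KPushB.conjW M q a b hab))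
  rw [h, expChar_eq_comp, expChar_eq_comp, Transfer.trA_comp_toMul]

/-! ### The Kummer half -/

/-- **The Kummer half of [DEGEN].**  A class `x` of `J₀(Mq)` with Kummer character `e(φ / n)` is
pushed by `α_*`, `β_*` to classes with Kummer characters `e(cA φ / n)`, `e(cB φ / n)`. -/
theorem kummer (a b : ℤ) (hab : a * q - b * M = 1) (hq : q.Prime) (hqM : ¬ q ∣ M) (n : ℕ)
    (φ : Lat (M * q)) (x : JZero (M * q))
    (hx : KummerRel (realQ (M * q)) n x (chi (M * q) φ n)) :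
    KummerRel (realQ M) n (Push.pushA M q x) (chi M (Transfer.cA M q φ) n) ∧
      KummerRel (realQ M) n (Push.pushB M q x) (chi M (cBW M q a b hab φ) n) := by
  refine ⟨?_, ?_⟩
  · rw [chi_cA M q hq hqM φ n]
    exact KPush.kummerRel_pushA M q hq hqM (Push.pushA M q) (Push.pushA_mk M q) hx
  · rw [chi_cBW M q a b hab hq hqM φ n]
    exact KPushB.kummerRel_pushB M q a b hab hq hqM (Push.pushB M q) (Push.pushB_mk M q) hx

/-! ### The Hecke half -/

/-- `cA` commutes with the cohomological Hecke operators (helper37's [COH-DEGEN], `α`-half). -/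
theorem cA_tcohL {ℓ : ℕ} (hℓ : ℓ.Prime) (hℓN : ¬ ℓ ∣ M * q) (hℓM : ¬ ℓ ∣ M) (φ : Lat (M * q)) :
    Transfer.cA M q (tcohL (M * q) hℓ hℓN φ) = tcohL M hℓ hℓM (Transfer.cA M q φ) := by
  apply Subtype.ext
  show Transfer.corA M q (tcoh (M * q) hℓ hℓN ℤ (φ : Additive ↥(Gamma0 (M * q)) →+ ℤ)) =
    tcoh M hℓ hℓM ℤ (Transfer.corA M q (φ : Additive ↥(Gamma0 (M * q)) →+ ℤ))
  exact CohDegen.trHom_tcoh (Transfer.gamma0_mul_le M q) hℓ hℓM hℓN
    (φ : Additive ↥(Gamma0 (M * q)) →+ ℤ)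

/-- The typed statement "`cB` commutes with the cohomological Hecke operators":
the `β`-half of [COH-DEGEN] in the Atkin–Lehner spelling, on `Hom(Γ₀(Mq), ℤ)`. -/
def CommB (a b : ℤ) (hab : a * q - b * M = 1) : Prop :=
  ∀ (ℓ : ℕ) (hℓ : ℓ.Prime) (hℓN : ¬ ℓ ∣ M * q) (hℓM : ¬ ℓ ∣ M)
    (ψ : Additive ↥(Gamma0 (M * q)) →+ ℤ),
    Transfer.corA M q (conjWHom M q a b hab (tcoh (M * q) hℓ hℓN ℤ ψ)) =
      tcoh M hℓ hℓM ℤ (Transfer.corA M q (conjWHom M q a b hab ψ))

/-- `cB` commutes with the cohomological Hecke operators, from `CommB`. -/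
theorem cBW_tcohL (a b : ℤ) (hab : a * q - b * M = 1) (hB : CommB M q a b hab) {ℓ : ℕ}
    (hℓ : ℓ.Prime) (hℓN : ¬ ℓ ∣ M * q) (hℓM : ¬ ℓ ∣ M) (φ : Lat (M * q)) :
    cBW M q a b hab (tcohL (M * q) hℓ hℓN φ) = tcohL M hℓ hℓM (cBW M q a b hab φ) := by
  apply Subtype.ext
  exact hB ℓ hℓ hℓN hℓM (φ : Additive ↥(Gamma0 (M * q)) →+ ℤ)

/-! ### The junction -/

/-- Bezout coefficients for a prime `q ∤ M`. -/
theorem exists_bezout (hq : q.Prime) (hqM : ¬ q ∣ M) : ∃ a b : ℤ, a * q - b * M = 1 := by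
  have hcop : IsCoprime (q : ℤ) (M : ℤ) :=
    Nat.isCoprime_iff_coprime.mpr ((Nat.Prime.coprime_iff_not_dvd hq).mpr hqM)
  obtain ⟨u, v, huv⟩ := hcop
  exact ⟨u, -v, by linear_combination huv⟩

/-- **[DEGEN]** from the `β`-half of [COH-DEGEN]. -/
theorem degenStmt_of (hq : q.Prime) (hqM : ¬ q ∣ M) (a b : ℤ) (hab : a * q - b * M = 1)
    (hB : CommB M q a b hab) :
    Plan.DegenStmt M q (Push.pushA M q) (Push.pushB M q) :=
  ⟨Transfer.cA M q, cBW M q a b hab,
    fun _ hℓ hℓN hℓM φ =>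
      ⟨cA_tcohL M q hℓ hℓN hℓM φ, cBW_tcohL M q a b hab hB hℓ hℓN hℓM φ⟩,
    fun n _ φ x hx => kummer M q a b hab hq hqM n φ x hx⟩

end Fermat.Agent.S35.Degen
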