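import Mathlib
import Fermat.Agent.S35.Degen
import Fermat.Agent.S35.CohDegenB

/-!
# S35 — the junction [DEGEN], unconditional (helper21)

`degenStmt M q hq hqM : Plan.DegenStmt M q (Push.pushA M q) (Push.pushB M q)` for every level
`M ≥ 1` and every prime `q ∤ M`: `Degen.degenStmt_of` fed with helper37's
`CohDegenB.trAHom_comp_conjW_tcoh` (the `β`-half of [COH-DEGEN] in the Atkin–Lehner spelling).
-/

set_option autoImplicit false

namespace Fermat.Agent.S35.DegenInst

open CongruenceSubgroup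

/-- The `β`-half of [COH-DEGEN]: `cB = cA ∘ (· ∘ conjW)` commutes with `T^coh_ℓ`. -/
theorem commB (M q : ℕ) [NeZero M] [NeZero q] (a b : ℤ) (hab : a * q - b * M = 1) :
    Degen.CommB M q a b hab :=
  fun _ hℓ hℓN hℓM ψ =>
    CohDegenB.trAHom_comp_conjW_tcoh M q a b hab (Transfer.gamma0_mul_le M q) hℓ hℓM hℓN ψ

/-- **[DEGEN]**: the junction contract `Plan.DegenStmt` for the two degeneracy push-forwards
`α_*`, `β_* : J₀(Mq) → J₀(M)`, `q` a prime not dividing `M`. -/
theorem degenStmt (M q : ℕ) [NeZero M] [NeZero q] (hq : q.Prime) (hqM : ¬ q ∣ M) :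
    Plan.DegenStmt M q (Push.pushA M q) (Push.pushB M q) := by
  obtain ⟨a, b, hab⟩ := Degen.exists_bezout M q hq hqM
  exact Degen.degenStmt_of M q hq hqM a b hab (commB M q a b hab)

end Fermat.Agent.S35.DegenInst
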