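import Mathlib
import Fermat.Agent.S34.Plan
import Fermat.Agent.S34.DescInst
import Fermat.Agent.S34.PlanTop
import Fermat.Agent.S37.HeckeInputs
import Fermat.Agent.S37.Gal

/-!
# S35 — the geometric statement (F) in the vocabulary of `S34/Plan` (helper16)

Standing data: `q` prime, `q ∤ N'`, bad level `N' * q` (Prelude order, as
`heckeAlphaBar Kbar N' q : F_{N'} → F_{N' q}`), `M = aux q * N'`, top level `M * q`; `A` a
valuation subring of `Q̄` over `q`, `(O, ρ)` the two-component reduction of `S34/Plan`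
(`Setup2 A (N' * q) q M _ O ρ`).

Contracts (`def … : Prop`):

* `FrobSetup`  — **[VAL-FROB]**: a Frobenius element `σ` at `A` preserves `O` (as does `σ⁻¹`) and
  `ρ ∘ σ = Frob ∘ ρ` (`Frob` = coefficientwise `x ↦ x^q` on `k((T)) × k((T))`);
* `SwapN`      — **[VAL-N]**: on `F_{N' q} ⊆ F_{M q}`, `ρ = (red, red ∘ w)` for the Atkin–Lehner
  involution `w` of `F_{N' q}`;
* `ValStmtF`   — the [VAL] export needed by (F): one pair `(O, ρ)` with `Setup2`, `FrobSetup`,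
  `SwapN`;
* `K0Stmt`     — the `φ²`-trick (the Frobenius twin of `S34.Plan.TauStmt`): for `D` of degree `0`
  with `n D = div u`, `ρ u ∈ k^× × k^×`, the divisor `D'' = (σ² - q²) D` satisfies
  `n D'' = div w`, `ρ w = (1, 1)` and `M(D'')(c) = B̄(c)` for `c` large;
* `NewK0`      — for a `q`-new class `D₀` (`α_* D₀`, `β_* D₀` principal), `(σ² - 1) D₀` is linearly
  equivalent to a divisor `D'` of the type above;
* `FDiv`       — **(F), divisor form**: `(σ² - q²)(σ² - 1) D₀` is principal for `q`-new `D₀` of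
  degree `0` with `n D₀` principal, `q ∤ n`.

`fDiv_of` : `Setup2` + `K0Stmt` + `NewK0` + `S34.Plan.LiftStmt` + `S34.DescInst.DescW` ⟹ `FDiv`.
-/

set_option autoImplicit false
set_option maxHeartbeats 400000
set_option linter.unusedSectionVars false

noncomputable section

namespace Fermat.Agent.S35.FPlan

open ModularCurve AlgebraicCurve Fermat.Agent.S24 Fermat.Agent.S18.Content Fermat.Agent.S18.Plan
open Fermat.Agent.S34

set_option synthInstance.maxHeartbeats 400000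

/-- `q ∣ N' * q`. -/
theorem dvd_level (N' q : ℕ) : q ∣ N' * q := Dvd.intro_left N' rfl

section Divisors

variable (N' q : ℕ) [NeZero N'] [NeZero q]

/-- `(σ² - q²) D` on `F_{N' q}`. -/
def frobDiv (σ : Kbar ≃ₐ[ℚ] Kbar) (D : Divisor Kbar (FN (N' * q))) :
    Divisor Kbar (FN (N' * q)) :=
  Plan.gal (N' * q) σ • Plan.gal (N' * q) σ • D - (q ^ 2) • D

/-- `(σ² - 1) D` on `F_{N' q}`. -/
def newDiv (σ : Kbar ≃ₐ[ℚ] Kbar) (D : Divisor Kbar (FN (N' * q))) :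
    Divisor Kbar (FN (N' * q)) :=
  Plan.gal (N' * q) σ • Plan.gal (N' * q) σ • D - D

variable {N' q}

theorem frobDiv_sub (σ : Kbar ≃ₐ[ℚ] Kbar) (D₁ D₂ : Divisor Kbar (FN (N' * q))) :
    frobDiv N' q σ (D₁ - D₂) = frobDiv N' q σ D₁ - frobDiv N' q σ D₂ := by
  unfold frobDiv
  rw [smul_sub, smul_sub, smul_sub]
  abel

theorem degree_frobDiv (σ : Kbar ≃ₐ[ℚ] Kbar) (D : Divisor Kbar (FN (N' * q)))
    (hD : Divisor.degree D = 0) : Divisor.degree (frobDiv N' q σ D) = 0 := by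
  unfold frobDiv
  rw [map_sub, map_nsmul, SemilinearAut.degree_smul, SemilinearAut.degree_smul, hD]
  simp

theorem degree_newDiv (σ : Kbar ≃ₐ[ℚ] Kbar) (D : Divisor Kbar (FN (N' * q)))
    (hD : Divisor.degree D = 0) : Divisor.degree (newDiv N' q σ D) = 0 := by
  unfold newDiv
  rw [map_sub, SemilinearAut.degree_smul, SemilinearAut.degree_smul, hD]
  simp

theorem frobDiv_mem_principal (σ : Kbar ≃ₐ[ℚ] Kbar) {D : Divisor Kbar (FN (N' * q))}
    (hD : D ∈ Divisor.principal (K := Kbar) (F := FN (N' * q))) :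
    frobDiv N' q σ D ∈ Divisor.principal (K := Kbar) (F := FN (N' * q)) := by
  unfold frobDiv
  exact sub_mem (SemilinearAut.smul_mem_principal _ (SemilinearAut.smul_mem_principal _ hD))
    (nsmul_mem hD _)

theorem newDiv_mem_principal (σ : Kbar ≃ₐ[ℚ] Kbar) {D : Divisor Kbar (FN (N' * q))}
    (hD : D ∈ Divisor.principal (K := Kbar) (F := FN (N' * q))) :
    newDiv N' q σ D ∈ Divisor.principal (K := Kbar) (F := FN (N' * q)) := by
  unfold newDiv
  exact sub_mem (SemilinearAut.smul_mem_principal _ (SemilinearAut.smul_mem_principal _ hD)) hD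

end Divisors

section Contracts

variable (A : ValuationSubring Kbar) (N' q M : ℕ) [NeZero N'] [NeZero q]
variable (O : Subring Om) (ρ : O →+* Plan.R2 A)

/-- **[VAL-FROB]** a Frobenius element `σ` at `A` acts on the two-component reduction through
the coefficientwise Frobenius: `σ O ⊆ O`, `σ⁻¹ O ⊆ O`, and the coefficients of both components of
`ρ (σ g)` are the `q`-th powers of those of `ρ g`. -/
def FrobSetup : Prop :=
  ∀ σ : Kbar ≃ₐ[ℚ] Kbar, A.IsFrobeniusAt σ q → ∀ g : O,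
    (∃ h : coeffMap (σ : Kbar →+* Kbar) (g : Om) ∈ O,
        ∀ n, (ρ ⟨_, h⟩).1.coeff n = (ρ g).1.coeff n ^ q ∧
          (ρ ⟨_, h⟩).2.coeff n = (ρ g).2.coeff n ^ q) ∧
      coeffMap (σ.symm : Kbar →+* Kbar) (g : Om) ∈ O

/-- **[VAL-N]** the two-component reduction on the subfield `F_{N' q}` of `F_{M q}`: there is an
involution `w` of `F_{N' q}` swapping the two degeneracy embeddings `α, β : F_{N'} → F_{N' q}`,
commuting with the coefficientwise action of the decomposition group of `A`, such that for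
`y ∈ F_{N' q}`: `y ∈ O ↔ y ∈ Ocal ∧ w y ∈ Ocal`, and `ρ y = (red y, red (w y))`. -/
def SwapN : Prop :=
  ∃ w : FN (N' * q) ≃ₐ[Kbar] FN (N' * q),
    (∀ f : FN N', w (heckeAlphaBar Kbar N' q f) = heckeBetaBar Kbar N' q f) ∧
    (∀ f : FN N', w (heckeBetaBar Kbar N' q f) = heckeAlphaBar Kbar N' q f) ∧
    (∀ z : FN (N' * q), w (w z) = z) ∧
    (∀ (s : A.decompositionSubgroup ℚ) (x : FN (N' * q)),
      w (Fermat.Agent.S37.Gal.gK A (N' * q) s • x) =
        Fermat.Agent.S37.Gal.gK A (N' * q) s • w x) ∧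
    (∀ y : FN (N' * q), (y : Om) ∈ O ↔
      ((y : Om) ∈ Ocal A ∧ ((w y : FN (N' * q)) : Om) ∈ Ocal A)) ∧
    ∀ (y : FN (N' * q)) (hy : (y : Om) ∈ O) (h1 : (y : Om) ∈ Ocal A)
      (h2 : ((w y : FN (N' * q)) : Om) ∈ Ocal A),
      ρ ⟨_, hy⟩ = (red A ⟨_, h1⟩, red A ⟨_, h2⟩)

/-- **[K0]** the `φ²`-trick: for a Frobenius element `σ` at `A` and `D` of degree `0` with
`n D = div u`, `u ∈ O`, `ρ u ∈ k^× × k^×`, the divisor `D'' = (σ² - q²) D` satisfies `n D'' = div w`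
with `ρ w = (1, 1)` and `M(D'')(c) = B̄(c)` for `c` large. -/
def K0Stmt : Prop :=
  ∀ E : Divisor Kbar (FN (N' * q)), Plan.IsE (N' * q) q (dvd_level N' q) E →
  ∀ σ : Kbar ≃ₐ[ℚ] Kbar, A.IsFrobeniusAt σ q →
  ∀ (D : Divisor Kbar (FN (N' * q))) (n : ℕ), Divisor.degree D = 0 → 0 < n →
  ∀ u : FN (N' * q), u ≠ 0 → (∀ P : Place Kbar (FN (N' * q)), P.ord u = n * D P) →
  ∀ (hu : (u : Om) ∈ O) (c₁ c₂ : kk A), c₁ ≠ 0 → c₂ ≠ 0 →
    ρ ⟨_, hu⟩ = (HahnSeries.C c₁, HahnSeries.C c₂) →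
    ∃ w : FN (N' * q), w ≠ 0 ∧
      (∀ P : Place Kbar (FN (N' * q)), P.ord w = n * frobDiv N' q σ D P) ∧
      ∃ hw : (w : Om) ∈ O, ρ ⟨_, hw⟩ = 1 ∧
        ∃ c₀ : ℕ, ∀ c : ℕ, c₀ ≤ c →
          Plan.MD (N' * q) q M O ρ E (frobDiv N' q σ D) c = Plan.Bbar (N' * q) q M O ρ E c

/-- **[NEW-K0]** for a `q`-new class `D₀` of `F_{N' q}` (degree `0`, `n D₀` principal, both
push-forwards to `F_{N'}` principal) and a Frobenius element `σ` at `A`: `(σ² - 1) D₀` is linearly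
equivalent to a divisor `D'` with `n D' = div u`, `u ∈ O`, `ρ u ∈ k^× × k^×`. -/
def NewK0 : Prop :=
  ∀ σ : Kbar ≃ₐ[ℚ] Kbar, A.IsFrobeniusAt σ q →
  ∀ (D₀ : Divisor Kbar (FN (N' * q))) (n : ℕ), Divisor.degree D₀ = 0 → 0 < n →
    n • D₀ ∈ Divisor.principal (K := Kbar) (F := FN (N' * q)) →
    Divisor.pushforwardAlong (heckeAlphaBar Kbar N' q)
        (Fermat.Agent.S37.HeckeInputs.heckeAlphaBarIntegral N' q) D₀ ∈
      Divisor.principal (K := Kbar) (F := FN N') →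
    Divisor.pushforwardAlong (heckeBetaBar Kbar N' q)
        (Fermat.Agent.S37.HeckeInputs.heckeBetaBarIntegral N' q) D₀ ∈
      Divisor.principal (K := Kbar) (F := FN N') →
    ∃ (D' : Divisor Kbar (FN (N' * q))) (u : FN (N' * q)), Divisor.degree D' = 0 ∧
      D' - newDiv N' q σ D₀ ∈ Divisor.principal (K := Kbar) (F := FN (N' * q)) ∧ u ≠ 0 ∧
      (∀ P : Place Kbar (FN (N' * q)), P.ord u = n * D' P) ∧
      ∃ (hu : (u : Om) ∈ O) (c₁ c₂ : kk A), c₁ ≠ 0 ∧ c₂ ≠ 0 ∧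
        ρ ⟨_, hu⟩ = (HahnSeries.C c₁, HahnSeries.C c₂)

/-- **(F), divisor form**: for a Frobenius element `σ` at `A` and a `q`-new divisor `D₀` of degree
`0` with `n D₀` principal, `q ∤ n`: `(σ² - q²)(σ² - 1) D₀` is principal. -/
def FDiv : Prop :=
  ∀ σ : Kbar ≃ₐ[ℚ] Kbar, A.IsFrobeniusAt σ q →
  ∀ (D₀ : Divisor Kbar (FN (N' * q))) (n : ℕ), Divisor.degree D₀ = 0 → 0 < n → ¬ q ∣ n →
    n • D₀ ∈ Divisor.principal (K := Kbar) (F := FN (N' * q)) →
    Divisor.pushforwardAlong (heckeAlphaBar Kbar N' q)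
        (Fermat.Agent.S37.HeckeInputs.heckeAlphaBarIntegral N' q) D₀ ∈
      Divisor.principal (K := Kbar) (F := FN N') →
    Divisor.pushforwardAlong (heckeBetaBar Kbar N' q)
        (Fermat.Agent.S37.HeckeInputs.heckeBetaBarIntegral N' q) D₀ ∈
      Divisor.principal (K := Kbar) (F := FN N') →
    frobDiv N' q σ (newDiv N' q σ D₀) ∈ Divisor.principal (K := Kbar) (F := FN (N' * q))

variable {A N' q M O ρ}

/-- **The chain**: `Setup2` + `[K0]` + `[NEW-K0]` + `[LIFT]` + `[DESC]` ⟹ (F). -/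
theorem fDiv_of (hS : Plan.Setup2 A (N' * q) q M (dvd_level N' q) O ρ)
    (hK0 : K0Stmt A N' q M O ρ) (hNew : NewK0 A N' q O ρ)
    (hLift : Plan.LiftStmt A (N' * q) q M (dvd_level N' q) O ρ)
    (hDesc : DescInst.DescW A (N' * q) q M) : FDiv A N' q := by
  intro σ hσ D₀ n hdeg hn0 hqn hprin hα hβ
  obtain ⟨D', u, hdeg', hdiff, hu0, hudiv, hu, c₁, c₂, hc₁, hc₂, hρu⟩ :=
    hNew σ hσ D₀ n hdeg hn0 hprin hα hβ
  obtain ⟨E, hE⟩ := PlanTop.exists_isE (N' * q) q (dvd_level N' q)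
  obtain ⟨w, hw0, hwdiv, hwO, hρw, c₀, hc⟩ :=
    hK0 E hE σ hσ D' n hdeg' hn0 u hu0 hudiv hu c₁ c₂ hc₁ hc₂ hρu
  have hdeg'' : Divisor.degree (frobDiv N' q σ D') = 0 := degree_frobDiv σ D' hdeg'
  obtain ⟨g, hg, hg0⟩ :=
    hLift E hE (frobDiv N' q σ D') n hdeg'' hn0 hqn w hw0 hwdiv hwO hρw ⟨c₀, hc⟩
  have hwOc : (w : Om) ∈ Ocal A := hS.mem_Ocal ⟨_, hwO⟩
  have hred : red A ⟨_, hwOc⟩ = 1 := by
    rw [← hS.fst_eq ⟨_, hwO⟩ hwOc, hρw]
    rfl
  have h1 : frobDiv N' q σ D' ∈ Divisor.principal (K := Kbar) (F := FN (N' * q)) :=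
    hDesc _ n hdeg'' hqn w hw0 hwdiv hwOc hred ⟨g, hg, hg0⟩
  have h2 := frobDiv_mem_principal σ hdiff
  rw [frobDiv_sub] at h2
  have h3 := sub_mem h1 h2
  rwa [sub_sub_cancel] at h3

variable (A N' q M)

/-- **[VAL], as needed by (F)**: one two-component reduction `(O, ρ)` with `S34.Plan.Setup2`,
`FrobSetup` and `SwapN`. -/
def ValStmtF : Prop :=
  ∃ (O : Subring Om) (ρ : O →+* Plan.R2 A),
    Plan.Setup2 A (N' * q) q M (dvd_level N' q) O ρ ∧ FrobSetup A q O ρ ∧ SwapN A N' q O ρ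

variable {A N' q M}

/-- **(F) from the blocks**: `[VAL]` + `[K0]` + `[NEW-K0]` + `[LIFT]` + `[DESC]` ⟹ (F). -/
theorem fDiv_of_val (hVal : ValStmtF A N' q M)
    (hK0 : ∀ (O : Subring Om) (ρ : O →+* Plan.R2 A),
      Plan.Setup2 A (N' * q) q M (dvd_level N' q) O ρ → FrobSetup A q O ρ →
        K0Stmt A N' q M O ρ)
    (hNew : ∀ (O : Subring Om) (ρ : O →+* Plan.R2 A),
      Plan.Setup2 A (N' * q) q M (dvd_level N' q) O ρ → SwapN A N' q O ρ → NewK0 A N' q O ρ)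
    (hLift : ∀ (O : Subring Om) (ρ : O →+* Plan.R2 A),
      Plan.Setup2 A (N' * q) q M (dvd_level N' q) O ρ →
        Plan.LiftStmt A (N' * q) q M (dvd_level N' q) O ρ)
    (hDesc : DescInst.DescW A (N' * q) q M) : FDiv A N' q := by
  obtain ⟨O, ρ, hS, hF, hW⟩ := hVal
  exact fDiv_of hS (hK0 O ρ hS hF) (hNew O ρ hS hW) (hLift O ρ hS) hDesc

end Contracts

end Fermat.Agent.S35.FPlan

end
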