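import Mathlib
import Fermat.Agent.Lib.TateSeq
import Fermat.Agent.P5.Eig

/-!
# S35, block [TATE-NEW]: the eigenlattice of the Tate module cut down by a degeneracy map (helper38)

`Eig.tate_abstract` produces the `χ`-eigenlattice `W ⊆ O ⊗[ℤ_p] T_p J`.  Here the lattice is cut
down further by an additive map `a : J → J'` (for S35: the degeneracy maps
`J₀(M) → J₀(M / q)²`):

`W_new := {w : T_i w = c_i w, (1 ⊗ T_p a) w = 0}`.

It is still saturated, Galois-stable, finite free, and (by flatness of `O` over `ℤ_p`: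
`ker (1 ⊗ A) = O ⊗ ker A`) **every** integral polynomial relation `P (r σ) = 0` which holds on
`{x ∈ J[p^∞] : a x = 0}` holds for the action `ρ σ` on `W_new`.  It is nonzero as soon as the
eigenvector `v ∈ O ⊗ L` is killed by a lattice map `a' : L → L'` compatible with `a`.

* `tateHom`, `homO`             : functoriality of the Tate module for maps `J → J'`;
* `baseChange_eq_zero_of_homO_eq_zero` : the flatness lemma;
* `newLattice`, `newRep`, `aeval_newRep_eq_zero`;
* `tate_new_abstract`           : the abstract block;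
* `TateRel`                     : `Plan.Tate` with a family of polynomial relations;
* `tateRel_of_new`              : the instance `J = J₀(N)` in hypothesis form.
-/

set_option autoImplicit false

open CuspForm ModularCurve
open scoped TensorProduct

namespace Fermat.Agent.S35.TateNew

open Fermat.Agent.Lib Fermat.Agent.Lib.TateSeq PadicInt Fermat.Agent.P5.Plan
open Fermat.Agent.P5.Per (Lat tcohL heckeAct)

/-! ### Functoriality of the Tate module for maps between two groups -/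

section Hom

variable (p : ℕ) {J J' : Type*} [AddCommGroup J] [AddCommGroup J'] [hp : Fact p.Prime]

/-- The map of Tate modules induced by an additive map (componentwise). -/
noncomputable def tateHom (f : J →+ J') : Tate p J →ₗ[ℤ_[p]] Tate p J' where
  toFun x := Tate.mk' (fun k => f ((x : ℕ → J) k))
    (fun k => by rw [← map_nsmul, Tate.pow_smul, map_zero])
    (fun k => by rw [← map_nsmul, Tate.smul_succ])
  map_add' x y := Tate.ext' fun k => map_add f _ _
  map_smul' a x := Tate.ext' fun k => map_nsmul f _ _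

variable {p}

theorem tateHom_apply (f : J →+ J') (x : Tate p J) (k : ℕ) :
    ((tateHom p f x : Tate p J') : ℕ → J') k = f ((x : ℕ → J) k) := rfl

end Hom

/-! ### Coefficients, flatness -/

section Coeff

variable (p : ℕ) {J J' : Type*} [AddCommGroup J] [AddCommGroup J'] [hp : Fact p.Prime]
variable (O : Type*) [CommRing O] [Algebra ℤ_[p] O]

/-- The map of Tate modules with coefficients in `O`. -/
noncomputable def homO (f : J →+ J') : O ⊗[ℤ_[p]] Tate p J →ₗ[O] O ⊗[ℤ_[p]] Tate p J' :=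
  (tateHom p f).baseChange O

variable {p O}

theorem homO_tmul (f : J →+ J') (o : O) (x : Tate p J) :
    homO p O f (o ⊗ₜ x) = o ⊗ₜ tateHom p f x := rfl

theorem mapO_eq_baseChange (f : AddMonoid.End J) :
    mapO p O f = (tateMap p f).baseChange O := rfl

/-- **Flatness.**  A `ℤ_p`-linear map out of the Tate module vanishing on the kernel of
`tateHom p f` vanishes, after base change to a flat `O`, on the kernel of `homO p O f`. -/
theorem baseChange_eq_zero_of_homO_eq_zero [Module.Flat ℤ_[p] O] (f : J →+ J') {M : Type*}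
    [AddCommGroup M] [Module ℤ_[p] M] (F : Tate p J →ₗ[ℤ_[p]] M)
    (hF : ∀ x : Tate p J, tateHom p f x = 0 → F x = 0)
    {w : O ⊗[ℤ_[p]] Tate p J} (hw : homO p O f w = 0) : F.baseChange O w = 0 := by
  have hmem : w ∈ LinearMap.ker (TensorProduct.AlgebraTensorModule.lTensor O O (tateHom p f)) :=
    hw
  rw [Module.Flat.ker_lTensor_eq] at hmem
  obtain ⟨y, rfl⟩ := hmem
  have h0 : F ∘ₗ (LinearMap.ker (tateHom p f)).subtype = 0 :=
    LinearMap.ext fun x => hF x x.2
  show F.baseChange O ((LinearMap.ker (tateHom p f)).subtype.baseChange O y) = 0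
  rw [← LinearMap.comp_apply, ← LinearMap.baseChange_comp, h0, LinearMap.baseChange_zero,
    LinearMap.zero_apply]

variable {ι : Type*}

variable (p O) in
/-- The part of the eigenlattice killed by `a`. -/
noncomputable def newLattice (t : ι → AddMonoid.End J) (c : ι → O) (a : J →+ J') :
    Submodule O (O ⊗[ℤ_[p]] Tate p J) :=
  eigenLattice p O t c ⊓ LinearMap.ker (homO p O a)

theorem mem_newLattice {t : ι → AddMonoid.End J} {c : ι → O} {a : J →+ J'}
    {w : O ⊗[ℤ_[p]] Tate p J} :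
    w ∈ newLattice p O t c a ↔ w ∈ eigenLattice p O t c ∧ homO p O a w = 0 := Iff.rfl

/-- Endomorphisms commuting with the `t i` and preserving `ker a` (on `p`-power torsion) preserve
the new lattice. -/
theorem mapO_mem_newLattice [Module.Flat ℤ_[p] O] {t : ι → AddMonoid.End J} {c : ι → O}
    {a : J →+ J'} (g : AddMonoid.End J)
    (hg : ∀ (i : ι) (k : ℕ) (x : J), p ^ k • x = 0 → g (t i x) = t i (g x))
    (ha : ∀ (k : ℕ) (x : J), p ^ k • x = 0 → a x = 0 → a (g x) = 0)
    {w : O ⊗[ℤ_[p]] Tate p J} (hw : w ∈ newLattice p O t c a) :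
    mapO p O g w ∈ newLattice p O t c a := by
  refine ⟨mapO_mem_eigenLattice g hg hw.1, ?_⟩
  have h := baseChange_eq_zero_of_homO_eq_zero (O := O) a (tateHom p a ∘ₗ tateMap p g)
    (fun x hx => Tate.ext' fun k =>
      ha k _ (Tate.pow_smul x k) (congrArg (fun y : Tate p J' => (y : ℕ → J') k) hx)) hw.2
  rw [LinearMap.baseChange_comp] at h
  exact h

theorem newLattice_saturated [IsDomain O] [Module.IsTorsionFree O (O ⊗[ℤ_[p]] Tate p J)]
    [Module.IsTorsionFree O (O ⊗[ℤ_[p]] Tate p J')]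
    {t : ι → AddMonoid.End J} {c : ι → O} {a : J →+ J'} {s : O} (hs : s ≠ 0)
    {q : O ⊗[ℤ_[p]] Tate p J} (hq : s • q ∈ newLattice p O t c a) :
    q ∈ newLattice p O t c a := by
  refine ⟨eigenLattice_saturated hs hq.1, ?_⟩
  have h : homO p O a (s • q) = 0 := hq.2
  rw [map_smul] at h
  exact smul_right_injective _ hs (h.trans (smul_zero s).symm)

/-- The action on the new lattice. -/
noncomputable def newRep [Module.Flat ℤ_[p] O] {G : Type*} [Monoid G]
    (r : G →* AddMonoid.End J) (t : ι → AddMonoid.End J) (c : ι → O) (a : J →+ J')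
    (hr : ∀ (g : G) (i : ι) (k : ℕ) (x : J), p ^ k • x = 0 → r g (t i x) = t i (r g x))
    (ha : ∀ (g : G) (k : ℕ) (x : J), p ^ k • x = 0 → a x = 0 → a (r g x) = 0) :
    G →* Module.End O (newLattice p O t c a) where
  toFun g := (mapO p O (r g)).restrict fun _ hw => mapO_mem_newLattice (r g) (hr g) (ha g) hw
  map_one' := by
    ext w
    simp
  map_mul' := fun g g' => by
    ext w
    simp

theorem newRep_apply [Module.Flat ℤ_[p] O] {G : Type*} [Monoid G]
    (r : G →* AddMonoid.End J) (t : ι → AddMonoid.End J) (c : ι → O) (a : J →+ J')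
    (hr : ∀ (g : G) (i : ι) (k : ℕ) (x : J), p ^ k • x = 0 → r g (t i x) = t i (r g x))
    (ha : ∀ (g : G) (k : ℕ) (x : J), p ^ k • x = 0 → a x = 0 → a (r g x) = 0)
    (g : G) (w : newLattice p O t c a) :
    ((newRep r t c a hr ha g w : newLattice p O t c a) : O ⊗[ℤ_[p]] Tate p J) =
      mapO p O (r g) w := rfl

end Coeff

/-! ### Polynomials in a restricted endomorphism -/

section Restrict

variable {R M : Type*} [CommRing R] [AddCommGroup M] [Module R M] {W : Submodule R M}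

theorem pow_restrict_apply (F : Module.End R M) (hF : ∀ w ∈ W, F w ∈ W) (n : ℕ) (w : W) :
    (((F.restrict hF) ^ n) w : M) = (F ^ n) (w : M) := by
  induction n generalizing w with
  | zero => simp
  | succ n ih =>
    rw [pow_succ, pow_succ, Module.End.mul_apply, Module.End.mul_apply, ih]
    rfl

theorem aeval_restrict_apply (F : Module.End R M) (hF : ∀ w ∈ W, F w ∈ W) (P : Polynomial ℤ)
    (w : W) :
    ((Polynomial.aeval (F.restrict hF) P) w : M) = (Polynomial.aeval F P) (w : M) := by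
  induction P using Polynomial.induction_on' with
  | add P Q hP hQ =>
    rw [map_add, map_add, LinearMap.add_apply, LinearMap.add_apply, Submodule.coe_add, hP, hQ]
  | monomial n a =>
    rw [Polynomial.aeval_monomial, Polynomial.aeval_monomial, Module.End.mul_apply,
      Module.End.mul_apply, ← pow_restrict_apply F hF n w]
    simp

end Restrict

/-! ### Relations, nonvanishing, finiteness -/

section Main

variable {p : ℕ} {J J' : Type*} [AddCommGroup J] [AddCommGroup J'] [hp : Fact p.Prime]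
variable {O : Type*} [CommRing O] [Algebra ℤ_[p] O] {ι : Type*}

theorem mapO_aeval (f : AddMonoid.End J) (P : Polynomial ℤ) :
    mapO p O (Polynomial.aeval f P) = Polynomial.aeval (mapO p O f) P := by
  induction P using Polynomial.induction_on' with
  | add P Q hP hQ => rw [map_add, map_add, map_add, hP, hQ]
  | monomial n a =>
    rw [Polynomial.aeval_monomial, Polynomial.aeval_monomial, map_mul, map_pow,
      Algebra.algebraMap_eq_smul_one, Algebra.algebraMap_eq_smul_one, map_zsmul, map_one]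

/-- **Transfer of relations.**  An integral polynomial relation satisfied by `r g` on the part of
the `p`-power torsion of `J` killed by `a` is satisfied by the action on the new lattice. -/
theorem aeval_newRep_eq_zero [Module.Flat ℤ_[p] O] {G : Type*} [Monoid G]
    (r : G →* AddMonoid.End J) (t : ι → AddMonoid.End J) (c : ι → O) (a : J →+ J')
    (hr : ∀ (g : G) (i : ι) (k : ℕ) (x : J), p ^ k • x = 0 → r g (t i x) = t i (r g x))
    (ha : ∀ (g : G) (k : ℕ) (x : J), p ^ k • x = 0 → a x = 0 → a (r g x) = 0)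
    (g : G) (P : Polynomial ℤ)
    (hP : ∀ (k : ℕ) (x : J), p ^ k • x = 0 → a x = 0 → Polynomial.aeval (r g) P x = 0) :
    Polynomial.aeval (newRep r t c a hr ha g) P = 0 := by
  refine LinearMap.ext fun w => Subtype.ext ?_
  rw [LinearMap.zero_apply, Submodule.coe_zero]
  have h1 := aeval_restrict_apply (mapO p O (r g))
    (fun _ hw => mapO_mem_newLattice (r g) (hr g) (ha g) hw) P w
  have h2 : Polynomial.aeval (mapO p O (r g)) P = mapO p O (Polynomial.aeval (r g) P) :=
    (mapO_aeval (r g) P).symm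
  have h3 := baseChange_eq_zero_of_homO_eq_zero (O := O) a
    (tateMap p (Polynomial.aeval (r g) P))
    (fun x hx => Tate.ext' fun k =>
      hP k _ (Tate.pow_smul x k) (congrArg (fun y : Tate p J' => (y : ℕ → J') k) hx)) w.2.2
  refine h1.trans ?_
  rw [h2]
  exact h3

variable {L L' : Type*} [AddCommGroup L] [AddCommGroup L']

/-- Compatibility of the lattice maps with the maps of Tate modules. -/
theorem homO_thetaO (a : J →+ J') (θ : L →+ Tate p J) (θ' : L' →+ Tate p J') (a' : L →+ L')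
    (h : ∀ ψ, tateHom p a (θ ψ) = θ' (a' ψ)) (v : O ⊗[ℤ] L) :
    homO p O a (thetaO O θ v) = thetaO O θ' (LinearMap.lTensor O a'.toIntLinearMap v) := by
  induction v using TensorProduct.induction_on with
  | zero => simp
  | tmul o ψ =>
    rw [thetaO_tmul, homO_tmul, h, LinearMap.lTensor_tmul, thetaO_tmul]
    rfl
  | add x y hx hy => rw [map_add, map_add, hx, hy, map_add, map_add]

theorem finite_newLattice (hfin : {y : J | p • y = 0}.Finite) [IsNoetherianRing O]
    (t : ι → AddMonoid.End J) (c : ι → O) (a : J →+ J') :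
    Module.Finite O (newLattice p O t c a) :=
  haveI := finite_tate hfin
  inferInstance

theorem free_newLattice (hfin : {y : J | p • y = 0}.Finite) [IsDomain O]
    [IsPrincipalIdealRing O] (t : ι → AddMonoid.End J) (c : ι → O) (a : J →+ J') :
    Module.Free O (newLattice p O t c a) := by
  have h1 : Module.IsTorsionFree O (O ⊗[ℤ_[p]] Tate p J) := isTorsionFree_tateO hfin
  have h2 : Module.Finite O (newLattice p O t c a) := finite_newLattice hfin t c a
  have h3 : Module.IsTorsionFree O (newLattice p O t c a) := inferInstance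
  exact Module.free_of_finite_type_torsion_free' (R := O) (M := newLattice p O t c a)

end Main

/-! ### The abstract block -/

/-- **The new eigenlattice of the Tate module, abstractly.**  The setting of
`Eig.tate_abstract`, with in addition an additive map `a : J → J'` whose kernel is stable under
the Galois action, and a lattice map `a' : L → L'` compatible with `a` killing the eigenvector
`v`.  The lattice `W` is the part of the `c`-eigenlattice killed by `a`; besides the clauses of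
`Eig.tate_abstract`, every integral polynomial relation satisfied by `r σ` on
`{x ∈ J[p^∞] : a x = 0}` is satisfied by `ρ σ`. -/
theorem tate_new_abstract (p : ℕ) [Fact p.Prime] {J : Type} [AddCommGroup J]
    (O : Type) [CommRing O] [IsDomain O] [IsDiscreteValuationRing O] [CharZero O]
    (hpO : (p : O) ∈ IsLocalRing.maximalIdeal O) [Algebra ℤ_[p] O] [Module.Flat ℤ_[p] O]
    {ι : Type} (t : ι → AddMonoid.End J) (c : ι → O) (r : GQ →* AddMonoid.End J)
    (hr : ∀ (σ : GQ) (i : ι) (k : ℕ) (x : J), p ^ k • x = 0 → r σ (t i x) = t i (r σ x))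
    (hfin : ∀ k : ℕ, {x : J | p ^ k • x = 0}.Finite)
    (hopen : ∀ X : Set J, X.Finite → ∃ M : IntermediateField ℚ Qb, FiniteDimensional ℚ M ∧
      ∀ σ : GQ, (∀ y ∈ M, σ y = y) → ∀ x ∈ X, r σ x = x)
    {J' : Type} [AddCommGroup J'] (a : J →+ J') (hfin' : {y : J' | p • y = 0}.Finite)
    (ha : ∀ (σ : GQ) (k : ℕ) (x : J), p ^ k • x = 0 → a x = 0 → a (r σ x) = 0)
    {L : Type} [AddCommGroup L] {κ : Type} [Fintype κ] (b : Module.Basis κ ℤ L)
    (lam : ℕ → L →+ J) (h0 : ∀ k ψ, p ^ k • lam k ψ = 0)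
    (h1 : ∀ k ψ, p • lam (k + 1) ψ = lam k ψ)
    (h2 : ∀ k ψ, lam k ψ = 0 → ∃ ψ' : L, ψ = p ^ k • ψ')
    (g : ι → L →ₗ[ℤ] L) (hg : ∀ i k ψ, t i (lam k ψ) = lam k (g i ψ))
    {L' : Type} [AddCommGroup L'] (a' : L →+ L') (lam' : ℕ → L' →+ J')
    (h0' : ∀ k ψ, p ^ k • lam' k ψ = 0) (h1' : ∀ k ψ, p • lam' (k + 1) ψ = lam' k ψ)
    (hcomp : ∀ k ψ, a (lam k ψ) = lam' k (a' ψ))
    (v : O ⊗[ℤ] L) (hv : v ≠ 0) (hveig : ∀ i, LinearMap.lTensor O (g i) v = c i • v)
    (hv' : LinearMap.lTensor O a'.toIntLinearMap v = 0) :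
    ∃ (W : Type) (_ : AddCommGroup W) (_ : Module O W) (_ : Module.Free O W)
      (_ : Module.Finite O W) (ρ : GQ →* Module.End O W),
      Nontrivial W ∧ GaloisActionIsAdicContinuous O ρ ∧
      (∀ σ : GQ, (∀ (k : ℕ) (x : J), p ^ k • x = 0 → r σ x = x) → ρ σ = 1) ∧
      (∀ (i : ι) (σ : GQ) (n : ℕ),
        (∀ (k : ℕ) (x : J), p ^ k • x = 0 → r σ (r σ x) - t i (r σ x) + n • x = 0) →
        ρ σ * ρ σ - c i • ρ σ + (n : O) • (1 : Module.End O W) = 0) ∧
      (∀ (σ : GQ) (P : Polynomial ℤ),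
        (∀ (k : ℕ) (x : J), p ^ k • x = 0 → a x = 0 → Polynomial.aeval (r σ) P x = 0) →
        Polynomial.aeval (ρ σ) P = 0) := by
  classical
  have hp : p.Prime := Fact.out
  have hpO0 : (p : O) ≠ 0 := Nat.cast_ne_zero.mpr hp.ne_zero
  have hfin1 : {y : J | p • y = 0}.Finite := by
    have := hfin 1
    rwa [pow_one] at this
  have hθ : LinearIndependent ℤ_[p] (fun i => theta lam h0 h1 (b i)) :=
    linearIndependent_theta b lam h0 h1 h2
  have hg' : ∀ i ψ, tateMap p (t i) (theta lam h0 h1 ψ) = theta lam h0 h1 (g i ψ) :=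
    fun i ψ => Tate.ext' fun k => hg i k ψ
  have ha' : ∀ ψ, tateHom p a (theta lam h0 h1 ψ) = theta lam' h0' h1' (a' ψ) :=
    fun ψ => Tate.ext' fun k => hcomp k ψ
  -- the nonzero element
  have hw : thetaO O (theta lam h0 h1) v ∈ newLattice p O t c a := by
    refine ⟨mem_eigenLattice.mpr fun i => ?_, ?_⟩
    · rw [thetaO_comm (theta lam h0 h1) (t i) (g i) (hg' i), hveig i, map_smul]
    · show homO p O a (thetaO O (theta lam h0 h1) v) = 0
      rw [homO_thetaO a (theta lam h0 h1) (theta lam' h0' h1') a' ha', hv', map_zero]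
  have hw0 : thetaO O (theta lam h0 h1) v ≠ 0 := fun h =>
    hv (thetaO_injective b (theta lam h0 h1) hθ (h.trans (map_zero _).symm))
  haveI hTF : Module.IsTorsionFree O (O ⊗[ℤ_[p]] Tate p J) := isTorsionFree_tateO hfin1
  haveI hTF' : Module.IsTorsionFree O (O ⊗[ℤ_[p]] Tate p J') := isTorsionFree_tateO hfin'
  refine ⟨↥(newLattice p O t c a), inferInstance, inferInstance,
    free_newLattice hfin1 t c a, finite_newLattice hfin1 t c a,
    newRep r t c a hr ha, ?_, ?_, ?_, ?_, ?_⟩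
  · exact nontrivial_of_ne (⟨_, hw⟩ : newLattice p O t c a) 0
      (fun h => hw0 (congrArg Subtype.val h))
  · -- adic continuity
    intro n
    obtain ⟨M, hMfin, hM⟩ := hopen _ (hfin n)
    refine ⟨M, hMfin, fun σ hσ v => ?_⟩
    obtain ⟨q, hq⟩ := mapO_sub_mem (O := O) n (r σ) (fun x hx => hM σ hσ x hx)
      (v : O ⊗[ℤ_[p]] Tate p J)
    have hqm : q ∈ newLattice p O t c a := by
      refine newLattice_saturated (pow_ne_zero n hpO0) ?_
      rw [← hq]
      exact Submodule.sub_mem _ (mapO_mem_newLattice (r σ) (hr σ) (ha σ) v.2) v.2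
    have hv'' : newRep r t c a hr ha σ v - v =
        (p : O) ^ n • (⟨q, hqm⟩ : newLattice p O t c a) := Subtype.ext hq
    rw [hv'']
    exact Submodule.smul_mem_smul (Ideal.pow_mem_pow hpO n) Submodule.mem_top
  · -- triviality
    intro σ hσ
    refine LinearMap.ext fun v => Subtype.ext ?_
    rw [newRep_apply]
    have h3 : mapO p O (r σ) = mapO p O 1 := mapO_congr fun k x hx => hσ k x hx
    rw [h3, map_one]
    rfl
  · -- quadratic relations
    intro i σ n hσ
    refine LinearMap.ext fun v => Subtype.ext ?_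
    have h3 := eigen_relation (O := O) (c := c) i (r σ) n (hr σ) hσ v.2.1
    rw [LinearMap.add_apply, LinearMap.sub_apply, LinearMap.smul_apply, LinearMap.smul_apply,
      Module.End.mul_apply, Module.End.one_apply, LinearMap.zero_apply, Submodule.coe_add,
      Submodule.coe_sub, Submodule.coe_smul, Submodule.coe_smul, newRep_apply, newRep_apply,
      Submodule.coe_zero]
    exact h3
  · -- polynomial relations on the new part
    intro σ P hP
    exact aeval_newRep_eq_zero r t c a hr ha σ P hP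

/-! ### Polynomials in the action of a monoid -/

/-- `P (r g)` as an additive endomorphism, for a monoid acting through additive endomorphisms.
(Stated for an abstract group, so that no `ℤ`-algebra instance has to be found on the
endomorphisms of a concrete group such as `J₀(N)`.) -/
noncomputable def polyAct {G J : Type*} [Monoid G] [AddCommGroup J] (r : G →* AddMonoid.End J)
    (g : G) (P : Polynomial ℤ) : AddMonoid.End J :=
  Polynomial.aeval (r g) P

theorem polyAct_def {G J : Type*} [Monoid G] [AddCommGroup J] (r : G →* AddMonoid.End J)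
    (g : G) (P : Polynomial ℤ) : polyAct r g P = Polynomial.aeval (r g) P := rfl

/-- `P (r g) x = Σ_n P_n • r (g ^ n) x`. -/
theorem polyAct_apply {G J : Type*} [Monoid G] [AddCommGroup J] (r : G →* AddMonoid.End J)
    (g : G) (P : Polynomial ℤ) (x : J) :
    polyAct r g P x = P.sum fun n c => c • (r (g ^ n) x) := by
  unfold polyAct
  induction P using Polynomial.induction_on' with
  | add P Q hP hQ =>
    rw [map_add, Polynomial.sum_add_index P Q (fun n c => c • (r (g ^ n) x))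
      (fun n => zero_smul ℤ _) (fun n c c' => add_smul c c' _), ← hP, ← hQ]
    rfl
  | monomial n c =>
    rw [Polynomial.aeval_monomial,
      Polynomial.sum_monomial_index c (fun n c => c • (r (g ^ n) x)) (zero_smul ℤ _),
      Algebra.algebraMap_eq_smul_one, smul_mul_assoc, one_mul, map_pow]
    rfl

/-! ### The contract `TateRel` and the instance `J = J₀(N)` -/

/-- `Plan.Tate` together with a family of integral polynomial relations satisfied by the action:
`Rel σ P → P (ρ σ) = 0`. -/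
def TateRel (p N : ℕ) [NeZero N] (S : Finset ℕ) (O' : Type) [CommRing O'] [IsLocalRing O']
    (χ : heckeAlgebra N 2 (↑S : Set ℕ) →+* O') (Rel : GQ → Polynomial ℤ → Prop) : Prop :=
  ∃ (W : Type) (_ : AddCommGroup W) (_ : Module O' W) (_ : Module.Free O' W)
    (_ : Module.Finite O' W) (ρ : GQ →* Module.End O' W),
    Nontrivial W ∧ GaloisActionIsAdicContinuous O' ρ ∧
    (∀ q : ℕ, q.Prime → ¬ q ∣ N → q ≠ p → ∀ P : ValuationSubring Qb, P.LiesOverPrime q →
      ∀ σ ∈ P.inertiaSubgroupIn ℚ, ρ σ = 1) ∧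
    (∀ (ℓ : ℕ) (hℓ : ℓ.Prime) (hℓN : ¬ ℓ ∣ N) (hℓS : ℓ ∉ (↑S : Set ℕ)),
      ∀ A : ValuationSubring Qb, A.LiesOverPrime ℓ → ∀ σ : GQ, A.IsFrobeniusAt σ ℓ →
        ρ σ * ρ σ - χ (heckeAlgebra.T hℓ hℓN hℓS) • ρ σ + (ℓ : O') • (1 : Module.End O' W) = 0) ∧
    (∀ (σ : GQ) (P : Polynomial ℤ), Rel σ P → Polynomial.aeval (ρ σ) P = 0)

theorem TateRel.tate {p N : ℕ} [NeZero N] {S : Finset ℕ} {O' : Type} [CommRing O']
    [IsLocalRing O'] {χ : heckeAlgebra N 2 (↑S : Set ℕ) →+* O'} {Rel : GQ → Polynomial ℤ → Prop}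
    (h : TateRel p N S O' χ Rel) : Tate p N S O' χ := by
  obtain ⟨W, i1, i2, i3, i4, ρ, h1, h2, h3, h4, -⟩ := h
  exact ⟨W, i1, i2, i3, i4, ρ, h1, h2, h3, h4⟩

theorem TateRel.mono {p N : ℕ} [NeZero N] {S : Finset ℕ} {O' : Type} [CommRing O']
    [IsLocalRing O'] {χ : heckeAlgebra N 2 (↑S : Set ℕ) →+* O'}
    {Rel Rel' : GQ → Polynomial ℤ → Prop} (hRel : ∀ σ P, Rel' σ P → Rel σ P)
    (h : TateRel p N S O' χ Rel) : TateRel p N S O' χ Rel' := by
  obtain ⟨W, i1, i2, i3, i4, ρ, h1, h2, h3, h4, h5⟩ := h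
  exact ⟨W, i1, i2, i3, i4, ρ, h1, h2, h3, h4, fun σ P hP => h5 σ P (hRel σ P hP)⟩

open Fermat.Agent.P5.Eig in
/-- The new eigenlattice of `J₀(N)` with a given `ℤ_p`-algebra structure on `𝒪'`: `lam` is a family
with the four properties of `Plan.LambdaStmt`, `a : J₀(N) → J'` an additive map with Galois-stable
kernel, `a' : Lat N → L'` a compatible lattice map killing every `χ`-eigenvector. -/
theorem tateRel_of_algebra (p : ℕ) [Fact p.Prime] (N : ℕ) [NeZero N] (S : Finset ℕ)
    (hpS : p ∈ S) (hNS : ∀ q : ℕ, q.Prime → q ∣ N → q ∈ (↑S : Set ℕ))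
    (𝒪' : Type) [CommRing 𝒪'] [IsDomain 𝒪'] [IsDiscreteValuationRing 𝒪']
    [CharZero 𝒪'] (hp𝒪' : (p : 𝒪') ∈ IsLocalRing.maximalIdeal 𝒪')
    [Algebra ℤ_[p] 𝒪'] [Module.Flat ℤ_[p] 𝒪']
    (χ : heckeAlgebra N 2 (↑S : Set ℕ) →+* 𝒪')
    (lam : ℕ → (Lat N →+ JZero N))
    (hl1 : ∀ (n : ℕ) (ψ : Lat N), n • lam n ψ = 0)
    (hl2 : ∀ (n : ℕ) (ψ : Lat N), 0 < n → lam n ψ = 0 → ∃ ψ' : Lat N, ψ = n • ψ')
    (hl3 : ∀ (n m : ℕ) (ψ : Lat N), 0 < n → 0 < m → m • lam (n * m) ψ = lam n ψ)
    (hl4 : ∀ (n : ℕ) (ℓ : ℕ) (hℓ : ℓ.Prime) (hℓN : ¬ ℓ ∣ N) (ψ : Lat N),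
      lam n (tcohL N hℓ hℓN ψ) = heckeOperatorBar N ⟨ℓ, hℓ⟩ (lam n ψ))
    (hfin : FinTorsion N p) (hcore : Fermat.Agent.S37.Core.CoreAll N p)
    {J' : Type} [AddCommGroup J'] (a : JZero N →+ J') (hfin' : {y : J' | p • y = 0}.Finite)
    (ha : ∀ (σ : GQ) (k : ℕ) (x : JZero N), p ^ k • x = 0 → a x = 0 → a (σ • x) = 0)
    {L' : Type} [AddCommGroup L'] (a' : Lat N →+ L') (lam' : ℕ → L' →+ J')
    (h0' : ∀ k ψ, p ^ k • lam' k ψ = 0) (h1' : ∀ k ψ, p • lam' (k + 1) ψ = lam' k ψ)
    (hcomp : ∀ k ψ, a (lam (p ^ k) ψ) = lam' k (a' ψ))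
    (hnew : ∀ v : 𝒪' ⊗[ℤ] Lat N,
      (∀ t : heckeAlgebra N 2 (↑S : Set ℕ),
        LinearMap.lTensor 𝒪' (heckeAct N (↑S) hNS t) v = χ t • v) →
      LinearMap.lTensor 𝒪' a'.toIntLinearMap v = 0) :
    TateRel p N S 𝒪' χ (fun σ P => ∀ (k : ℕ) (x : JZero N), p ^ k • x = 0 → a x = 0 →
      polyAct (galEnd N) σ P x = 0) := by
  have hp : p.Prime := Fact.out
  obtain ⟨s, b, -, -⟩ := Fermat.Agent.P5.Per.exists_lat_basis N
  obtain ⟨v, hv, hveig⟩ := Fermat.Agent.P5.EigVec.eigVecStmt N (↑S) hNS 𝒪' χ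
  obtain ⟨W, iW1, iW2, iW3, iW4, ρ, hW, hcont, htriv, hquad, hrel⟩ :=
    tate_new_abstract p 𝒪' hp𝒪' (heckeEnd N S)
      (fun i : Good N S => χ (heckeAlgebra.T i.2.1 i.2.2.1 i.2.2.2)) (galEnd N)
      (fun σ i _ x _ => galEnd_heckeEnd N S σ i x) hfin (galEnd_open N)
      a hfin' (fun σ k x hx hax => ha σ k x hx hax) b
      (fun k => lam (p ^ k)) (fun k ψ => hl1 (p ^ k) ψ)
      (fun k ψ => by
        have := hl3 (p ^ k) p ψ (pow_pos hp.pos k) hp.pos
        rwa [← pow_succ] at this)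
      (fun k ψ h => hl2 (p ^ k) ψ (pow_pos hp.pos k) h)
      (latEnd N S hNS)
      (fun i k ψ => by
        rw [latEnd_apply, hl4 (p ^ k) i.1 i.2.1 i.2.2.1 ψ]
        rfl)
      a' lam' h0' h1' hcomp
      v hv (fun i => hveig _) (hnew v hveig)
  refine ⟨W, iW1, iW2, iW3, iW4, ρ, hW, hcont, ?_, ?_, hrel⟩
  · -- inertia
    intro q hq hqN hqp P hP σ hσ
    have hqNp : ¬ q ∣ N * p := not_dvd_mul_of_ne hq hp hqN hqp
    exact htriv σ fun k x hx => (hcore q hq hqNp P hP).1 σ hσ x ⟨k, hx⟩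
  · -- Frobenius
    intro ℓ hℓ hℓN hℓS A hA σ hσ
    have hℓp : ℓ ≠ p := fun h => hℓS (h ▸ Finset.mem_coe.mpr hpS)
    have hℓNp : ¬ ℓ ∣ N * p := not_dvd_mul_of_ne hℓ hp hℓN hℓp
    exact hquad (⟨ℓ, hℓ, hℓN, hℓS⟩ : Good N S) σ ℓ
      fun k x hx => (hcore ℓ hℓ hℓNp A hA).2 σ hσ x ⟨k, hx⟩

open Fermat.Agent.P5.Eig in
/-- **[TATE-NEW]** at the frozen binders of S30/S35 (`𝒪'` a complete discrete valuation ring;
`ℤ_p → 𝒪'` is `CycloDelta.padicHom`). -/
theorem tateRel_of_new (p : ℕ) [Fact p.Prime] (N : ℕ) [NeZero N] (S : Finset ℕ)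
    (hpS : p ∈ S) (hNS : ∀ q : ℕ, q.Prime → q ∣ N → q ∈ (↑S : Set ℕ))
    (𝒪' : Type) [CommRing 𝒪'] [IsDomain 𝒪'] [IsDiscreteValuationRing 𝒪']
    [IsAdicComplete (IsLocalRing.maximalIdeal 𝒪') 𝒪']
    [CharZero 𝒪'] (hp𝒪' : (p : 𝒪') ∈ IsLocalRing.maximalIdeal 𝒪')
    (χ : heckeAlgebra N 2 (↑S : Set ℕ) →+* 𝒪')
    (lam : ℕ → (Lat N →+ JZero N))
    (hl1 : ∀ (n : ℕ) (ψ : Lat N), n • lam n ψ = 0)
    (hl2 : ∀ (n : ℕ) (ψ : Lat N), 0 < n → lam n ψ = 0 → ∃ ψ' : Lat N, ψ = n • ψ')
    (hl3 : ∀ (n m : ℕ) (ψ : Lat N), 0 < n → 0 < m → m • lam (n * m) ψ = lam n ψ)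
    (hl4 : ∀ (n : ℕ) (ℓ : ℕ) (hℓ : ℓ.Prime) (hℓN : ¬ ℓ ∣ N) (ψ : Lat N),
      lam n (tcohL N hℓ hℓN ψ) = heckeOperatorBar N ⟨ℓ, hℓ⟩ (lam n ψ))
    (hfin : FinTorsion N p) (hcore : Fermat.Agent.S37.Core.CoreAll N p)
    {J' : Type} [AddCommGroup J'] (a : JZero N →+ J') (hfin' : {y : J' | p • y = 0}.Finite)
    (ha : ∀ (σ : GQ) (k : ℕ) (x : JZero N), p ^ k • x = 0 → a x = 0 → a (σ • x) = 0)
    {L' : Type} [AddCommGroup L'] (a' : Lat N →+ L') (lam' : ℕ → L' →+ J')
    (h0' : ∀ k ψ, p ^ k • lam' k ψ = 0) (h1' : ∀ k ψ, p • lam' (k + 1) ψ = lam' k ψ)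
    (hcomp : ∀ k ψ, a (lam (p ^ k) ψ) = lam' k (a' ψ))
    (hnew : ∀ v : 𝒪' ⊗[ℤ] Lat N,
      (∀ t : heckeAlgebra N 2 (↑S : Set ℕ),
        LinearMap.lTensor 𝒪' (heckeAct N (↑S) hNS t) v = χ t • v) →
      LinearMap.lTensor 𝒪' a'.toIntLinearMap v = 0) :
    TateRel p N S 𝒪' χ (fun σ P => ∀ (k : ℕ) (x : JZero N), p ^ k • x = 0 → a x = 0 →
      polyAct (galEnd N) σ P x = 0) := by
  letI : Algebra ℤ_[p] 𝒪' :=
    (Fermat.Agent.P5.CycloDelta.padicHom p (IsLocalRing.maximalIdeal 𝒪') hp𝒪').toAlgebra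
  haveI : Module.Flat ℤ_[p] 𝒪' :=
    Fermat.Agent.P5.CycloDelta.flat_padicHom p (IsLocalRing.maximalIdeal 𝒪') hp𝒪'
  exact tateRel_of_algebra p N S hpS hNS 𝒪' hp𝒪' χ lam hl1 hl2 hl3 hl4 hfin hcore a hfin' ha
    a' lam' h0' h1' hcomp hnew

/-! ### Reading polynomial relations of the Galois action -/

open Fermat.Agent.P5.Eig in
/-- `P (σ) x = Σ_n P_n • σ^n • x` on `J₀(N)`. -/
theorem polyAct_galEnd_apply (N : ℕ) (σ : GQ) (P : Polynomial ℤ) (x : JZero N) :
    polyAct (galEnd N) σ P x = P.sum fun n c => c • (σ ^ n • x) :=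
  polyAct_apply (galEnd N) σ P x

end Fermat.Agent.S35.TateNew
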