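/-
P6 / S35 leaf [F-TOP] (helper33): the Frobenius relation (F) on the `q`-new torsion of `J₀(N' q)`
from its divisor-level form `FPlan.FDiv`.

`FPlan.FDiv A N' q`: for `σ` a Frobenius element at `A ∣ q` and a divisor `D₀` of degree `0` of
`F_{N' q}` with `n • D₀` principal (`q ∤ n`) and both push-forwards `α_* D₀`, `β_* D₀` to level
`N'` principal, the divisor `(σ² - q²)(σ² - 1) D₀` is principal.

* `f_smul`   : `σ • σ • (σ • σ • x - x) - q ^ 2 • (σ • σ • x - x) = 0` for every `p`-power torsion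
  class `x` killed by two maps `pA`, `pB` with the `mk`-formulas of the two push-forwards;
* `newFrob`  : the same for `Push.pushA`, `Push.pushB`, in the expanded form
  `σ • σ • σ • σ • x - (q ^ 2 + 1) • (σ • σ • x) + q ^ 2 • x = 0`  (= `S35.Plan.NewFrobStmt`);
* `newFrobStmt` : `Plan.NewFrobStmt N' q p (Push.pushA N' q) (Push.pushB N' q)`;
* `newFrob_inv` : `σ • σ • x + q ^ 2 • (σ⁻¹ • σ⁻¹ • x) = (q ^ 2 + 1) • x`;
* `newFrob_polyAct` : `TateNew.polyAct (galEnd (N' * q)) σ ((X² - 1)(X² - q²)) x = 0`.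
-/
import Mathlib
import Fermat.Agent.P5.CoreT
import Fermat.Agent.P5.Eig
import Fermat.Agent.S35.FPlan
import Fermat.Agent.S35.Plan
import Fermat.Agent.S35.Push
import Fermat.Agent.S35.TateNew

set_option autoImplicit false

noncomputable section

namespace Fermat.Agent.S35.FTop

open ModularCurve AlgebraicCurve Fermat.Agent.S24 Polynomial
open Fermat.Agent.S37.HeckeInputs

/-! ### Two formal identities -/

/-- `((X² - 1)(X² - q²))(r) x = r⁴ x - (q² + 1) r² x + q² x` for an additive endomorphism `r`. -/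
theorem aeval_badPoly_apply {J : Type*} [AddCommGroup J] (r : AddMonoid.End J) (q : ℕ) (x : J) :
    Polynomial.aeval r ((X ^ 2 - 1) * (X ^ 2 - C (q : ℤ) ^ 2) : Polynomial ℤ) x
      = r (r (r (r x))) - (q ^ 2 + 1) • r (r x) + q ^ 2 • x := by
  have hC : Polynomial.aeval r (C (q : ℤ) : Polynomial ℤ) = ((q : ℕ) : AddMonoid.End J) := by
    rw [Polynomial.aeval_C]
    simp
  rw [map_mul, map_sub, map_sub, map_pow, map_pow, Polynomial.aeval_X, map_one, hC,
    ← Nat.cast_pow]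
  have e1 : ∀ y : J, (r ^ 2) y = r (r y) := fun y => by
    rw [pow_two]
    rfl
  have e2 : ∀ y : J, ((q ^ 2 : ℕ) : AddMonoid.End J) y = (q ^ 2) • y := fun y => by
    rw [AddMonoid.End.natCast_apply]
  have e3 : ∀ (f g : AddMonoid.End J) (y : J), (f * g) y = f (g y) := fun _ _ _ => rfl
  have e4 : ∀ (f g : AddMonoid.End J) (y : J), (f - g) y = f y - g y := fun _ _ _ => rfl
  have e5 : ∀ y : J, (1 : AddMonoid.End J) y = y := fun _ => rfl
  rw [e3, e4, e4, e1, e2, e5, e1, map_sub, map_sub, map_nsmul, map_nsmul]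
  rw [add_nsmul, one_nsmul]
  abel

/-- `polyAct` form of `aeval_badPoly_apply`. -/
theorem polyAct_badPoly_apply {G J : Type*} [Monoid G] [AddCommGroup J]
    (r : G →* AddMonoid.End J) (g : G) (q : ℕ) (x : J) :
    TateNew.polyAct r g ((X ^ 2 - 1) * (X ^ 2 - C (q : ℤ) ^ 2) : Polynomial ℤ) x
      = r g (r g (r g (r g x))) - (q ^ 2 + 1) • r g (r g x) + q ^ 2 • x :=
  aeval_badPoly_apply (r g) q x

/-! ### From divisors to classes -/

section Top

variable (N' q p : ℕ) [NeZero N'] [NeZero q]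

/-- A class of `Pic⁰` which is zero is represented by principal divisors only. -/
theorem principal_of_mk_eq_zero (N : ℕ) (E : Divisor.degZero (K := Kbar) (F := FN N))
    (h : (Pic0.mk E : JZero N) = 0) :
    (E : Divisor Kbar (FN N)) ∈ Divisor.principal (K := Kbar) (F := FN N) :=
  AddSubgroup.mem_addSubgroupOf.mp ((QuotientAddGroup.eq_zero_iff _).mp h)

/-- **(F) on the `q`-new torsion, factored form**, for any two maps `pA`, `pB` with the
`mk`-formulas of the two degeneracy push-forwards. -/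
theorem f_smul (hq : q.Prime) (hqp : ¬ q ∣ p)
    (hF : ∀ A : ValuationSubring Kbar, A.LiesOverPrime q → FPlan.FDiv A N' q)
    (pA pB : JZero (N' * q) → JZero N')
    (hpA : ∀ D : Divisor.degZero (K := Kbar) (F := FN (N' * q)),
      pA (Pic0.mk D) = Pic0.mk ⟨Divisor.pushforwardAlong (heckeAlphaBar Kbar N' q)
        (heckeAlphaBarIntegral N' q) (D : Divisor Kbar (FN (N' * q))),
        Divisor.pushforwardAlong_mem_degZero _ _ D.2⟩)
    (hpB : ∀ D : Divisor.degZero (K := Kbar) (F := FN (N' * q)),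
      pB (Pic0.mk D) = Pic0.mk ⟨Divisor.pushforwardAlong (heckeBetaBar Kbar N' q)
        (heckeBetaBarIntegral N' q) (D : Divisor Kbar (FN (N' * q))),
        Divisor.pushforwardAlong_mem_degZero _ _ D.2⟩)
    (A : ValuationSubring Kbar) (hA : A.LiesOverPrime q) (σ : Kbar ≃ₐ[ℚ] Kbar)
    (hσ : A.IsFrobeniusAt σ q) (x : JZero (N' * q)) (hx : ∃ m : ℕ, p ^ m • x = 0)
    (hxA : pA x = 0) (hxB : pB x = 0) :
    σ • σ • (σ • σ • x - x) - (q ^ 2) • (σ • σ • x - x) = 0 := by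
  obtain ⟨m, hm⟩ := hx
  have hpm : ¬ q ∣ p ^ m := fun hd => hqp (hq.dvd_of_dvd_pow hd)
  have hp0 : 0 < p := Nat.pos_of_ne_zero (fun h0 => hqp (by rw [h0]; exact dvd_zero q))
  obtain ⟨D, rfl⟩ := Pic0.mk_surjective x
  have h1 : ((p ^ m • D : Divisor.degZero (K := Kbar) (F := FN (N' * q))) :
      Divisor Kbar (FN (N' * q))) ∈ Divisor.principal (K := Kbar) (F := FN (N' * q)) :=
    principal_of_mk_eq_zero (N' * q) _ hm
  have hA' := principal_of_mk_eq_zero N' _ ((hpA D).symm.trans hxA)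
  have hB' := principal_of_mk_eq_zero N' _ ((hpB D).symm.trans hxB)
  set g : SemilinearAut Kbar (FN (N' * q)) := S34.Plan.gal (N' * q) σ with hg
  set D1 : Divisor.degZero (K := Kbar) (F := FN (N' * q)) :=
    SemilinearAut.degZeroSMulHom g (SemilinearAut.degZeroSMulHom g D) - D with hD1
  set E : Divisor.degZero (K := Kbar) (F := FN (N' * q)) :=
    SemilinearAut.degZeroSMulHom g (SemilinearAut.degZeroSMulHom g D1) - (q ^ 2) • D1 with hE
  have hprin : (E : Divisor Kbar (FN (N' * q))) ∈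
      Divisor.principal (K := Kbar) (F := FN (N' * q)) := by
    have h3 := hF A hA σ hσ (D : Divisor Kbar (FN (N' * q))) (p ^ m)
      (Divisor.mem_degZero.mp D.2) (pow_pos hp0 m) hpm h1 hA' hB'
    have e : (E : Divisor Kbar (FN (N' * q))) =
        FPlan.frobDiv N' q σ (FPlan.newDiv N' q σ (D : Divisor Kbar (FN (N' * q)))) := by
      simp only [hE, hD1, FPlan.frobDiv, FPlan.newDiv, AddSubgroup.coe_sub, AddSubgroup.coe_nsmul,
        SemilinearAut.coe_degZeroSMulHom]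
      rfl
    rw [e]
    exact h3
  have h0 : (Pic0.mk E : JZero (N' * q)) = 0 :=
    Fermat.Agent.P5.CoreT.mk_eq_zero_of_principal (N' * q) E hprin
  have h4 : σ • σ • (σ • σ • (Pic0.mk D : JZero (N' * q)) - Pic0.mk D)
      - (q ^ 2) • (σ • σ • (Pic0.mk D : JZero (N' * q)) - Pic0.mk D) = Pic0.mk E := rfl
  exact h4.trans h0

/-- `σ • (n • y) = n • (σ • y)` on `J₀(N)`. -/
theorem galois_smul_nsmul (N : ℕ) (σ : Kbar ≃ₐ[ℚ] Kbar) (n : ℕ) (y : JZero N) :
    σ • (n • y) = n • (σ • y) :=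
  map_nsmul (DistribSMul.toAddMonoidHom (JZero N) σ) n y

/-- `σ • 0 = 0` on `J₀(N)`. -/
theorem galois_smul_zero (N : ℕ) (σ : Kbar ≃ₐ[ℚ] Kbar) : σ • (0 : JZero N) = 0 :=
  map_zero (DistribSMul.toAddMonoidHom (JZero N) σ)

/-- **(F) on the `q`-new torsion** (the contract `S35.Plan.NewFrobStmt` for helper21's
`Push.pushA`, `Push.pushB`): for `σ` a Frobenius element at a place over `q` and `x` a `p`-power
torsion point of `J₀(N' q)` killed by both degeneracy push-forwards,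
`σ⁴ x - (q² + 1) σ² x + q² x = 0`. -/
theorem newFrob (hq : q.Prime) (hqp : ¬ q ∣ p)
    (hF : ∀ A : ValuationSubring Kbar, A.LiesOverPrime q → FPlan.FDiv A N' q) :
    ∀ A : ValuationSubring Kbar, A.LiesOverPrime q → ∀ σ : Kbar ≃ₐ[ℚ] Kbar,
      A.IsFrobeniusAt σ q → ∀ x : JZero (N' * q), (∃ m : ℕ, p ^ m • x = 0) →
        Push.pushA N' q x = 0 → Push.pushB N' q x = 0 →
          σ • σ • σ • σ • x - (q ^ 2 + 1) • (σ • σ • x) + q ^ 2 • x = 0 := by
  intro A hA σ hσ x hx hxA hxB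
  have h := f_smul N' q p hq hqp hF (Push.pushA N' q) (Push.pushB N' q)
    (Push.pushA_mk N' q) (Push.pushB_mk N' q) A hA σ hσ x hx hxA hxB
  have h2 : σ • σ • σ • σ • x - (q ^ 2 + 1) • (σ • σ • x) + q ^ 2 • x
      = σ • σ • (σ • σ • x - x) - q ^ 2 • (σ • σ • x - x) := by
    simp only [smul_sub, nsmul_sub]
    rw [add_nsmul, one_nsmul]
    abel
  exact h2.trans h

/-- **[F-TOP]**: the junction contract `S35.Plan.NewFrobStmt` (helper3) for the two degeneracy
push-forwards `Push.pushA`, `Push.pushB` (helper21) from the divisor form `FPlan.FDiv`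
(helper16) at every place over `q`. -/
theorem newFrobStmt (hq : q.Prime) (hqp : ¬ q ∣ p)
    (hF : ∀ A : ValuationSubring Kbar, A.LiesOverPrime q → FPlan.FDiv A N' q) :
    Plan.NewFrobStmt N' q p (Push.pushA N' q) (Push.pushB N' q) :=
  newFrob N' q p hq hqp hF

/-- The same with `p`, `q` two distinct primes. -/
theorem newFrobStmt_of_prime (hp : p.Prime) (hq : q.Prime) (hpq : p ≠ q)
    (hF : ∀ A : ValuationSubring Kbar, A.LiesOverPrime q → FPlan.FDiv A N' q) :
    Plan.NewFrobStmt N' q p (Push.pushA N' q) (Push.pushB N' q) :=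
  newFrobStmt N' q p hq (fun hd => hpq ((Nat.prime_dvd_prime_iff_eq hq hp).mp hd).symm) hF

/-- The expanded statement with `p`, `q` two distinct primes. -/
theorem newFrob_of_prime (hp : p.Prime) (hq : q.Prime) (hpq : p ≠ q)
    (hF : ∀ A : ValuationSubring Kbar, A.LiesOverPrime q → FPlan.FDiv A N' q) :
    ∀ A : ValuationSubring Kbar, A.LiesOverPrime q → ∀ σ : Kbar ≃ₐ[ℚ] Kbar,
      A.IsFrobeniusAt σ q → ∀ x : JZero (N' * q), (∃ m : ℕ, p ^ m • x = 0) →
        Push.pushA N' q x = 0 → Push.pushB N' q x = 0 →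
          σ • σ • σ • σ • x - (q ^ 2 + 1) • (σ • σ • x) + q ^ 2 • x = 0 :=
  newFrob N' q p hq (fun hd => hpq ((Nat.prime_dvd_prime_iff_eq hq hp).mp hd).symm) hF

/-- **(F), inverse form**: `σ² x + q² σ⁻² x = (q² + 1) x` on the `q`-new `p`-power torsion. -/
theorem newFrob_inv (hq : q.Prime) (hqp : ¬ q ∣ p)
    (hF : ∀ A : ValuationSubring Kbar, A.LiesOverPrime q → FPlan.FDiv A N' q)
    (A : ValuationSubring Kbar) (hA : A.LiesOverPrime q) (σ : Kbar ≃ₐ[ℚ] Kbar)
    (hσ : A.IsFrobeniusAt σ q) (x : JZero (N' * q)) (hx : ∃ m : ℕ, p ^ m • x = 0)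
    (hxA : Push.pushA N' q x = 0) (hxB : Push.pushB N' q x = 0) :
    σ • σ • x + (q ^ 2) • (σ⁻¹ • σ⁻¹ • x) = (q ^ 2 + 1) • x := by
  have h := newFrob N' q p hq hqp hF A hA σ hσ x hx hxA hxB
  have h1 := congrArg (fun y : JZero (N' * q) => σ⁻¹ • σ⁻¹ • y) h
  simp only [smul_sub, smul_add, galois_smul_nsmul, inv_smul_smul] at h1
  rw [galois_smul_zero, galois_smul_zero] at h1
  have h2 : σ • σ • x + q ^ 2 • σ⁻¹ • σ⁻¹ • x - (q ^ 2 + 1) • x
      = σ • σ • x - (q ^ 2 + 1) • x + q ^ 2 • σ⁻¹ • σ⁻¹ • x := by abel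
  exact sub_eq_zero.mp (h2.trans h1)

/-- **(F), polynomial form** (the shape of the relation clause of `TateNew.tateRel_of_new`):
`((X² - 1)(X² - q²))(σ) x = 0` on the `q`-new `p`-power torsion. -/
theorem newFrob_polyAct (hq : q.Prime) (hqp : ¬ q ∣ p)
    (hF : ∀ A : ValuationSubring Kbar, A.LiesOverPrime q → FPlan.FDiv A N' q)
    (A : ValuationSubring Kbar) (hA : A.LiesOverPrime q) (σ : Kbar ≃ₐ[ℚ] Kbar)
    (hσ : A.IsFrobeniusAt σ q) (x : JZero (N' * q)) (hx : ∃ m : ℕ, p ^ m • x = 0)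
    (hxA : Push.pushA N' q x = 0) (hxB : Push.pushB N' q x = 0) :
    TateNew.polyAct (Fermat.Agent.P5.Eig.galEnd (N' * q)) σ
      ((X ^ 2 - 1) * (X ^ 2 - C (q : ℤ) ^ 2) : Polynomial ℤ) x = 0 := by
  rw [polyAct_badPoly_apply]
  exact newFrob N' q p hq hqp hF A hA σ hσ x hx hxA hxB

end Top

end Fermat.Agent.S35.FTop

end
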