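import Mathlib
import Fermat.Agent.S34.Plan
import Fermat.Agent.S34.GalPull
import Fermat.Agent.S34.TauGal

/-!
# S35 — `[K0-INST]`, the Galois / divisor half (helper36)

Plan vocabulary (`S34/Plan.lean`).  The Frobenius twin of `S34/TauGal.exists_tau_data` (helper89).

Let `σ ∈ Gal(Q̄/ℚ)` act on the two-component reduction `(O, ρ)` as the coefficientwise `q`-th
power (`FrobAt q O ρ σ`; instance: a Frobenius element of the decomposition group of `A`).  For a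
divisor `D` of `F_N` of `K₀`-type (`n • D = div u`, `u ∈ O`, `ρ u` a pair of nonzero constants)
put `g = Plan.gal N σ`,

* `D'' = frobDiv N q σ D = g • g • D - q² • D`,   `w = σ²u / u^(q²)`
  (`n • D'' = div w`, `ρ w = 1`).

`exists_frob_data` produces `w` with these properties together with the three inclusions

* `s ∈ L(D + cE)   ⟹ sⁿ u ∈ L(n c E)`,
* `s ∈ L(D'' + cE) ⟹ sⁿ w ∈ L(n c E)`,
* `s ∈ L(D'' + cE) ∩ O`, `t ∈ L(D + c'E) ∩ O ⟹ ρ (s t^(q²)) = Frob² (y)` coefficientwise, for some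
  `y ∈ ρ (L(D + (c + q² c')E) ∩ O)`  (the `φ²`-trick),

which are the Galois-theoretic inputs of the graded `φ²`-theorem (`S35/FrobRed2`).
-/

set_option autoImplicit false

noncomputable section

namespace Fermat.Agent.S35.FrobGal

open ModularCurve AlgebraicCurve Fermat.Agent.S24 Fermat.Agent.S18.Content Fermat.Agent.S18.Plan
open Fermat.Agent.S18.Main Fermat.Agent.S34 Fermat.Agent.S34.GalPull

set_option synthInstance.maxHeartbeats 400000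
set_option maxHeartbeats 800000

variable {A : ValuationSubring Kbar} {N q M : ℕ} [NeZero N] [NeZero q] {hqN : q ∣ N}

/-! ### The Frobenius action on the reduction -/

/-- `σ` acts on the two-component reduction `(O, ρ)` as the coefficientwise `q`-th power, and
`O` is stable under `σ⁻¹`. -/
def FrobAt (q : ℕ) (O : Subring Om) (ρ : O →+* Plan.R2 A) (σ : Kbar ≃ₐ[ℚ] Kbar) : Prop :=
  ∀ g : O,
    (∃ h : coeffMap ((σ : Kbar ≃ₐ[ℚ] Kbar) : Kbar →+* Kbar) (g : Om) ∈ O,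
      ∀ n : ℤ, (ρ ⟨_, h⟩).1.coeff n = (ρ g).1.coeff n ^ q ∧
        (ρ ⟨_, h⟩).2.coeff n = (ρ g).2.coeff n ^ q) ∧
    coeffMap ((σ.symm : Kbar ≃ₐ[ℚ] Kbar) : Kbar →+* Kbar) (g : Om) ∈ O

/-! ### Divisors -/

/-- `(σ² - q²) D`. -/
def frobDiv (N q : ℕ) (σ : Kbar ≃ₐ[ℚ] Kbar) (D : Divisor Kbar (FN N)) : Divisor Kbar (FN N) :=
  Plan.gal N σ • Plan.gal N σ • D - (q ^ 2) • D

omit [NeZero N] [NeZero q] in
theorem frobDiv_def (σ : Kbar ≃ₐ[ℚ] Kbar) (D : Divisor Kbar (FN N)) :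
    frobDiv N q σ D = Plan.gal N σ • Plan.gal N σ • D - (q ^ 2) • D := rfl

omit [NeZero N] [NeZero q] in
theorem degree_frobDiv (σ : Kbar ≃ₐ[ℚ] Kbar) {D : Divisor Kbar (FN N)}
    (hD : Divisor.degree D = 0) : Divisor.degree (frobDiv N q σ D) = 0 := by
  unfold frobDiv
  rw [map_sub, SemilinearAut.degree_smul, SemilinearAut.degree_smul, map_nsmul, hD, smul_zero,
    sub_self]

omit [NeZero N] in
/-- `div (g • f) = n • (g • D)` if `div f = n • D`. -/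
theorem ord_smul_eq (g : SemilinearAut Kbar (FN N)) {f : FN N} (n : ℕ)
    (D : Divisor Kbar (FN N)) (hD : ∀ P : Place Kbar (FN N), P.ord f = n * D P)
    (P : Place Kbar (FN N)) : P.ord (g • f) = n * (g • D) P := by
  have h := SemilinearAut.ord_smul g (g⁻¹ • P) f
  rw [smul_inv_smul] at h
  rw [h, hD, SemilinearAut.divisor_smul_apply]

omit [NeZero N] in
theorem smul_ne_zero' (g : SemilinearAut Kbar (FN N)) {f : FN N} (hf : f ≠ 0) : g • f ≠ 0 := by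
  rw [Ne, smul_eq_zero_iff_eq]
  exact hf

/-! ### Constants under the Frobenius action -/

theorem coeff_C_pow (k : Type*) [Field k] (c : k) {e : ℕ} (he : e ≠ 0) (m : ℤ) :
    ((HahnSeries.C c : LaurentSeries k).coeff m) ^ e = (HahnSeries.C (c ^ e) : LaurentSeries k).coeff m := by
  rw [HahnSeries.C_apply, HahnSeries.C_apply, HahnSeries.coeff_single, HahnSeries.coeff_single]
  split_ifs
  · rfl
  · exact zero_pow he

/-! ### The data of the `φ²`-trick -/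

/-- **[K0-INST], Galois half.**  For `σ` acting as Frobenius on `(O, ρ)` and `D` of `K₀`-type
(`n • D = div u`, `ρ u` a pair of nonzero constants): a function `w` of `F_N` in `O` with
`ρ w = 1`, `div w = n • frobDiv σ D`, the two power-trick inclusions and the `φ²`-trick. -/
theorem exists_frob_data (hle : modularFunctionFieldBar N ≤ modularFunctionFieldBar (M * q))
    {O : Subring Om} {ρ : O →+* Plan.R2 A} (hS : Plan.Setup2 A N q M hqN O ρ)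
    (E : Divisor Kbar (FN N)) (hE : Plan.IsE N q hqN E)
    (σ : Kbar ≃ₐ[ℚ] Kbar) (hσ : FrobAt q O ρ σ)
    (D : Divisor Kbar (FN N)) (n : ℕ) (u : FN N) (hu0 : u ≠ 0)
    (hu_ord : ∀ P : Place Kbar (FN N), P.ord u = n * D P)
    (hu : (u : Om) ∈ O) (c₁ c₂ : kk A) (hc₁ : c₁ ≠ 0) (hc₂ : c₂ ≠ 0)
    (hρu : ρ ⟨_, hu⟩ = (HahnSeries.C c₁, HahnSeries.C c₂)) :
    ∃ (w : FN N) (hw : (w : Om) ∈ O), w ≠ 0 ∧ ρ ⟨_, hw⟩ = 1 ∧
      (∀ P : Place Kbar (FN N), P.ord w = n * frobDiv N q σ D P) ∧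
      (∀ (c : ℕ) (s : Om), s ∈ pullRR N (M * q) (D + c • E) →
        s ^ n * (u : Om) ∈ pullRR N (M * q) ((n * c) • E)) ∧
      (∀ (c : ℕ) (s : Om), s ∈ pullRR N (M * q) (frobDiv N q σ D + c • E) →
        s ^ n * (w : Om) ∈ pullRR N (M * q) ((n * c) • E)) ∧
      (∀ (c c' : ℕ) (s t : O), (s : Om) ∈ pullRR N (M * q) (frobDiv N q σ D + c • E) →
        (t : Om) ∈ pullRR N (M * q) (D + c' • E) →
        ∃ y ∈ Plan.redSet O ρ (pullRR N (M * q) (D + (c + q ^ 2 * c') • E)),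
          ∀ m : ℤ, (ρ (s * t ^ (q ^ 2))).1.coeff m = y.1.coeff m ^ (q ^ 2) ∧
            (ρ (s * t ^ (q ^ 2))).2.coeff m = y.2.coeff m ^ (q ^ 2)) := by
  have hq0 : q ≠ 0 := NeZero.ne q
  have huOm : (u : Om) ≠ 0 := fun h => hu0 (Subtype.ext h)
  -- `σ u`, `σ² u` in `O`
  obtain ⟨⟨h₁, hk₁⟩, -⟩ := hσ ⟨_, hu⟩
  obtain ⟨⟨h₂, hk₂⟩, -⟩ := hσ ⟨_, h₁⟩
  have hC₁ : (HahnSeries.C c₁ : Omk A) ≠ 0 :=
    (map_ne_zero_iff _ HahnSeries.C_injective).2 hc₁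
  have hC₂ : (HahnSeries.C c₂ : Omk A) ≠ 0 :=
    (map_ne_zero_iff _ HahnSeries.C_injective).2 hc₂
  have h₃ : ((u : Om))⁻¹ ∈ O :=
    hS.inv_mem ⟨_, hu⟩ (by rw [hρu]; exact hC₁) (by rw [hρu]; exact hC₂)
  -- the function `w`
  set g := Plan.gal N σ with hg_def
  set w : FN N := (g • g • u) * (u ^ (q ^ 2))⁻¹ with hw_def
  have hw0 : w ≠ 0 :=
    mul_ne_zero (smul_ne_zero' g (smul_ne_zero' g hu0)) (inv_ne_zero (pow_ne_zero _ hu0))
  have hcoe_w : (w : Om) = coeffMap ((σ : Kbar ≃ₐ[ℚ] Kbar) : Kbar →+* Kbar)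
      (coeffMap ((σ : Kbar ≃ₐ[ℚ] Kbar) : Kbar →+* Kbar) (u : Om)) * ((u : Om))⁻¹ ^ (q ^ 2) := by
    rw [hw_def, inv_pow]
    push_cast
    rfl
  have hw : (w : Om) ∈ O := by
    rw [hcoe_w]
    exact O.mul_mem h₂ (O.pow_mem h₃ _)
  have hρ₂ : ρ ⟨_, h₂⟩ = ρ ⟨_, hu⟩ ^ (q ^ 2) := by
    rw [hρu]
    refine Prod.ext ?_ ?_
    · rw [Prod.pow_fst]
      show (ρ ⟨_, h₂⟩).1 = HahnSeries.C c₁ ^ (q ^ 2)
      rw [← map_pow]
      ext m
      rw [(hk₂ m).1, (hk₁ m).1, hρu]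
      show ((HahnSeries.C c₁ : LaurentSeries (kk A)).coeff m ^ q) ^ q = _
      rw [coeff_C_pow (kk A) c₁ hq0, coeff_C_pow (kk A) (c₁ ^ q) hq0, ← pow_mul, sq]
    · rw [Prod.pow_snd]
      show (ρ ⟨_, h₂⟩).2 = HahnSeries.C c₂ ^ (q ^ 2)
      rw [← map_pow]
      ext m
      rw [(hk₂ m).2, (hk₁ m).2, hρu]
      show ((HahnSeries.C c₂ : LaurentSeries (kk A)).coeff m ^ q) ^ q = _
      rw [coeff_C_pow (kk A) c₂ hq0, coeff_C_pow (kk A) (c₂ ^ q) hq0, ← pow_mul, sq]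
  have hρw : ρ ⟨_, hw⟩ = 1 := by
    have e1 : (⟨(w : Om), hw⟩ : O) = ⟨_, h₂⟩ * ⟨_, h₃⟩ ^ (q ^ 2) := Subtype.ext hcoe_w
    have e2 : (⟨(u : Om), hu⟩ : O) * ⟨_, h₃⟩ = 1 := Subtype.ext (mul_inv_cancel₀ huOm)
    rw [e1, map_mul, hρ₂, map_pow, ← mul_pow, ← map_mul, e2, map_one, one_pow]
  have hw_ord : ∀ P : Place Kbar (FN N), P.ord w = n * frobDiv N q σ D P := fun P => by
    have hgg : ∀ P : Place Kbar (FN N), P.ord (g • g • u) = n * (g • g • D) P :=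
      ord_smul_eq g n (g • D) (ord_smul_eq g n D hu_ord)
    rw [hw_def, P.ord_mul (smul_ne_zero' g (smul_ne_zero' g hu0)) (inv_ne_zero (pow_ne_zero _ hu0)),
      Place.ord_inv, Fermat.Agent.S18.Main.ord_pow, hgg P, hu_ord P]
    unfold frobDiv
    rw [Finsupp.sub_apply, Finsupp.smul_apply, nsmul_eq_mul]
    push_cast
    ring
  have hgE : g • E = E := TauGal.gal_smul_E σ hE
  refine ⟨w, hw, hw0, hρw, hw_ord, ?_, ?_, ?_⟩
  · intro c s hs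
    exact TauGal.pow_mul_mem hle hu0 n D E hu_ord c hs
  · intro c s hs
    exact TauGal.pow_mul_mem hle hw0 n (frobDiv N q σ D) E hw_ord c hs
  · intro c c' s t hs ht
    have h1 : (t : Om) ^ (q ^ 2) ∈ pullRR N (M * q) ((q ^ 2) • (D + c' • E)) :=
      pow_mem_pullRR (N' := M * q) (q ^ 2) (B' := (q ^ 2) • (D + c' • E))
        (fun P => by rw [Finsupp.smul_apply, nsmul_eq_mul]) ht
    have h2 := mul_mem_pullRR_add hs h1
    have e : frobDiv N q σ D + c • E + (q ^ 2) • (D + c' • E) =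
        g • g • (D + (c + q ^ 2 * c') • E) := by
      rw [smul_add_nsmul g _ _ hgE, smul_add_nsmul g _ _ hgE]
      unfold frobDiv
      rw [smul_add, add_smul, mul_smul]
      abel
    rw [e] at h2
    obtain ⟨-, hm1⟩ := hσ (s * t ^ (q ^ 2))
    obtain ⟨-, hm2⟩ := hσ ⟨_, hm1⟩
    have hr : coeffMap ((σ.symm : Kbar ≃ₐ[ℚ] Kbar) : Kbar →+* Kbar)
        (coeffMap ((σ.symm : Kbar ≃ₐ[ℚ] Kbar) : Kbar →+* Kbar) ((s * t ^ (q ^ 2) : O) : Om)) ∈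
        pullRR N (M * q) (D + (c + q ^ 2 * c') • E) := by
      rw [coeffMap_symm_mem_pullRR_iff, coeffMap_symm_mem_pullRR_iff]
      exact h2
    refine ⟨ρ ⟨_, hm2⟩, ⟨⟨_, hm2⟩, hr, rfl⟩, fun m => ?_⟩
    obtain ⟨⟨k1, hk1⟩, -⟩ := hσ ⟨_, hm2⟩
    obtain ⟨⟨k2, hk2⟩, -⟩ := hσ ⟨_, k1⟩
    have e2 : (⟨_, k2⟩ : O) = s * t ^ (q ^ 2) := by
      apply Subtype.ext
      show coeffMap ((σ : Kbar ≃ₐ[ℚ] Kbar) : Kbar →+* Kbar)
        (coeffMap ((σ : Kbar ≃ₐ[ℚ] Kbar) : Kbar →+* Kbar)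
          (coeffMap ((σ.symm : Kbar ≃ₐ[ℚ] Kbar) : Kbar →+* Kbar)
            (coeffMap ((σ.symm : Kbar ≃ₐ[ℚ] Kbar) : Kbar →+* Kbar)
              ((s * t ^ (q ^ 2) : O) : Om)))) = _
      rw [coeffMap_coeffMap_symm, coeffMap_coeffMap_symm]
    have e3 : ρ (s * t ^ (q ^ 2)) = ρ ⟨_, k2⟩ := congrArg ρ e2.symm
    have hq2 : q * q = q ^ 2 := (sq q).symm
    rw [e3, (hk2 m).1, (hk1 m).1, (hk2 m).2, (hk1 m).2, ← pow_mul, ← pow_mul, hq2]
    exact ⟨rfl, rfl⟩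

end Fermat.Agent.S35.FrobGal
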