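import Mathlib
import Fermat.Agent.S34.NodeAlg

/-!
# S35, block [FROB-ABS] (owner: helper36): the `φ²`-trick on a node ring, abstract form

Setting of `S34/NodeAlg`: `k` a field, `B` a commutative `k`-algebra, `R ⊆ B × B` a node ring
along `Z` (`IsNode R Z θ`: `(a, b) ∈ R ↔ a(z) = b(θ z)` for all `z ∈ Z`).

* `node_frob_sq` : if `R` contains the two graphs `(a, Φ a)` and `(Φ a, a)` of an operator
  `Φ = (G ·) ^ q` (`Φ` = `T ↦ T^q`, `G` = coefficientwise inverse Frobenius), then every node is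
  "`𝔽_{q²}`-rational": `z a = z (G (G a)) ^ q²` and `θ z a = θ z (G (G a)) ^ q²`.
* `FrobSq Z θ F₂ Q` : the resulting property of `F₂ = G⁻²` (coefficientwise `Frob²`).
* `map_mem_twisted_pow`, `pow_mem_twisted_pow` : `F₂ × F₂` and the `Q`-th power both send the
  twisted module `T_ζ` into `T_{ζ^Q}`.
* `mem_of_mul_pow_frob` : **the `φ²`-trick**: if `x · t^Q = (F₂ × F₂) y` with `t, y ∈ T_ζ` and
  `t` nonvanishing at the nodes, then `x ∈ R`.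
* `graded_mem`, `graded_eq` : the graded wrappers (`M₁ c = Red L(D + cE)°`,
  `M₂ c = Red L(φ²D − q²D + cE)°`).
-/

set_option autoImplicit false

open Module

namespace Fermat.Agent.S35.FrobAbs

open Fermat.Agent.S34.NodeAlg

variable {k B : Type*} [Field k] [CommRing B] [Algebra k B]
variable {R : Subalgebra k (B × B)} {Z : Finset (B →ₐ[k] k)}
  {θ : (B →ₐ[k] k) → (B →ₐ[k] k)} {ζ : (B →ₐ[k] k) → k}

/-- **Nodes are `𝔽_{q²}`-rational.** If the node ring contains the graph of `Φ` and its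
transpose, and `Φ a = (G a) ^ q`, then `z a = z (G (G a)) ^ q²` at every node `z`, and the same
at `θ z`. -/
theorem node_frob_sq (hR : IsNode R Z θ) (Φ G : B → B) (q : ℕ) (hΦ : ∀ a, Φ a = G a ^ q)
    (h1 : ∀ a, (a, Φ a) ∈ R) (h2 : ∀ a, (Φ a, a) ∈ R) {z : B →ₐ[k] k} (hz : z ∈ Z) (a : B) :
    z a = z (G (G a)) ^ (q ^ 2) ∧ θ z a = θ z (G (G a)) ^ (q ^ 2) := by
  have e1 : ∀ a, z a = θ z (G a) ^ q := by
    intro a
    have h := (hR.mem_iff _ _).1 (h1 a) z hz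
    rw [h, hΦ, map_pow]
  have e2 : ∀ a, θ z a = z (G a) ^ q := by
    intro a
    have h := (hR.mem_iff _ _).1 (h2 a) z hz
    rw [← h, hΦ, map_pow]
  constructor
  · rw [e1 a, e2 (G a), ← pow_mul, pow_two]
  · rw [e2 a, e1 (G a), ← pow_mul, pow_two]

/-- The relation `θ z = z ∘ Φ` on the nodes (and `z = θ z ∘ Φ`). -/
theorem node_theta_eq (hR : IsNode R Z θ) (Φ : B → B)
    (h1 : ∀ a, (a, Φ a) ∈ R) (h2 : ∀ a, (Φ a, a) ∈ R) {z : B →ₐ[k] k} (hz : z ∈ Z) (a : B) :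
    θ z a = z (Φ a) ∧ z a = θ z (Φ a) :=
  ⟨((hR.mem_iff _ _).1 (h2 a) z hz).symm, (hR.mem_iff _ _).1 (h1 a) z hz⟩

/-- `FrobSq Z θ F₂ Q`: the operator `F₂` of `B` acts on the nodes `z ∈ Z` and `θ z` as the
`Q`-th power map of `k` (for `F₂` = coefficientwise `Frob²` and `Q = q²`: the nodes are fixed
by `Frob²`). -/
def FrobSq (Z : Finset (B →ₐ[k] k)) (θ : (B →ₐ[k] k) → (B →ₐ[k] k)) (F₂ : B → B) (Q : ℕ) :
    Prop :=
  ∀ z ∈ Z, ∀ a : B, z (F₂ a) = z a ^ Q ∧ θ z (F₂ a) = θ z a ^ Q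

/-- `FrobSq` from the two graphs: `F₂` a right inverse of `G ∘ G`. -/
theorem frobSq_of_graphs (hR : IsNode R Z θ) (Φ G F₂ : B → B) (q : ℕ)
    (hΦ : ∀ a, Φ a = G a ^ q) (h1 : ∀ a, (a, Φ a) ∈ R) (h2 : ∀ a, (Φ a, a) ∈ R)
    (hGF : ∀ a, G (G (F₂ a)) = a) : FrobSq Z θ F₂ (q ^ 2) := by
  intro z hz a
  have h := node_frob_sq hR Φ G q hΦ h1 h2 hz (F₂ a)
  rw [hGF a] at h
  exact h

/-- `F₂ × F₂` sends `T_ζ` into `T_{ζ^Q}`. -/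
theorem map_mem_twisted_pow {F₂ : B → B} {Q : ℕ} (hF : FrobSq Z θ F₂ Q) {x : B × B}
    (hx : x ∈ twisted Z θ ζ) :
    ((F₂ x.1, F₂ x.2) : B × B) ∈ twisted Z θ (fun z => ζ z ^ Q) := by
  intro z hz
  show z (F₂ x.1) = ζ z ^ Q * θ z (F₂ x.2)
  rw [(hF z hz x.1).1, (hF z hz x.2).2, hx z hz, mul_pow]

/-- The `m`-th power sends `T_ζ` into `T_{ζ^m}`. -/
theorem pow_mem_twisted_pow {x : B × B} (hx : x ∈ twisted Z θ ζ) (m : ℕ) :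
    x ^ m ∈ twisted Z θ (fun z => ζ z ^ m) := by
  intro z hz
  show z (x ^ m).1 = ζ z ^ m * θ z (x ^ m).2
  rw [Prod.pow_fst, Prod.pow_snd, map_pow, map_pow, hx z hz, mul_pow]

/-- **The `φ²`-trick.** Let `t, y ∈ T_ζ` with `t` nonvanishing at the nodes and `ζ ≠ 0` there.
If `x · t^Q = (F₂ × F₂) y`, then `x ∈ R`. -/
theorem mem_of_mul_pow_frob (hR : IsNode R Z θ) {F₂ : B → B} {Q : ℕ} (hF : FrobSq Z θ F₂ Q)
    (hζ : ∀ z ∈ Z, ζ z ≠ 0) {t : B × B} (ht : t ∈ twisted Z θ ζ)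
    (ht0 : ∀ z ∈ Z, θ z t.2 ≠ 0) {x y : B × B} (hy : y ∈ twisted Z θ ζ)
    (hxy : x * t ^ Q = (F₂ y.1, F₂ y.2)) : x ∈ R := by
  rw [hR.mem_iff']
  intro z hz
  have h1 := map_mem_twisted_pow hF hy z hz
  rw [← hxy] at h1
  have h2 := pow_mem_twisted_pow ht Q z hz
  simp only [Prod.fst_mul, Prod.snd_mul, map_mul] at h1
  have hne : ζ z ^ Q * θ z (t ^ Q).2 ≠ 0 := by
    rw [Prod.pow_snd, map_pow]
    exact mul_ne_zero (pow_ne_zero _ (hζ z hz)) (pow_ne_zero _ (ht0 z hz))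
  rw [h2] at h1
  have h3 : (z x.1 - θ z x.2) * (ζ z ^ Q * θ z (t ^ Q).2) = 0 := by
    linear_combination h1
  exact sub_eq_zero.1 ((mul_eq_zero.1 h3).resolve_right hne)

/-- A twisted module with nonvanishing twist, cut by an exhausting monotone filtration, contains
an element which does not vanish at the nodes. -/
theorem exists_nonvanishing (hθ : Set.InjOn θ (Z : Set (B →ₐ[k] k))) (hζ : ∀ z ∈ Z, ζ z ≠ 0)
    (W : ℕ → Submodule k (B × B)) (hWmono : Monotone W) (hWex : ∀ x : B × B, ∃ c, x ∈ W c)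
    (c₀ : ℕ) : ∃ c, c₀ ≤ c ∧ ∃ t ∈ twisted Z θ ζ ⊓ W c, ∀ z ∈ Z, θ z t.2 ≠ 0 := by
  obtain ⟨b, hb, hb'⟩ := exists_one_mem_twisted hθ hζ
  obtain ⟨c, hc⟩ := hWex ((1 : B), b)
  refine ⟨max c c₀, le_max_right _ _, ((1 : B), b), ⟨hb, hWmono (le_max_left _ _) hc⟩, ?_⟩
  intro z hz
  rw [hb' z hz]
  exact inv_ne_zero (hζ z hz)

/-- **Graded `φ²`-trick.** `M₁ c ⊆ T_ζ` (the reductions of `L(D + cE)°` for a `K₀`-type `D`),
some `M₁ c'` contains an element nonvanishing at the nodes, and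
`M₂ c · (M₁ c')^Q ⊆ (F₂ × F₂)(M₁ (c + Q c'))` (the reductions of `L(φ²D − q²D + cE)°`).
Then `M₂ c ⊆ R` for all `c`. -/
theorem graded_mem (hR : IsNode R Z θ) {F₂ : B → B} {Q : ℕ} (hF : FrobSq Z θ F₂ Q)
    (hζ : ∀ z ∈ Z, ζ z ≠ 0) (M₁ M₂ : ℕ → Submodule k (B × B))
    (hM₁ : ∀ c, M₁ c ≤ twisted Z θ ζ)
    (ht : ∃ c', ∃ t ∈ M₁ c', ∀ z ∈ Z, θ z t.2 ≠ 0)
    (hmul : ∀ c c', ∀ x ∈ M₂ c, ∀ t ∈ M₁ c', ∃ y ∈ M₁ (c + Q * c'),
      x * t ^ Q = (F₂ y.1, F₂ y.2)) :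
    ∀ c, ∀ x ∈ M₂ c, x ∈ R := by
  obtain ⟨c', t, htM, ht0⟩ := ht
  intro c x hx
  obtain ⟨y, hyM, hxy⟩ := hmul c c' x hx t htM
  exact mem_of_mul_pow_frob hR hF hζ (hM₁ c' htM) ht0 (hM₁ _ hyM) hxy

/-- The same with `M₁ c = T_ζ ⊓ W c` for `c ≥ c₂` (the output of the twist identification) and
an exhausting monotone filtration `W`. -/
theorem graded_mem_of_eq (hR : IsNode R Z θ) {F₂ : B → B} {Q : ℕ} (hF : FrobSq Z θ F₂ Q)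
    (hζ : ∀ z ∈ Z, ζ z ≠ 0) (M₁ M₂ W : ℕ → Submodule k (B × B))
    (hWmono : Monotone W) (hWex : ∀ x : B × B, ∃ c, x ∈ W c)
    (hM₁le : ∀ c, M₁ c ≤ twisted Z θ ζ)
    (c₂ : ℕ) (hM₁ : ∀ c, c₂ ≤ c → M₁ c = twisted Z θ ζ ⊓ W c)
    (hmul : ∀ c c', ∀ x ∈ M₂ c, ∀ t ∈ M₁ c', ∃ y ∈ M₁ (c + Q * c'),
      x * t ^ Q = (F₂ y.1, F₂ y.2)) :
    ∀ c, ∀ x ∈ M₂ c, x ∈ R := by
  obtain ⟨c', hc', t, ht, ht0⟩ := exists_nonvanishing hR.injOn hζ W hWmono hWex c₂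
  refine graded_mem hR hF hζ M₁ M₂ hM₁le ⟨c', t, ?_, ht0⟩ hmul
  rw [hM₁ c' hc']
  exact ht

/-- **Graded `φ²`-trick, equality form.** If moreover `M₂ c ≤ W c` and
`dim (R ⊓ W c) ≤ dim (M₂ c)`, then `M₂ c = R ⊓ W c`. -/
theorem graded_eq (hR : IsNode R Z θ) {F₂ : B → B} {Q : ℕ} (hF : FrobSq Z θ F₂ Q)
    (hζ : ∀ z ∈ Z, ζ z ≠ 0) (M₁ M₂ W : ℕ → Submodule k (B × B))
    (hWmono : Monotone W) (hWex : ∀ x : B × B, ∃ c, x ∈ W c)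
    (hM₁le : ∀ c, M₁ c ≤ twisted Z θ ζ)
    (c₂ : ℕ) (hM₁ : ∀ c, c₂ ≤ c → M₁ c = twisted Z θ ζ ⊓ W c)
    (hmul : ∀ c c', ∀ x ∈ M₂ c, ∀ t ∈ M₁ c', ∃ y ∈ M₁ (c + Q * c'),
      x * t ^ Q = (F₂ y.1, F₂ y.2))
    (c : ℕ) [Module.Finite k (W c)] (hM₂W : M₂ c ≤ W c)
    (hdim : finrank k ↥(Subalgebra.toSubmodule R ⊓ W c) ≤ finrank k ↥(M₂ c)) :
    M₂ c = Subalgebra.toSubmodule R ⊓ W c := by
  have hle : M₂ c ≤ Subalgebra.toSubmodule R ⊓ W c := fun x hx =>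
    ⟨graded_mem_of_eq hR hF hζ M₁ M₂ W hWmono hWex hM₁le c₂ hM₁ hmul c x hx, hM₂W hx⟩
  have hfin : Module.Finite k ↥(Subalgebra.toSubmodule R ⊓ W c) :=
    Submodule.finiteDimensional_of_le inf_le_right
  exact Submodule.eq_of_le_of_finrank_le hle hdim

end Fermat.Agent.S35.FrobAbs
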