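import Mathlib
import Fermat.Agent.S34.TauAbs
import Fermat.Agent.S35.FrobAbs

/-!
# S35, block [FROB-RED] (owner: helper36): the graded `φ²`-trick at the level of reduction data

The exact analogue of `S34/TauAbs.redSp_V''_eq` (helper91) with the `τ`-trick replaced by the
`φ²`-trick of `S35/FrobAbs`.

Data as in `S34/TauAbs`: `h : LiftCore2.RedData A π O ρ` with `ρ : O →+* Ωk × Ωk`, a subspace `S`
with `(Dim)`, `Bκ ≤ Ωk`, graded `K`-subspaces `U V' V'' : ℕ → Submodule K Ω`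
(`U c = L(cE)`, `V' c = L(D' + cE)` for a `K₀`-type divisor `D'`, `V'' c = L(D'' + cE)` with
`D'' = φ²D' − q²D'`), a filtration `W` exhausting `Bκ × Bκ`, a node structure `(Z, θ)`.

New data: an operator `F₂ : Ωk → Ωk` preserving `Bκ` (coefficientwise `Frob²`), acting on the
nodes as the `Q`-th power (`FrobAbs.FrobSq`), and the hypothesis

`(hφ)`  `ρ (s · t^Q) ∈ (F₂ × F₂) (redSp (V' (c + Q c')))` for `s ∈ V'' c ∩ O`, `t ∈ V' c' ∩ O`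

(instance: `L(D''+cE) · L(D'+c'E)^{q²} ⊆ φ²(L(D' + (c + q²c')E))`, `Red ∘ φ² = (F₂ × F₂) ∘ Red`).

* `redSp_V''_eq_frob` : **`redSp (V'' c) = redSp (U c)` for `c ≥ c₀`**.
-/

set_option autoImplicit false

namespace Fermat.Agent.S35.FrobRed

open Module Fermat.Agent.S34.LiftCore2 Fermat.Agent.S34.NodeAlg Fermat.Agent.S34.TauAbs
  Fermat.Agent.S35.FrobAbs

section Graded

variable {K Ω k Ωk : Type*} [Field K] [Field Ω] [Algebra K Ω] [Field k] [CommRing Ωk]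
  [Algebra k Ωk]
variable {A : ValuationSubring K} {π : A →+* k} {O : Subring Ω} {ρ : O →+* Ωk × Ωk}

theorem incl_pow (Bκ : Subalgebra k Ωk) (x : Bκ × Bκ) (m : ℕ) :
    incl Bκ (x ^ m) = incl Bκ x ^ m := by
  induction m with
  | zero => rfl
  | succ m ih => rw [pow_succ, pow_succ, incl_mul, ih]

/-- The restriction of an operator of `Ωk` preserving `Bκ`. -/
def restr (Bκ : Subalgebra k Ωk) (F₂ : Ωk → Ωk) (hF₂B : ∀ a ∈ Bκ, F₂ a ∈ Bκ) : Bκ → Bκ :=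
  fun a => ⟨F₂ a, hF₂B a a.2⟩

/-- **FROB, graded form**: `redSp (V'' c) = redSp (U c)` for `c ≥ c₀`, i.e.
`Red (L(D'' + cE)°) = B̄(c)` for `D'' = φ²D' − q²D'`. -/
theorem redSp_V''_eq_frob (h : RedData A π O ρ) (S : Submodule K Ω) (hS : HasDim k O ρ S)
    (Bκ : Subalgebra k Ωk) (U V' V'' : ℕ → Submodule K Ω)
    (hUfin : ∀ c, Module.Finite K (U c)) (hV'fin : ∀ c, Module.Finite K (V' c))
    (hV''fin : ∀ c, Module.Finite K (V'' c))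
    (hUS : ∀ c, U c ≤ S) (hV'S : ∀ c, V' c ≤ S) (hV''S : ∀ c, V'' c ≤ S)
    (hV'mono : Monotone V')
    (W : ℕ → Submodule k (Ωk × Ωk)) (hWmono : Monotone W) (hWfin : ∀ c, Module.Finite k (W c))
    (hWB : ∀ x : Ωk × Ωk, (x.1 ∈ Bκ ∧ x.2 ∈ Bκ) ↔ ∃ c, x ∈ W c)
    (n : ℕ) (hn : n ≠ 0) (u : O) (u₁ u₂ : k) (hu₁ : u₁ ≠ 0) (hu₂ : u₂ ≠ 0)
    (hρu : ρ u = (algebraMap k Ωk u₁, algebraMap k Ωk u₂))
    (hpow : ∀ c, ∀ s ∈ V' c, s ^ n * (u : Ω) ∈ U (n * c))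
    (F₂ : Ωk → Ωk) (hF₂B : ∀ a ∈ Bκ, F₂ a ∈ Bκ) (Q : ℕ)
    (hφ : ∀ (c c' : ℕ) (s t : O), (s : Ω) ∈ V'' c → (t : Ω) ∈ V' c' →
      ∃ y ∈ h.redSp (V' (c + Q * c')), ρ (s * t ^ Q) = (F₂ y.1, F₂ y.2))
    (hIU : ∀ c, h.redSp (U c) ≤ W c) (hIV' : ∀ c, h.redSp (V' c) ≤ W c)
    (hIV'' : ∀ c, h.redSp (V'' c) ≤ W c)
    (c₀ : ℕ) (hCR : ∀ c, c₀ ≤ c → ∀ c', h.redSp (U c') ⊓ W c ≤ h.redSp (U c))
    (Z : Finset (Bκ →ₐ[k] k)) (θ : (Bκ →ₐ[k] k) → (Bκ →ₐ[k] k))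
    (hθ : Set.InjOn θ (Z : Set (Bκ →ₐ[k] k)))
    (hnode : ∀ a b : Bκ, (∃ c, ((a : Ωk), (b : Ωk)) ∈ h.redSp (U c)) ↔ ∀ z ∈ Z, z a = θ z b)
    (hF : FrobSq Z θ (restr Bκ F₂ hF₂B) Q)
    (hev : ∀ c, c₀ ≤ c → ∀ v : (Bκ →ₐ[k] k) → k,
      ∃ a : Bκ, ((a : Ωk), (0 : Ωk)) ∈ W c ∧ ∀ z ∈ Z, z a = v z)
    (hR' : ∀ c, c₀ ≤ c → finrank K (V' c) = finrank K (U c))
    (hR'' : ∀ c, c₀ ≤ c → finrank K (V'' c) = finrank K (U c))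
    (c : ℕ) (hc : c₀ ≤ c) :
    h.redSp (V'' c) = h.redSp (U c) := by
  classical
  obtain ⟨ζ, hζ, hle', heq'⟩ := exists_zeta h S hS Bκ U V' hUfin hV'fin hUS hV'S hV'mono W hWfin
    hWB n hn u u₁ u₂ hu₁ hu₂ hρu hpow hIU hIV' c₀ hCR Z θ hθ hnode hev hR'
  -- an element of `T_ζ` nonvanishing at the nodes, realised in some `redSp (V' c')`
  obtain ⟨b, hb, hb'⟩ := exists_one_mem_twisted hθ hζ
  set t : Bκ × Bκ := ((1 : Bκ), b) with ht_def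
  have ht0 : ∀ z ∈ Z, θ z t.2 ≠ 0 := by
    intro z hz
    show θ z b ≠ 0
    rw [hb' z hz]
    exact inv_ne_zero (hζ z hz)
  obtain ⟨c₁, hc₁⟩ := (hWB (incl Bκ t)).1 ⟨t.1.2, t.2.2⟩
  have hc' : incl Bκ t ∈ W (max c₁ c₀) := hWmono (le_max_left c₁ c₀) hc₁
  have htV : incl Bκ t ∈ h.redSp (V' (max c₁ c₀)) := by
    rw [heq' _ (le_max_right c₁ c₀)]
    exact ⟨incl_mem_ambTw.2 hb, hc'⟩
  obtain ⟨t', ht', ht'ρ⟩ := htV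
  have hle : h.redSp (V'' c) ≤ h.redSp (U c) := by
    rintro x hx
    have hxW : x ∈ W c := hIV'' c hx
    obtain ⟨h1, h2⟩ := (hWB x).2 ⟨c, hxW⟩
    obtain ⟨s, hs, rfl⟩ := hx
    have hxb : ((⟨(ρ s).1, h1⟩, ⟨(ρ s).2, h2⟩) : Bκ × Bκ) ∈ nodeAlg Z θ := by
      obtain ⟨y₀, hy₀, hy₀ρ⟩ := hφ c (max c₁ c₀) s t' hs ht'
      have hy₀T := (hle' _ hy₀).1
      obtain ⟨y, hy, rfl⟩ := hy₀T
      refine mem_of_mul_pow_frob (isNode_nodeAlg hθ) hF hζ hb ht0 hy ?_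
      apply incl_injective Bκ
      rw [incl_mul, incl_pow, ← ht'ρ, ← map_pow]
      have e : incl Bκ ((⟨(ρ s).1, h1⟩, ⟨(ρ s).2, h2⟩) : Bκ × Bκ) = ρ s := rfl
      rw [e, ← map_mul, hy₀ρ]
      rfl
    obtain ⟨c'', hc''⟩ := (hnode ⟨(ρ s).1, h1⟩ ⟨(ρ s).2, h2⟩).2 hxb
    exact hCR c hc c'' ⟨hc'', hxW⟩
  have := hUfin c
  have := hV''fin c
  obtain ⟨hf1, hd1⟩ := h.finrank_redSp hS (hV''S c)
  obtain ⟨hf2, hd2⟩ := h.finrank_redSp hS (hUS c)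
  apply Submodule.eq_of_le_of_finrank_le hle
  have := hR'' c hc
  omega

end Graded

end Fermat.Agent.S35.FrobRed
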