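import Mathlib
import Fermat.Agent.S34.TauAbs2
import Fermat.Agent.S35.FrobRed

/-!
# S35 — FrobRed2: `FrobRed` with Riemann as an INEQUALITY and evaluation derived (helper18)

`S35/FrobRed.redSp_V''_eq_frob` (helper36) asks for the Riemann inputs as EQUALITIES
`finrank K (V' c) = finrank K (U c)`, `finrank K (V'' c) = finrank K (U c)`.  What is available
in `pullRR` vocabulary (`RR0` + `PullStep` + the exact count of `L(cE)`) is only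
`finrank K (U c) ≤ finrank K (V c)` for `V c = L(D + cE)`, `deg D = 0`.

Same statement as `FrobRed.redSp_V''_eq_frob`, on top of `S34/TauAbs2.exists_zeta_of_le` and
`TauAbs2.exists_ev`:

* `redSp_V''_eq_frob_of_le` : inequalities instead of equalities;
* `exists_redSp_V''_eq_frob` : moreover no evaluation hypothesis and separate thresholds
  (the Frobenius twin of `TauAbs2.exists_redSp_V''_eq`).
-/

set_option autoImplicit false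

namespace Fermat.Agent.S35.FrobRed2

open Module Fermat.Agent.S34.LiftCore2 Fermat.Agent.S34.NodeAlg Fermat.Agent.S34.TauAbs
  Fermat.Agent.S34.TauAbs2 Fermat.Agent.S35.FrobAbs Fermat.Agent.S35.FrobRed

section Graded

variable {K Ω k Ωk : Type*} [Field K] [Field Ω] [Algebra K Ω] [Field k] [CommRing Ωk]
  [Algebra k Ωk]
variable {A : ValuationSubring K} {π : A →+* k} {O : Subring Ω} {ρ : O →+* Ωk × Ωk}

/-- **FROB, graded form, Riemann as inequalities**: `redSp (V'' c) = redSp (U c)` for `c ≥ c₀`. -/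
theorem redSp_V''_eq_frob_of_le (h : RedData A π O ρ) (S : Submodule K Ω) (hS : HasDim k O ρ S)
    (Bκ : Subalgebra k Ωk) (U V' V'' : ℕ → Submodule K Ω)
    (hUfin : ∀ c, Module.Finite K (U c)) (hV'fin : ∀ c, Module.Finite K (V' c))
    (hV''fin : ∀ c, Module.Finite K (V'' c))
    (hUS : ∀ c, U c ≤ S) (hV'S : ∀ c, V' c ≤ S) (hV''S : ∀ c, V'' c ≤ S)
    (hV'mono : Monotone V')
    (W : ℕ → Submodule k (Ωk × Ωk)) (hWmono : Monotone W) (hWfin : ∀ c, Module.Finite k (W c))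
    (hWB : ∀ x : Ωk × Ωk, (x.1 ∈ Bκ ∧ x.2 ∈ Bκ) ↔ ∃ c, x ∈ W c)
    (n : ℕ) (hn : n ≠ 0) (u : O) (u₁ u₂ : k) (hu₁ : u₁ ≠ 0) (hu₂ : u₂ ≠ 0)
    (hρu : ρ u = (algebraMap k Ωk u₁, algebraMap k Ωk u₂))
    (hpow : ∀ c, ∀ s ∈ V' c, s ^ n * (u : Ω) ∈ U (n * c))
    (F₂ : Ωk → Ωk) (hF₂B : ∀ a ∈ Bκ, F₂ a ∈ Bκ) (Q : ℕ)
    (hφ : ∀ (c c' : ℕ) (s t : O), (s : Ω) ∈ V'' c → (t : Ω) ∈ V' c' →
      ∃ y ∈ h.redSp (V' (c + Q * c')), ρ (s * t ^ Q) = (F₂ y.1, F₂ y.2))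
    (hIU : ∀ c, h.redSp (U c) ≤ W c) (hIV' : ∀ c, h.redSp (V' c) ≤ W c)
    (hIV'' : ∀ c, h.redSp (V'' c) ≤ W c)
    (c₀ : ℕ) (hCR : ∀ c, c₀ ≤ c → ∀ c', h.redSp (U c') ⊓ W c ≤ h.redSp (U c))
    (Z : Finset (Bκ →ₐ[k] k)) (θ : (Bκ →ₐ[k] k) → (Bκ →ₐ[k] k))
    (hθ : Set.InjOn θ (Z : Set (Bκ →ₐ[k] k)))
    (hnode : ∀ a b : Bκ, (∃ c, ((a : Ωk), (b : Ωk)) ∈ h.redSp (U c)) ↔ ∀ z ∈ Z, z a = θ z b)
    (hF : FrobSq Z θ (restr Bκ F₂ hF₂B) Q)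
    (hev : ∀ c, c₀ ≤ c → ∀ v : (Bκ →ₐ[k] k) → k,
      ∃ a : Bκ, ((a : Ωk), (0 : Ωk)) ∈ W c ∧ ∀ z ∈ Z, z a = v z)
    (hR' : ∀ c, c₀ ≤ c → finrank K (U c) ≤ finrank K (V' c))
    (hR'' : ∀ c, c₀ ≤ c → finrank K (U c) ≤ finrank K (V'' c))
    (c : ℕ) (hc : c₀ ≤ c) :
    h.redSp (V'' c) = h.redSp (U c) := by
  classical
  obtain ⟨ζ, hζ, hle', heq'⟩ := exists_zeta_of_le h S hS Bκ U V' hUfin hV'fin hUS hV'S hV'mono W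
    hWfin hWB n hn u u₁ u₂ hu₁ hu₂ hρu hpow hIU hIV' c₀ hCR Z θ hθ hnode hev hR'
  -- an element of `T_ζ` nonvanishing at the nodes, realised in some `redSp (V' c')`
  obtain ⟨b, hb, hb'⟩ := exists_one_mem_twisted hθ hζ
  set t : Bκ × Bκ := ((1 : Bκ), b) with ht_def
  have ht0 : ∀ z ∈ Z, θ z t.2 ≠ 0 := by
    intro z hz
    show θ z b ≠ 0
    rw [hb' z hz]
    exact inv_ne_zero (hζ z hz)
  obtain ⟨c₁, hc₁⟩ := (hWB (incl Bκ t)).1 ⟨t.1.2, t.2.2⟩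
  have hc' : incl Bκ t ∈ W (max c₁ c₀) := hWmono (le_max_left c₁ c₀) hc₁
  have htV : incl Bκ t ∈ h.redSp (V' (max c₁ c₀)) := by
    rw [heq' _ (le_max_right c₁ c₀)]
    exact ⟨incl_mem_ambTw.2 hb, hc'⟩
  obtain ⟨t', ht', ht'ρ⟩ := htV
  have hle : h.redSp (V'' c) ≤ h.redSp (U c) := by
    rintro x hx
    have hxW : x ∈ W c := hIV'' c hx
    obtain ⟨h1, h2⟩ := (hWB x).2 ⟨c, hxW⟩
    obtain ⟨s, hs, rfl⟩ := hx
    have hxb : ((⟨(ρ s).1, h1⟩, ⟨(ρ s).2, h2⟩) : Bκ × Bκ) ∈ nodeAlg Z θ := by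
      obtain ⟨y₀, hy₀, hy₀ρ⟩ := hφ c (max c₁ c₀) s t' hs ht'
      have hy₀T := (hle' _ hy₀).1
      obtain ⟨y, hy, rfl⟩ := hy₀T
      refine mem_of_mul_pow_frob (isNode_nodeAlg hθ) hF hζ hb ht0 hy ?_
      apply incl_injective Bκ
      rw [incl_mul, incl_pow, ← ht'ρ, ← map_pow]
      have e : incl Bκ ((⟨(ρ s).1, h1⟩, ⟨(ρ s).2, h2⟩) : Bκ × Bκ) = ρ s := rfl
      rw [e, ← map_mul, hy₀ρ]
      rfl
    obtain ⟨c'', hc''⟩ := (hnode ⟨(ρ s).1, h1⟩ ⟨(ρ s).2, h2⟩).2 hxb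
    exact hCR c hc c'' ⟨hc'', hxW⟩
  have := hUfin c
  have := hV''fin c
  obtain ⟨hf1, hd1⟩ := h.finrank_redSp hS (hV''S c)
  obtain ⟨hf2, hd2⟩ := h.finrank_redSp hS (hUS c)
  apply Submodule.eq_of_le_of_finrank_le hle
  have := hR'' c hc
  omega

/-- **[FROB-RED], final form** (no evaluation hypothesis, Riemann as inequalities, separate
thresholds): there is `c₁` with `redSp (V'' c) = redSp (U c)` for all `c ≥ c₁`. -/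
theorem exists_redSp_V''_eq_frob (h : RedData A π O ρ) (S : Submodule K Ω)
    (hS : HasDim k O ρ S)
    (Bκ : Subalgebra k Ωk) (U V' V'' : ℕ → Submodule K Ω)
    (hUfin : ∀ c, Module.Finite K (U c)) (hV'fin : ∀ c, Module.Finite K (V' c))
    (hV''fin : ∀ c, Module.Finite K (V'' c))
    (hUS : ∀ c, U c ≤ S) (hV'S : ∀ c, V' c ≤ S) (hV''S : ∀ c, V'' c ≤ S)
    (hV'mono : Monotone V')
    (W : ℕ → Submodule k (Ωk × Ωk)) (hWmono : Monotone W) (hWfin : ∀ c, Module.Finite k (W c))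
    (hWB : ∀ x : Ωk × Ωk, (x.1 ∈ Bκ ∧ x.2 ∈ Bκ) ↔ ∃ c, x ∈ W c)
    (n : ℕ) (hn : n ≠ 0) (u : O) (u₁ u₂ : k) (hu₁ : u₁ ≠ 0) (hu₂ : u₂ ≠ 0)
    (hρu : ρ u = (algebraMap k Ωk u₁, algebraMap k Ωk u₂))
    (hpow : ∀ c, ∀ s ∈ V' c, s ^ n * (u : Ω) ∈ U (n * c))
    (F₂ : Ωk → Ωk) (hF₂B : ∀ a ∈ Bκ, F₂ a ∈ Bκ) (Q : ℕ)
    (hφ : ∀ (c c' : ℕ) (s t : O), (s : Ω) ∈ V'' c → (t : Ω) ∈ V' c' →
      ∃ y ∈ h.redSp (V' (c + Q * c')), ρ (s * t ^ Q) = (F₂ y.1, F₂ y.2))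
    (hIU : ∀ c, h.redSp (U c) ≤ W c) (hIV' : ∀ c, h.redSp (V' c) ≤ W c)
    (hIV'' : ∀ c, h.redSp (V'' c) ≤ W c)
    (cCR : ℕ) (hCR : ∀ c, cCR ≤ c → ∀ c', h.redSp (U c') ⊓ W c ≤ h.redSp (U c))
    (Z : Finset (Bκ →ₐ[k] k)) (θ : (Bκ →ₐ[k] k) → (Bκ →ₐ[k] k))
    (hθ : Set.InjOn θ (Z : Set (Bκ →ₐ[k] k)))
    (hnode : ∀ a b : Bκ, (∃ c, ((a : Ωk), (b : Ωk)) ∈ h.redSp (U c)) ↔ ∀ z ∈ Z, z a = θ z b)
    (hF : FrobSq Z θ (restr Bκ F₂ hF₂B) Q)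
    (cR : ℕ) (hR' : ∀ c, cR ≤ c → finrank K (U c) ≤ finrank K (V' c))
    (hR'' : ∀ c, cR ≤ c → finrank K (U c) ≤ finrank K (V'' c)) :
    ∃ c₁ : ℕ, cCR ≤ c₁ ∧ cR ≤ c₁ ∧ ∀ c, c₁ ≤ c → h.redSp (V'' c) = h.redSp (U c) := by
  obtain ⟨cE, hcE⟩ := exists_ev Bκ W hWmono hWB Z
  have h1 : cCR ≤ max (max cCR cR) cE := (le_max_left _ _).trans (le_max_left _ _)
  have h2 : cR ≤ max (max cCR cR) cE := (le_max_right _ _).trans (le_max_left _ _)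
  have h3 : cE ≤ max (max cCR cR) cE := le_max_right _ _
  refine ⟨max (max cCR cR) cE, h1, h2, fun c hc => ?_⟩
  exact redSp_V''_eq_frob_of_le h S hS Bκ U V' V'' hUfin hV'fin hV''fin hUS hV'S hV''S hV'mono W
    hWmono hWfin hWB n hn u u₁ u₂ hu₁ hu₂ hρu hpow F₂ hF₂B Q hφ hIU hIV' hIV''
    (max (max cCR cR) cE) (fun c hc => hCR c (h1.trans hc)) Z θ hθ hnode hF
    (fun c hc => hcE c (h3.trans hc)) (fun c hc => hR' c (h2.trans hc))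
    (fun c hc => hR'' c (h2.trans hc)) c hc

end Graded

end Fermat.Agent.S35.FrobRed2
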