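import Mathlib
import Fermat.Agent.S34.Plan
import Fermat.Agent.S34.NodeInst
import Fermat.Agent.S34.BKPlan
import Fermat.Agent.S34.FrobCoeff
import Fermat.Agent.S35.FrobRed2

/-!
# S35 — `[K0-INST]`, the adapter (helper36)

The instance of the graded `φ²`-theorem `S35/FrobRed2.exists_redSp_V''_eq_frob` in the vocabulary
of `S34/Plan` (the Frobenius twin of `S34/TauAdapt`):

* `Lift2T`      — the transposed graph lift `(a(T^q), a) ∈ B̄` (the `β`-lifts; not a field of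
  `Plan.Setup2`, whose `lift₂` only fixes the second component);
* `node_frob`   — **the nodes are `𝔽_{q²}`-rational**: for node data `(e₁, e₂)` (`Plan.IsNodes`),
  `e₁ i (Frob² a) = (e₁ i a)^(q²)` and `e₂ i (Frob² a) = (e₂ i a)^(q²)`, where `Frob²` is the
  coefficientwise `x ↦ x^(q²)` on `B_κ`  (from `lift₁` + `Lift2T`);
* `md_eq_bbar_frob` — for `D'` of `K₀`-type and `D''` with the three inclusions of
  `S35/FrobGal.exists_frob_data`: `M(D'')(c) = B̄(c)` for `c` large.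
-/

set_option autoImplicit false

noncomputable section

namespace Fermat.Agent.S35.K0Adapt

open ModularCurve AlgebraicCurve Fermat.Agent.S24 Fermat.Agent.S18.Content Fermat.Agent.S18.Plan
open Fermat.Agent.S34 Fermat.Agent.S18 Module

set_option synthInstance.maxHeartbeats 400000
set_option maxHeartbeats 800000

/-! ## The coefficientwise Frobenius on `k((T))` -/

section Frob

variable (A : ValuationSubring Kbar) (q : ℕ) [Fact q.Prime] [CharP (kk A) q]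

/-- `x ↦ x^(q²)` on the residue field. -/
def frob2 : kk A →+* kk A := (frobenius (kk A) q).comp (frobenius (kk A) q)

theorem frob2_apply (x : kk A) : frob2 A q x = x ^ (q ^ 2) := by
  show frobenius (kk A) q (frobenius (kk A) q x) = _
  rw [frobenius_def, frobenius_def, ← pow_mul, sq]

/-- The coefficientwise `Frob²` on `k((T))`. -/
def F2 : Omk A →+* Omk A := coeffMap (frob2 A q)

theorem F2_coeff (x : Omk A) (m : ℤ) : (F2 A q x).coeff m = x.coeff m ^ (q ^ 2) :=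
  frob2_apply A q _

variable {A q}

theorem F2_mem_BK {M : ℕ} {a : Omk A} (ha : a ∈ Plan.BK A M) : F2 A q a ∈ Plan.BK A M := by
  obtain ⟨h1, h2⟩ := BKPlan.mem_planBK.1 ha
  exact BKPlan.mem_planBK.2
    ⟨FrobCoeff.coeffMap_mem_full _ M h1, FrobCoeff.isIntegral_polyJ_coeffMap _ h2⟩

variable (A q) [PerfectField (kk A)]

/-- `x ↦ x^(1/q)` on the residue field. -/
def frobInv : kk A →+* kk A := ((frobeniusEquiv (kk A) q).symm : kk A →+* kk A)

/-- The coefficientwise `Frob⁻¹` on `k((T))`. -/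
def G1 : Omk A →+* Omk A := coeffMap (frobInv A q)

theorem G1_pow [NeZero q] (a : Omk A) : G1 A q a ^ q = qExpand (kk A) q a :=
  FrobCoeff.coeffMap_frobInv_pow q a

theorem G1_G1_F2 (a : Omk A) : G1 A q (G1 A q (F2 A q a)) = a := by
  unfold G1 F2
  rw [coeffMap_coeffMap, coeffMap_coeffMap]
  have e : ((frobInv A q).comp (frobInv A q)).comp (frob2 A q) = RingHom.id _ := by
    ext x
    simp [frobInv, frob2]
  rw [e, coeffMap_id]

variable {A q}

theorem G1_mem_BK {M : ℕ} {a : Omk A} (ha : a ∈ Plan.BK A M) : G1 A q a ∈ Plan.BK A M := by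
  obtain ⟨h1, h2⟩ := BKPlan.mem_planBK.1 ha
  exact BKPlan.mem_planBK.2
    ⟨FrobCoeff.coeffMap_mem_full _ M h1, FrobCoeff.isIntegral_polyJ_coeffMap _ h2⟩

end Frob

/-! ## The transposed lift and the Frobenius at the nodes -/

section Nodes

variable (A : ValuationSubring Kbar) (N q M : ℕ) [NeZero N] [NeZero q] (hqN : q ∣ N)
variable (O : Subring Om) (ρ : O →+* Plan.R2 A)

/-- **The transposed graph lift**: every `a ∈ WJ m` (`m` large) is the second component of an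
element of `L(m (j_q)_∞) ∩ O` with reduction `(a(T^q), a)`. -/
def Lift2T : Prop :=
  ∃ m₀ : ℕ, ∀ Cq : Divisor Kbar (FN N), Plan.IsPoleJq N q hqN Cq → ∀ m : ℕ, m₀ ≤ m →
    ∀ a : Omk A, a ∈ WJ (kk A) (Fk A M) m →
      ∃ g : O, (g : Om) ∈ pullRR N (M * q) (m • Cq) ∧ ρ g = (qExpand (kk A) q a, a)

variable {A N q M hqN O ρ}

/-- `(a(T^q), a) ∈ R` (from `Lift2T`). -/
theorem qExpand_snd_mem (hS : Plan.Setup2 A N q M hqN O ρ) {E : Divisor Kbar (FN N)}
    (hE : Plan.IsE N q hqN E) (hL2 : Lift2T A N q M hqN O ρ) (a : ↥(Plan.BK A M)) :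
    ∃ hb : qExpand (kk A) q (a : Omk A) ∈ Plan.BK A M,
      ((⟨_, hb⟩ : ↥(Plan.BK A M)), a) ∈ NodeInst.nodeR hS hE := by
  obtain ⟨m₀, h₂⟩ := hL2
  obtain ⟨Cq, hCq, hle⟩ := NodeInst.exists_Cq hE
  obtain ⟨m, hm, ha⟩ := NodeInst.exists_mem_WJ_ge BKPlan.hBK a m₀
  obtain ⟨g, hg, hρ⟩ := h₂ Cq hCq m hm _ ha
  have hg' : (g : Om) ∈ pullRR N (M * q) (m • E) :=
    Main.pullRR_mono (NodeInst.nsmul_le_of_le hle m) hg
  have hW := hS.incl E hE m g hg'
  rw [hρ] at hW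
  exact ⟨NodeInst.mem_BK_of_mem_WJ hW.1, m, g, hg', hρ⟩

/-- **The nodes are `𝔽_{q²}`-rational.** -/
theorem node_frob [Fact q.Prime] [CharP (kk A) q] (hS : Plan.Setup2 A N q M hqN O ρ)
    {E : Divisor Kbar (FN N)} (hE : Plan.IsE N q hqN E) (hL2 : Lift2T A N q M hqN O ρ)
    {ι : Type} {e₁ e₂ : ι → (↥(Plan.BK A M) →ₐ[kk A] kk A)}
    (hN : Plan.IsNodes A N q M O ρ E e₁ e₂) (i : ι) (a : ↥(Plan.BK A M)) :
    e₁ i ⟨F2 A q (a : Omk A), F2_mem_BK a.2⟩ = e₁ i a ^ (q ^ 2) ∧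
      e₂ i ⟨F2 A q (a : Omk A), F2_mem_BK a.2⟩ = e₂ i a ^ (q ^ 2) := by
  have := PlacesModL.isAlgClosed_kk A
  have hperf : PerfectField (kk A) := inferInstance
  -- the coefficientwise `q`-th root on `B_κ`
  let GB : ↥(Plan.BK A M) → ↥(Plan.BK A M) := fun b => ⟨G1 A q (b : Omk A), G1_mem_BK b.2⟩
  have k1 : ∀ b : ↥(Plan.BK A M), e₁ i b = e₂ i (GB b) ^ q := by
    intro b
    obtain ⟨hb, hmem⟩ := NodeInst.fst_qExpand_mem BKPlan.hBK hS hE b
    have h1 := (hN.2.2 b ⟨_, hb⟩).1 hmem i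
    have e : (⟨_, hb⟩ : ↥(Plan.BK A M)) = GB b ^ q :=
      Subtype.ext (by
        show qExpand (kk A) q (b : Omk A) = ((GB b ^ q : ↥(Plan.BK A M)) : Omk A)
        rw [SubmonoidClass.coe_pow]
        exact (G1_pow A q (b : Omk A)).symm)
    rw [h1, e, map_pow]
  have k2 : ∀ b : ↥(Plan.BK A M), e₂ i b = e₁ i (GB b) ^ q := by
    intro b
    obtain ⟨hb, hmem⟩ := qExpand_snd_mem hS hE hL2 b
    have h1 := (hN.2.2 ⟨_, hb⟩ b).1 hmem i
    have e : (⟨_, hb⟩ : ↥(Plan.BK A M)) = GB b ^ q :=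
      Subtype.ext (by
        show qExpand (kk A) q (b : Omk A) = ((GB b ^ q : ↥(Plan.BK A M)) : Omk A)
        rw [SubmonoidClass.coe_pow]
        exact (G1_pow A q (b : Omk A)).symm)
    rw [← h1, e, map_pow]
  have hGG : GB (GB ⟨F2 A q (a : Omk A), F2_mem_BK a.2⟩) = a :=
    Subtype.ext (G1_G1_F2 A q (a : Omk A))
  constructor
  · rw [k1, k2, hGG, ← pow_mul, sq]
  · rw [k2, k1, hGG, ← pow_mul, sq]

end Nodes

/-! ## Root-closedness of `WJ` and the inclusion `ρ(L(D + cE) ∩ O) ⊆ W(c)` -/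

section Incl

theorem mem_WJ_of_pow_mul_C {κ : Type} [Field κ] {L : IntermediateField κ (LaurentSeries κ)}
    {m n : ℕ} (hn : 0 < n) {y : LaurentSeries κ} (hy : y ∈ L) {r : κ} (hr : r ≠ 0)
    (h : y ^ n * HahnSeries.C r ∈ WJ κ L (n * m)) : y ∈ WJ κ L m := by
  have hb : y ^ n ∈ WJ κ L (n * m) := by
    have h1 := (WJ κ L (n * m)).smul_mem r⁻¹ h
    have e : r⁻¹ • (y ^ n * HahnSeries.C r) = y ^ n := by
      rw [← HahnSeries.C_mul_eq_smul, mul_comm (y ^ n), ← mul_assoc, ← map_mul,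
        inv_mul_cancel₀ hr, map_one, one_mul]
    rwa [e] at h1
  refine WJCalc.mem_WJ_of_relation (d := n) hy (fun i => if i = 0 then - y ^ n else 0)
    (fun i hi => ?_) ?_
  · split_ifs with h0
    · subst h0
      rw [Nat.sub_zero]
      exact (WJ κ L (n * m)).neg_mem hb
    · exact (WJ κ L _).zero_mem
  · rw [Finset.sum_eq_single 0]
    · simp
    · intro i _ hi
      simp [hi]
    · intro h0
      exact absurd (Finset.mem_range.2 hn) h0

variable {A : ValuationSubring Kbar} {N q M : ℕ} [NeZero N] [NeZero q] {hqN : q ∣ N}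
variable {O : Subring Om} {ρ : O →+* Plan.R2 A}

/-- The power trick: if `sⁿ u ∈ L(n c E)` for `s ∈ V`, with `ρ u` a pair of nonzero constants,
then `ρ (V ∩ O) ⊆ W(c)`. -/
theorem redSub_le_Wp_of_pow (hS : Plan.Setup2 A N q M hqN O ρ) {E : Divisor Kbar (FN N)}
    (hE : Plan.IsE N q hqN E) (V : Submodule Kbar Om) (n : ℕ) (hn : 0 < n) (u : O)
    (c₁ c₂ : kk A) (hc₁ : c₁ ≠ 0) (hc₂ : c₂ ≠ 0)
    (hρu : ρ u = (HahnSeries.C c₁, HahnSeries.C c₂)) (c : ℕ)
    (hp : ∀ s ∈ V, s ^ n * (u : Om) ∈ pullRR N (M * q) ((n * c) • E)) :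
    NodeInst.redSub hS V ≤ CuspReg.Wp (kk A) (Fk A M) q c := by
  rintro x ⟨y, hy, rfl⟩
  have h1 := hS.incl E hE (n * c) (y ^ n * u)
    (by rw [Subring.coe_mul, Subring.coe_pow]; exact hp _ hy)
  rw [map_mul, map_pow, hρu] at h1
  obtain ⟨h11, h12⟩ := h1
  obtain ⟨hr1, hr2⟩ := hS.range y
  have e : n * c * (q + 1) = n * (c * (q + 1)) := Nat.mul_assoc _ _ _
  rw [e] at h11 h12
  exact ⟨mem_WJ_of_pow_mul_C hn hr1 hc₁ h11, mem_WJ_of_pow_mul_C hn hr2 hc₂ h12⟩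

end Incl

/-! ## Node data as a finite set with a map `θ` -/

section Theta

variable {k B : Type*} [Field k] [CommRing B] [Algebra k B] {ι : Type*}

open Classical in
/-- `θ (e₁ i) = e₂ i`. -/
def thetaOf (e₁ e₂ : ι → (B →ₐ[k] k)) : (B →ₐ[k] k) → (B →ₐ[k] k) :=
  fun z => if h : ∃ i, e₁ i = z then e₂ h.choose else z

theorem thetaOf_apply (e₁ e₂ : ι → (B →ₐ[k] k)) (h₁ : Function.Injective e₁) (i : ι) :
    thetaOf e₁ e₂ (e₁ i) = e₂ i := by
  unfold thetaOf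
  have h : ∃ j, e₁ j = e₁ i := ⟨i, rfl⟩
  rw [dif_pos h]
  exact congrArg e₂ (h₁ h.choose_spec)

end Theta

/-! ## `B_κ` for the coefficientwise algebra structure -/

section Transport

variable (A : ValuationSubring Kbar) (M : ℕ)

/-- `B_κ` as a subalgebra for the coefficientwise algebra structure `HahnSeries.instAlgebra`
(the one used by `LiftCore2.RedData` and the spaces `WJ`). -/
def BKh : @Subalgebra (kk A) (Omk A) _ _ HahnSeries.instAlgebra :=
  @Subalgebra.mk (kk A) (Omk A) _ _ HahnSeries.instAlgebra (Plan.BK A M).toSubsemiring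
    (fun r => by
      have h := (Plan.BK A M).algebraMap_mem r
      rw [algebraMap_LS_eq_C] at h
      exact h)

variable {A M}

theorem mem_BKh {a : Omk A} : a ∈ BKh A M ↔ a ∈ Plan.BK A M := Iff.rfl

/-- Transport of a `k`-point of `B_κ`. -/
def homH (e : ↥(Plan.BK A M) →ₐ[kk A] kk A) :
    @AlgHom (kk A) ↥(BKh A M) (kk A) _ _ _
      (@Subalgebra.algebra (kk A) (Omk A) _ _ HahnSeries.instAlgebra (BKh A M)) _ :=
  @AlgHom.mk (kk A) ↥(BKh A M) (kk A) _ _ _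
    (@Subalgebra.algebra (kk A) (Omk A) _ _ HahnSeries.instAlgebra (BKh A M)) _
    { toFun := fun x => e ⟨x.1, x.2⟩
      map_one' := e.map_one
      map_mul' := fun x y => e.map_mul ⟨x.1, x.2⟩ ⟨y.1, y.2⟩
      map_zero' := e.map_zero
      map_add' := fun x y => e.map_add ⟨x.1, x.2⟩ ⟨y.1, y.2⟩ }
    (fun r => by
      have h := e.commutes r
      have e2 : (algebraMap (kk A) ↥(Plan.BK A M) r : ↥(Plan.BK A M)) =
          ⟨HahnSeries.C r, by
            have h := (Plan.BK A M).algebraMap_mem r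
            rw [algebraMap_LS_eq_C] at h
            exact h⟩ := Subtype.ext (algebraMap_LS_eq_C _ r)
      rw [e2] at h
      exact h)

theorem homH_apply (e : ↥(Plan.BK A M) →ₐ[kk A] kk A) (x : ↥(BKh A M)) :
    homH e x = e ⟨x.1, x.2⟩ := rfl

theorem homH_injective : Function.Injective (homH (A := A) (M := M)) := by
  intro e e' h
  ext a
  have h1 := congrArg (fun f => f (⟨a.1, a.2⟩ : ↥(BKh A M))) h
  exact h1

end Transport

/-! ## The adapter -/

section Main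

variable {A : ValuationSubring Kbar} {N q M : ℕ} [NeZero N] [NeZero q] {hqN : q ∣ N}
variable {O : Subring Om} {ρ : O →+* Plan.R2 A}

/-- **[K0-INST], the adapter.**  For `D'` of `K₀`-type (`u`), `D''` with `w` (`ρ w = 1`), the
two power-trick inclusions and the `φ²`-trick inclusion: `M(D'')(c) = B̄(c)` for `c` large. -/
theorem md_eq_bbar_frob [Fact q.Prime] [CharP (kk A) q]
    (hfin : ∀ B : Divisor Kbar (FN N), Module.Finite Kbar (pullRR N (M * q) B))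
    (hWJfin : ∀ m : ℕ, Module.Finite (kk A) (WJ (kk A) (Fk A M) m))
    (hS : Plan.Setup2 A N q M hqN O ρ) (hL2 : Lift2T A N q M hqN O ρ)
    (hCR : Plan.CuspReg A N q M hqN O ρ)
    (E : Divisor Kbar (FN N)) (hE : Plan.IsE N q hqN E)
    {ι : Type} [Fintype ι] (e₁ e₂ : ι → (↥(Plan.BK A M) →ₐ[kk A] kk A))
    (hN : Plan.IsNodes A N q M O ρ E e₁ e₂)
    (hRD : ∃ cR : ℕ, ∀ c : ℕ, cR ≤ c → ∀ D : Divisor Kbar (FN N), Divisor.degree D = 0 →
      finrank Kbar (pullRR N (M * q) (c • E)) ≤ finrank Kbar (pullRR N (M * q) (D + c • E)))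
    (D' D'' : Divisor Kbar (FN N)) (hD' : Divisor.degree D' = 0)
    (hD'' : Divisor.degree D'' = 0) (n : ℕ) (hn : 0 < n) (u w : O) (c₁ c₂ : kk A)
    (hc₁ : c₁ ≠ 0) (hc₂ : c₂ ≠ 0) (hρu : ρ u = (HahnSeries.C c₁, HahnSeries.C c₂))
    (hρw : ρ w = 1)
    (hp' : ∀ (c : ℕ) (s : Om), s ∈ pullRR N (M * q) (D' + c • E) →
      s ^ n * (u : Om) ∈ pullRR N (M * q) ((n * c) • E))
    (hp'' : ∀ (c : ℕ) (s : Om), s ∈ pullRR N (M * q) (D'' + c • E) →
      s ^ n * (w : Om) ∈ pullRR N (M * q) ((n * c) • E))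
    (hφ : ∀ (c c' : ℕ) (s t : O), (s : Om) ∈ pullRR N (M * q) (D'' + c • E) →
      (t : Om) ∈ pullRR N (M * q) (D' + c' • E) →
      ∃ y ∈ Plan.redSet O ρ (pullRR N (M * q) (D' + (c + q ^ 2 * c') • E)),
        ∀ m : ℤ, (ρ (s * t ^ (q ^ 2))).1.coeff m = y.1.coeff m ^ (q ^ 2) ∧
          (ρ (s * t ^ (q ^ 2))).2.coeff m = y.2.coeff m ^ (q ^ 2)) :
    ∃ c₀ : ℕ, ∀ c : ℕ, c₀ ≤ c → Plan.MD N q M O ρ E D'' c = Plan.Bbar N q M O ρ E c := by
  classical
  obtain ⟨cCR, hCR⟩ := hCR E hE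
  obtain ⟨cR, hRD⟩ := hRD
  -- monotonicity
  have hV'mono : Monotone (fun c : ℕ => pullRR N (M * q) (D' + c • E)) := by
    intro a b hab
    refine Main.pullRR_mono (fun P => ?_)
    rw [Finsupp.add_apply, Finsupp.add_apply]
    exact add_le_add le_rfl (NodeInst.nsmul_mono_E hE hab P)
  -- the filtration `W`
  have hWfin : ∀ c : ℕ, Module.Finite (kk A) (CuspReg.Wp (kk A) (Fk A M) q c) := by
    intro c
    have := hWJfin (c * (q + 1))
    exact (NodeInst.finrank_Wp' A q M c).1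
  have hWB : ∀ x : Omk A × Omk A, (x.1 ∈ BKh A M ∧ x.2 ∈ BKh A M) ↔
      ∃ c, x ∈ CuspReg.Wp (kk A) (Fk A M) q c := by
    intro x
    constructor
    · rintro ⟨h1, h2⟩
      obtain ⟨m₁, h1⟩ := BKPlan.hBK _ h1
      obtain ⟨m₂, h2⟩ := BKPlan.hBK _ h2
      refine ⟨max m₁ m₂, WJCalc.WJ_mono ?_ h1, WJCalc.WJ_mono ?_ h2⟩
      · exact (le_max_left _ _).trans (Nat.le_mul_of_pos_right _ (Nat.succ_pos q))
      · exact (le_max_right _ _).trans (Nat.le_mul_of_pos_right _ (Nat.succ_pos q))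
    · rintro ⟨c, h1, h2⟩
      exact ⟨NodeInst.mem_BK_of_mem_WJ h1, NodeInst.mem_BK_of_mem_WJ h2⟩
  -- the `φ²`-trick in the abstract shape
  have hφ' : ∀ (c c' : ℕ) (s t : O), (s : Om) ∈ pullRR N (M * q) (D'' + c • E) →
      (t : Om) ∈ pullRR N (M * q) (D' + c' • E) →
      ∃ y ∈ NodeInst.redSub hS (pullRR N (M * q) (D' + (c + q ^ 2 * c') • E)),
        ρ (s * t ^ (q ^ 2)) = (F2 A q y.1, F2 A q y.2) := by
    intro c c' s t hs ht
    obtain ⟨y, hy, hcoef⟩ := hφ c c' s t hs ht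
    refine ⟨y, hy, Prod.ext ?_ ?_⟩
    · ext m
      rw [(hcoef m).1, F2_coeff]
    · ext m
      rw [(hcoef m).2, F2_coeff]
  -- inclusions into `W`
  have hIV' : ∀ c : ℕ, NodeInst.redSub hS (pullRR N (M * q) (D' + c • E)) ≤
      CuspReg.Wp (kk A) (Fk A M) q c := fun c =>
    redSub_le_Wp_of_pow hS hE _ n hn u c₁ c₂ hc₁ hc₂ hρu c (hp' c)
  have hIV'' : ∀ c : ℕ, NodeInst.redSub hS (pullRR N (M * q) (D'' + c • E)) ≤
      CuspReg.Wp (kk A) (Fk A M) q c := fun c =>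
    redSub_le_Wp_of_pow hS hE _ n hn w 1 1 one_ne_zero one_ne_zero
      (by rw [hρw, map_one]; rfl) c (hp'' c)
  -- cusp regularity
  have hCR' : ∀ c : ℕ, cCR ≤ c → ∀ c' : ℕ,
      NodeInst.Bsub hS E c' ⊓ CuspReg.Wp (kk A) (Fk A M) q c ≤ NodeInst.Bsub hS E c := by
    rintro c hc c' x ⟨hx1, hx2⟩
    rcases le_total c c' with hcc | hcc
    · exact hCR c hc c' hcc ⟨hx1, hx2⟩
    · exact NodeInst.Bsub_mono hS hE hcc hx1
  -- the nodes
  obtain ⟨hinj₁, hinj₂, hiff⟩ := hN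
  let f₁ : ι → (↥(BKh A M) →ₐ[kk A] kk A) := fun i => homH (e₁ i)
  let f₂ : ι → (↥(BKh A M) →ₐ[kk A] kk A) := fun i => homH (e₂ i)
  have hf₁ : Function.Injective f₁ := fun i j h => hinj₁ (homH_injective h)
  have hf₂ : Function.Injective f₂ := fun i j h => hinj₂ (homH_injective h)
  set Z : Finset (↥(BKh A M) →ₐ[kk A] kk A) := Finset.univ.image f₁ with hZ
  set θ := thetaOf f₁ f₂ with hθ_def
  have hθe : ∀ i, θ (f₁ i) = f₂ i := thetaOf_apply f₁ f₂ hf₁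
  have hθ : Set.InjOn θ (Z : Set (↥(BKh A M) →ₐ[kk A] kk A)) := by
    intro z hz z' hz' h
    obtain ⟨i, -, rfl⟩ := Finset.mem_image.1 hz
    obtain ⟨j, -, rfl⟩ := Finset.mem_image.1 hz'
    rw [hθe, hθe] at h
    rw [hf₂ h]
  have hnode : ∀ a b : ↥(BKh A M),
      (∃ c, ((a : Omk A), (b : Omk A)) ∈ NodeInst.Bsub hS E c) ↔ ∀ z ∈ Z, z a = θ z b := by
    intro a b
    refine (hiff ⟨a.1, a.2⟩ ⟨b.1, b.2⟩).trans ⟨fun h z hz => ?_, fun h i => ?_⟩
    · obtain ⟨i, -, rfl⟩ := Finset.mem_image.1 hz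
      rw [hθe]
      exact h i
    · have h1 := h (f₁ i) (Finset.mem_image_of_mem f₁ (Finset.mem_univ i))
      rw [hθe] at h1
      exact h1
  have hF : FrobAbs.FrobSq Z θ
      (@FrobRed.restr (kk A) (Omk A) _ _ HahnSeries.instAlgebra (BKh A M) (F2 A q)
        (fun a ha => F2_mem_BK ha)) (q ^ 2) := by
    intro z hz a
    obtain ⟨i, -, rfl⟩ := Finset.mem_image.1 hz
    rw [hθe]
    exact node_frob hS hE hL2 ⟨hinj₁, hinj₂, hiff⟩ i ⟨a.1, a.2⟩
  -- the graded `φ²`-theorem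
  obtain ⟨c₀, -, -, hc₀⟩ := @FrobRed2.exists_redSp_V''_eq_frob Kbar Om (kk A) (Omk A) _ _
    HahnSeries.instAlgebra _ _ HahnSeries.instAlgebra A (IsLocalRing.residue A) O ρ
    (NodeInst.redData hS) (Main.fieldSub (M * q)) (NodeInst.hasDim hS) (BKh A M)
    (fun c => pullRR N (M * q) (c • E)) (fun c => pullRR N (M * q) (D' + c • E))
    (fun c => pullRR N (M * q) (D'' + c • E))
    (fun c => hfin _) (fun c => hfin _) (fun c => hfin _)
    (fun c s hs => hs.1) (fun c s hs => hs.1) (fun c s hs => hs.1)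
    hV'mono
    (fun c => CuspReg.Wp (kk A) (Fk A M) q c) (CuspReg.Wp_mono q) hWfin hWB
    n hn.ne' u c₁ c₂ hc₁ hc₂ hρu (fun c s hs => hp' c s hs)
    (F2 A q) (fun a ha => F2_mem_BK ha) (q ^ 2) hφ'
    (fun c => NodeInst.Bsub_le_Wp hS hE c) hIV' hIV''
    cCR hCR' Z θ hθ hnode hF cR (fun c hc => hRD c hc D' hD') (fun c hc => hRD c hc D'' hD'')
  refine ⟨c₀, fun c hc => ?_⟩
  have h1 := hc₀ c hc
  ext x
  exact SetLike.ext_iff.1 h1 x

end Main

end Fermat.Agent.S35.K0Adapt
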