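import Mathlib
import Fermat.Agent.S35.FPlan
import Fermat.Agent.S35.FrobGal
import Fermat.Agent.S35.K0Adapt
import Fermat.Agent.S34.RiemannE
import Fermat.Agent.S34.CuspRegInst
import Fermat.Agent.S34.CuspRegRK
import Fermat.Agent.S34.Num
import Fermat.Agent.S34.FrobInst
import Fermat.Agent.S34.NodeInst
import Fermat.Agent.S34.LiftInst

/-!
# S35 — `[K0-INST]`: the `φ²`-trick, instance of `FPlan.K0Stmt` (helper36)

`exists_k0` : at the P6 levels (`Plan.Levels q N' N M`, `A` over `q`), for a two-component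
reduction `(O, ρ)` with `Plan.Setup2` and the transposed lift `K0Adapt.Lift2T`, an automorphism
`σ` acting on `(O, ρ)` as the coefficientwise `q`-th power (`FrobGal.FrobAt`), and `D` of
`K₀`-type (`n • D = div u`, `ρ u ∈ k^× × k^×`):  `D'' = (σ² - q²) D` satisfies `n • D'' = div w`,
`ρ w = 1`, and `M(D'')(c) = B̄(c)` for `c` large.

`k0Stmt` : `FPlan.K0Stmt A N' q M O ρ` from `Plan.Levels q N' (N' * q) M`, `A.LiesOverPrime q`,
`Plan.Setup2`, `FPlan.FrobSetup` and `K0Adapt.Lift2T`.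

`fDiv_of_lift2T` : the chain of `FPlan.fDiv_of` with `[K0]`, `[LIFT]`, `[CR]`, `[NODE]`
discharged: `Setup2` + `FrobSetup` + `Lift2T` + `NewK0` + `PoleStmt` + `DescW` ⟹ `FDiv`.
-/

set_option autoImplicit false

noncomputable section

namespace Fermat.Agent.S35.K0Inst

open ModularCurve AlgebraicCurve Fermat.Agent.S24 Fermat.Agent.S18 Fermat.Agent.S18.Content
  Fermat.Agent.S18.Plan Fermat.Agent.S34

set_option synthInstance.maxHeartbeats 400000
set_option maxHeartbeats 800000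

/-- **[K0-INST]**, general form at the P6 levels. -/
theorem exists_k0 {q N' N M : ℕ} [NeZero N] [NeZero q] {hqN : q ∣ N}
    (hL : Plan.Levels q N' N M) (A : ValuationSubring Kbar) (hA : A.LiesOverPrime q)
    {O : Subring Om} {ρ : O →+* Plan.R2 A} (hS : Plan.Setup2 A N q M hqN O ρ)
    (hL2 : K0Adapt.Lift2T A N q M hqN O ρ)
    (E : Divisor Kbar (FN N)) (hE : Plan.IsE N q hqN E)
    (σ : Kbar ≃ₐ[ℚ] Kbar) (hσ : FrobGal.FrobAt q O ρ σ)
    (D : Divisor Kbar (FN N)) (n : ℕ) (hD : Divisor.degree D = 0) (hn : 0 < n)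
    (u : FN N) (hu0 : u ≠ 0) (hu_ord : ∀ P : Place Kbar (FN N), P.ord u = n * D P)
    (hu : (u : Om) ∈ O) (c₁ c₂ : kk A) (hc₁ : c₁ ≠ 0) (hc₂ : c₂ ≠ 0)
    (hρu : ρ ⟨_, hu⟩ = (HahnSeries.C c₁, HahnSeries.C c₂)) :
    ∃ w : FN N, w ≠ 0 ∧
      (∀ P : Place Kbar (FN N), P.ord w = n * FrobGal.frobDiv N q σ D P) ∧
      ∃ hw : (w : Om) ∈ O, ρ ⟨_, hw⟩ = 1 ∧
        ∃ c₀ : ℕ, ∀ c : ℕ, c₀ ≤ c →
          Plan.MD N q M O ρ E (FrobGal.frobDiv N q σ D) c = Plan.Bbar N q M O ρ E c := by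
  have : Fact q.Prime := ⟨hL.prime⟩
  have : CharP (kk A) q := charP_residueField_of_liesOverPrime A q hA
  have : NeZero (M * q) := ⟨(LiftInst.top_pos hL).ne'⟩
  have hle : modularFunctionFieldBar N ≤ modularFunctionFieldBar (M * q) :=
    Main.fieldBar_le (LiftInst.dvd_top hL)
  -- the Plan contracts at these levels
  have hRE : Plan.RiemannE N q M hqN := RiemannE.riemannE hqN hL
  have hRK : Plan.RiemannK A M := CuspReg.riemannK hL A hA
  have hNum : Plan.NumStmt q M := Num.numStmt q M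
  have hCR : Plan.CuspReg A N q M hqN O ρ := CuspReg.cuspReg hL hS hRE hRK hNum
  have hNode : Plan.NodeStmt A N q M hqN O ρ :=
    NodeInst.nodeStmt hL hS hCR (FrobInst.frobRoot A hL hA) hRE hRK hNum
  have hWJfin : ∀ m : ℕ, Module.Finite (kk A) (WJ (kk A) (Fk A M) m) := by
    intro m
    obtain ⟨m₀, hm₀⟩ := hRK
    have := (hm₀ (max m m₀) (le_max_right _ _)).1
    exact Submodule.finiteDimensional_of_le (WJCalc.WJ_mono (le_max_left m m₀))
  -- the Galois half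
  obtain ⟨w, hw, hw0, hρw, hw_ord, hp', hp'', hφ⟩ :=
    FrobGal.exists_frob_data hle hS E hE σ hσ D n u hu0 hu_ord hu c₁ c₂ hc₁ hc₂ hρu
  obtain ⟨ι, _, _, e₁, e₂, hN⟩ := hNode E hE
  refine ⟨w, hw0, hw_ord, hw, hρw, ?_⟩
  exact K0Adapt.md_eq_bbar_frob (fun B => RiemannE.finite_pullRR_top hL B) hWJfin hS hL2 hCR E hE
    e₁ e₂ hN (RiemannE.finrank_le_add hqN hL E hE) D (FrobGal.frobDiv N q σ D) hD
    (FrobGal.degree_frobDiv σ hD) n hn ⟨_, hu⟩ ⟨_, hw⟩ c₁ c₂ hc₁ hc₂ hρu hρw hp' hp'' hφ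

/-- **[K0]** `FPlan.K0Stmt` from `Plan.Levels`, `Setup2`, `FrobSetup` and the transposed lift. -/
theorem k0Stmt {q N' M : ℕ} [NeZero N'] [NeZero q] (hL : Plan.Levels q N' (N' * q) M)
    (A : ValuationSubring Kbar) (hA : A.LiesOverPrime q) {O : Subring Om} {ρ : O →+* Plan.R2 A}
    (hS : Plan.Setup2 A (N' * q) q M (FPlan.dvd_level N' q) O ρ)
    (hFS : FPlan.FrobSetup A q O ρ)
    (hL2 : K0Adapt.Lift2T A (N' * q) q M (FPlan.dvd_level N' q) O ρ) :
    FPlan.K0Stmt A N' q M O ρ := by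
  intro E hE σ hσ D n hD hn u hu0 hu_ord hu c₁ c₂ hc₁ hc₂ hρu
  exact exists_k0 hL A hA hS hL2 E hE σ (hFS σ hσ) D n hD hn u hu0 hu_ord hu c₁ c₂ hc₁ hc₂ hρu

/-- **(F) from the blocks**, with `[K0]`, `[CR]`, `[NODE]`, `[LIFT]` discharged:
`Setup2` + `FrobSetup` + `Lift2T` + `[NEW-K0]` + `[POLE]` + `[DESC]` ⟹ (F). -/
theorem fDiv_of_lift2T {q N' M : ℕ} [NeZero N'] [NeZero q] (hL : Plan.Levels q N' (N' * q) M)
    (A : ValuationSubring Kbar) (hA : A.LiesOverPrime q) {O : Subring Om} {ρ : O →+* Plan.R2 A}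
    (hS : Plan.Setup2 A (N' * q) q M (FPlan.dvd_level N' q) O ρ)
    (hFS : FPlan.FrobSetup A q O ρ)
    (hL2 : K0Adapt.Lift2T A (N' * q) q M (FPlan.dvd_level N' q) O ρ)
    (hNew : FPlan.NewK0 A N' q O ρ)
    (hP : Plan.PoleStmt (N' * q) q (FPlan.dvd_level N' q))
    (hDesc : DescInst.DescW A (N' * q) q M) : FPlan.FDiv A N' q := by
  have hRE : Plan.RiemannE (N' * q) q M (FPlan.dvd_level N' q) :=
    RiemannE.riemannE (FPlan.dvd_level N' q) hL
  have hRK : Plan.RiemannK A M := CuspReg.riemannK hL A hA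
  have hNum : Plan.NumStmt q M := Num.numStmt q M
  have hCR : Plan.CuspReg A (N' * q) q M (FPlan.dvd_level N' q) O ρ :=
    CuspReg.cuspReg hL hS hRE hRK hNum
  have hNode : Plan.NodeStmt A (N' * q) q M (FPlan.dvd_level N' q) O ρ :=
    NodeInst.nodeStmt hL hS hCR (FrobInst.frobRoot A hL hA) hRE hRK hNum
  exact FPlan.fDiv_of hS (k0Stmt hL A hA hS hFS hL2) hNew
    (LiftInst.liftStmt hL (FPlan.dvd_level N' q) A hA hS hCR hNode hP) hDesc

end Fermat.Agent.S35.K0Inst
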