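import Mathlib
import Fermat.Agent.S35.FPlan
import Fermat.Agent.S34.Sigma
import Fermat.Agent.S34.Val
import Fermat.Agent.S18.RR0.Tower

/-!
# S35 / P6 [VAL-N] (helper50): `FPlan.SwapN` for the two-component reduction

`q` prime, `q ∤ N'`, `N' ∣ M`; `σ₀` the Atkin–Lehner involution of `F_{Mq}` (`S34.Val.IsAL M q σ₀`),
`O = {g ∈ F_{Mq} : g, σ₀ g ∈ Ocal}`, `ρ g = (red g, red σ₀ g)` (helper5's `hO`/`hρ` spelling).

* `sigma_restrict` : on the subfield `F_{N' q} ⊆ F_{M q}` the involution `σ₀` is the Atkin–Lehner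
  involution `w = S34.Sigma.sigma N' q` of `F_{N' q}` (both swap `j(T^d) ↔ j(T^{qd})`, `d ∣ N'`);
* `swapN_of`       : `FPlan.SwapN A N' q O ρ`, hypothesis form;
* `swapN_val`      : the same for the concrete `(S34.Val.O2 A M q σ, S34.Val.Red A M q σ)`;
* `swapN_levels`   : the same from `S34.Plan.Levels q N' (N' * q) M`.
-/

set_option autoImplicit false
set_option synthInstance.maxHeartbeats 400000
set_option maxHeartbeats 1000000

noncomputable section

namespace Fermat.Agent.S35.SwapN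

open ModularCurve AlgebraicCurve Fermat.Agent.S24 Fermat.Agent.S18.Content Fermat.Agent.S18.Plan
open Fermat.Agent.Lib Fermat.Agent.S34

variable (A : ValuationSubring Kbar) (N' q M : ℕ) [NeZero N'] [NeZero q] [NeZero M]

/-- `F_{N' q} ⊆ F_{M q}` for `N' ∣ M`. -/
theorem mem_level_top (hdvd : N' ∣ M) {y : Om} (hy : y ∈ modularFunctionFieldBar (N' * q)) :
    y ∈ modularFunctionFieldBar (M * q) :=
  Fermat.Agent.S18.RR0.modularFunctionFieldBar_le (Nat.mul_dvd_mul_right hdvd q) hy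

variable {N' q M}

/-- **The Atkin–Lehner involution of `F_{Mq}` restricts to that of `F_{N' q}`.** -/
theorem sigma_restrict (hq : q.Prime) (hc : Nat.Coprime N' q) (hdvd : N' ∣ M)
    (σ₀ : FN (M * q) ≃ₐ[Kbar] FN (M * q)) (hσ : Val.IsAL M q σ₀)
    (y : FN (N' * q)) (hy : (y : Om) ∈ modularFunctionFieldBar (M * q)) :
    ((σ₀ ⟨(y : Om), hy⟩ : FN (M * q)) : Om) = ((Sigma.sigma N' q hc y : FN (N' * q)) : Om) := by
  have hle : modularFunctionFieldBar (N' * q) ≤ modularFunctionFieldBar (M * q) :=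
    Fermat.Agent.S18.RR0.modularFunctionFieldBar_le (Nat.mul_dvd_mul_right hdvd q)
  set Θ₁ : FN (N' * q) →+* Om :=
    (algebraMap (FN (M * q)) Om).comp
      (((σ₀ : FN (M * q) ≃+* FN (M * q)) : FN (M * q) →+* FN (M * q)).comp
        (IntermediateField.inclusion hle).toRingHom) with hΘ₁
  set Θ₂ : FN (N' * q) →+* Om :=
    (algebraMap (FN (N' * q)) Om).comp
      ((Sigma.sigma N' q hc : FN (N' * q) ≃+* FN (N' * q)) : FN (N' * q) →+* FN (N' * q))
    with hΘ₂
  have key : Θ₁ = Θ₂ := by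
    refine FFBridge.ringHom_ext (N' * q) _ _ (fun a => ?_) (fun d _ hd => ?_)
    · show ((σ₀ (IntermediateField.inclusion hle (algebraMap Kbar (FN (N' * q)) a)) :
          FN (M * q)) : Om) =
        ((Sigma.sigma N' q hc (algebraMap Kbar (FN (N' * q)) a) : FN (N' * q)) : Om)
      rw [AlgHom.commutes, AlgEquiv.commutes, AlgEquiv.commutes, Val.coe_algebraMap_FN,
        Val.coe_algebraMap_FN]
    · show ((σ₀ (IntermediateField.inclusion hle ⟨FFBridge.gen d, FFBridge.gen_mem hd⟩) :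
          FN (M * q)) : Om) =
        ((Sigma.sigma N' q hc ⟨FFBridge.gen d, FFBridge.gen_mem hd⟩ : FN (N' * q)) : Om)
      obtain ⟨d₁, _, hd₁, hcase | hcase⟩ := Sigma.gen_cases hq hd
      · -- `j(T^d) = α j(T^{d₁})`
        have hM : (FFBridge.gen d₁ : Om) ∈ modularFunctionFieldBar M :=
          FFBridge.gen_mem (hd₁.trans hdvd)
        have e0 : (FFBridge.gen d : Om) = FFBridge.gen d₁ := by
          have := congrArg (fun x : FN (N' * q) => (x : Om)) hcase
          simpa [Sigma.coe_alpha] using this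
        have e1 : (IntermediateField.inclusion hle ⟨FFBridge.gen d, FFBridge.gen_mem hd⟩ :
            FN (M * q)) = ⟨FFBridge.gen d₁, Val.mem_top M q hM⟩ := Subtype.ext e0
        rw [e1, hσ.sigma_level hM, hcase, Sigma.sigma_alpha, Sigma.coe_beta]
      · -- `j(T^d) = β j(T^{d₁})`
        have hM : (FFBridge.gen d₁ : Om) ∈ modularFunctionFieldBar M :=
          FFBridge.gen_mem (hd₁.trans hdvd)
        have e0 : (FFBridge.gen d : Om) = qExpand Kbar q (FFBridge.gen d₁) := by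
          have := congrArg (fun x : FN (N' * q) => (x : Om)) hcase
          simpa [Sigma.coe_beta] using this
        have e1 : (IntermediateField.inclusion hle ⟨FFBridge.gen d, FFBridge.gen_mem hd⟩ :
            FN (M * q)) = ⟨qExpand Kbar q (FFBridge.gen d₁), Val.qExpand_mem_top M q hM⟩ :=
          Subtype.ext e0
        rw [e1, hσ.sigma_level_beta hM, hcase, Sigma.sigma_beta, Sigma.coe_alpha]
  have h := congrArg (fun φ : FN (N' * q) →+* Om => φ y) key
  exact h

variable (N' q M)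

/-- **`FPlan.SwapN`** ([VAL-N]), hypothesis form: for `O = {g ∈ F_{Mq} : g, σ₀ g ∈ Ocal}` and
`ρ g = (red g, red (σ₀ g))`, `σ₀` the Atkin–Lehner involution of `F_{Mq}`, the restriction of
`(O, ρ)` to `F_{N' q}` is `(red, red ∘ w)` with `w` the Atkin–Lehner involution of `F_{N' q}`. -/
theorem swapN_of (hq : q.Prime) (hc : Nat.Coprime N' q) (hdvd : N' ∣ M)
    (σ₀ : FN (M * q) ≃ₐ[Kbar] FN (M * q)) (hσ : Val.IsAL M q σ₀)
    (O : Subring Om) (ρ : O →+* Plan.R2 A)
    (hO : ∀ g : Om, g ∈ O ↔ ∃ hg : g ∈ modularFunctionFieldBar (M * q),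
      g ∈ Ocal A ∧ ((σ₀ ⟨g, hg⟩ : FN (M * q)) : Om) ∈ Ocal A)
    (hρ : ∀ (g : O) (hg : (g : Om) ∈ modularFunctionFieldBar (M * q)) (h1 : (g : Om) ∈ Ocal A)
      (h2 : ((σ₀ ⟨(g : Om), hg⟩ : FN (M * q)) : Om) ∈ Ocal A),
      ρ g = (red A ⟨(g : Om), h1⟩, red A ⟨_, h2⟩)) :
    FPlan.SwapN A N' q O ρ := by
  refine ⟨Sigma.sigma N' q hc, Sigma.sigma_alpha hc, Sigma.sigma_beta hc,
    Sigma.sigma_sigma hc hq, ?_, ?_, ?_⟩
  · intro s x
    exact (Sigma.galois_smul_sigma hc hq (s : Kbar ≃ₐ[ℚ] Kbar) x).symm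
  · intro y
    have hF : (y : Om) ∈ modularFunctionFieldBar (M * q) := mem_level_top N' q M hdvd y.2
    have e := sigma_restrict hq hc hdvd σ₀ hσ y hF
    rw [hO]
    constructor
    · rintro ⟨hg, h1, h2⟩
      exact ⟨h1, by rw [← e]; exact h2⟩
    · rintro ⟨h1, h2⟩
      exact ⟨hF, h1, by rw [e]; exact h2⟩
  · intro y hy h1 h2
    have hF : (y : Om) ∈ modularFunctionFieldBar (M * q) := mem_level_top N' q M hdvd y.2
    have e := sigma_restrict hq hc hdvd σ₀ hσ y hF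
    have h2' : ((σ₀ ⟨(y : Om), hF⟩ : FN (M * q)) : Om) ∈ Ocal A := by rw [e]; exact h2
    rw [hρ ⟨_, hy⟩ hF h1 h2']
    exact Prod.ext rfl (red_congr A e h2' h2)

/-- **`FPlan.SwapN`** for the concrete two-component reduction `(Val.O2, Val.Red)`. -/
theorem swapN_val (hq : q.Prime) (hc : Nat.Coprime N' q) (hdvd : N' ∣ M)
    (σ : FN (M * q) ≃ₐ[Kbar] FN (M * q)) (hσ : Val.IsAL M q σ) :
    FPlan.SwapN A N' q (Val.O2 A M q σ) (Val.Red A M q σ) :=
  swapN_of A N' q M hq hc hdvd σ hσ _ _ (fun _ => Val.mem_O2)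
    (fun g hg h1 h2 => by
      rw [Val.Red_eq])

/-- The same from the standing hypotheses `S34.Plan.Levels q N' (N' * q) M`. -/
theorem swapN_levels (hL : Plan.Levels q N' (N' * q) M)
    (σ : FN (M * q) ≃ₐ[Kbar] FN (M * q)) (hσ : Val.IsAL M q σ) :
    FPlan.SwapN A N' q (Val.O2 A M q σ) (Val.Red A M q σ) :=
  swapN_val A N' q M hL.prime
    ((Nat.Prime.coprime_iff_not_dvd hL.prime).mpr hL.not_dvd).symm
    ⟨Plan.aux q, by rw [hL.M_eq, mul_comm]⟩ σ hσ

end Fermat.Agent.S35.SwapN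

end
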