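import Mathlib
import Fermat.Agent.S34.ValInertia

/-!
# S35 / P6 [VAL-FROB] (helper5): the two-component reduction and the decomposition group

For the two-component reduction `(O, ρ)`, `O = {g ∈ F_L : g, σ₀ g ∈ Ocal}`,
`ρ g = (red g, red σ₀ g)` (hypotheses `hO`, `hρ`), an automorphism `σ₀` commuting with the
coefficientwise Galois action of the decomposition group (`hστ`):

* `decomp` : every `s` in the decomposition group of `A` preserves `O` and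
  `ρ (s g) = (s̄ (ρ g).1, s̄ (ρ g).2)` (coefficientwise action of the residual automorphism);
* `frobSetup` : for a Frobenius element `σ` at `A` (`A.IsFrobeniusAt σ q`), `σ` and `σ⁻¹` preserve
  `O` and `ρ (σ g)` is the coefficientwise `q`-th power of `ρ g`  (= `S35.FPlan.FrobSetup`).
-/

set_option autoImplicit false
set_option synthInstance.maxHeartbeats 400000
set_option maxHeartbeats 1000000

noncomputable section

namespace Fermat.Agent.S35.ValFrob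

open ModularCurve AlgebraicCurve Fermat.Agent.S24 Fermat.Agent.S18.Content Fermat.Agent.S18.Plan

variable (A : ValuationSubring Kbar) (L : ℕ) (σ₀ : FN L ≃ₐ[Kbar] FN L)
  (O : Subring Om) (ρ : O →+* Fermat.Agent.S34.Plan.R2 A)

/-- Every element of the decomposition group preserves `O`, and `ρ` intertwines it with the
coefficientwise action of the residual automorphism on both components. -/
theorem decomp
    (hO : ∀ g : Om, g ∈ O ↔ ∃ hg : g ∈ modularFunctionFieldBar L,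
      g ∈ Ocal A ∧ ((σ₀ ⟨g, hg⟩ : FN L) : Om) ∈ Ocal A)
    (hρ : ∀ (g : O) (hg : (g : Om) ∈ modularFunctionFieldBar L) (h1 : (g : Om) ∈ Ocal A)
      (h2 : ((σ₀ ⟨(g : Om), hg⟩ : FN L) : Om) ∈ Ocal A),
      ρ g = (red A ⟨(g : Om), h1⟩, red A ⟨_, h2⟩))
    (hστ : ∀ (s : A.decompositionSubgroup ℚ) (x : FN L),
      σ₀ (Fermat.Agent.S37.Gal.gK A L s • x) = Fermat.Agent.S37.Gal.gK A L s • σ₀ x)
    (s : A.decompositionSubgroup ℚ) (g : O) :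
    ∃ h : coeffMap (((s : Kbar ≃ₐ[ℚ] Kbar)) : Kbar →+* Kbar) (g : Om) ∈ O,
      ρ ⟨_, h⟩ = (coeffMap (Fermat.Agent.S37.Gal.sigmaBar A s) (ρ g).1,
        coeffMap (Fermat.Agent.S37.Gal.sigmaBar A s) (ρ g).2) := by
  obtain ⟨hg, h1, h2⟩ := (hO (g : Om)).mp g.2
  set G : FN L := ⟨(g : Om), hg⟩ with hG
  have hcoe : ((Fermat.Agent.S37.Gal.gK A L s • G : FN L) : Om) =
      coeffMap ((s : Kbar ≃ₐ[ℚ] Kbar) : Kbar →+* Kbar) (g : Om) := rfl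
  have hτF : coeffMap ((s : Kbar ≃ₐ[ℚ] Kbar) : Kbar →+* Kbar) (g : Om) ∈
      modularFunctionFieldBar L := by
    rw [← hcoe]; exact (Fermat.Agent.S37.Gal.gK A L s • G).2
  have hτ1 : coeffMap ((s : Kbar ≃ₐ[ℚ] Kbar) : Kbar →+* Kbar) (g : Om) ∈ Ocal A :=
    Fermat.Agent.S37.Gal.coeffMap_mem_Ocal A s h1
  have hσcoe : ((σ₀ ⟨_, hτF⟩ : FN L) : Om) =
      coeffMap ((s : Kbar ≃ₐ[ℚ] Kbar) : Kbar →+* Kbar) ((σ₀ G : FN L) : Om) := by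
    have e : (⟨_, hτF⟩ : FN L) = Fermat.Agent.S37.Gal.gK A L s • G := Subtype.ext hcoe.symm
    rw [e, hστ s G]
    rfl
  have hτ2' : coeffMap ((s : Kbar ≃ₐ[ℚ] Kbar) : Kbar →+* Kbar) ((σ₀ G : FN L) : Om) ∈ Ocal A :=
    Fermat.Agent.S37.Gal.coeffMap_mem_Ocal A s h2
  have hτ2 : ((σ₀ ⟨_, hτF⟩ : FN L) : Om) ∈ Ocal A := by rw [hσcoe]; exact hτ2'
  have hmem : coeffMap ((s : Kbar ≃ₐ[ℚ] Kbar) : Kbar →+* Kbar) (g : Om) ∈ O :=
    (hO _).mpr ⟨hτF, hτ1, hτ2⟩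
  refine ⟨hmem, ?_⟩
  rw [hρ ⟨_, hmem⟩ hτF hτ1 hτ2, hρ g hg h1 h2]
  have e1 : red A ⟨_, hτ1⟩ =
      coeffMap (Fermat.Agent.S37.Gal.sigmaBar A s) (red A ⟨(g : Om), h1⟩) :=
    Fermat.Agent.S37.Gal.red_coeffMap A s (g : Om) h1
  have e2 : red A ⟨_, hτ2⟩ =
      coeffMap (Fermat.Agent.S37.Gal.sigmaBar A s) (red A ⟨_, h2⟩) := by
    rw [red_congr A hσcoe hτ2 hτ2']
    exact Fermat.Agent.S37.Gal.red_coeffMap A s ((σ₀ G : FN L) : Om) h2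
  rw [e1, e2]

/-- Membership only: the decomposition group preserves `O`. -/
theorem decomp_mem
    (hO : ∀ g : Om, g ∈ O ↔ ∃ hg : g ∈ modularFunctionFieldBar L,
      g ∈ Ocal A ∧ ((σ₀ ⟨g, hg⟩ : FN L) : Om) ∈ Ocal A)
    (hστ : ∀ (s : A.decompositionSubgroup ℚ) (x : FN L),
      σ₀ (Fermat.Agent.S37.Gal.gK A L s • x) = Fermat.Agent.S37.Gal.gK A L s • σ₀ x)
    (s : A.decompositionSubgroup ℚ) (g : O) :
    coeffMap (((s : Kbar ≃ₐ[ℚ] Kbar)) : Kbar →+* Kbar) (g : Om) ∈ O := by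
  obtain ⟨hg, h1, h2⟩ := (hO (g : Om)).mp g.2
  set G : FN L := ⟨(g : Om), hg⟩ with hG
  have hcoe : ((Fermat.Agent.S37.Gal.gK A L s • G : FN L) : Om) =
      coeffMap ((s : Kbar ≃ₐ[ℚ] Kbar) : Kbar →+* Kbar) (g : Om) := rfl
  have hτF : coeffMap ((s : Kbar ≃ₐ[ℚ] Kbar) : Kbar →+* Kbar) (g : Om) ∈
      modularFunctionFieldBar L := by
    rw [← hcoe]; exact (Fermat.Agent.S37.Gal.gK A L s • G).2
  have hτ1 : coeffMap ((s : Kbar ≃ₐ[ℚ] Kbar) : Kbar →+* Kbar) (g : Om) ∈ Ocal A :=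
    Fermat.Agent.S37.Gal.coeffMap_mem_Ocal A s h1
  have hσcoe : ((σ₀ ⟨_, hτF⟩ : FN L) : Om) =
      coeffMap ((s : Kbar ≃ₐ[ℚ] Kbar) : Kbar →+* Kbar) ((σ₀ G : FN L) : Om) := by
    have e : (⟨_, hτF⟩ : FN L) = Fermat.Agent.S37.Gal.gK A L s • G := Subtype.ext hcoe.symm
    rw [e, hστ s G]
    rfl
  have hτ2 : ((σ₀ ⟨_, hτF⟩ : FN L) : Om) ∈ Ocal A := by
    rw [hσcoe]; exact Fermat.Agent.S37.Gal.coeffMap_mem_Ocal A s h2
  exact (hO _).mpr ⟨hτF, hτ1, hτ2⟩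

/-- **`S35.FPlan.FrobSetup`** ([VAL-FROB]), hypothesis form: a Frobenius element `σ` at `A`
preserves `O` (as does `σ⁻¹`), and `ρ (σ g)` is the coefficientwise `q`-th power of `ρ g`. -/
theorem frobSetup (q : ℕ)
    (hO : ∀ g : Om, g ∈ O ↔ ∃ hg : g ∈ modularFunctionFieldBar L,
      g ∈ Ocal A ∧ ((σ₀ ⟨g, hg⟩ : FN L) : Om) ∈ Ocal A)
    (hρ : ∀ (g : O) (hg : (g : Om) ∈ modularFunctionFieldBar L) (h1 : (g : Om) ∈ Ocal A)
      (h2 : ((σ₀ ⟨(g : Om), hg⟩ : FN L) : Om) ∈ Ocal A),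
      ρ g = (red A ⟨(g : Om), h1⟩, red A ⟨_, h2⟩))
    (hστ : ∀ (s : A.decompositionSubgroup ℚ) (x : FN L),
      σ₀ (Fermat.Agent.S37.Gal.gK A L s • x) = Fermat.Agent.S37.Gal.gK A L s • σ₀ x) :
    ∀ σ : Kbar ≃ₐ[ℚ] Kbar, A.IsFrobeniusAt σ q → ∀ g : O,
      (∃ h : coeffMap (σ : Kbar →+* Kbar) (g : Om) ∈ O,
        ∀ n, (ρ ⟨_, h⟩).1.coeff n = (ρ g).1.coeff n ^ q ∧
          (ρ ⟨_, h⟩).2.coeff n = (ρ g).2.coeff n ^ q) ∧
      coeffMap (σ.symm : Kbar →+* Kbar) (g : Om) ∈ O := by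
  intro σ hσ g
  obtain ⟨hmemσ, hfrob⟩ := hσ
  set s : A.decompositionSubgroup ℚ := ⟨σ, hmemσ⟩ with hs
  have hbar : ∀ x : kk A, Fermat.Agent.S37.Gal.sigmaBar A s x = x ^ q := fun x => hfrob x
  refine ⟨?_, ?_⟩
  · obtain ⟨h, hh⟩ := decomp A L σ₀ O ρ hO hρ hστ s g
    refine ⟨h, fun n => ?_⟩
    rw [hh]
    refine ⟨?_, ?_⟩
    · show (coeffMap (Fermat.Agent.S37.Gal.sigmaBar A s) (ρ g).1).coeff n = _
      rw [coeffMap_coeff, hbar]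
    · show (coeffMap (Fermat.Agent.S37.Gal.sigmaBar A s) (ρ g).2).coeff n = _
      rw [coeffMap_coeff, hbar]
  · exact decomp_mem A L σ₀ O hO hστ s⁻¹ g

end Fermat.Agent.S35.ValFrob
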