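import Mathlib
import Fermat.Agent.S35.FPlan
import Fermat.Agent.S35.ValFrob
import Fermat.Agent.S34.Val
import Fermat.Agent.S34.Sigma

/-!
# S35 / P6 [VAL-FROB], instance (helper5): `FPlan.FrobSetup` for the concrete pair `(Val.O2, Val.Red)`

* `frobSetup_of` : for any automorphism `σ` of `F_{Mq}` commuting with the coefficientwise action
  of the decomposition group, `FPlan.FrobSetup A q (Val.O2 A M q σ) (Val.Red A M q σ)`;
* `frobSetup_val` : the same at the Atkin–Lehner involution `σ = Sigma.sigma M q h`;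
* `inertia_val`, `decomp_val` : the companion statements (`Plan.Setup2.inertia` and the general
  decomposition-group formula) for the concrete pair.
-/

set_option autoImplicit false
set_option synthInstance.maxHeartbeats 400000
set_option maxHeartbeats 1000000

noncomputable section

namespace Fermat.Agent.S35.ValFrobInst

open ModularCurve AlgebraicCurve Fermat.Agent.S24 Fermat.Agent.S18.Content Fermat.Agent.S18.Plan
open Fermat.Agent.S34

variable (A : ValuationSubring Kbar) {M q : ℕ}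

/-- The membership hypothesis `(hO)` for `Val.O2`. -/
theorem hO_val (σ : FN (M * q) ≃ₐ[Kbar] FN (M * q)) :
    ∀ g : Om, g ∈ Val.O2 A M q σ ↔ ∃ hg : g ∈ modularFunctionFieldBar (M * q),
      g ∈ Ocal A ∧ ((σ ⟨g, hg⟩ : FN (M * q)) : Om) ∈ Ocal A :=
  fun _ => Val.mem_O2

/-- The formula hypothesis `(hρ)` for `Val.Red`. -/
theorem hρ_val (σ : FN (M * q) ≃ₐ[Kbar] FN (M * q)) :
    ∀ (g : Val.O2 A M q σ) (hg : (g : Om) ∈ modularFunctionFieldBar (M * q))
      (h1 : (g : Om) ∈ Ocal A) (h2 : ((σ ⟨(g : Om), hg⟩ : FN (M * q)) : Om) ∈ Ocal A),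
      Val.Red A M q σ g = (red A ⟨(g : Om), h1⟩, red A ⟨_, h2⟩) :=
  fun g hg h1 h2 => Prod.ext (Val.fst_eq A M q σ g h1) (Val.snd_eq A M q σ g hg h2)

/-- `FPlan.FrobSetup` for `(Val.O2, Val.Red)` and any `σ` commuting with the decomposition
group. -/
theorem frobSetup_of (σ : FN (M * q) ≃ₐ[Kbar] FN (M * q))
    (hσG : ∀ (s : A.decompositionSubgroup ℚ) (x : FN (M * q)),
      σ (Fermat.Agent.S37.Gal.gK A (M * q) s • x) = Fermat.Agent.S37.Gal.gK A (M * q) s • σ x) :
    FPlan.FrobSetup A q (Val.O2 A M q σ) (Val.Red A M q σ) :=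
  ValFrob.frobSetup A (M * q) σ _ _ q (hO_val A σ) (hρ_val A σ) hσG

variable [NeZero M] [NeZero q]

/-- The Atkin–Lehner involution commutes with the decomposition group. -/
theorem hσG_sigma (h : Nat.Coprime M q) (hq : q.Prime) :
    ∀ (s : A.decompositionSubgroup ℚ) (x : FN (M * q)),
      Sigma.sigma M q h (Fermat.Agent.S37.Gal.gK A (M * q) s • x) =
        Fermat.Agent.S37.Gal.gK A (M * q) s • Sigma.sigma M q h x :=
  fun s x => (Sigma.galois_smul_sigma h hq (s : Kbar ≃ₐ[ℚ] Kbar) x).symm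

/-- **`FPlan.FrobSetup`** for the concrete two-component reduction at the Atkin–Lehner
involution. -/
theorem frobSetup_val (h : Nat.Coprime M q) (hq : q.Prime) :
    FPlan.FrobSetup A q (Val.O2 A M q (Sigma.sigma M q h)) (Val.Red A M q (Sigma.sigma M q h)) :=
  frobSetup_of A _ (hσG_sigma A h hq)

/-- The decomposition group on the concrete pair. -/
theorem decomp_val (h : Nat.Coprime M q) (hq : q.Prime) (s : A.decompositionSubgroup ℚ)
    (g : Val.O2 A M q (Sigma.sigma M q h)) :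
    ∃ hm : coeffMap (((s : Kbar ≃ₐ[ℚ] Kbar)) : Kbar →+* Kbar) (g : Om) ∈
        Val.O2 A M q (Sigma.sigma M q h),
      Val.Red A M q (Sigma.sigma M q h) ⟨_, hm⟩ =
        (coeffMap (Fermat.Agent.S37.Gal.sigmaBar A s) (Val.Red A M q (Sigma.sigma M q h) g).1,
          coeffMap (Fermat.Agent.S37.Gal.sigmaBar A s) (Val.Red A M q (Sigma.sigma M q h) g).2) :=
  ValFrob.decomp A (M * q) _ _ _ (hO_val A _) (hρ_val A _) (hσG_sigma A h hq) s g

/-- **`Plan.Setup2.inertia`** for the concrete pair. -/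
theorem inertia_val (h : Nat.Coprime M q) (hq : q.Prime) :
    ∀ τ : Kbar ≃ₐ[ℚ] Kbar, τ ∈ A.inertiaSubgroupIn ℚ →
      ∀ g : Val.O2 A M q (Sigma.sigma M q h),
        ∃ hm : coeffMap (τ : Kbar →+* Kbar) (g : Om) ∈ Val.O2 A M q (Sigma.sigma M q h),
          Val.Red A M q (Sigma.sigma M q h) ⟨_, hm⟩ = Val.Red A M q (Sigma.sigma M q h) g :=
  ValInertia.inertia A (M * q) _ _ _ (hO_val A _) (hρ_val A _) (hσG_sigma A h hq)

/-- **`Plan.Setup2.inertia_ratio`** for the concrete pair, from the first-valuation scaling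
property (V1′) at level `M q`. -/
theorem inertia_ratio_val (h : Nat.Coprime M q) (hq : q.Prime)
    (hscale : ∀ y : Om, y ∈ modularFunctionFieldBar (M * q) → y ≠ 0 →
      ∃ c : Kbar, c ≠ 0 ∧ ∃ hc : HahnSeries.C c * y ∈ Ocal A, red A ⟨_, hc⟩ ≠ 0) :
    ∀ τ : Kbar ≃ₐ[ℚ] Kbar, τ ∈ A.inertiaSubgroupIn ℚ →
      ∀ f : Om, f ∈ modularFunctionFieldBar (M * q) → f ≠ 0 →
        ∃ (hm : coeffMap (τ : Kbar →+* Kbar) f * f⁻¹ ∈ Val.O2 A M q (Sigma.sigma M q h))
          (c₁ c₂ : kk A), c₁ ≠ 0 ∧ c₂ ≠ 0 ∧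
            Val.Red A M q (Sigma.sigma M q h) ⟨_, hm⟩ = (HahnSeries.C c₁, HahnSeries.C c₂) :=
  ValInertia.inertia_ratio A (M * q) _ _ _ (hO_val A _) (hρ_val A _) (hσG_sigma A h hq) hscale

end Fermat.Agent.S35.ValFrobInst
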