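import Mathlib
import Fermat.Agent.S35.K0Inst
import Fermat.Agent.S35.ValFrobInst
import Fermat.Agent.S35.SwapN
import Fermat.Agent.S35.FTop
import Fermat.Agent.S34.ValAsm
import Fermat.Agent.S34.ValLiftInst
import Fermat.Agent.S34.PoleBound
import Fermat.Agent.S34.CharInst
import Fermat.Agent.S34.DescInst

/-!
# S35 — (F): the final wiring (helper36)

Everything in the chain `FPlan.fDiv_of` except `[NEW-K0]` is discharged on the concrete
two-component reduction `(Val.O2 A M q σ, Val.Red A M q σ)`, `σ = Sigma.sigma M q _` the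
Atkin–Lehner involution at the top level `M * q`, `M = aux q * N'`:

* `Setup2`      : `S34.ValAsm.setup2`           (helper81)
* `FrobSetup`   : `S35.ValFrobInst.frobSetup_val` (helper5)
* `SwapN`       : `S35.SwapN.swapN_levels`       (helper50)
* `Lift2T`      : `S34.ValLiftInst.lift₂'`       (helper60)
* `[K0]`, `[CR]`, `[NODE]`, `[LIFT]` : `S35.K0Inst.fDiv_of_lift2T`
* `[POLE]`      : `S34.PoleBound.poleStmt`       (helper94)
* `[DESC]`      : `S34.DescInst.descW` with `S34.CharInst.hscale`, `charStmt` (helper18, helper77)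

Exports:

* `fDiv_of_newK0`  : `FPlan.NewK0` for the concrete pair ⟹ `FPlan.FDiv A N' q`;
* `fDiv_of_newK0_all` : the same from a provider of `NewK0` for every pair with `Setup2`,
  `FrobSetup`, `SwapN`;
* `newFrobStmt_of_newK0` : ⟹ the junction contract `S35.Plan.NewFrobStmt` (via `FTop`).
-/

set_option autoImplicit false

noncomputable section

namespace Fermat.Agent.S35.FDivInst

open ModularCurve AlgebraicCurve Fermat.Agent.S24 Fermat.Agent.S18 Fermat.Agent.S18.Content
  Fermat.Agent.S18.Plan Fermat.Agent.S34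

set_option synthInstance.maxHeartbeats 400000
set_option maxHeartbeats 800000

/-- The standing level data for `q` prime, `q ∤ N'`. -/
theorem levels (N' q : ℕ) [NeZero N'] (hq : q.Prime) (hqN' : ¬ q ∣ N') :
    Plan.Levels q N' (N' * q) (Plan.aux q * N') :=
  ⟨hq, Nat.pos_of_ne_zero (NeZero.ne N'), hqN', rfl, rfl⟩

section Concrete

variable {q N' M : ℕ} [NeZero N'] [NeZero q]

/-- The Atkin–Lehner involution of `F_{M q}` used for the concrete pair. -/
abbrev sig (hL : Plan.Levels q N' (N' * q) M) : FN (M * q) ≃ₐ[Kbar] FN (M * q) :=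
  have := ValAsm.neZero_M hL
  Sigma.sigma M q (ValAsm.coprime_of_levels hL)

/-- **(F), divisor form, from `[NEW-K0]` on the concrete pair.** -/
theorem fDiv_of_newK0 (hL : Plan.Levels q N' (N' * q) M) (A : ValuationSubring Kbar)
    (hA : A.LiesOverPrime q)
    (hNew : FPlan.NewK0 A N' q (Val.O2 A M q (sig hL)) (Val.Red A M q (sig hL))) :
    FPlan.FDiv A N' q := by
  have := ValAsm.neZero_M hL
  have hS : Plan.Setup2 A (N' * q) q M (FPlan.dvd_level N' q) (Val.O2 A M q (sig hL))
      (Val.Red A M q (sig hL)) := ValAsm.setup2 A hL (FPlan.dvd_level N' q) hA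
  have hFS : FPlan.FrobSetup A q (Val.O2 A M q (sig hL)) (Val.Red A M q (sig hL)) :=
    ValFrobInst.frobSetup_val A (ValAsm.coprime_of_levels hL) hL.prime
  have hL2 : K0Adapt.Lift2T A (N' * q) q M (FPlan.dvd_level N' q) (Val.O2 A M q (sig hL))
      (Val.Red A M q (sig hL)) :=
    ValLiftInst.lift₂' A (FPlan.dvd_level N' q) hL hA (ValAsm.isAL hL)
  exact K0Inst.fDiv_of_lift2T hL A hA hS hFS hL2 hNew
    (PoleBound.poleStmt (FPlan.dvd_level N' q) hL)
    (DescInst.descW hL A hA (CharInst.hscale hL A hA) (CharInst.charStmt hL A hA))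

/-- **(F), divisor form**, from a provider of `[NEW-K0]` for every two-component reduction with
`Setup2`, `FrobSetup` and `SwapN`. -/
theorem fDiv_of_newK0_all (hL : Plan.Levels q N' (N' * q) M) (A : ValuationSubring Kbar)
    (hA : A.LiesOverPrime q)
    (hNew : ∀ (O : Subring Om) (ρ : O →+* Plan.R2 A),
      Plan.Setup2 A (N' * q) q M (FPlan.dvd_level N' q) O ρ → FPlan.FrobSetup A q O ρ →
        FPlan.SwapN A N' q O ρ → FPlan.NewK0 A N' q O ρ) :
    FPlan.FDiv A N' q := by
  have := ValAsm.neZero_M hL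
  refine fDiv_of_newK0 hL A hA (hNew _ _ ?_ ?_ ?_)
  · exact ValAsm.setup2 A hL (FPlan.dvd_level N' q) hA
  · exact ValFrobInst.frobSetup_val A (ValAsm.coprime_of_levels hL) hL.prime
  · exact SwapN.swapN_levels A N' q M hL _ (ValAsm.isAL hL)

end Concrete

/-- **(F) on `J₀(N' q)`**: the junction contract `S35.Plan.NewFrobStmt` from a provider of
`[NEW-K0]`. -/
theorem newFrobStmt_of_newK0 (N' q p : ℕ) [NeZero N'] [NeZero q] (hq : q.Prime)
    (hqN' : ¬ q ∣ N') (hqp : ¬ q ∣ p)
    (hNew : ∀ A : ValuationSubring Kbar, A.LiesOverPrime q →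
      ∀ (O : Subring Om) (ρ : O →+* Plan.R2 A),
        Plan.Setup2 A (N' * q) q (Plan.aux q * N') (FPlan.dvd_level N' q) O ρ →
          FPlan.FrobSetup A q O ρ → FPlan.SwapN A N' q O ρ → FPlan.NewK0 A N' q O ρ) :
    Fermat.Agent.S35.Plan.NewFrobStmt N' q p (Push.pushA N' q) (Push.pushB N' q) :=
  FTop.newFrobStmt N' q p hq hqp
    (fun A hA => fDiv_of_newK0_all (levels N' q hq hqN') A hA (hNew A hA))

end Fermat.Agent.S35.FDivInst
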