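/-
P6 / S35 [NORM2] (helper97): **the Kronecker norm congruence for an arbitrary element of `F_{Nℓ}`.**

`F := F_{Nℓ}` (`ℓ` prime, `ℓ ∤ N`), `α, β : F_N → F` the two degeneracy embeddings
(`α` = inclusion, `β = V_ℓ : T ↦ T^ℓ`), `w` an automorphism of `F` swapping them (Atkin–Lehner).

* `qExpand_norm_beta` (characteristic `0`):  for every `y ∈ F`,
  `V_ℓ (N_β y) = V_ℓ (w y) · ∏_{b < ℓ} y(ζ^b T)` in `Q̄((T))`.
* `red_norm_beta` : for `A` over `ℓ`, `y ∈ Ocal` and a constant `c` with `c · w y ∈ Ocal`: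
  `c · N_β y ∈ Ocal` and `red (c · N_β y) = red (c · w y) · (red y)^{(ℓ)}`
  (`^{(ℓ)}` = coefficientwise Frobenius).
* `red_norm_alpha` : the same for `N_α`, given `w (w y) = y`:
  for `w y ∈ Ocal` and `c · y ∈ Ocal`: `red (c · N_α y) = red (c · y) · (red (w y))^{(ℓ)}`.

So with `ρ₁ = red`, `ρ₂ = red ∘ w` (the two Gauss valuations of `F`):
`red N_α = ρ₁ · Frob ρ₂` and `red N_β = ρ₂ · Frob ρ₁`.
-/
import Mathlib
import Fermat.Agent.S37.ConjMain
import Fermat.Agent.S37.Conj.NormSwap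
import Fermat.Agent.S37.KronMain
import Fermat.Agent.Lib.KroneckerCongOcal
import Fermat.Agent.S18.ContentMain

set_option autoImplicit false

noncomputable section

namespace Fermat.Agent.S35.NormTwo

open ModularCurve AlgebraicCurve
open Fermat.Agent.S24 Fermat.Agent.S18.Content Fermat.Agent.S18.Plan
open Fermat.Agent.Lib.KroneckerCong Fermat.Agent.S37.Conj

set_option synthInstance.maxHeartbeats 400000
set_option maxHeartbeats 1600000

variable (N ℓ : ℕ) [NeZero N] [NeZero ℓ]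

/-- **Product formula for the norm along `β`** (characteristic `0`): for every `y ∈ F_{Nℓ}`,
`(N_β y)(T^ℓ) = (w y)(T^ℓ) · ∏_{b < ℓ} y(ζ^b T)`. -/
theorem qExpand_norm_beta (hℓ : ℓ.Prime) (hℓN : ¬ ℓ ∣ N)
    (w : FN (N * ℓ) →+* FN (N * ℓ))
    (hwα : ∀ f : FN N, w (heckeAlphaBar Kbar N ℓ f) = heckeBetaBar Kbar N ℓ f)
    (hwβ : ∀ f : FN N, w (heckeBetaBar Kbar N ℓ f) = heckeAlphaBar Kbar N ℓ f)
    (ζ : Kbarˣ) (hζ : IsPrimitiveRoot ζ ℓ) (y : FN (N * ℓ)) :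
    qExpand Kbar ℓ ((@Algebra.norm (FN N) (FN (N * ℓ)) _ _
        (algebraAlong (heckeBetaBar Kbar N ℓ)) y : FN N) : Om) =
      qExpand Kbar ℓ ((w y : FN (N * ℓ)) : Om) *
        ∏ b ∈ Finset.range ℓ, Fermat.Agent.S28.scale (ζ ^ b) (y : Om) := by
  have hfr : finrankAlong Kbar (heckeBetaBar Kbar N ℓ) = ℓ + 1 := finrankAlong_beta N ℓ hℓ hℓN
  letI : Algebra (FN N) (FN (N * ℓ)) := algebraAlong (heckeBetaBar Kbar N ℓ)
  have h1 : Module.finrank (FN N) (FN (N * ℓ)) = ℓ + 1 := hfr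
  have : Module.Finite (FN N) (FN (N * ℓ)) := Module.finite_of_finrank_pos (by rw [h1]; omega)
  have hcard : Fintype.card (Option (Fin ℓ)) = Module.finrank (FN N) (FN (N * ℓ)) := by
    rw [Fintype.card_option, Fintype.card_fin, h1]
  have key := map_norm_eq_prod_of_card (K := FN N) (L := FN (N * ℓ)) (Ω := Om)
    ((qExpand Kbar ℓ).comp (algebraMap (FN N) Om))
    (emb N ℓ w ζ)
    (fun i x => emb_beta w ζ hζ.pow_eq_one hwβ i x)
    (emb_injective hℓ w ζ hζ hwα) hcard y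
  rw [Fintype.prod_option, emb_none] at key
  have h := Fin.prod_univ_eq_prod_range
    (fun b : ℕ => Fermat.Agent.S28.scale (ζ ^ b) (y : Om)) ℓ
  rw [← h]
  exact key

section Reduction

variable (A : ValuationSubring Kbar)

/-- **Kronecker norm congruence along `β`, general element.** -/
theorem red_norm_beta (hℓ : ℓ.Prime) (hℓN : ¬ ℓ ∣ N) (hA : A.LiesOverPrime ℓ)
    (w : FN (N * ℓ) →+* FN (N * ℓ))
    (hwα : ∀ f : FN N, w (heckeAlphaBar Kbar N ℓ f) = heckeBetaBar Kbar N ℓ f)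
    (hwβ : ∀ f : FN N, w (heckeBetaBar Kbar N ℓ f) = heckeAlphaBar Kbar N ℓ f)
    (τ : kk A →+* kk A) (hτ : ∀ x, τ x = x ^ ℓ)
    (y : FN (N * ℓ)) (hy : (y : Om) ∈ Ocal A) (c : Kbar)
    (hc : HahnSeries.C c * ((w y : FN (N * ℓ)) : Om) ∈ Ocal A) :
    ∃ hn : HahnSeries.C c * ((@Algebra.norm (FN N) (FN (N * ℓ)) _ _
        (algebraAlong (heckeBetaBar Kbar N ℓ)) y : FN N) : Om) ∈ Ocal A,
      red A ⟨_, hn⟩ =
        red A ⟨_, hc⟩ * coeffMap τ (red A ⟨(y : Om), hy⟩) := by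
  have : Fact ℓ.Prime := ⟨hℓ⟩
  have : CharP (kk A) ℓ := charP_residueField_of_liesOverPrime A ℓ hA
  have hτF : τ = frobenius (kk A) ℓ := RingHom.ext fun x => by rw [frobenius_def]; exact hτ x
  obtain ⟨ζ, hζ⟩ := Fermat.Agent.S37.KronMain.exists_primitiveRoot_unit ℓ
  obtain ⟨ζA, hζA⟩ := exists_unit_of_pow_eq_one A (NeZero.ne ℓ) hζ.pow_eq_one
  have hζAℓ : ζA ^ ℓ = 1 := by
    apply Units.map_injective (f := ((A.subtype : A →+* Kbar) : A →* Kbar)) Subtype.val_injective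
    show unitK A (ζA ^ ℓ) = unitK A 1
    rw [map_pow, hζA, hζ.pow_eq_one, map_one]
  set Y : Ocal A := ⟨(y : Om), hy⟩ with hY
  have hsc : ∀ b : ℕ, Fermat.Agent.S28.scale (ζ ^ b) (y : Om) =
      ((twistO A (ζA ^ b) Y : Ocal A) : Om) := by
    intro b
    rw [coe_twistO, map_pow, hζA, Fermat.Agent.S37.KronMain.twist_eq_scale]
  have hredsc : ∀ b : ℕ, red A (twistO A (ζA ^ b) Y) = red A Y := by
    intro b
    rw [red_twistO, unitk_eq_one_of_pow_eq_one A (ζA ^ b)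
      (by rw [← pow_mul, mul_comm, pow_mul, hζAℓ, one_pow]), twist_one]
  have key := qExpand_norm_beta N ℓ hℓ hℓN w hwα hwβ ζ hζ y
  set nb : FN N := @Algebra.norm (FN N) (FN (N * ℓ)) _ _
    (algebraAlong (heckeBetaBar Kbar N ℓ)) y with hnb
  set P : Ocal A := qExpandO A ℓ ⟨_, hc⟩ * ∏ b ∈ Finset.range ℓ, twistO A (ζA ^ b) Y with hP
  have hPcoe : qExpand Kbar ℓ (HahnSeries.C c * ((nb : FN N) : Om)) = (P : Om) := by
    rw [map_mul, qExpand_C, key, hP, Subring.coe_mul, coe_qExpandO, map_mul, qExpand_C,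
      SubmonoidClass.coe_finsetProd, mul_assoc]
    congr 2
    exact Finset.prod_congr rfl fun b _ => hsc b
  have hn : HahnSeries.C c * ((nb : FN N) : Om) ∈ Ocal A :=
    mem_Ocal_of_qExpand_mem A ℓ (hPcoe ▸ P.2)
  refine ⟨hn, ?_⟩
  apply qExpand_injective (R := kk A) (N := ℓ)
  rw [← red_qExpand A ℓ ⟨_, hn⟩, red_congr A hPcoe (qExpand_mem_Ocal A ℓ hn) P.2]
  show red A P = _
  rw [hP, map_mul, map_prod, red_qExpandO, Finset.prod_congr rfl (fun b _ => hredsc b),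
    Finset.prod_const, Finset.card_range, map_mul, pow_char_eq, hτF]

/-- **Kronecker norm congruence along `α`, general element** (`w` an involution swapping `α`
and `β`). -/
theorem red_norm_alpha (hℓ : ℓ.Prime) (hℓN : ¬ ℓ ∣ N) (hA : A.LiesOverPrime ℓ)
    (w : FN (N * ℓ) ≃+* FN (N * ℓ))
    (hwα : ∀ f : FN N, w (heckeAlphaBar Kbar N ℓ f) = heckeBetaBar Kbar N ℓ f)
    (hwβ : ∀ f : FN N, w (heckeBetaBar Kbar N ℓ f) = heckeAlphaBar Kbar N ℓ f)
    (hww : ∀ z : FN (N * ℓ), w (w z) = z)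
    (τ : kk A →+* kk A) (hτ : ∀ x, τ x = x ^ ℓ)
    (y : FN (N * ℓ)) (hwy : ((w y : FN (N * ℓ)) : Om) ∈ Ocal A) (c : Kbar)
    (hc : HahnSeries.C c * (y : Om) ∈ Ocal A) :
    ∃ hn : HahnSeries.C c * ((@Algebra.norm (FN N) (FN (N * ℓ)) _ _
        (algebraAlong (heckeAlphaBar Kbar N ℓ)) y : FN N) : Om) ∈ Ocal A,
      red A ⟨_, hn⟩ =
        red A ⟨_, hc⟩ * coeffMap τ
          (red A ⟨((w y : FN (N * ℓ)) : Om), hwy⟩) := by
  have hnorm : @Algebra.norm (FN N) (FN (N * ℓ)) _ _ (algebraAlong (heckeAlphaBar Kbar N ℓ)) y =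
      @Algebra.norm (FN N) (FN (N * ℓ)) _ _ (algebraAlong (heckeBetaBar Kbar N ℓ)) (w y) :=
    norm_along_eq_of_equiv (heckeAlphaBar Kbar N ℓ) (heckeBetaBar Kbar N ℓ) w
      (fun x => hwα x) y
  have hc' : HahnSeries.C c * (((w : FN (N * ℓ) →+* FN (N * ℓ)) (w y) : FN (N * ℓ)) : Om) ∈
      Ocal A := by
    show HahnSeries.C c * ((w (w y) : FN (N * ℓ)) : Om) ∈ Ocal A
    rw [hww]
    exact hc
  obtain ⟨hn, hred⟩ := red_norm_beta N ℓ A hℓ hℓN hA (w : FN (N * ℓ) →+* FN (N * ℓ))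
    hwα hwβ τ hτ (w y) hwy c hc'
  have hcoe : HahnSeries.C c * ((@Algebra.norm (FN N) (FN (N * ℓ)) _ _
        (algebraAlong (heckeAlphaBar Kbar N ℓ)) y : FN N) : Om) =
      HahnSeries.C c * ((@Algebra.norm (FN N) (FN (N * ℓ)) _ _
        (algebraAlong (heckeBetaBar Kbar N ℓ)) (w y) : FN N) : Om) := by
    rw [hnorm]
  refine ⟨hcoe ▸ hn, ?_⟩
  rw [red_congr A hcoe (hcoe ▸ hn) hn, hred]
  congr 1
  exact red_congr A (by show HahnSeries.C c * ((w (w y) : FN (N * ℓ)) : Om) = _; rw [hww]) hc' hc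

end Reduction

end Fermat.Agent.S35.NormTwo
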