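import Mathlib
import Fermat.Agent.S35.FPlan
import Fermat.Agent.S35.NormTwo
import Fermat.Agent.S34.ValInertia
import Fermat.Agent.S18.Char0
import Fermat.Agent.S18.MainLemmas
import Fermat.Agent.S28.PrimeCore
import Fermat.Agent.Lib.FFPoles
import Fermat.Agent.Lib.KroneckerCongOcal

/-!
# S35 — [NEW-K0]: `q`-new classes become `K₀`-type after `σ² - 1` (helper16)

`newK0_of : … → FPlan.SwapN A N' q O ρ → FPlan.NewK0 A N' q O ρ`.

Let `D₀` be a divisor of degree `0` of `F_{N' q}` with `n D₀ = div f`, `α_* D₀ = div h_α`,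
`β_* D₀ = div h_β`.  By the norm formula `N_α f = c h_α^n`, `N_β f = c' h_β^n`; by the Kronecker
norm congruences (`S35/NormTwo`), with `F₁ = red (a₁ f)`, `F₂ = red (a₂ w f)`,
`H_α = red (b h_α)`, `H_β = red (b' h_β)`:

  `F₁ · Φ F₂ = ε H_α^n`,   `F₂ · Φ F₁ = ε' H_β^n`      (`Φ` = coefficientwise Frobenius).

For a Frobenius element `σ` at `A`, `u₀ = σ² f / f` has `ρ u₀ = (e₁ Φ²F₁/F₁, e₂ Φ²F₂/F₂)`, and
`Φ²F₁/F₁ = (Φε'/ε) (ΦH_β/H_α)^n`, `Φ²F₂/F₂ = (Φε/ε') (ΦH_α/H_β)^n`.  The corrector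
`G = e · σ(α h_β)/α h_α + (1 - e) · σ(β h_α)/β h_β`, `ρ e = (1, 0)`, has
`ρ G = (ΦH_β/H_α, ΦH_α/H_β)`, so `u = u₀ G⁻ⁿ` has constant reductions and
`div u = n ((σ² - 1) D₀ - div G)`.
-/

set_option autoImplicit false
set_option maxHeartbeats 400000
set_option linter.unusedSectionVars false

noncomputable section

namespace Fermat.Agent.S35.NewK0

open ModularCurve AlgebraicCurve Fermat.Agent.S24 Fermat.Agent.S18.Content Fermat.Agent.S18.Plan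
open Fermat.Agent.S34 Fermat.Agent.S18 Fermat.Agent.Lib.KroneckerCong

set_option synthInstance.maxHeartbeats 400000

/-! ### Generalities -/

section Field

variable {K : Type*} [Field K]

/-- The field identity behind `Φ²F₁/F₁ = (Φε'/ε) (ΦH_β/H_α)^n`. -/
theorem field_key (X F P ea tb Ha Hb e : K) (n : ℕ) (hF : F ≠ 0) (hea : ea ≠ 0) (hHa : Ha ≠ 0)
    (hHb : Hb ≠ 0) (R1 : F * P = ea * Ha ^ n) (R2 : P * X = tb * Hb ^ n) :
    e * (X * F⁻¹) * ((Hb * Ha⁻¹)⁻¹) ^ n = e * tb * ea⁻¹ := by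
  have h : X * (ea * Ha ^ n) = F * (tb * Hb ^ n) := by rw [← R1, ← R2]; ring
  have hHan : Ha ^ n ≠ 0 := pow_ne_zero _ hHa
  have hHbn : Hb ^ n ≠ 0 := pow_ne_zero _ hHb
  have e1 : ((Hb * Ha⁻¹)⁻¹) ^ n = Ha ^ n * (Hb ^ n)⁻¹ := by
    rw [mul_inv, inv_inv, mul_pow, inv_pow, mul_comm]
  have hX : X = F * (tb * Hb ^ n) * (ea * Ha ^ n)⁻¹ := by
    rw [← h, mul_assoc, mul_inv_cancel₀ (mul_ne_zero hea hHan), mul_one]
  rw [e1, hX]
  field_simp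

end Field

section Content

variable (A : ValuationSubring Kbar)

/-- A constant multiple of a unit of `Ocal` which is again a unit: the reductions differ by a
nonzero constant. -/
theorem const_of_unit (U : Om) (hU : U ∈ Ocal A) (hUr : red A ⟨U, hU⟩ ≠ 0) (c : Kbar)
    (h : HahnSeries.C c * U ∈ Ocal A) (hr : red A ⟨_, h⟩ ≠ 0) :
    ∃ ε : kk A, ε ≠ 0 ∧ red A ⟨_, h⟩ = HahnSeries.C ε * red A ⟨U, hU⟩ := by
  have hc : c ∈ A := (C_mul_mem_Ocal_iff A c ⟨U, hU⟩ hUr).mp h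
  have e := red_C_mul A hc ⟨U, hU⟩ h
  refine ⟨IsLocalRing.residue A ⟨c, hc⟩, ?_, e⟩
  intro h0
  apply hr
  rw [e, h0, map_zero, zero_mul]

/-- If `Y = κ Xⁿ` is a unit of `Ocal` and `b X` is a unit of `Ocal`, then
`red Y = ε (red (b X))ⁿ` with a nonzero constant `ε`. -/
theorem red_eq_const_mul_pow (X : Om) (b : Kbar) (hb : b ≠ 0)
    (hX : HahnSeries.C b * X ∈ Ocal A) (hXr : red A ⟨_, hX⟩ ≠ 0) (n : ℕ) (κ : Kbar) (Y : Om)
    (hY : Y ∈ Ocal A) (hYr : red A ⟨Y, hY⟩ ≠ 0) (hYX : Y = HahnSeries.C κ * X ^ n) :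
    ∃ ε : kk A, ε ≠ 0 ∧ red A ⟨Y, hY⟩ = HahnSeries.C ε * red A ⟨_, hX⟩ ^ n := by
  have hU : (HahnSeries.C b * X) ^ n ∈ Ocal A := (Ocal A).pow_mem hX n
  have hUr : red A ⟨_, hU⟩ = red A ⟨_, hX⟩ ^ n := by
    have : (⟨_, hU⟩ : Ocal A) = ⟨_, hX⟩ ^ n := rfl
    rw [this, map_pow]
  have hCb : (HahnSeries.C b : Om) ≠ 0 := by
    rw [Ne, map_eq_zero]; exact hb
  have e : Y = HahnSeries.C (κ / b ^ n) * (HahnSeries.C b * X) ^ n := by
    rw [hYX, mul_pow, map_div₀, map_pow]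
    field_simp
  have h : HahnSeries.C (κ / b ^ n) * (HahnSeries.C b * X) ^ n ∈ Ocal A := e ▸ hY
  have hr : red A ⟨_, h⟩ ≠ 0 := by
    rw [red_congr A e.symm h hY]; exact hYr
  obtain ⟨ε, hε, hred⟩ := const_of_unit A _ hU (by rw [hUr]; exact pow_ne_zero _ hXr) _ h hr
  refine ⟨ε, hε, ?_⟩
  rw [red_congr A e hY h, hred, hUr]

/-- For `s` in the decomposition group of `A` and `f` a constant times a unit of `Ocal`:
`s f / f ∈ Ocal` and `red (s f / f) = c₁ · s̄ F / F`, `F = red (c f)`, `c₁` a nonzero constant. -/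
theorem ratio_frob (s : A.decompositionSubgroup ℚ) (f : Om) (c : Kbar) (hc : c ≠ 0)
    (h : HahnSeries.C c * f ∈ Ocal A) (hred : red A ⟨_, h⟩ ≠ 0) :
    ∃ (hr : coeffMap ((s : Kbar ≃ₐ[ℚ] Kbar) : Kbar →+* Kbar) f * f⁻¹ ∈ Ocal A) (c₁ : kk A),
      c₁ ≠ 0 ∧ red A ⟨_, hr⟩ =
        HahnSeries.C c₁ * (coeffMap (Fermat.Agent.S37.Gal.sigmaBar A s) (red A ⟨_, h⟩) *
          (red A ⟨_, h⟩)⁻¹) := by
  set τ : Kbar →+* Kbar := ((s : Kbar ≃ₐ[ℚ] Kbar) : Kbar →+* Kbar) with hτ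
  have hτu : coeffMap τ (HahnSeries.C c * f) ∈ Ocal A :=
    Fermat.Agent.S37.Gal.coeffMap_mem_Ocal A s h
  have hτred : red A ⟨_, hτu⟩ =
      coeffMap (Fermat.Agent.S37.Gal.sigmaBar A s) (red A ⟨_, h⟩) :=
    Fermat.Agent.S37.Gal.red_coeffMap A s (HahnSeries.C c * f) h
  have hinv : (HahnSeries.C c * f)⁻¹ ∈ Ocal A := inv_mem_Ocal A ⟨_, h⟩ hred
  have hinvred : red A ⟨_, hinv⟩ = (red A ⟨_, h⟩)⁻¹ := red_inv A ⟨_, h⟩ hred
  have hprod : coeffMap τ (HahnSeries.C c * f) * (HahnSeries.C c * f)⁻¹ ∈ Ocal A :=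
    (Ocal A).mul_mem hτu hinv
  have hprodred : red A ⟨_, hprod⟩ =
      coeffMap (Fermat.Agent.S37.Gal.sigmaBar A s) (red A ⟨_, h⟩) * (red A ⟨_, h⟩)⁻¹ := by
    have e : (⟨_, hprod⟩ : Ocal A) = ⟨_, hτu⟩ * ⟨_, hinv⟩ := rfl
    rw [e, map_mul, hτred, hinvred]
  obtain ⟨hcA, hcres⟩ := ValInertia.const_ratio A s c hc
  have hCO : (HahnSeries.C (c / (s : Kbar ≃ₐ[ℚ] Kbar) c) : Om) ∈ Ocal A := C_mem_Ocal A hcA
  have hCred := red_C A hcA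
  have hτC : coeffMap τ (HahnSeries.C c : Om) = HahnSeries.C ((s : Kbar ≃ₐ[ℚ] Kbar) c) := by
    rw [HahnSeries.C_apply, coeffMap_single]
    rfl
  have hsc : (s : Kbar ≃ₐ[ℚ] Kbar) c ≠ 0 := by
    rw [Ne, map_eq_zero]; exact hc
  have hCc : (HahnSeries.C c : Om) ≠ 0 := by
    rw [Ne, map_eq_zero]; exact hc
  have hCsc : (HahnSeries.C ((s : Kbar ≃ₐ[ℚ] Kbar) c) : Om) ≠ 0 := by
    rw [Ne, map_eq_zero]; exact hsc
  have hid : coeffMap τ f * f⁻¹ =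
      HahnSeries.C (c / (s : Kbar ≃ₐ[ℚ] Kbar) c) *
        (coeffMap τ (HahnSeries.C c * f) * (HahnSeries.C c * f)⁻¹) := by
    rw [map_mul, hτC, map_div₀, mul_inv]
    field_simp
  have hr : coeffMap τ f * f⁻¹ ∈ Ocal A := by
    rw [hid]; exact (Ocal A).mul_mem hCO hprod
  refine ⟨hr, IsLocalRing.residue A ⟨_, hcA⟩, hcres, ?_⟩
  have e : (⟨_, hr⟩ : Ocal A) = ⟨_, hCO⟩ * ⟨_, hprod⟩ := Subtype.ext hid
  rw [e, map_mul, hprodred, hCred]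

end Content

/-! ### The norm formula -/

section Norm

variable {N₁ N₂ : ℕ} [NeZero N₁] [NeZero N₂]

/-- If `n D₀ = div f` on `F_{N₂}` and `φ_* D₀ = div h` on `F_{N₁}`, then for every constant
`a ≠ 0`, `N_φ (a f) = c hⁿ` with a constant `c ≠ 0`. -/
theorem norm_smul_eq_const_mul_pow (φ : FN N₁ →ₐ[Kbar] FN N₂) (hφ : φ.toRingHom.IsIntegral)
    (hfin : FiniteAlong Kbar φ) (hN : NormFormulaAlong Kbar φ hfin)
    (D₀ : Divisor Kbar (FN N₂)) (n : ℕ) (f : FN N₂) (hf : f ≠ 0)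
    (hfdiv : ∀ v : Place Kbar (FN N₂), (n • D₀) v = v.ord f)
    (h : FN N₁) (hh : h ≠ 0)
    (hhdiv : ∀ v : Place Kbar (FN N₁), Divisor.pushforwardAlong φ hφ D₀ v = v.ord h)
    (a : Kbar) (ha : a ≠ 0) :
    ∃ c : Kbar, c ≠ 0 ∧
      @Algebra.norm (FN N₁) (FN N₂) _ _ (algebraAlong φ) (algebraMap Kbar (FN N₂) a * f) =
        algebraMap Kbar (FN N₁) c * h ^ n := by
  letI := algebraAlong φ
  haveI := isScalarTower_along φ
  haveI := isIntegral_along φ hφ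
  haveI : Module.Finite (FN N₁) (FN N₂) := hfin
  have H : Divisor.PushforwardNormFormula Kbar (FN N₁) (FN N₂) := hN
  have h1 : ∀ v : Place Kbar (FN N₁),
      Divisor.pushforward (FN N₁) (n • D₀) v = v.ord (Algebra.norm (FN N₁) f) :=
    H f hf (n • D₀) hfdiv
  have h2 : Divisor.pushforward (FN N₁) (n • D₀) = n • Divisor.pushforward (FN N₁) D₀ :=
    map_nsmul _ _ _
  have hNf : Algebra.norm (FN N₁) f ≠ 0 := Algebra.norm_ne_zero_iff.mpr hf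
  have h3 : ∀ v : Place Kbar (FN N₁), v.ord (Algebra.norm (FN N₁) f) = n * v.ord h := by
    intro v
    rw [← h1 v, h2, Finsupp.smul_apply, nsmul_eq_mul]
    congr 1
    exact hhdiv v
  -- the quotient is a constant
  have hhn : h ^ n ≠ 0 := pow_ne_zero _ hh
  have hy : ∀ v : Place Kbar (FN N₁), v.ord (Algebra.norm (FN N₁) f * (h ^ n)⁻¹) = 0 := by
    intro v
    rw [v.ord_mul hNf (inv_ne_zero hhn), v.ord_inv, h3 v, ← zpow_natCast, v.ord_zpow]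
    simp
  have := FibreCount.finiteDimensional N₁
  have := Char0.isSeparable_jBar N₁
  obtain ⟨c₀, hc₀⟩ := Fermat.Agent.Lib.FFPoles.mem_range_of_forall_ord_eq_zero (jBar N₁) hy
  have hc₀0 : c₀ ≠ 0 := by
    rintro rfl
    rw [map_zero] at hc₀
    exact mul_ne_zero hNf (inv_ne_zero hhn) hc₀.symm
  have hNf' : Algebra.norm (FN N₁) f = algebraMap Kbar (FN N₁) c₀ * h ^ n := by
    rw [hc₀, mul_assoc, inv_mul_cancel₀ hhn, mul_one]
  refine ⟨a ^ Module.finrank (FN N₁) (FN N₂) * c₀, mul_ne_zero (pow_ne_zero _ ha) hc₀0, ?_⟩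
  rw [map_mul, IsScalarTower.algebraMap_apply Kbar (FN N₁) (FN N₂), Algebra.norm_algebraMap, hNf',
    map_mul, map_pow, mul_assoc]

end Norm

/-! ### The main theorem -/

section Main

variable (A : ValuationSubring Kbar)

/-- `ratio_frob` for `s²`. -/
theorem ratio_frob_sq (s : A.decompositionSubgroup ℚ) (f : Om) (c : Kbar) (hc : c ≠ 0)
    (h : HahnSeries.C c * f ∈ Ocal A) (hred : red A ⟨_, h⟩ ≠ 0) :
    ∃ (hr : coeffMap ((s : Kbar ≃ₐ[ℚ] Kbar) : Kbar →+* Kbar)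
        (coeffMap ((s : Kbar ≃ₐ[ℚ] Kbar) : Kbar →+* Kbar) f) * f⁻¹ ∈ Ocal A) (c₁ : kk A),
      c₁ ≠ 0 ∧ red A ⟨_, hr⟩ =
        HahnSeries.C c₁ * (coeffMap (Fermat.Agent.S37.Gal.sigmaBar A s)
          (coeffMap (Fermat.Agent.S37.Gal.sigmaBar A s) (red A ⟨_, h⟩)) * (red A ⟨_, h⟩)⁻¹) := by
  obtain ⟨hr, c₁, hc₁, e⟩ := ratio_frob A (s * s) f c hc h hred
  have e1 : coeffMap (((s * s : A.decompositionSubgroup ℚ) : Kbar ≃ₐ[ℚ] Kbar) : Kbar →+* Kbar) f =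
      coeffMap ((s : Kbar ≃ₐ[ℚ] Kbar) : Kbar →+* Kbar)
        (coeffMap ((s : Kbar ≃ₐ[ℚ] Kbar) : Kbar →+* Kbar) f) := by
    rw [coeffMap_coeffMap]
    rfl
  have e2 : Fermat.Agent.S37.Gal.sigmaBar A (s * s) =
      (Fermat.Agent.S37.Gal.sigmaBar A s).comp (Fermat.Agent.S37.Gal.sigmaBar A s) :=
    RingHom.ext fun x => mul_smul s s x
  have hr' : coeffMap ((s : Kbar ≃ₐ[ℚ] Kbar) : Kbar →+* Kbar)
        (coeffMap ((s : Kbar ≃ₐ[ℚ] Kbar) : Kbar →+* Kbar) f) * f⁻¹ ∈ Ocal A := by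
    rw [← e1]; exact hr
  refine ⟨hr', c₁, hc₁, ?_⟩
  rw [red_congr A (by rw [e1]) hr' hr, e, e2, coeffMap_coeffMap]

theorem coe_algebraMap_mul (N : ℕ) (a : Kbar) (f : FN N) :
    ((algebraMap Kbar (FN N) a * f : FN N) : Om) = HahnSeries.C a * (f : Om) := by
  rw [← algebraMap_LS_eq_C]
  rfl


variable {A}

/-- Inverses in `O`, with their reductions. -/
theorem rho_inv {q N' M : ℕ} [NeZero N'] [NeZero q] {O : Subring Om} {ρ : O →+* Plan.R2 A}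
    (hS : Plan.Setup2 A (N' * q) q M (FPlan.dvd_level N' q) O ρ) (g : O)
    (a b : Omk A) (hg : ρ g = (a, b)) (ha : a ≠ 0) (hb : b ≠ 0) :
    ∃ hgi : ((g : Om))⁻¹ ∈ O, ρ ⟨_, hgi⟩ = (a⁻¹, b⁻¹) := by
  have h1 : (ρ g).1 ≠ 0 := by rw [hg]; exact ha
  have h2 : (ρ g).2 ≠ 0 := by rw [hg]; exact hb
  have hgi := hS.inv_mem g h1 h2
  refine ⟨hgi, ?_⟩
  have hg0 : (g : Om) ≠ 0 := by
    intro h0
    have h00 : g = 0 := Subtype.ext h0
    rw [h00, map_zero] at hg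
    exact ha (congrArg Prod.fst hg).symm
  have hmul : g * ⟨_, hgi⟩ = 1 := Subtype.ext (mul_inv_cancel₀ hg0)
  have h3 := congrArg ρ hmul
  rw [map_mul, map_one, hg] at h3
  have e1 : a * (ρ ⟨_, hgi⟩).1 = 1 := congrArg Prod.fst h3
  have e2 : b * (ρ ⟨_, hgi⟩).2 = 1 := congrArg Prod.snd h3
  exact Prod.ext (eq_inv_of_mul_eq_one_right e1) (eq_inv_of_mul_eq_one_right e2)

/-- The idempotent `e` with `ρ e = (1, 0)`. -/
theorem exists_idem {q N' M : ℕ} [NeZero N'] [NeZero q] (hq : 1 < q) {O : Subring Om}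
    {ρ : O →+* Plan.R2 A}
    (hS : Plan.Setup2 A (N' * q) q M (FPlan.dvd_level N' q) O ρ) :
    ∃ he : (jK - qExpand Kbar q jK ^ q) *
        ((jK - qExpand Kbar q jK ^ q) + (qExpand Kbar q jK - jK ^ q))⁻¹ ∈ O,
      ρ ⟨_, he⟩ = (1, 0) := by
  obtain ⟨hj, hρj⟩ := hS.ρ_j
  obtain ⟨hjq, hρjq⟩ := hS.ρ_jq
  have hd0 : jk A - (jk A ^ q) ^ q ≠ 0 := by
    intro h0
    have htr := Fermat.Agent.S28.Prime.transcendental_jqModC (k := kk A)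
    apply htr
    refine ⟨Polynomial.X - Polynomial.X ^ (q * q), ?_, ?_⟩
    · intro h1
      have h2 := congrArg (fun P : Polynomial (kk A) => P.coeff 1) h1
      have hq1 : 1 < q * q := by nlinarith
      simp only [Polynomial.coeff_sub, Polynomial.coeff_X_one, Polynomial.coeff_X_pow,
        Polynomial.coeff_zero] at h2
      rw [if_neg (by omega)] at h2
      simp at h2
    · simp only [map_sub, Polynomial.aeval_X, map_pow]
      rw [pow_mul]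
      exact h0
  have hZ : ρ ((⟨_, hj⟩ : O) - ⟨_, hjq⟩ ^ q) = (jk A - (jk A ^ q) ^ q, 0) := by
    rw [map_sub, map_pow, hρj, hρjq]
    exact Prod.ext rfl (sub_self _)
  have hX : ρ ((⟨_, hjq⟩ : O) - ⟨_, hj⟩ ^ q) = (0, jk A - (jk A ^ q) ^ q) := by
    rw [map_sub, map_pow, hρj, hρjq]
    exact Prod.ext (sub_self _) rfl
  have hSum : ρ (((⟨_, hj⟩ : O) - ⟨_, hjq⟩ ^ q) + ((⟨_, hjq⟩ : O) - ⟨_, hj⟩ ^ q)) =
      (jk A - (jk A ^ q) ^ q, jk A - (jk A ^ q) ^ q) := by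
    rw [map_add, hZ, hX]
    exact Prod.ext (add_zero _) (zero_add _)
  obtain ⟨hinv, hρinv⟩ := rho_inv hS _ _ _ hSum hd0 hd0
  have he : (jK - qExpand Kbar q jK ^ q) *
        ((jK - qExpand Kbar q jK ^ q) + (qExpand Kbar q jK - jK ^ q))⁻¹ ∈ O :=
    O.mul_mem ((⟨_, hj⟩ : O) - ⟨_, hjq⟩ ^ q).2 hinv
  refine ⟨he, ?_⟩
  have e : (⟨_, he⟩ : O) = ((⟨_, hj⟩ : O) - ⟨_, hjq⟩ ^ q) * ⟨_, hinv⟩ := rfl
  rw [e, map_mul, hZ, hρinv]
  exact Prod.ext (mul_inv_cancel₀ hd0) (zero_mul _)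

theorem coe_jBarLevel' (N : ℕ) [NeZero N] (q : ℕ) [NeZero q] (hqN : q ∣ N) :
    ((jBarLevel N q hqN : FN N) : Om) = qExpand Kbar q jK := by
  show coeffEmb Kbar (qExpand ℚ q jq) = qExpand Kbar q (jqModC Kbar)
  rw [coeffEmb, coeffMap_qExpand, ← jqModC_rat, coeffMap_jqModC]

theorem coeffMap_C' {R S : Type*} [CommRing R] [CommRing S] (τ : R →+* S) (x : R) :
    coeffMap τ (HahnSeries.C x : LaurentSeries R) = HahnSeries.C (τ x) := by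
  rw [HahnSeries.C_apply, coeffMap_single]
  rfl

set_option maxHeartbeats 1600000 in
/-- **[NEW-K0]**, from the swap structure of `(O, ρ)` on `F_{N' q}` and the scaling property. -/
theorem newK0_of {q N' M : ℕ} [NeZero N'] [NeZero q] (hq : q.Prime) (hqN' : ¬ q ∣ N')
    (hA : A.LiesOverPrime q)
    (hscale : ∀ y : Om, y ∈ modularFunctionFieldBar (N' * q) → y ≠ 0 →
      ∃ c : Kbar, c ≠ 0 ∧ ∃ h : HahnSeries.C c * y ∈ Ocal A, red A ⟨_, h⟩ ≠ 0)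
    {O : Subring Om} {ρ : O →+* Plan.R2 A}
    (hS : Plan.Setup2 A (N' * q) q M (FPlan.dvd_level N' q) O ρ)
    (hW : FPlan.SwapN A N' q O ρ) : FPlan.NewK0 A N' q O ρ := by
  obtain ⟨w, hwα, hwβ, hww, hwσ, hO, hρ⟩ := hW
  intro σ hσ D₀ n hdeg hn0 hprin hα hβ
  obtain ⟨f, hf0, hfdiv⟩ := hprin
  obtain ⟨ha, ha0, hadiv⟩ := hα
  obtain ⟨hb, hb0, hbdiv⟩ := hβ
  obtain ⟨hσd, hσq⟩ := hσ
  set s : A.decompositionSubgroup ℚ := ⟨σ, hσd⟩ with hs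
  set τ : kk A →+* kk A := Fermat.Agent.S37.Gal.sigmaBar A s with hτdef
  have hτ : ∀ x, τ x = x ^ q := fun x => hσq x
  have hτinj : Function.Injective (coeffMap τ) :=
    Fermat.Agent.S37.Gal.coeffMap_injective_of_injective τ τ.injective
  have hΨinj : Function.Injective (qExpand (kk A) q) := qExpand_injective q
  have coeα : ∀ x : FN N', ((heckeAlphaBar Kbar N' q x : FN (N' * q)) : Om) = (x : Om) :=
    fun x => coe_heckeAlphaBar N' q x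
  have coeβ : ∀ x : FN N',
      ((heckeBetaBar Kbar N' q x : FN (N' * q)) : Om) = qExpand Kbar q (x : Om) :=
    fun x => coe_heckeBetaBar N' q x
  have memα : ∀ x : FN N', (x : Om) ∈ modularFunctionFieldBar (N' * q) := fun x => by
    rw [← coeα x]; exact (heckeAlphaBar Kbar N' q x).2
  have hwf0 : w f ≠ 0 := fun h => hf0 (by simpa using h)
  -- scalings
  obtain ⟨a₁, ha₁, h₁, hF₁⟩ := hscale (f : Om) f.2 (fun h => hf0 (Subtype.ext h))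
  obtain ⟨a₂, ha₂, h₂, hF₂⟩ :=
    hscale ((w f : FN (N' * q)) : Om) (w f).2 (fun h => hwf0 (Subtype.ext h))
  obtain ⟨bα, hbα, hXα, hHα⟩ := hscale (ha : Om) (memα ha) (fun h => ha0 (Subtype.ext h))
  obtain ⟨bβ, hbβ, hXβ, hHβ⟩ := hscale (hb : Om) (memα hb) (fun h => hb0 (Subtype.ext h))
  -- (R1) `F₁ · Φ F₂ = ε Hα^n`
  have R1 : ∃ ε : kk A, ε ≠ 0 ∧
      red A ⟨_, h₁⟩ * coeffMap τ (red A ⟨_, h₂⟩) = HahnSeries.C ε * red A ⟨_, hXα⟩ ^ n := by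
    obtain ⟨c', hc', hnorm⟩ := norm_smul_eq_const_mul_pow (heckeAlphaBar Kbar N' q)
      (Fermat.Agent.S37.HeckeInputs.heckeAlphaBarIntegral N' q)
      (Fermat.Agent.S37.HeckeInputs.finiteAlong_alpha N' q)
      (Fermat.Agent.S37.HeckeInputs.normFormulaAlong_alpha N' q) D₀ n f hf0 hfdiv ha ha0 hadiv
      a₂ ha₂
    have hwy_eq : ((w (algebraMap Kbar (FN (N' * q)) a₂ * f) : FN (N' * q)) : Om) =
        HahnSeries.C a₂ * ((w f : FN (N' * q)) : Om) := by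
      rw [map_mul, AlgEquiv.commutes, coe_algebraMap_mul]
    have hwy : ((w (algebraMap Kbar (FN (N' * q)) a₂ * f) : FN (N' * q)) : Om) ∈ Ocal A := by
      rw [hwy_eq]; exact h₂
    have hc_eq : HahnSeries.C (a₁ / a₂) *
        ((algebraMap Kbar (FN (N' * q)) a₂ * f : FN (N' * q)) : Om) =
          HahnSeries.C a₁ * (f : Om) := by
      rw [coe_algebraMap_mul, ← mul_assoc, ← map_mul, div_mul_cancel₀ a₁ ha₂]
    have hc : HahnSeries.C (a₁ / a₂) *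
        ((algebraMap Kbar (FN (N' * q)) a₂ * f : FN (N' * q)) : Om) ∈ Ocal A := by
      rw [hc_eq]; exact h₁
    obtain ⟨hn, hred⟩ := Fermat.Agent.S35.NormTwo.red_norm_alpha N' q A hq hqN' hA
      (w : FN (N' * q) ≃+* FN (N' * q)) (fun x => hwα x) (fun x => hwβ x) (fun z => hww z)
      τ hτ (algebraMap Kbar (FN (N' * q)) a₂ * f) hwy (a₁ / a₂) hc
    have e1 : red A ⟨_, hc⟩ = red A ⟨_, h₁⟩ := red_congr A hc_eq hc h₁
    have e2 : red A ⟨_, hwy⟩ = red A ⟨_, h₂⟩ := red_congr A hwy_eq hwy h₂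
    have hred' : red A ⟨_, hn⟩ = red A ⟨_, h₁⟩ * coeffMap τ (red A ⟨_, h₂⟩) := by
      rw [← e1, ← e2]; exact hred
    have hYr : red A ⟨_, hn⟩ ≠ 0 := by
      rw [hred']
      exact mul_ne_zero hF₁ (fun h0 => hF₂ (hτinj (by rw [h0, map_zero])))
    have hYX : HahnSeries.C (a₁ / a₂) * ((@Algebra.norm (FN N') (FN (N' * q)) _ _
        (algebraAlong (heckeAlphaBar Kbar N' q)) (algebraMap Kbar (FN (N' * q)) a₂ * f) : FN N') : Om)
          = HahnSeries.C (a₁ / a₂ * c') * (ha : Om) ^ n := by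
      rw [hnorm, coe_algebraMap_mul, map_mul, mul_assoc, SubmonoidClass.coe_pow]
    obtain ⟨ε, hε, hr⟩ := red_eq_const_mul_pow A (ha : Om) bα hbα hXα hHα n (a₁ / a₂ * c') _ hn
      hYr hYX
    exact ⟨ε, hε, by rw [← hred', hr]⟩
  -- (R2) `F₂ · Φ F₁ = ε' Hβ^n`
  have R2 : ∃ ε : kk A, ε ≠ 0 ∧
      red A ⟨_, h₂⟩ * coeffMap τ (red A ⟨_, h₁⟩) = HahnSeries.C ε * red A ⟨_, hXβ⟩ ^ n := by
    obtain ⟨c', hc', hnorm⟩ := norm_smul_eq_const_mul_pow (heckeBetaBar Kbar N' q)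
      (Fermat.Agent.S37.HeckeInputs.heckeBetaBarIntegral N' q)
      (Fermat.Agent.S37.HeckeInputs.finiteAlong_beta N' q)
      (Fermat.Agent.S37.HeckeInputs.normFormulaAlong_beta N' q) D₀ n f hf0 hfdiv hb hb0 hbdiv
      a₁ ha₁
    have hy_eq : ((algebraMap Kbar (FN (N' * q)) a₁ * f : FN (N' * q)) : Om) =
        HahnSeries.C a₁ * (f : Om) := coe_algebraMap_mul _ a₁ f
    have hyO : ((algebraMap Kbar (FN (N' * q)) a₁ * f : FN (N' * q)) : Om) ∈ Ocal A := by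
      rw [hy_eq]; exact h₁
    have hc_eq : HahnSeries.C (a₂ / a₁) *
        ((w (algebraMap Kbar (FN (N' * q)) a₁ * f) : FN (N' * q)) : Om) =
          HahnSeries.C a₂ * ((w f : FN (N' * q)) : Om) := by
      rw [map_mul, AlgEquiv.commutes, coe_algebraMap_mul, ← mul_assoc, ← map_mul,
        div_mul_cancel₀ a₂ ha₁]
    have hc : HahnSeries.C (a₂ / a₁) *
        ((w (algebraMap Kbar (FN (N' * q)) a₁ * f) : FN (N' * q)) : Om) ∈ Ocal A := by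
      rw [hc_eq]; exact h₂
    obtain ⟨hn, hred⟩ := Fermat.Agent.S35.NormTwo.red_norm_beta N' q A hq hqN' hA
      (w : FN (N' * q) →+* FN (N' * q)) (fun x => hwα x) (fun x => hwβ x)
      τ hτ (algebraMap Kbar (FN (N' * q)) a₁ * f) hyO (a₂ / a₁) hc
    have e1 : red A ⟨_, hc⟩ = red A ⟨_, h₂⟩ := red_congr A hc_eq hc h₂
    have e2 : red A ⟨_, hyO⟩ = red A ⟨_, h₁⟩ := red_congr A hy_eq hyO h₁
    have hred' : red A ⟨_, hn⟩ = red A ⟨_, h₂⟩ * coeffMap τ (red A ⟨_, h₁⟩) := by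
      rw [← e1, ← e2]; exact hred
    have hYr : red A ⟨_, hn⟩ ≠ 0 := by
      rw [hred']
      exact mul_ne_zero hF₂ (fun h0 => hF₁ (hτinj (by rw [h0, map_zero])))
    have hYX : HahnSeries.C (a₂ / a₁) * ((@Algebra.norm (FN N') (FN (N' * q)) _ _
        (algebraAlong (heckeBetaBar Kbar N' q)) (algebraMap Kbar (FN (N' * q)) a₁ * f) : FN N') : Om)
          = HahnSeries.C (a₂ / a₁ * c') * (hb : Om) ^ n := by
      rw [hnorm, coe_algebraMap_mul, map_mul, mul_assoc, SubmonoidClass.coe_pow]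
    obtain ⟨ε, hε, hr⟩ := red_eq_const_mul_pow A (hb : Om) bβ hbβ hXβ hHβ n (a₂ / a₁ * c') _ hn
      hYr hYX
    exact ⟨ε, hε, by rw [← hred', hr]⟩
  obtain ⟨εα, hεα, R1⟩ := R1
  obtain ⟨εβ, hεβ, R2⟩ := R2
  -- the Frobenius ratio `u₀ = σ² f / f`
  have coeg : ∀ x : FN (N' * q),
      ((Fermat.Agent.S37.Gal.gK A (N' * q) s • x : FN (N' * q)) : Om) =
        coeffMap ((s : Kbar ≃ₐ[ℚ] Kbar) : Kbar →+* Kbar) (x : Om) := fun _ => rfl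
  obtain ⟨hr₁, e₁, he₁, hred₁⟩ := ratio_frob_sq A s (f : Om) a₁ ha₁ h₁ hF₁
  obtain ⟨hr₂, e₂, he₂, hred₂⟩ := ratio_frob_sq A s ((w f : FN (N' * q)) : Om) a₂ ha₂ h₂ hF₂
  have hu₀coe : (((Fermat.Agent.S37.Gal.gK A (N' * q) s •
      Fermat.Agent.S37.Gal.gK A (N' * q) s • f) * f⁻¹ : FN (N' * q)) : Om) =
      coeffMap ((s : Kbar ≃ₐ[ℚ] Kbar) : Kbar →+* Kbar)
        (coeffMap ((s : Kbar ≃ₐ[ℚ] Kbar) : Kbar →+* Kbar) (f : Om)) * (f : Om)⁻¹ := by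
    push_cast
    rw [coeg, coeg]
  have hwu₀coe : ((w ((Fermat.Agent.S37.Gal.gK A (N' * q) s •
      Fermat.Agent.S37.Gal.gK A (N' * q) s • f) * f⁻¹) : FN (N' * q)) : Om) =
      coeffMap ((s : Kbar ≃ₐ[ℚ] Kbar) : Kbar →+* Kbar)
        (coeffMap ((s : Kbar ≃ₐ[ℚ] Kbar) : Kbar →+* Kbar) ((w f : FN (N' * q)) : Om)) *
          ((w f : FN (N' * q)) : Om)⁻¹ := by
    rw [map_mul, map_inv₀, hwσ, hwσ]
    push_cast
    rw [coeg, coeg]
  have hu₀1 := hr₁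
  rw [← hu₀coe] at hu₀1
  have hu₀2 := hr₂
  rw [← hwu₀coe] at hu₀2
  have hu₀O := (hO _).mpr ⟨hu₀1, hu₀2⟩
  have hρu₀ : ρ ⟨_, hu₀O⟩ =
      (HahnSeries.C e₁ * (coeffMap τ (coeffMap τ (red A ⟨_, h₁⟩)) * (red A ⟨_, h₁⟩)⁻¹),
        HahnSeries.C e₂ * (coeffMap τ (coeffMap τ (red A ⟨_, h₂⟩)) * (red A ⟨_, h₂⟩)⁻¹)) := by
    rw [hρ _ hu₀O hu₀1 hu₀2, red_congr A hu₀coe hu₀1 hr₁, red_congr A hwu₀coe hu₀2 hr₂, hred₁,
      hred₂]
  -- generic: an element of `F_{N' q}` in `Ocal` with its swap: in `O`, with `ρ`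
  have mem_rho : ∀ (y : FN (N' * q)) (h1 : (y : Om) ∈ Ocal A)
      (h2 : ((w y : FN (N' * q)) : Om) ∈ Ocal A),
      ∃ hy : (y : Om) ∈ O, ρ ⟨_, hy⟩ = (red A ⟨_, h1⟩, red A ⟨_, h2⟩) :=
    fun y h1 h2 => ⟨(hO y).mpr ⟨h1, h2⟩, hρ y _ h1 h2⟩
  -- generic: Frobenius of such an element
  have frob_rho : ∀ (y : FN (N' * q)) (h1 : (y : Om) ∈ Ocal A)
      (h2 : ((w y : FN (N' * q)) : Om) ∈ Ocal A),
      ∃ hy : ((Fermat.Agent.S37.Gal.gK A (N' * q) s • y : FN (N' * q)) : Om) ∈ O,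
        ρ ⟨_, hy⟩ = (coeffMap τ (red A ⟨_, h1⟩), coeffMap τ (red A ⟨_, h2⟩)) := by
    intro y h1 h2
    have g1 : ((Fermat.Agent.S37.Gal.gK A (N' * q) s • y : FN (N' * q)) : Om) ∈ Ocal A :=
      Fermat.Agent.S37.Gal.coeffMap_mem_Ocal A s h1
    have g2 : ((w (Fermat.Agent.S37.Gal.gK A (N' * q) s • y) : FN (N' * q)) : Om) ∈ Ocal A := by
      rw [hwσ]
      exact Fermat.Agent.S37.Gal.coeffMap_mem_Ocal A s h2
    obtain ⟨hy, hρy⟩ := mem_rho _ g1 g2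
    refine ⟨hy, ?_⟩
    rw [hρy]
    refine Prod.ext ?_ ?_
    · exact Fermat.Agent.S37.Gal.red_coeffMap A s (y : Om) h1
    · show red A ⟨_, g2⟩ = coeffMap τ (red A ⟨_, h2⟩)
      have c : ((w (Fermat.Agent.S37.Gal.gK A (N' * q) s • y) : FN (N' * q)) : Om) =
          ((Fermat.Agent.S37.Gal.gK A (N' * q) s • w y : FN (N' * q)) : Om) := by rw [hwσ]
      rw [red_congr A c g2 (Fermat.Agent.S37.Gal.coeffMap_mem_Ocal A s h2)]
      exact Fermat.Agent.S37.Gal.red_coeffMap A s ((w y : FN (N' * q)) : Om) h2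
  -- the scaled `α h_α`, `α h_β` and their swaps
  have scaled : ∀ (x : FN N') (b : Kbar) (hx : HahnSeries.C b * (x : Om) ∈ Ocal A),
      ∃ (h1 : ((algebraMap Kbar (FN (N' * q)) b * heckeAlphaBar Kbar N' q x : FN (N' * q)) : Om)
            ∈ Ocal A)
        (h2 : ((w (algebraMap Kbar (FN (N' * q)) b * heckeAlphaBar Kbar N' q x) :
            FN (N' * q)) : Om) ∈ Ocal A),
        red A ⟨_, h1⟩ = red A ⟨_, hx⟩ ∧ red A ⟨_, h2⟩ = qExpand (kk A) q (red A ⟨_, hx⟩) := by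
    intro x b hx
    have c1 : ((algebraMap Kbar (FN (N' * q)) b * heckeAlphaBar Kbar N' q x : FN (N' * q)) : Om)
        = HahnSeries.C b * (x : Om) := by rw [coe_algebraMap_mul, coeα]
    have c2 : ((w (algebraMap Kbar (FN (N' * q)) b * heckeAlphaBar Kbar N' q x) :
        FN (N' * q)) : Om) = qExpand Kbar q (HahnSeries.C b * (x : Om)) := by
      rw [map_mul, AlgEquiv.commutes, hwα, coe_algebraMap_mul, coeβ, map_mul, qExpand_C]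
    have h1 : ((algebraMap Kbar (FN (N' * q)) b * heckeAlphaBar Kbar N' q x : FN (N' * q)) : Om)
        ∈ Ocal A := by rw [c1]; exact hx
    have h2 : ((w (algebraMap Kbar (FN (N' * q)) b * heckeAlphaBar Kbar N' q x) :
        FN (N' * q)) : Om) ∈ Ocal A := by rw [c2]; exact qExpand_mem_Ocal A q hx
    refine ⟨h1, h2, red_congr A c1 h1 hx, ?_⟩
    rw [red_congr A c2 h2 (qExpand_mem_Ocal A q hx)]
    exact red_qExpand A q ⟨_, hx⟩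
  obtain ⟨hA1, hA2, hAr1, hAr2⟩ := scaled ha bα hXα
  obtain ⟨hB1, hB2, hBr1, hBr2⟩ := scaled hb bβ hXβ
  -- swaps of the swaps
  have hA3 : ((w (w (algebraMap Kbar (FN (N' * q)) bα * heckeAlphaBar Kbar N' q ha)) :
      FN (N' * q)) : Om) ∈ Ocal A := by rw [hww]; exact hA1
  have hA3r : red A ⟨_, hA3⟩ = red A ⟨_, hXα⟩ := by
    rw [← hAr1]
    exact red_congr A (by rw [hww]) hA3 hA1
  have hB3 : ((w (w (algebraMap Kbar (FN (N' * q)) bβ * heckeAlphaBar Kbar N' q hb)) :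
      FN (N' * q)) : Om) ∈ Ocal A := by rw [hww]; exact hB1
  have hB3r : red A ⟨_, hB3⟩ = red A ⟨_, hXβ⟩ := by
    rw [← hBr1]
    exact red_congr A (by rw [hww]) hB3 hB1
  -- the four elements of `O`
  obtain ⟨hYA, hρYA⟩ := mem_rho _ hA1 hA2
  rw [hAr1, hAr2] at hρYA
  obtain ⟨hZB, hρZB⟩ := mem_rho _ hB2 hB3
  rw [hBr2, hB3r] at hρZB
  obtain ⟨hT₁, hρT₁⟩ := frob_rho _ hB1 hB2
  rw [hBr1, hBr2] at hρT₁
  obtain ⟨hT₂, hρT₂⟩ := frob_rho _ hA2 hA3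
  rw [hAr2, hA3r] at hρT₂
  -- names for the reductions
  generalize red A ⟨_, h₁⟩ = F₁ at R1 R2 hρu₀ hF₁
  generalize red A ⟨_, h₂⟩ = F₂ at R1 R2 hρu₀ hF₂
  generalize red A ⟨_, hXα⟩ = Hα at R1 hρYA hρT₂ hHα
  generalize red A ⟨_, hXβ⟩ = Hβ at R2 hρZB hρT₁ hHβ
  have hΨα : qExpand (kk A) q Hα ≠ 0 := fun h0 => hHα (hΨinj (by rw [h0, map_zero]))
  have hΨβ : qExpand (kk A) q Hβ ≠ 0 := fun h0 => hHβ (hΨinj (by rw [h0, map_zero]))
  have hΦα : coeffMap τ Hα ≠ 0 := fun h0 => hHα (hτinj (by rw [h0, map_zero]))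
  have hΦβ : coeffMap τ Hβ ≠ 0 := fun h0 => hHβ (hτinj (by rw [h0, map_zero]))
  obtain ⟨hYAi, hρYAi⟩ := rho_inv hS ⟨_, hYA⟩ _ _ hρYA hHα hΨα
  obtain ⟨hZBi, hρZBi⟩ := rho_inv hS ⟨_, hZB⟩ _ _ hρZB hΨβ hHβ
  obtain ⟨he, hρe⟩ := exists_idem hq.one_lt hS
  -- the corrector
  have hρGG : ρ ((⟨_, he⟩ : O) * (⟨_, hT₁⟩ * ⟨_, hYAi⟩) +
      (1 - ⟨_, he⟩) * (⟨_, hT₂⟩ * ⟨_, hZBi⟩)) =
        (coeffMap τ Hβ * Hα⁻¹, coeffMap τ Hα * Hβ⁻¹) := by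
    rw [map_add, map_mul, map_mul, map_mul, map_mul, map_sub, map_one, hρe, hρT₁, hρYAi, hρT₂,
      hρZBi]
    refine Prod.ext ?_ ?_
    · show 1 * (coeffMap τ Hβ * Hα⁻¹) + (1 - 1) * (_ * _) = _
      ring
    · show 0 * (_ * _) + (1 - 0) * (coeffMap τ Hα * Hβ⁻¹) = _
      ring
  have hG1 : coeffMap τ Hβ * Hα⁻¹ ≠ 0 := mul_ne_zero hΦβ (inv_ne_zero hHα)
  have hG2 : coeffMap τ Hα * Hβ⁻¹ ≠ 0 := mul_ne_zero hΦα (inv_ne_zero hHβ)
  obtain ⟨hGi, hρGi⟩ := rho_inv hS _ _ _ hρGG hG1 hG2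
  -- the corrector as an element of `F_{N' q}`
  obtain ⟨GN, hGNcoe⟩ : ∃ GN : FN (N' * q), (GN : Om) =
      (((⟨_, he⟩ : O) * (⟨_, hT₁⟩ * ⟨_, hYAi⟩) + (1 - ⟨_, he⟩) * (⟨_, hT₂⟩ * ⟨_, hZBi⟩) : O) :
        Om) := by
    refine ⟨((jBar (N' * q) - jBarLevel (N' * q) q (FPlan.dvd_level N' q) ^ q) *
        ((jBar (N' * q) - jBarLevel (N' * q) q (FPlan.dvd_level N' q) ^ q) +
          (jBarLevel (N' * q) q (FPlan.dvd_level N' q) - jBar (N' * q) ^ q))⁻¹) *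
      ((Fermat.Agent.S37.Gal.gK A (N' * q) s •
          (algebraMap Kbar (FN (N' * q)) bβ * heckeAlphaBar Kbar N' q hb)) *
        (algebraMap Kbar (FN (N' * q)) bα * heckeAlphaBar Kbar N' q ha)⁻¹) +
      (1 - (jBar (N' * q) - jBarLevel (N' * q) q (FPlan.dvd_level N' q) ^ q) *
        ((jBar (N' * q) - jBarLevel (N' * q) q (FPlan.dvd_level N' q) ^ q) +
          (jBarLevel (N' * q) q (FPlan.dvd_level N' q) - jBar (N' * q) ^ q))⁻¹) *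
      ((Fermat.Agent.S37.Gal.gK A (N' * q) s •
          w (algebraMap Kbar (FN (N' * q)) bα * heckeAlphaBar Kbar N' q ha)) *
        (w (algebraMap Kbar (FN (N' * q)) bβ * heckeAlphaBar Kbar N' q hb))⁻¹), ?_⟩
    push_cast
    rw [Main.coe_jBar, coe_jBarLevel']
  have hGN0 : GN ≠ 0 := by
    intro h0
    have h00 : ((⟨_, he⟩ : O) * (⟨_, hT₁⟩ * ⟨_, hYAi⟩) +
        (1 - ⟨_, he⟩) * (⟨_, hT₂⟩ * ⟨_, hZBi⟩) : O) = 0 :=
      Subtype.ext (by rw [← hGNcoe, h0]; rfl)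
    rw [h00, map_zero] at hρGG
    exact hG1 (congrArg Prod.fst hρGG).symm
  obtain ⟨DG, hDG, hDGdeg⟩ := Char0.exists_divisor (N' * q) GN hGN0
  -- `u = u₀ G⁻ⁿ`
  have hgf0 : Fermat.Agent.S37.Gal.gK A (N' * q) s • Fermat.Agent.S37.Gal.gK A (N' * q) s • f ≠ 0 := by
    simpa using hf0
  have hu₀0 : (Fermat.Agent.S37.Gal.gK A (N' * q) s • Fermat.Agent.S37.Gal.gK A (N' * q) s • f) *
      f⁻¹ ≠ 0 := mul_ne_zero hgf0 (inv_ne_zero hf0)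
  have hucoe : ((((Fermat.Agent.S37.Gal.gK A (N' * q) s •
      Fermat.Agent.S37.Gal.gK A (N' * q) s • f) * f⁻¹) * GN⁻¹ ^ n : FN (N' * q)) : Om) =
      ((⟨_, hu₀O⟩ * ⟨_, hGi⟩ ^ n : O) : Om) := by
    push_cast
    rw [hGNcoe]
    rfl
  have hu : ((((Fermat.Agent.S37.Gal.gK A (N' * q) s •
      Fermat.Agent.S37.Gal.gK A (N' * q) s • f) * f⁻¹) * GN⁻¹ ^ n : FN (N' * q)) : Om) ∈ O := by
    rw [hucoe]; exact SetLike.coe_mem _
  have hρu : ρ ⟨_, hu⟩ = ρ (⟨_, hu₀O⟩ * ⟨_, hGi⟩ ^ n) := congrArg ρ (Subtype.ext hucoe)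
  rw [map_mul, map_pow, hρu₀, hρGi] at hρu
  have R1' : coeffMap τ F₁ * coeffMap τ (coeffMap τ F₂) =
      coeffMap τ (HahnSeries.C εα) * coeffMap τ Hα ^ n := by
    rw [← map_mul, R1, map_mul, map_pow]
  have R2' : coeffMap τ F₂ * coeffMap τ (coeffMap τ F₁) =
      coeffMap τ (HahnSeries.C εβ) * coeffMap τ Hβ ^ n := by
    rw [← map_mul, R2, map_mul, map_pow]
  have hCεα : (HahnSeries.C εα : Omk A) ≠ 0 := by
    rw [Ne, map_eq_zero]; exact hεα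
  have hCεβ : (HahnSeries.C εβ : Omk A) ≠ 0 := by
    rw [Ne, map_eq_zero]; exact hεβ
  have hτεα : τ εα ≠ 0 := by rw [Ne, map_eq_zero]; exact hεα
  have hτεβ : τ εβ ≠ 0 := by rw [Ne, map_eq_zero]; exact hεβ
  refine ⟨FPlan.newDiv N' q σ D₀ - DG, ((Fermat.Agent.S37.Gal.gK A (N' * q) s •
      Fermat.Agent.S37.Gal.gK A (N' * q) s • f) * f⁻¹) * GN⁻¹ ^ n, ?_, ?_, ?_, ?_, hu,
      e₁ * τ εβ * εα⁻¹, e₂ * τ εα * εβ⁻¹,
      mul_ne_zero (mul_ne_zero he₁ hτεβ) (inv_ne_zero hεα),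
      mul_ne_zero (mul_ne_zero he₂ hτεα) (inv_ne_zero hεβ), ?_⟩
  · rw [map_sub, FPlan.degree_newDiv σ D₀ hdeg, hDGdeg, sub_zero]
  · rw [sub_sub_cancel_left]
    exact ⟨GN⁻¹, inv_ne_zero hGN0, fun v => by rw [Finsupp.neg_apply, hDG, Place.ord_inv]⟩
  · exact mul_ne_zero hu₀0 (pow_ne_zero _ (inv_ne_zero hGN0))
  · intro P
    rw [P.ord_mul hu₀0 (pow_ne_zero _ (inv_ne_zero hGN0)), ← zpow_natCast, P.ord_zpow, P.ord_inv,
      ← hDG P, P.ord_mul hgf0 (inv_ne_zero hf0), P.ord_inv]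
    have h1 : P.ord (Fermat.Agent.S37.Gal.gK A (N' * q) s •
        Fermat.Agent.S37.Gal.gK A (N' * q) s • f) =
        ((Fermat.Agent.S37.Gal.gK A (N' * q) s)⁻¹ •
          (Fermat.Agent.S37.Gal.gK A (N' * q) s)⁻¹ • P).ord f := by
      have a1 := SemilinearAut.ord_smul (Fermat.Agent.S37.Gal.gK A (N' * q) s)
        ((Fermat.Agent.S37.Gal.gK A (N' * q) s)⁻¹ • P)
        (Fermat.Agent.S37.Gal.gK A (N' * q) s • f)
      rw [smul_inv_smul] at a1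
      have a2 := SemilinearAut.ord_smul (Fermat.Agent.S37.Gal.gK A (N' * q) s)
        ((Fermat.Agent.S37.Gal.gK A (N' * q) s)⁻¹ •
          (Fermat.Agent.S37.Gal.gK A (N' * q) s)⁻¹ • P) f
      rw [smul_inv_smul] at a2
      rw [a1, a2]
    have h2 : FPlan.newDiv N' q σ D₀ P =
        D₀ ((Fermat.Agent.S37.Gal.gK A (N' * q) s)⁻¹ •
          (Fermat.Agent.S37.Gal.gK A (N' * q) s)⁻¹ • P) - D₀ P := by
      unfold FPlan.newDiv
      rw [Finsupp.sub_apply, SemilinearAut.divisor_smul_apply, SemilinearAut.divisor_smul_apply]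
    have h3 := hfdiv ((Fermat.Agent.S37.Gal.gK A (N' * q) s)⁻¹ •
          (Fermat.Agent.S37.Gal.gK A (N' * q) s)⁻¹ • P)
    have h4 := hfdiv P
    rw [Finsupp.smul_apply, nsmul_eq_mul] at h3 h4
    rw [h1, Finsupp.sub_apply, h2, ← h3, ← h4]
    ring
  · rw [hρu]
    refine Prod.ext ?_ ?_
    · show HahnSeries.C e₁ * (coeffMap τ (coeffMap τ F₁) * F₁⁻¹) *
          ((coeffMap τ Hβ * Hα⁻¹)⁻¹) ^ n = HahnSeries.C (e₁ * τ εβ * εα⁻¹)
      rw [map_mul, map_mul, map_inv₀, ← coeffMap_C' τ εβ]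
      exact field_key (coeffMap τ (coeffMap τ F₁)) F₁ (coeffMap τ F₂) (HahnSeries.C εα)
        (coeffMap τ (HahnSeries.C εβ)) Hα (coeffMap τ Hβ) (HahnSeries.C e₁) n hF₁ hCεα hHα hΦβ
        R1 R2'
    · show HahnSeries.C e₂ * (coeffMap τ (coeffMap τ F₂) * F₂⁻¹) *
          ((coeffMap τ Hα * Hβ⁻¹)⁻¹) ^ n = HahnSeries.C (e₂ * τ εα * εβ⁻¹)
      rw [map_mul, map_mul, map_inv₀, ← coeffMap_C' τ εα]
      exact field_key (coeffMap τ (coeffMap τ F₂)) F₂ (coeffMap τ F₁) (HahnSeries.C εβ)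
        (coeffMap τ (HahnSeries.C εα)) Hβ (coeffMap τ Hα) (HahnSeries.C e₂) n hF₂ hCεβ hHβ hΦα
        R2 R1'

/-- `newK0_of` with the scaling property at the top level `M * q`. -/
theorem newK0_of_top {q N' M : ℕ} [NeZero N'] [NeZero q] (hq : q.Prime) (hqN' : ¬ q ∣ N')
    (hA : A.LiesOverPrime q)
    (hle : modularFunctionFieldBar (N' * q) ≤ modularFunctionFieldBar (M * q))
    (hscale : ∀ y : Om, y ∈ modularFunctionFieldBar (M * q) → y ≠ 0 →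
      ∃ c : Kbar, c ≠ 0 ∧ ∃ h : HahnSeries.C c * y ∈ Ocal A, red A ⟨_, h⟩ ≠ 0)
    {O : Subring Om} {ρ : O →+* Plan.R2 A}
    (hS : Plan.Setup2 A (N' * q) q M (FPlan.dvd_level N' q) O ρ)
    (hW : FPlan.SwapN A N' q O ρ) : FPlan.NewK0 A N' q O ρ :=
  newK0_of hq hqN' hA (fun y hy => hscale y (hle hy)) hS hW

end Main

end Fermat.Agent.S35.NewK0

end
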