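import Mathlib
import Fermat.Agent.S29
import Fermat.Agent.S30
import Fermat.Agent.P5.CoreTFinal
import Fermat.Agent.Lib.WeakCheb.Final
import Fermat.Agent.S34.ValAsm
import Fermat.Agent.S35.Plan
import Fermat.Agent.S35.FDivInst
import Fermat.Agent.S35.NewK0
import Fermat.Agent.S35.DegenInst
import Fermat.Agent.S35.TraceTop
import Fermat.Agent.S35.Asm

/-!
# S35 — final assembly (helper3, S35 owner)

* `newK0`       : the block `[NEW-K0]` (`NewK0.newK0_of_top`, helper16) at the levels of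
  `S34/Plan`, for every two-component reduction with `Setup2` and `SwapN`;
* `newFrobStmt` : **(F)** on `J₀(N' q)`, the junction contract `Plan.NewFrobStmt`, unconditional
  (`FDivInst.newFrobStmt_of_newK0`, helper36, over `FTop.newFrobStmt`, helper33);
* `result_trace` : the frozen conclusion of S35 by the trace route (`TraceTop.result_of_plan` and
  `Asm.hplan_of`, helper79) from (F), `[DEGEN]` (`DegenInst.degenStmt`, helper21), `S29.result`,
  `S30.result`, `CoreT.coreAll` and weak Chebotarev.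
-/

set_option autoImplicit false

open Polynomial CuspForm ModularCurve AlgebraicCurve

namespace Fermat.Agent.S35.Final

open Fermat.Agent.S24 Fermat.Agent.S18 Fermat.Agent.S18.Content Fermat.Agent.S18.Plan
open Fermat.Agent.S34 Fermat.Agent.S35

/-- **[NEW-K0]** at the levels of `S34/Plan`. -/
theorem newK0 (N' q : ℕ) [NeZero N'] [NeZero q] (hq : q.Prime) (hqN : ¬ q ∣ N')
    (A : ValuationSubring Kbar) (hA : A.LiesOverPrime q) (O : Subring Om)
    (ρ : O →+* Plan.R2 A)
    (hS : Plan.Setup2 A (N' * q) q (Plan.aux q * N') (FPlan.dvd_level N' q) O ρ)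
    (hW : FPlan.SwapN A N' q O ρ) : FPlan.NewK0 A N' q O ρ := by
  have hL := FDivInst.levels N' q hq hqN
  haveI : NeZero (Plan.aux q * N') := ValAsm.neZero_M hL
  haveI : NeZero (N' * q) := ⟨Nat.mul_ne_zero (NeZero.ne N') (NeZero.ne q)⟩
  haveI : NeZero (Plan.aux q * N' * q) :=
    ⟨Nat.mul_ne_zero (NeZero.ne (Plan.aux q * N')) (NeZero.ne q)⟩
  have hle : modularFunctionFieldBar (N' * q) ≤ modularFunctionFieldBar (Plan.aux q * N' * q) :=
    PullStep.bar_le ⟨Plan.aux q, by ring⟩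
  exact NewK0.newK0_of_top hq hqN hA hle
    (ValAsm.scaleProp A hL (FPlan.dvd_level N' q) hA) hS hW

/-- **(F)** on `J₀(N' q)`: for a prime `q ∤ N'` and `p` prime to `q`, every `p`-power torsion
point of `J₀(N' q)` killed by both degeneracy push-forwards satisfies
`(σ² - 1)(σ² - q²) x = 0` for every Frobenius element `σ` at `q`. -/
theorem newFrobStmt (N' q p : ℕ) [NeZero N'] [NeZero q] (hq : q.Prime) (hqN : ¬ q ∣ N')
    (hqp : ¬ q ∣ p) : Plan.NewFrobStmt N' q p (Push.pushA N' q) (Push.pushB N' q) :=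
  FDivInst.newFrobStmt_of_newK0 N' q p hq hqN hqp
    (fun A hA O ρ hS _ hW => newK0 N' q hq hqN A hA O ρ hS hW)

/-- **The frozen conclusion of S35** (trace route). -/
theorem result_trace
    {M : ℕ} [NeZero M] {g : CuspForm (CongruenceSubgroup.Gamma0 M) 2}
    (hg : g.IsNewform)
    (lam : ℕ) [Fact lam.Prime]
    (S : Finset ℕ)
    (O' : Type) [CommRing O'] [IsDomain O'] [IsDiscreteValuationRing O']
    [IsAdicComplete (IsLocalRing.maximalIdeal O') O'] [Finite (IsLocalRing.ResidueField O')]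
    [CharZero O'] (hlamO' : (lam : O') ∈ IsLocalRing.maximalIdeal O')
    (chig : CuspForm.heckeAlgebra M 2 (↑S : Set ℕ) →+* ℂ)
    (hchig : ∀ (ℓ : ℕ) (hℓ : ℓ.Prime) (hℓM : ¬ ℓ ∣ M) (hℓS : ℓ ∉ (↑S : Set ℕ)),
      chig (CuspForm.heckeAlgebra.T hℓ hℓM hℓS) = ModularFormClass.qCoeff g ℓ)
    (iota : chig.range →+* O')
    (hlamS : lam ∈ S) (hMS : ∀ q : ℕ, q.Prime → q ∣ M → q ∈ S) :
    ∃ (O'' : Type) (_ : CommRing O'') (_ : IsDomain O'') (_ : IsDiscreteValuationRing O'')
      (_ : IsAdicComplete (IsLocalRing.maximalIdeal O'') O'')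
      (_ : Finite (IsLocalRing.ResidueField O''))
      (_ : CharZero O'') (_ : Algebra O' O'') (_ : Module.Finite O' O'')
      (_ : IsLocalHom (algebraMap O' O'')),
      Function.Injective (algebraMap O' O'') ∧
      ∃ ρ : GaloisRepAdic O'',
        (∀ (ℓ : ℕ) (hℓ : ℓ.Prime) (hℓM : ¬ ℓ ∣ M) (hℓS : ℓ ∉ (↑S : Set ℕ)),
          ∀ A : ValuationSubring (AlgebraicClosure ℚ), A.LiesOverPrime ℓ →
            ∀ σ : AlgebraicClosure ℚ ≃ₐ[ℚ] AlgebraicClosure ℚ, A.IsFrobeniusAt σ ℓ →
              LinearMap.charpoly (ρ.ρ σ) =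
                X ^ 2 - C (algebraMap O' O'' ((iota.comp chig.rangeRestrict)
                  (CuspForm.heckeAlgebra.T hℓ hℓM hℓS))) * X
                  + C ((ℓ : O''))) ∧
        (∀ q : ℕ, q.Prime → q ≠ lam → q ∣ M → ¬ q ^ 2 ∣ M →
          ∀ A : ValuationSubring (AlgebraicClosure ℚ), A.LiesOverPrime q →
            ∀ σ : AlgebraicClosure ℚ ≃ₐ[ℚ] AlgebraicClosure ℚ, A.IsFrobeniusAt σ q →
              LinearMap.charpoly (ρ.ρ σ) = X ^ 2 - C ((q : O'') + 1) * X + C ((q : O'')) ∨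
              LinearMap.charpoly (ρ.ρ σ) = X ^ 2 + C ((q : O'') + 1) * X + C ((q : O''))) :=
  TraceTop.result_of_plan lam S O' hlamO' chig hchig iota hlamS hMS
    Fermat.Agent.S30.result (Fermat.Agent.P5.CoreT.coreAll M lam)
    Fermat.Agent.Lib.WeakCheb.weakChebotarev
    (Asm.hplan_of Fermat.Agent.S29.result Fermat.Agent.Lib.WeakCheb.weakChebotarev
      hg lam S chig hchig hMS
      (fun N' q _ _ hq hqN' hqlam _ =>
        newFrobStmt N' q lam hq hqN'
          (fun h => hqlam ((Nat.prime_dvd_prime_iff_eq hq Fact.out).mp h)))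
      (fun N' q _ _ hq hqN' _ => DegenInst.degenStmt N' q hq hqN'))

end Fermat.Agent.S35.Final
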