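import Mathlib
import Fermat.Agent.S35.CohFam
import Fermat.Agent.S35.KPushB
import Fermat.Agent.Lib.TransferChar
import Fermat.Agent.Lib.EisChar

/-!
# S35 leaf [COH-DEGEN], instance: `trA` and `trB` commute with the Hecke operators

The degeneracy transfers of `S35/KPush.lean` and `S35/KPushB.lean`,

* `KPush.trA M q hq hqM ψ` — Mathlib's `MonoidHom.transfer` along `Γ₀(M q) ≤ Γ₀(M)`,
* `KPushB.trB M q a b hab hq hqM ψ = trA (ψ ∘ conjW)` — its Atkin–Lehner twist,

are operators of two-group coset families in the sense of `S35/CohFam.lean`: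

* `trA_eq_corChar`, `trB_eq_corChar`;

hence, by `CohFam.tcoh_corA` and `CohFam.tcoh_corB`, they intertwine the Hecke operators `T_ℓ`
(`ℓ ∤ M q`) of the two levels:

* `trA_heckeChar`, `trB_heckeChar` (characters with values in any commutative group);
* `trAadd`, `trBadd` (the additive forms on `Additive Γ →+ A`), `trAadd_tcoh`, `trBadd_tcoh`
  (in the spelling of `P5.Per.tcoh`).
-/

set_option autoImplicit false
set_option linter.style.haveILetI false

namespace Fermat.Agent.S35.CohFamInst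

open Fermat.Agent.Lib.HeckeHom Fermat.Agent.S35.CohFam

/-! ### Mathlib's transfer as the operator of a two-group family -/

section TransferBridge

open Subgroup Subgroup.leftTransversals

variable {Γ₁ Γ₂ G : Type*} [Group Γ₁] [Group Γ₂] [Group G] {e₁ : Γ₁ →* G} {e₂ : Γ₂ →* G}
  {H : Subgroup Γ₂}

theorem leftTransversal_mem (T : H.LeftTransversal) (γ : Γ₂) (x : Γ₂ ⧸ H) :
    (T.2.leftQuotientEquiv x : Γ₂)⁻¹ * γ * (T.2.leftQuotientEquiv (γ⁻¹ • x) : Γ₂) ∈ H := by
  have h1 := T.2.quotientGroupMk_leftQuotientEquiv (γ⁻¹ • x)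
  have h2 := T.2.quotientGroupMk_leftQuotientEquiv x
  have h3 : ((γ⁻¹ * (T.2.leftQuotientEquiv x : Γ₂) : Γ₂) : Γ₂ ⧸ H) =
      ((T.2.leftQuotientEquiv (γ⁻¹ • x) : Γ₂) : Γ₂ ⧸ H) := by
    refine Eq.trans ?_ h1.symm
    conv_rhs => rw [← h2]
    rfl
  have h4 := QuotientGroup.eq.mp h3
  simpa [mul_assoc] using h4

/-- The inverses of a left transversal of `H ≤ Γ₂` form a two-group family (`Γ₁ ≅ H`). -/
theorem isFam₂_leftTransversal (res : H →* Γ₁) (he₁ : Function.Injective e₁)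
    (he₂ : Function.Injective e₂) (hres : ∀ h : H, e₁ (res h) = e₂ (h : Γ₂))
    (hsurj : Function.Surjective res) (T : H.LeftTransversal) :
    IsFam₂ e₁ e₂ (fun x : Γ₂ ⧸ H => e₂ ((T.2.leftQuotientEquiv x : Γ₂)⁻¹)) where
  inj_e := he₁
  perm := by
    intro γ x
    refine ⟨γ⁻¹ • x, res ⟨_, leftTransversal_mem T γ x⟩, ?_⟩
    rw [hres, ← map_mul, ← map_mul]
    congr 1
    simp [mul_assoc]
  distinct := by
    intro x y γ₁ hxy
    obtain ⟨h, rfl⟩ := hsurj γ₁
    rw [hres, ← map_mul] at hxy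
    have h1 := he₂ hxy
    have h2 : ((T.2.leftQuotientEquiv x : Γ₂) : Γ₂ ⧸ H) =
        ((T.2.leftQuotientEquiv y : Γ₂) : Γ₂ ⧸ H) := by
      rw [QuotientGroup.eq]
      have h3 : (T.2.leftQuotientEquiv x : Γ₂)⁻¹ * (T.2.leftQuotientEquiv y : Γ₂) = (h : Γ₂) := by
        rw [h1, inv_mul_cancel_right]
      rw [h3]
      exact h.2
    have hx := T.2.quotientGroupMk_leftQuotientEquiv x
    have hy := T.2.quotientGroupMk_leftQuotientEquiv y
    exact hx.symm.trans (h2.trans hy)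

/-- **Mathlib's transfer is the operator of the family of a left transversal.** -/
theorem transfer_eq_corChar [H.FiniteIndex] {A : Type*} [CommGroup A] (res : H →* Γ₁)
    (he₁ : Function.Injective e₁) (he₂ : Function.Injective e₂)
    (hres : ∀ h : H, e₁ (res h) = e₂ (h : Γ₂)) (hsurj : Function.Surjective res)
    (T : H.LeftTransversal) (ψ : Γ₁ →* A) :
    letI := H.fintypeQuotientOfFiniteIndex
    MonoidHom.transfer (ψ.comp res) =
      (isFam₂_leftTransversal res he₁ he₂ hres hsurj T).corChar ψ := by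
  letI := H.fintypeQuotientOfFiniteIndex
  refine MonoidHom.ext fun γ => ?_
  have hc : ∀ x : Γ₂ ⧸ H, e₂ ((T.2.leftQuotientEquiv x : Γ₂)⁻¹) * e₂ γ =
      e₁ (res ⟨_, leftTransversal_mem T γ x⟩) *
        e₂ ((T.2.leftQuotientEquiv (γ⁻¹ • x) : Γ₂)⁻¹) := by
    intro x
    rw [hres, ← map_mul, ← map_mul]
    congr 1
    simp [mul_assoc]
  rw [MonoidHom.transfer_def (ψ.comp res) T γ,
    IsFam₂.corChar_apply_of _ ψ γ (fun x => res ⟨_, leftTransversal_mem T γ x⟩)
      (fun x => γ⁻¹ • x) hc]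
  refine Finset.prod_congr rfl fun x _ => ?_
  show ψ (res _) = ψ (res _)
  congr 2
  apply Subtype.ext
  show (T.2.leftQuotientEquiv x : Γ₂)⁻¹ * ((γ • T).2.leftQuotientEquiv x : Γ₂) =
    (T.2.leftQuotientEquiv x : Γ₂)⁻¹ * γ * (T.2.leftQuotientEquiv (γ⁻¹ • x) : Γ₂)
  rw [smul_apply_eq_smul_apply_inv_smul, smul_eq_mul, mul_assoc]

end TransferBridge

end Fermat.Agent.S35.CohFamInst

namespace Fermat.Agent.S35.CohFamInst

open scoped MatrixGroups
open CongruenceSubgroup Matrix.SpecialLinearGroup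
open Fermat.Agent.Lib.HeckeHom Fermat.Agent.Lib.HeckePeriod Fermat.Agent.Lib.HeckeHomGL
  Fermat.Agent.Lib.HeckeHomComm Fermat.Agent.Lib.TransferChar
open Fermat.Agent.S35.CohFam Fermat.Agent.S35.KPush Fermat.Agent.S35.KPushB
open P2MW.S_ModularForm_heckeT_slash_eq_self_of_mem_Gamma0.ModularForm.HeckeSlashInvariance

/-! ### `trA` -/

section A

variable (M q : ℕ)

/-- The representatives: inverses of a left transversal of `Γ₀(M q)` in `Γ₀(M)`. -/
noncomputable def repA (T : (subH M q).LeftTransversal) (x : ↥(Gamma0 M) ⧸ subH M q) :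
    ↥(Gamma0 M) :=
  (T.2.leftQuotientEquiv x : ↥(Gamma0 M))⁻¹

theorem resH_surjective : Function.Surjective (resH M q) :=
  (Subgroup.subgroupOfEquivOfLe (KPush.gamma0_mul_le M q)).surjective

theorem eG_resH (h : ↥(subH M q)) : eG (M * q) (resH M q h) = eG M (h : ↥(Gamma0 M)) := rfl

/-- The two-group family of a left transversal of `Γ₀(M q)` in `Γ₀(M)`. -/
theorem famA (T : (subH M q).LeftTransversal) :
    IsFam₂ (eG (M * q)) (eG M) (fun x => eG M (repA M q T x)) :=
  isFam₂_leftTransversal (resH M q) (eG_injective (M * q)) (eG_injective M) (eG_resH M q)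
    (resH_surjective M q) T

variable [NeZero M]

/-- **`trA` is the operator of the family `famA`.** -/
theorem trA_eq_corChar {A : Type*} [CommGroup A] (hq : q.Prime) (hqM : ¬ q ∣ M)
    (T : (subH M q).LeftTransversal) (ψ : ↥(Gamma0 (M * q)) →* A) :
    haveI := finiteIndex_subH M q hq hqM
    letI := (subH M q).fintypeQuotientOfFiniteIndex
    trA M q hq hqM ψ = (famA M q T).corChar ψ := by
  haveI := finiteIndex_subH M q hq hqM
  exact transfer_eq_corChar (resH M q) (eG_injective (M * q)) (eG_injective M) (eG_resH M q)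
    (resH_surjective M q) T ψ

/-- **[COH-DEGEN], `α`-half, in the spelling of `KPush.trA`:** the transfer along
`Γ₀(M q) ≤ Γ₀(M)` intertwines the Hecke operators `T_ℓ` (`ℓ ∤ M q`) on characters. -/
theorem trA_heckeChar {A : Type*} [CommGroup A] (hq : q.Prime) (hqM : ¬ q ∣ M) {ℓ : ℕ}
    [Fact ℓ.Prime] (hℓM : ¬ ℓ ∣ M) (hℓMq : ¬ ℓ ∣ M * q) (ψ : ↥(Gamma0 (M * q)) →* A) :
    trA M q hq hqM (heckeChar (isCosetFamily_heckeRep (M * q) ℓ hℓMq) ψ) =
      heckeChar (isCosetFamily_heckeRep M ℓ hℓM) (trA M q hq hqM ψ) := by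
  haveI := finiteIndex_subH M q hq hqM
  letI := (subH M q).fintypeQuotientOfFiniteIndex
  have hℓ : ℓ.Prime := Fact.out
  have T : (subH M q).LeftTransversal := default
  rw [trA_eq_corChar M q hq hqM T, trA_eq_corChar M q hq hqM T]
  apply MonoidHom.toAdditive.injective
  rw [← IsFam₂.corHom_toAdditive, ← heckeHom_toAdditive, ← heckeHom_toAdditive,
    ← IsFam₂.corHom_toAdditive]
  exact tcoh_corA hq hqM hℓ hℓM hℓMq (repA M q T) (famA M q T) (MonoidHom.toAdditive ψ)

end A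

/-! ### `trB` -/

section B

open Fermat.Agent.P5.HeckeKappa

variable (M q : ℕ) [NeZero q] (a b : ℤ) (hab : a * q - b * M = 1)

/-- `g₀ = (a q, b; M, 1) ∈ Γ₀(M)`, so that the Atkin–Lehner matrix is `W = diag(1, q) · g₀`. -/
def g0 : ↥(Gamma0 M) :=
  ⟨⟨!![a * q, b; (M : ℤ), 1], by rw [Matrix.det_fin_two_of]; linarith⟩,
    mem_of_dvd (by show (M : ℤ) ∣ (M : ℤ); exact dvd_rfl)⟩

theorem coe_Wp_eq :
    ((Wp M q a b hab : GLp) : GL (Fin 2) ℝ) = dq q * eG M (g0 M q a b hab) := by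
  apply Units.ext
  rw [coe_Wp, Units.val_mul, (isUT_dq q).val, eG_apply, coe_mapGL]
  ext i j
  fin_cases i <;> fin_cases j <;> simp [wInt, g0, Matrix.mul_apply, Fin.sum_univ_two]
  ring

/-- The upper left entry of `g * ρ = γ' * g` in `SL₂(ℤ)`. -/
theorem sl_mul_entry00 (g ρ γ' : SL(2, ℤ)) (h : g * ρ = γ' * g) :
    g 0 0 * ρ 0 0 + g 0 1 * ρ 1 0 = γ' 0 0 * g 0 0 + γ' 0 1 * g 1 0 := by
  have h5 := congrArg (fun m : SL(2, ℤ) => m 0 0) h
  simpa [Matrix.SpecialLinearGroup.coe_mul, Matrix.mul_apply, Fin.sum_univ_two] using h5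

/-- The cofactors of the family `W · r_x = diag(1, q) · g₀ r_x`. -/
theorem specB (T : (subH M q).LeftTransversal) (γ : ↥(Gamma0 M))
    (x : ↥(Gamma0 M) ⧸ subH M q) :
    dq q * eG M (g0 M q a b hab * repA M q T x) * eG M γ =
      eG (M * q) (conjW M q a b hab ((famA M q T).cof γ x)) *
        (dq q * eG M (g0 M q a b hab * repA M q T ((famA M q T).nxt γ x))) := by
  have hW := coe_Wp_eq M q a b hab
  have h1 := (famA M q T).spec γ x
  have h2 := Wp_mul_eG M q a b hab ((famA M q T).cof γ x)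
  rw [hW] at h2
  calc dq q * eG M (g0 M q a b hab * repA M q T x) * eG M γ
      = dq q * eG M (g0 M q a b hab) * (eG M (repA M q T x) * eG M γ) := by
        rw [map_mul]; simp only [mul_assoc]
    _ = dq q * eG M (g0 M q a b hab) * (eG (M * q) ((famA M q T).cof γ x) *
          eG M (repA M q T ((famA M q T).nxt γ x))) := by rw [h1]
    _ = eG (M * q) (conjW M q a b hab ((famA M q T).cof γ x)) *
          (dq q * eG M (g0 M q a b hab)) *
            eG M (repA M q T ((famA M q T).nxt γ x)) := by rw [← mul_assoc, h2]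
    _ = _ := by rw [map_mul]; simp only [mul_assoc]

/-- The two-group family `W · r_x` of the `β`-transfer. -/
theorem famB (hq : q.Prime) (hqM : ¬ q ∣ M) (T : (subH M q).LeftTransversal) :
    IsFam₂ (eG (M * q)) (eG M)
      (fun x => dq q * eG M (g0 M q a b hab * repA M q T x)) where
  inj_e := eG_injective (M * q)
  perm := fun γ x => ⟨_, _, specB M q a b hab T γ x⟩
  distinct := by
    intro x y γ hxy
    obtain ⟨γ', hγ'⟩ := exists_flat M q γ
    have h1 : dq q * eG M (g0 M q a b hab * repA M q T x) =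
        dq q * eG M (γ' * (g0 M q a b hab * repA M q T y)) := by
      rw [hxy, ← mul_assoc, hγ', mul_assoc, ← map_mul]
    have h2 : g0 M q a b hab * repA M q T x = γ' * (g0 M q a b hab * repA M q T y) :=
      eG_injective M (mul_left_cancel h1)
    have h3 : g0 M q a b hab * (repA M q T x * (repA M q T y)⁻¹) = γ' * g0 M q a b hab := by
      rw [← mul_assoc, h2]; group
    have hq01 : (γ' : SL(2, ℤ)) 0 1 = (γ : SL(2, ℤ)) 0 1 * q := by
      have h4 := (ut_mul_entries (isUT_dq q) (isUT_dq q) (γ' : SL(2, ℤ)) (γ : SL(2, ℤ))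
        hγ'.symm).2
      linarith
    have e00 : a * q * ((repA M q T x * (repA M q T y)⁻¹ : ↥(Gamma0 M)) : SL(2, ℤ)) 0 0 +
        b * ((repA M q T x * (repA M q T y)⁻¹ : ↥(Gamma0 M)) : SL(2, ℤ)) 1 0 =
        (γ' : SL(2, ℤ)) 0 0 * (a * q) + (γ' : SL(2, ℤ)) 0 1 * M := by
      exact sl_mul_entry00 _ _ _ (congrArg Subtype.val h3)
    have hdvd : (q : ℤ) ∣
        b * ((repA M q T x * (repA M q T y)⁻¹ : ↥(Gamma0 M)) : SL(2, ℤ)) 1 0 :=
      ⟨(γ' : SL(2, ℤ)) 0 0 * a + (γ : SL(2, ℤ)) 0 1 * M -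
        a * ((repA M q T x * (repA M q T y)⁻¹ : ↥(Gamma0 M)) : SL(2, ℤ)) 0 0, by
          rw [hq01] at e00; linear_combination e00⟩
    have hcop : IsCoprime b (q : ℤ) := ⟨-(M : ℤ), a, by linear_combination hab⟩
    have hq10 : (q : ℤ) ∣
        ((repA M q T x * (repA M q T y)⁻¹ : ↥(Gamma0 M)) : SL(2, ℤ)) 1 0 :=
      hcop.symm.dvd_of_dvd_mul_left hdvd
    obtain ⟨ρ', hρ'⟩ := exists_incl_eq hq hqM _ hq10
    refine (famA M q T).distinct x y ρ' ?_
    show eG M (repA M q T x) = eG (M * q) ρ' * eG M (repA M q T y)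
    rw [← eG_incl, hρ', ← map_mul, inv_mul_cancel_right]

variable [NeZero M]

/-- **`trB` is the operator of the family `famB`.** -/
theorem trB_eq_corChar {A : Type*} [CommGroup A] (hq : q.Prime) (hqM : ¬ q ∣ M)
    (T : (subH M q).LeftTransversal) (ψ : ↥(Gamma0 (M * q)) →* A) :
    haveI := finiteIndex_subH M q hq hqM
    letI := (subH M q).fintypeQuotientOfFiniteIndex
    trB M q a b hab hq hqM ψ = (famB M q a b hab hq hqM T).corChar ψ := by
  haveI := finiteIndex_subH M q hq hqM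
  letI := (subH M q).fintypeQuotientOfFiniteIndex
  rw [trB_def, trA_eq_corChar M q hq hqM T]
  refine MonoidHom.ext fun γ => ?_
  rw [IsFam₂.corChar_apply, IsFam₂.corChar_apply_of _ ψ γ
    (fun x => conjW M q a b hab ((famA M q T).cof γ x)) ((famA M q T).nxt γ)
    (specB M q a b hab T γ)]
  rfl

/-- **[COH-DEGEN], `β`-half, in the spelling of `KPushB.trB`:** the Atkin–Lehner twisted
transfer intertwines the Hecke operators `T_ℓ` (`ℓ ∤ M q`) on characters. -/
theorem trB_heckeChar {A : Type*} [CommGroup A] (hq : q.Prime) (hqM : ¬ q ∣ M) {ℓ : ℕ}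
    [Fact ℓ.Prime] (hℓM : ¬ ℓ ∣ M) (hℓMq : ¬ ℓ ∣ M * q) (ψ : ↥(Gamma0 (M * q)) →* A) :
    trB M q a b hab hq hqM (heckeChar (isCosetFamily_heckeRep (M * q) ℓ hℓMq) ψ) =
      heckeChar (isCosetFamily_heckeRep M ℓ hℓM) (trB M q a b hab hq hqM ψ) := by
  haveI := finiteIndex_subH M q hq hqM
  letI := (subH M q).fintypeQuotientOfFiniteIndex
  have hℓ : ℓ.Prime := Fact.out
  have T : (subH M q).LeftTransversal := default
  rw [trB_eq_corChar M q a b hab hq hqM T, trB_eq_corChar M q a b hab hq hqM T]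
  apply MonoidHom.toAdditive.injective
  rw [← IsFam₂.corHom_toAdditive, ← heckeHom_toAdditive, ← heckeHom_toAdditive,
    ← IsFam₂.corHom_toAdditive]
  exact tcoh_corB hq hℓ hℓM hℓMq (fun x => g0 M q a b hab * repA M q T x)
    (famB M q a b hab hq hqM T) (MonoidHom.toAdditive ψ)

end B

/-! ### Additive forms, in the spelling of `P5.Per.tcoh` -/

section Additive

open Fermat.Agent.P5.Per Fermat.Agent.Lib.EisChar

variable (M q : ℕ) [NeZero M]

/-- The additive form of `KPush.trA` on `Hom(Γ₀(M q), A)`. -/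
noncomputable def trAadd {A : Type*} [AddCommGroup A] (hq : q.Prime) (hqM : ¬ q ∣ M)
    (φ : Additive ↥(Gamma0 (M * q)) →+ A) : Additive ↥(Gamma0 M) →+ A :=
  MonoidHom.toAdditiveLeft (trA M q hq hqM (AddMonoidHom.toMultiplicativeRight φ))

theorem trAadd_eq_corHom {A : Type*} [AddCommGroup A] (hq : q.Prime) (hqM : ¬ q ∣ M)
    (T : (subH M q).LeftTransversal) (φ : Additive ↥(Gamma0 (M * q)) →+ A) :
    haveI := finiteIndex_subH M q hq hqM
    letI := (subH M q).fintypeQuotientOfFiniteIndex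
    trAadd M q hq hqM φ = (famA M q T).corHom φ := by
  haveI := finiteIndex_subH M q hq hqM
  letI := (subH M q).fintypeQuotientOfFiniteIndex
  refine AddMonoidHom.ext fun γa => ?_
  obtain ⟨γ, rfl⟩ : ∃ γ : ↥(Gamma0 M), Additive.ofMul γ = γa := ⟨Additive.toMul γa, rfl⟩
  show Multiplicative.toAdd (trA M q hq hqM (AddMonoidHom.toMultiplicativeRight φ) γ) = _
  rw [trA_eq_corChar M q hq hqM T, IsFam₂.corChar_apply, IsFam₂.corHom_apply, toAdd_prod]
  rfl

/-- `trAadd` is additive. -/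
theorem trAadd_add {A : Type*} [AddCommGroup A] (hq : q.Prime) (hqM : ¬ q ∣ M)
    (φ φ' : Additive ↥(Gamma0 (M * q)) →+ A) :
    trAadd M q hq hqM (φ + φ') = trAadd M q hq hqM φ + trAadd M q hq hqM φ' := by
  haveI := finiteIndex_subH M q hq hqM
  letI := (subH M q).fintypeQuotientOfFiniteIndex
  have T : (subH M q).LeftTransversal := default
  rw [trAadd_eq_corHom M q hq hqM T, trAadd_eq_corHom M q hq hqM T,
    trAadd_eq_corHom M q hq hqM T, IsFam₂.corHom_add]

/-- Naturality of `trAadd` in the coefficient group. -/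
theorem trAadd_comp {A B : Type*} [AddCommGroup A] [AddCommGroup B] (hq : q.Prime)
    (hqM : ¬ q ∣ M) (f : A →+ B) (φ : Additive ↥(Gamma0 (M * q)) →+ A) :
    trAadd M q hq hqM (f.comp φ) = f.comp (trAadd M q hq hqM φ) := by
  haveI := finiteIndex_subH M q hq hqM
  letI := (subH M q).fintypeQuotientOfFiniteIndex
  have T : (subH M q).LeftTransversal := default
  rw [trAadd_eq_corHom M q hq hqM T, trAadd_eq_corHom M q hq hqM T, IsFam₂.corHom_comp]

/-- **[COH-DEGEN], `α`-half, additive form:** `trAadd ∘ T_ℓ = T_ℓ ∘ trAadd` (`ℓ ∤ M q`). -/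
theorem trAadd_tcoh {A : Type*} [AddCommGroup A] (hq : q.Prime) (hqM : ¬ q ∣ M) {ℓ : ℕ}
    (hℓ : ℓ.Prime) (hℓM : ¬ ℓ ∣ M) (hℓMq : ¬ ℓ ∣ M * q)
    (φ : Additive ↥(Gamma0 (M * q)) →+ A) :
    trAadd M q hq hqM (tcoh (M * q) hℓ hℓMq A φ) = tcoh M hℓ hℓM A (trAadd M q hq hqM φ) := by
  haveI := finiteIndex_subH M q hq hqM
  letI := (subH M q).fintypeQuotientOfFiniteIndex
  have T : (subH M q).LeftTransversal := default
  rw [trAadd_eq_corHom M q hq hqM T, trAadd_eq_corHom M q hq hqM T]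
  exact tcoh_corA hq hqM hℓ hℓM hℓMq (repA M q T) (famA M q T) φ

/-- `trA e(φ / n) = e(trAadd φ / n)`. -/
theorem trA_expChar (hq : q.Prime) (hqM : ¬ q ∣ M) (φ : Additive ↥(Gamma0 (M * q)) →+ ℤ)
    (n : ℕ) :
    trA M q hq hqM (expChar (Gamma0 (M * q)) φ n) =
      expChar (Gamma0 M) (trAadd M q hq hqM φ) n := by
  haveI := finiteIndex_subH M q hq hqM
  letI := (subH M q).fintypeQuotientOfFiniteIndex
  have T : (subH M q).LeftTransversal := default
  refine MonoidHom.ext fun γ => Units.ext ?_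
  rw [trA_eq_corChar M q hq hqM T, IsFam₂.corChar_apply, Units.coe_prod, expChar_apply,
    trAadd_eq_corHom M q hq hqM T, IsFam₂.corHom_apply]
  simp_rw [expChar_apply]
  rw [← Complex.exp_sum]
  congr 1
  push_cast
  rw [Finset.mul_sum, Finset.sum_div, Finset.sum_mul]

variable [NeZero q] (a b : ℤ) (hab : a * q - b * M = 1)

/-- The additive form of `KPushB.trB` on `Hom(Γ₀(M q), A)`. -/
noncomputable def trBadd {A : Type*} [AddCommGroup A] (hq : q.Prime) (hqM : ¬ q ∣ M)
    (φ : Additive ↥(Gamma0 (M * q)) →+ A) : Additive ↥(Gamma0 M) →+ A :=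
  MonoidHom.toAdditiveLeft (trB M q a b hab hq hqM (AddMonoidHom.toMultiplicativeRight φ))

theorem trBadd_eq_corHom {A : Type*} [AddCommGroup A] (hq : q.Prime) (hqM : ¬ q ∣ M)
    (T : (subH M q).LeftTransversal) (φ : Additive ↥(Gamma0 (M * q)) →+ A) :
    haveI := finiteIndex_subH M q hq hqM
    letI := (subH M q).fintypeQuotientOfFiniteIndex
    trBadd M q a b hab hq hqM φ = (famB M q a b hab hq hqM T).corHom φ := by
  haveI := finiteIndex_subH M q hq hqM
  letI := (subH M q).fintypeQuotientOfFiniteIndex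
  refine AddMonoidHom.ext fun γa => ?_
  obtain ⟨γ, rfl⟩ : ∃ γ : ↥(Gamma0 M), Additive.ofMul γ = γa := ⟨Additive.toMul γa, rfl⟩
  show Multiplicative.toAdd
    (trB M q a b hab hq hqM (AddMonoidHom.toMultiplicativeRight φ) γ) = _
  rw [trB_eq_corChar M q a b hab hq hqM T, IsFam₂.corChar_apply, IsFam₂.corHom_apply,
    toAdd_prod]
  rfl

/-- `trBadd` is additive. -/
theorem trBadd_add {A : Type*} [AddCommGroup A] (hq : q.Prime) (hqM : ¬ q ∣ M)
    (φ φ' : Additive ↥(Gamma0 (M * q)) →+ A) :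
    trBadd M q a b hab hq hqM (φ + φ') =
      trBadd M q a b hab hq hqM φ + trBadd M q a b hab hq hqM φ' := by
  haveI := finiteIndex_subH M q hq hqM
  letI := (subH M q).fintypeQuotientOfFiniteIndex
  have T : (subH M q).LeftTransversal := default
  rw [trBadd_eq_corHom M q a b hab hq hqM T, trBadd_eq_corHom M q a b hab hq hqM T,
    trBadd_eq_corHom M q a b hab hq hqM T, IsFam₂.corHom_add]

/-- Naturality of `trBadd` in the coefficient group. -/
theorem trBadd_comp {A B : Type*} [AddCommGroup A] [AddCommGroup B] (hq : q.Prime)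
    (hqM : ¬ q ∣ M) (f : A →+ B) (φ : Additive ↥(Gamma0 (M * q)) →+ A) :
    trBadd M q a b hab hq hqM (f.comp φ) = f.comp (trBadd M q a b hab hq hqM φ) := by
  haveI := finiteIndex_subH M q hq hqM
  letI := (subH M q).fintypeQuotientOfFiniteIndex
  have T : (subH M q).LeftTransversal := default
  rw [trBadd_eq_corHom M q a b hab hq hqM T, trBadd_eq_corHom M q a b hab hq hqM T,
    IsFam₂.corHom_comp]

/-- **[COH-DEGEN], `β`-half, additive form:** `trBadd ∘ T_ℓ = T_ℓ ∘ trBadd` (`ℓ ∤ M q`). -/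
theorem trBadd_tcoh {A : Type*} [AddCommGroup A] (hq : q.Prime) (hqM : ¬ q ∣ M) {ℓ : ℕ}
    (hℓ : ℓ.Prime) (hℓM : ¬ ℓ ∣ M) (hℓMq : ¬ ℓ ∣ M * q)
    (φ : Additive ↥(Gamma0 (M * q)) →+ A) :
    trBadd M q a b hab hq hqM (tcoh (M * q) hℓ hℓMq A φ) =
      tcoh M hℓ hℓM A (trBadd M q a b hab hq hqM φ) := by
  haveI := finiteIndex_subH M q hq hqM
  letI := (subH M q).fintypeQuotientOfFiniteIndex
  have T : (subH M q).LeftTransversal := default
  rw [trBadd_eq_corHom M q a b hab hq hqM T, trBadd_eq_corHom M q a b hab hq hqM T]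
  exact tcoh_corB hq hℓ hℓM hℓMq (fun x => g0 M q a b hab * repA M q T x)
    (famB M q a b hab hq hqM T) φ

/-- `trB e(φ / n) = e(trBadd φ / n)`. -/
theorem trB_expChar (hq : q.Prime) (hqM : ¬ q ∣ M) (φ : Additive ↥(Gamma0 (M * q)) →+ ℤ)
    (n : ℕ) :
    trB M q a b hab hq hqM (expChar (Gamma0 (M * q)) φ n) =
      expChar (Gamma0 M) (trBadd M q a b hab hq hqM φ) n := by
  haveI := finiteIndex_subH M q hq hqM
  letI := (subH M q).fintypeQuotientOfFiniteIndex
  have T : (subH M q).LeftTransversal := default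
  refine MonoidHom.ext fun γ => Units.ext ?_
  rw [trB_eq_corChar M q a b hab hq hqM T, IsFam₂.corChar_apply, Units.coe_prod,
    expChar_apply, trBadd_eq_corHom M q a b hab hq hqM T, IsFam₂.corHom_apply]
  simp_rw [expChar_apply]
  rw [← Complex.exp_sum]
  congr 1
  push_cast
  rw [Finset.mul_sum, Finset.sum_div, Finset.sum_mul]

end Additive

end Fermat.Agent.S35.CohFamInst
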