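import Mathlib
import Fermat.Agent.S35.FPlan
import Fermat.Agent.S35.FrobRed2
import Fermat.Agent.S35.FrobGal
import Fermat.Agent.S34.TauAdapt
import Fermat.Agent.S34.RiemannE
import Fermat.Agent.S34.CuspRegRK
import Fermat.Agent.S34.FrobCoeff
import Fermat.Agent.S34.PlanTop
import Fermat.Agent.S18.Main

/-!
# S35 — `[K0-INST]`, second provider (helper97): `FPlan.K0Stmt` from the S34 blocks

The Frobenius twin of `S34/TauAdapt.md_eq_bbar` + `S34/TauFinal.tauStmt`.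

* `graph₁_mem`, `graph₂_mem` : the two graphs `(a, a(T^q))`, `(a(T^q), a)` of `Φ = (T ↦ T^q)` on
  `B_κ` lie in `B̄ = ⋃ B̄(c)` (`Setup2.lift₁`, resp. the transposed graph lift (L2′));
* `node_frob`, `node_frob_sq` : **the nodes are `𝔽_{q²}`-rational**: for the node data
  `(e₁, e₂)` of `Plan.IsNodes` and the coefficientwise Frobenius `F` of `B_κ`:
  `e₁ i (F a) = (e₂ i a)^q`, `e₂ i (F a) = (e₁ i a)^q`, hence
  `e₁ i (F² a) = (e₁ i a)^(q²)`, `e₂ i (F² a) = (e₂ i a)^(q²)`;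
* `md_eq_bbar_frob` : **`M(D'')(c) = B̄(c)` for `c` large** from `Setup2`, `CuspReg`, `IsNodes`,
  Riemann's inequality, the two power relations and the `φ²`-trick inclusion (coefficient form,
  as produced by `FrobGal.exists_frob_data`), via `FrobRed2.exists_redSp_V''_eq_frob`;
* `k0Stmt` : `FPlan.K0Stmt A N' q M O ρ` from `Setup2`, `CuspReg`, `NodeStmt`, `FrobSetup` and
  (L2′).
-/

set_option autoImplicit false

noncomputable section

namespace Fermat.Agent.S35.K0Alt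

open ModularCurve AlgebraicCurve Module Fermat.Agent.S24 Fermat.Agent.S18.Content
  Fermat.Agent.S18.Plan Fermat.Agent.S18.WJCalc Fermat.Agent.S34 Fermat.Agent.S34.Plan
  Fermat.Agent.S34.LiftCore2 Fermat.Agent.S34.TauAdapt

/-! ## The nodes are `𝔽_{q²}`-rational -/

section Nodes

variable {A : ValuationSubring Kbar} {N q M : ℕ} [NeZero N] [NeZero q] {hqN : q ∣ N}
  {O : Subring Om} {ρ : O →+* R2 A}

omit [NeZero q] in
/-- Coefficientwise field endomorphisms preserve `B_κ`. -/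
theorem coeffMap_mem_BK (φ : kk A →+* kk A) {a : Omk A} (ha : a ∈ BK A M) :
    coeffMap φ a ∈ BK A M := by
  obtain ⟨h1, h2⟩ := Algebra.mem_inf.1 ha
  exact Algebra.mem_inf.2
    ⟨FrobCoeff.coeffMap_mem_full φ M h1, FrobCoeff.isIntegral_polyJ_coeffMap φ h2⟩

theorem isPoleJ_le_isE {Cj E : Divisor Kbar (FN N)} (hC : IsPoleJ N Cj) (hE : IsE N q hqN E)
    (P : Place Kbar (FN N)) : Cj P ≤ E P := by
  rw [hC P, hE P]
  exact le_add_of_nonneg_right (le_max_left _ _)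

theorem isPoleJq_le_isE {Cq E : Divisor Kbar (FN N)} (hC : IsPoleJq N q hqN Cq)
    (hE : IsE N q hqN E) (P : Place Kbar (FN N)) : Cq P ≤ E P := by
  rw [hC P, hE P]
  exact le_add_of_nonneg_left (le_max_left _ _)

/-- The graph of `Φ = (T ↦ T^q)` on `B_κ` lies in `B̄`. -/
theorem graph₁_mem (hS : Setup2 A N q M hqN O ρ) {E : Divisor Kbar (FN N)}
    (hE : IsE N q hqN E) {a : Omk A} (ha : a ∈ BK A M) :
    ∃ c : ℕ, (a, qExpand (kk A) q a) ∈ Bbar N q M O ρ E c := by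
  obtain ⟨m₀, hl⟩ := hS.lift₁
  obtain ⟨Cj, hCj⟩ := PlanTop.exists_isPoleJ N
  obtain ⟨m, hm⟩ := (mem_BK_iff A M).1 ha
  obtain ⟨g, hg, hρ⟩ := hl Cj hCj (max m m₀) (le_max_right _ _) a (WJ_mono (le_max_left _ _) hm)
  refine ⟨max m m₀, g, ?_, hρ⟩
  refine Fermat.Agent.S18.Main.pullRR_mono (fun P => ?_) hg
  rw [Finsupp.smul_apply, Finsupp.smul_apply]
  exact nsmul_le_nsmul_right (isPoleJ_le_isE hCj hE P) _

/-- The transposed graph of `Φ = (T ↦ T^q)` on `B_κ` lies in `B̄` (from (L2′)). -/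
theorem graph₂_mem
    (hL2' : ∃ m₀ : ℕ, ∀ Cq : Divisor Kbar (FN N), IsPoleJq N q hqN Cq → ∀ m : ℕ, m₀ ≤ m →
      ∀ a : Omk A, a ∈ WJ (kk A) (Fk A M) m →
        ∃ g : O, (g : Om) ∈ pullRR N (M * q) (m • Cq) ∧ ρ g = (qExpand (kk A) q a, a))
    {E : Divisor Kbar (FN N)} (hE : IsE N q hqN E) {a : Omk A} (ha : a ∈ BK A M) :
    ∃ c : ℕ, (qExpand (kk A) q a, a) ∈ Bbar N q M O ρ E c := by
  obtain ⟨m₀, hl⟩ := hL2'
  obtain ⟨Cq, hCq⟩ := PlanTop.exists_isPoleJq N q hqN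
  obtain ⟨m, hm⟩ := (mem_BK_iff A M).1 ha
  obtain ⟨g, hg, hρ⟩ := hl Cq hCq (max m m₀) (le_max_right _ _) a (WJ_mono (le_max_left _ _) hm)
  refine ⟨max m m₀, g, ?_, hρ⟩
  refine Fermat.Agent.S18.Main.pullRR_mono (fun P => ?_) hg
  rw [Finsupp.smul_apply, Finsupp.smul_apply]
  exact nsmul_le_nsmul_right (isPoleJq_le_isE hCq hE P) _

/-- **Frobenius swaps the two branches at every node.**  If `b` is the coefficientwise `q`-th
power of `a ∈ B_κ`, then `e₁ i b = (e₂ i a)^q` and `e₂ i b = (e₁ i a)^q`. -/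
theorem node_frob (hq : q.Prime) (hA : A.LiesOverPrime q) (hS : Setup2 A N q M hqN O ρ)
    {E : Divisor Kbar (FN N)} (hE : IsE N q hqN E)
    (hL2' : ∃ m₀ : ℕ, ∀ Cq : Divisor Kbar (FN N), IsPoleJq N q hqN Cq → ∀ m : ℕ, m₀ ≤ m →
      ∀ a : Omk A, a ∈ WJ (kk A) (Fk A M) m →
        ∃ g : O, (g : Om) ∈ pullRR N (M * q) (m • Cq) ∧ ρ g = (qExpand (kk A) q a, a))
    {ι : Type} (e₁ e₂ : ι → (BK A M →ₐ[kk A] kk A)) (hnodes : IsNodes A N q M O ρ E e₁ e₂)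
    (a b : BK A M) (hab : ∀ m : ℤ, (b : Omk A).coeff m = (a : Omk A).coeff m ^ q) (i : ι) :
    e₁ i b = e₂ i a ^ q ∧ e₂ i b = e₁ i a ^ q := by
  have : Fact q.Prime := ⟨hq⟩
  have : CharP (kk A) q := charP_residueField_of_liesOverPrime A q hA
  have hb : (b : Omk A) = coeffMap (frobenius (kk A) q) (a : Omk A) := by
    ext m
    rw [hab m, coeffMap_coeff, frobenius_def]
  have hΦ : qExpand (kk A) q (b : Omk A) = (a : Omk A) ^ q := by
    rw [hb, ← Lib.KroneckerCong.pow_char_eq q]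
  have hpow : ((a ^ q : BK A M) : Omk A) = (a : Omk A) ^ q := rfl
  obtain ⟨c, hc⟩ := graph₁_mem hS hE b.2
  obtain ⟨c', hc'⟩ := graph₂_mem hL2' hE b.2
  rw [hΦ, ← hpow] at hc hc'
  have h1 := (hnodes.2.2 b (a ^ q)).1 ⟨c, hc⟩ i
  have h2 := (hnodes.2.2 (a ^ q) b).1 ⟨c', hc'⟩ i
  rw [map_pow] at h1 h2
  exact ⟨h1, h2.symm⟩

/-- **The nodes are `𝔽_{q²}`-rational.**  If `c` is the coefficientwise `q²`-th power of
`a ∈ B_κ`, then `e₁ i c = (e₁ i a)^(q²)` and `e₂ i c = (e₂ i a)^(q²)`. -/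
theorem node_frob_sq (hq : q.Prime) (hA : A.LiesOverPrime q) (hS : Setup2 A N q M hqN O ρ)
    {E : Divisor Kbar (FN N)} (hE : IsE N q hqN E)
    (hL2' : ∃ m₀ : ℕ, ∀ Cq : Divisor Kbar (FN N), IsPoleJq N q hqN Cq → ∀ m : ℕ, m₀ ≤ m →
      ∀ a : Omk A, a ∈ WJ (kk A) (Fk A M) m →
        ∃ g : O, (g : Om) ∈ pullRR N (M * q) (m • Cq) ∧ ρ g = (qExpand (kk A) q a, a))
    {ι : Type} (e₁ e₂ : ι → (BK A M →ₐ[kk A] kk A)) (hnodes : IsNodes A N q M O ρ E e₁ e₂)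
    (a c : BK A M) (hac : ∀ m : ℤ, (c : Omk A).coeff m = (a : Omk A).coeff m ^ (q ^ 2))
    (i : ι) : e₁ i c = e₁ i a ^ (q ^ 2) ∧ e₂ i c = e₂ i a ^ (q ^ 2) := by
  have : Fact q.Prime := ⟨hq⟩
  have : CharP (kk A) q := charP_residueField_of_liesOverPrime A q hA
  set b : BK A M := ⟨coeffMap (frobenius (kk A) q) (a : Omk A), coeffMap_mem_BK _ a.2⟩ with hb
  have hab : ∀ m : ℤ, (b : Omk A).coeff m = (a : Omk A).coeff m ^ q := fun m => by
    rw [hb]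
    show (coeffMap (frobenius (kk A) q) (a : Omk A)).coeff m = _
    rw [coeffMap_coeff, frobenius_def]
  have hbc : ∀ m : ℤ, (c : Omk A).coeff m = (b : Omk A).coeff m ^ q := fun m => by
    rw [hac m, hab m, ← pow_mul, sq]
  obtain ⟨h1, h2⟩ := node_frob hq hA hS hE hL2' e₁ e₂ hnodes a b hab i
  obtain ⟨h3, h4⟩ := node_frob hq hA hS hE hL2' e₁ e₂ hnodes b c hbc i
  constructor
  · rw [h3, h2, ← pow_mul, sq]
  · rw [h4, h1, ← pow_mul, sq]

end Nodes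

/-! ## The main adapter -/

section Main

variable {A : ValuationSubring Kbar} {N q M : ℕ} [NeZero N] [NeZero q] {hqN : q ∣ N}
  {O : Subring Om} {ρ : O →+* R2 A}

set_option synthInstance.maxHeartbeats 400000 in
set_option maxHeartbeats 2000000 in
/-- **[K0-ADAPT]** `M(D'')(c) = B̄(c)` for `c` large: `Plan.Setup2`, `Plan.CuspReg`,
`Plan.IsNodes`, (L2′), Riemann's inequality for `D'`, `D''`, the power relations
`sⁿ u ∈ L(ncE)` (`s ∈ L(D' + cE)`, `ρ u` a pair of nonzero constants) and `sⁿ w ∈ L(ncE)`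
(`s ∈ L(D'' + cE)`, `ρ w = 1`), and the `φ²`-trick inclusion
`ρ(L(D'' + cE) ∩ O) · ρ(L(D' + c'E) ∩ O)^(q²) ⊆ Frob²(ρ(L(D' + (c + q²c')E) ∩ O))`
(coefficientwise). -/
theorem md_eq_bbar_frob (hq : q.Prime) (hA : A.LiesOverPrime q)
    (hS : Setup2 A N q M hqN O ρ) (hCR : CuspReg A N q M hqN O ρ)
    (hRR0 : RR0 N (M * q))
    (hWfin : ∀ m, Module.Finite (kk A) (WJ (kk A) (Fk A M) m))
    (hL2' : ∃ m₀ : ℕ, ∀ Cq : Divisor Kbar (FN N), IsPoleJq N q hqN Cq → ∀ m : ℕ, m₀ ≤ m →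
      ∀ a : Omk A, a ∈ WJ (kk A) (Fk A M) m →
        ∃ g : O, (g : Om) ∈ pullRR N (M * q) (m • Cq) ∧ ρ g = (qExpand (kk A) q a, a))
    (E : Divisor Kbar (FN N)) (hE : IsE N q hqN E)
    {ι : Type} [Fintype ι] (e₁ e₂ : ι → (BK A M →ₐ[kk A] kk A))
    (hnodes : IsNodes A N q M O ρ E e₁ e₂)
    (D' D'' : Divisor Kbar (FN N))
    (hRD' : ∃ c₀ : ℕ, ∀ c : ℕ, c₀ ≤ c → finrank Kbar (pullRR N (M * q) (c • E)) ≤
      finrank Kbar (pullRR N (M * q) (D' + c • E)))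
    (hRD'' : ∃ c₀ : ℕ, ∀ c : ℕ, c₀ ≤ c → finrank Kbar (pullRR N (M * q) (c • E)) ≤
      finrank Kbar (pullRR N (M * q) (D'' + c • E)))
    (n : ℕ) (hn : 0 < n) (u w : O) (c₁ c₂ : kk A) (hc₁ : c₁ ≠ 0) (hc₂ : c₂ ≠ 0)
    (hρu : ρ u = (HahnSeries.C c₁, HahnSeries.C c₂)) (hρw : ρ w = 1)
    (hpow' : ∀ c : ℕ, ∀ s ∈ pullRR N (M * q) (D' + c • E),
      s ^ n * (u : Om) ∈ pullRR N (M * q) ((n * c) • E))
    (hpow'' : ∀ c : ℕ, ∀ s ∈ pullRR N (M * q) (D'' + c • E),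
      s ^ n * (w : Om) ∈ pullRR N (M * q) ((n * c) • E))
    (hφ : ∀ (c c' : ℕ) (s t : O), (s : Om) ∈ pullRR N (M * q) (D'' + c • E) →
      (t : Om) ∈ pullRR N (M * q) (D' + c' • E) →
      ∃ y ∈ redSet O ρ (pullRR N (M * q) (D' + (c + q ^ 2 * c') • E)),
        ∀ m : ℤ, (ρ (s * t ^ (q ^ 2))).1.coeff m = y.1.coeff m ^ (q ^ 2) ∧
          (ρ (s * t ^ (q ^ 2))).2.coeff m = y.2.coeff m ^ (q ^ 2)) :
    ∃ c₀ : ℕ, ∀ c : ℕ, c₀ ≤ c → MD N q M O ρ E D'' c = Bbar N q M O ρ E c := by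
  classical
  have : Fact q.Prime := ⟨hq⟩
  have : CharP (kk A) q := charP_residueField_of_liesOverPrime A q hA
  have hdec : DecidableEq (Pt' A M) := Classical.decEq _
  have h := redData hS
  obtain ⟨cCR, hCR⟩ := hCR E hE
  obtain ⟨cR', hR'⟩ := hRD'
  obtain ⟨cR'', hR''⟩ := hRD''
  have hnodes' := hnodes
  obtain ⟨he₁, he₂, hnode⟩ := hnodes
  -- the node data in raw form, transported to `BK'`
  let f₁ : ι → Pt' A M := fun i => pt' A M (e₁ i)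
  let f₂ : ι → Pt' A M := fun i => pt' A M (e₂ i)
  have hf₁ : Function.Injective f₁ := (pt'_injective A M).comp he₁
  have hf₂ : Function.Injective f₂ := (pt'_injective A M).comp he₂
  let Z : Finset (Pt' A M) := Finset.univ.image f₁
  let θ : Pt' A M → Pt' A M :=
    fun z => if hz : ∃ i, f₁ i = z then f₂ (Classical.choose hz) else z
  have hθe : ∀ i, θ (f₁ i) = f₂ i := by
    intro i
    have hex : ∃ i', f₁ i' = f₁ i := ⟨i, rfl⟩
    show (if hz : ∃ i', f₁ i' = f₁ i then f₂ (Classical.choose hz) else f₁ i) = f₂ i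
    rw [dif_pos hex, hf₁ (Classical.choose_spec hex)]
  have hθ : Set.InjOn θ (Z : Set (Pt' A M)) := by
    intro z hz z' hz' hzz'
    obtain ⟨i, -, rfl⟩ := Finset.mem_image.1 (Finset.mem_coe.1 hz)
    obtain ⟨i', -, rfl⟩ := Finset.mem_image.1 (Finset.mem_coe.1 hz')
    rw [hθe, hθe] at hzz'
    rw [hf₂ hzz']
  have hnode' : ∀ a b : BK' A M,
      (∃ c : ℕ, ((a : Omk A), (b : Omk A)) ∈ redSp2 h (pullRR N (M * q) (c • E))) ↔
        ∀ z ∈ Z, z a = θ z b := by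
    intro a b
    have hn := hnode ⟨a.1, a.2⟩ ⟨b.1, b.2⟩
    constructor
    · intro hab z hz
      obtain ⟨i, -, rfl⟩ := Finset.mem_image.1 hz
      rw [hθe]
      exact hn.1 hab i
    · intro hab
      refine hn.2 fun i => ?_
      have := hab (f₁ i) (Finset.mem_image_of_mem f₁ (Finset.mem_univ i))
      rw [hθe] at this
      exact this
  have hρw' : ρ w = (HahnSeries.C (1 : kk A), HahnSeries.C (1 : kk A)) := by
    rw [hρw, map_one]
    rfl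
  have hWB : ∀ x : R2 A, (x.1 ∈ BK' A M ∧ x.2 ∈ BK' A M) ↔ ∃ c, x ∈ WWs A q M c :=
    mem_BK_prod_iff A q M
  -- the coefficientwise `Frob²`
  let F₂ : Omk A → Omk A := coeffMap ((frobenius (kk A) q).comp (frobenius (kk A) q))
  have hF₂c : ∀ (a : Omk A) (m : ℤ), (F₂ a).coeff m = a.coeff m ^ (q ^ 2) := fun a m => by
    show (coeffMap ((frobenius (kk A) q).comp (frobenius (kk A) q)) a).coeff m = _
    rw [coeffMap_coeff, RingHom.comp_apply, frobenius_def, frobenius_def, ← pow_mul, sq]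
  have hF₂B : ∀ a ∈ BK' A M, F₂ a ∈ BK' A M := fun a ha => coeffMap_mem_BK _ ha
  obtain ⟨c₁', -, -, hc₁'⟩ := @Fermat.Agent.S35.FrobRed2.exists_redSp_V''_eq_frob Kbar Om (kk A)
    (Omk A) _ _ HahnSeries.instAlgebra _ _ HahnSeries.instAlgebra A (IsLocalRing.residue A) O ρ
    h (FF (M * q)) (hasDim hS) (BK' A M)
    (fun c => pullRR N (M * q) (c • E)) (fun c => pullRR N (M * q) (D' + c • E))
    (fun c => pullRR N (M * q) (D'' + c • E))
    (fun c => (hRR0 _).1) (fun c => (hRR0 _).1) (fun c => (hRR0 _).1)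
    (fun c => pullRR_le_FF _ _ _) (fun c => pullRR_le_FF _ _ _) (fun c => pullRR_le_FF _ _ _)
    (pullRR_add_smul_mono hE D' (M * q))
    (WWs A q M) (WWs_mono A q M) (finite_WWs A q M hWfin) hWB
    n hn.ne' u c₁ c₂ hc₁ hc₂ hρu hpow'
    F₂ hF₂B (q ^ 2)
    (fun c c' s t hs ht => by
      obtain ⟨y, hy, hcoef⟩ := hφ c c' s t hs ht
      refine ⟨y, hy, Prod.ext ?_ ?_⟩
      · ext m
        rw [(hcoef m).1, hF₂c]
      · ext m
        rw [(hcoef m).2, hF₂c])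
    (fun c x hx => by
      obtain ⟨y, hy, rfl⟩ := hx
      exact hS.incl E hE c y hy)
    (fun c x hx => by
      obtain ⟨y, hy, rfl⟩ := hx
      exact incl_of_pow hS E hE D' hn u hc₁ hc₂ hρu hpow' c y hy)
    (fun c x hx => by
      obtain ⟨y, hy, rfl⟩ := hx
      exact incl_of_pow hS E hE D'' hn w one_ne_zero one_ne_zero hρw' hpow'' c y hy)
    cCR
    (fun c hc c' x hx => by
      rcases le_total c c' with hcc' | hcc'
      · exact hCR c hc c' hcc' ⟨hx.1, hx.2⟩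
      · exact redSp2_mono h (pullRR_smul_mono hE (M * q) hcc') hx.1)
    Z θ hθ hnode'
    (by
      intro z hz a
      obtain ⟨i, -, rfl⟩ := Finset.mem_image.1 hz
      rw [hθe]
      have key := node_frob_sq hq hA hS hE hL2' e₁ e₂ hnodes' ⟨a.1, a.2⟩
        ⟨F₂ a.1, hF₂B a.1 a.2⟩ (fun m => hF₂c a.1 m) i
      exact key)
    (max cR' cR'')
    (fun c hc => hR' c ((le_max_left _ _).trans hc))
    (fun c hc => hR'' c ((le_max_right _ _).trans hc))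
  refine ⟨c₁', fun c hc => ?_⟩
  have := hc₁' c hc
  exact congrArg (fun W : Submodule (kk A) (R2 A) => (W : Set (R2 A))) this

end Main

/-! ## `FPlan.K0Stmt` -/

section Final

/-- **[K0-INST]** `FPlan.K0Stmt` at the P6 levels, from `Setup2`, `CuspReg`, `NodeStmt`,
`FrobSetup` and the transposed graph lift (L2′) (`S34/ValLiftInst.lift₂'` for the concrete pair
`(Val.O2, Val.Red)`). -/
theorem k0Stmt {q N' M : ℕ} [NeZero N'] [NeZero q] (hL : Plan.Levels q N' (N' * q) M)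
    (A : ValuationSubring Kbar) (hA : A.LiesOverPrime q) {O : Subring Om} {ρ : O →+* Plan.R2 A}
    (hS : Plan.Setup2 A (N' * q) q M (FPlan.dvd_level N' q) O ρ)
    (hCR : Plan.CuspReg A (N' * q) q M (FPlan.dvd_level N' q) O ρ)
    (hNode : Plan.NodeStmt A (N' * q) q M (FPlan.dvd_level N' q) O ρ)
    (hF : FPlan.FrobSetup A q O ρ)
    (hL2' : ∃ m₀ : ℕ, ∀ Cq : Divisor Kbar (FN (N' * q)),
      IsPoleJq (N' * q) q (FPlan.dvd_level N' q) Cq → ∀ m : ℕ, m₀ ≤ m →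
      ∀ a : Omk A, a ∈ WJ (kk A) (Fk A M) m →
        ∃ g : O, (g : Om) ∈ pullRR (N' * q) (M * q) (m • Cq) ∧
          ρ g = (qExpand (kk A) q a, a)) :
    FPlan.K0Stmt A N' q M O ρ := by
  have : NeZero (M * q) := RiemannE.neZero_top hL
  have hle : modularFunctionFieldBar (N' * q) ≤ modularFunctionFieldBar (M * q) :=
    Fermat.Agent.S18.Main.fieldBar_le (RiemannE.dvd_top hL)
  intro E hE σ hσ D n hD hn u hu0 hu_ord hu c₁ c₂ hc₁ hc₂ hρu
  obtain ⟨w, hw, hw0, hρw, hw_ord, hp', hp'', hmul⟩ :=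
    FrobGal.exists_frob_data hle hS E hE σ (hF σ hσ) D n u hu0 hu_ord hu c₁ c₂ hc₁ hc₂ hρu
  refine ⟨w, hw0, hw_ord, hw, hρw, ?_⟩
  obtain ⟨ι, _, _, e₁, e₂, hN⟩ := hNode E hE
  obtain ⟨c₀, hc₀⟩ := RiemannE.finrank_le_add (FPlan.dvd_level N' q) hL E hE
  exact md_eq_bbar_frob hL.prime hA hS hCR (RiemannE.rr0 hL)
    (TauAdapt.finite_WJ_of_riemannK A M (CuspReg.riemannK hL A hA)) hL2' E hE e₁ e₂ hN D
    (FrobGal.frobDiv (N' * q) q σ D)
    ⟨c₀, fun c hc => hc₀ c hc D hD⟩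
    ⟨c₀, fun c hc => hc₀ c hc _ (FrobGal.degree_frobDiv σ hD)⟩
    n hn ⟨_, hu⟩ ⟨_, hw⟩ c₁ c₂ hc₁ hc₂ hρu hρw hp' hp'' hmul

end Final

end Fermat.Agent.S35.K0Alt

end
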