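/-
P6 / S35 — leaf [KPUSH-LAT] (helper97): **the degeneracy transfers on the parabolic lattice and
the `DegenStmt` junction in hypothesis form.**

`q` prime, `q ∤ M`, Bezout `a q - b M = 1`.  On top of `S35/KPush` (`trA`), `S35/KPushB` (`trB`,
`conjW`), `S35/Transfer` (helper21: `corA`, `cA`, parabolicity) and `S35/Push` (`pushA`, `pushB`):

* `trA_eq`                : helper21's `Transfer.trA` is `KPush.trA` (definitionally);
* `cA M q := Transfer.cA M q`, `pullW`, `cB := cA ∘ pullW` : the two transfers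
                            `Per.Lat (M * q) →+ Per.Lat M` (`pullW φ = φ ∘ conjW`);
* `chi_cA`, `chi_cB`      : `e(cA φ / n) = trA e(φ / n)`, `e(cB φ / n) = trB e(φ / n)`;
* `kummer_cA`, `kummer_cB`: the Kummer relation under `pushA`, `pushB` on the `L`-characters;
* `cA_tcohL`, `cB_tcohL`  : Hecke equivariance of `cA`, `cB` from the multiplicative [COH-DEGEN]
                            statements for `trA`, `trB` with coefficients `Multiplicative ℤ`;
* `degenStmt_of`          : **`Plan.DegenStmt M q (pushA M q) (pushB M q)`** from those two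
                            statements.
-/
import Mathlib
import Fermat.Agent.S35.KPush
import Fermat.Agent.S35.KPushB
import Fermat.Agent.S35.Push
import Fermat.Agent.S35.Transfer
import Fermat.Agent.S35.Plan
import Fermat.Agent.P5.Lambda
import Fermat.Agent.P5.HeckeKappa.Plan

set_option autoImplicit false
set_option linter.style.haveILetI false
set_option linter.unusedSectionVars false

noncomputable section

namespace Fermat.Agent.S35.KPushLat

open UpperHalfPlane CongruenceSubgroup ModularCurve ModularCurve.Period AlgebraicCurve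
open Fermat.Agent.Lib Fermat.Agent.Lib.HeckeHom Fermat.Agent.Lib.HeckeHomGL Fermat.Agent.S24
open Fermat.Agent.P5 Fermat.Agent.P5.Per Fermat.Agent.Lib.EisChar
open Fermat.Agent.S35.KPush Fermat.Agent.S35.KPushB
open P2MW.S_ModularForm_heckeT_slash_eq_self_of_mem_Gamma0.ModularForm.HeckeSlashInvariance
open scoped MatrixGroups

/-! ### The characters `e(φ / n)` as composites -/

/-- The character `k ↦ e(k / n)` of `ℤ`, written multiplicatively. -/
def expZ (n : ℕ) : Multiplicative ℤ →* ℂˣ :=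
  MonoidHom.toHomUnits
    { toFun := fun k =>
        Complex.exp (((2 * Real.pi * ((Multiplicative.toAdd k : ℤ) : ℝ) / (n : ℝ) : ℝ) : ℂ) *
          Complex.I)
      map_one' := by simp
      map_mul' := fun k l => by
        rw [toAdd_mul, ← Complex.exp_add]
        congr 1
        push_cast
        ring }

/-- `e(φ / n) = expZ n ∘ φ`. -/
theorem expChar_eq_comp {Γ : Subgroup SL(2, ℤ)} (φ : Additive Γ →+ ℤ) (n : ℕ) :
    expChar Γ φ n = (expZ n).comp (AddMonoidHom.toMultiplicativeRight φ) :=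
  MonoidHom.ext fun _ => Units.ext rfl

/-! ### The two transfers on the parabolic lattice -/

section Lat

variable (M q : ℕ) [NeZero M] [NeZero q]

/-- helper21's `Transfer.trA` is `KPush.trA`. -/
theorem trA_eq (hq : q.Prime) (hqM : ¬ q ∣ M) {A : Type*} [CommGroup A]
    (ψ : ↥(Gamma0 (M * q)) →* A) : Transfer.trA M q ψ = trA M q hq hqM ψ := rfl

/-- **The `α`-transfer** `Lat (M q) → Lat M` (helper21's `Transfer.cA`). -/
def cA : Lat (M * q) →+ Lat M := Transfer.cA M q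

theorem toMul_cA (hq : q.Prime) (hqM : ¬ q ∣ M) (φ : Lat (M * q)) :
    AddMonoidHom.toMultiplicativeRight ((cA M q φ : Lat M) : Additive ↥(Gamma0 M) →+ ℤ) =
      trA M q hq hqM
        (AddMonoidHom.toMultiplicativeRight (φ : Additive ↥(Gamma0 (M * q)) →+ ℤ)) := rfl

/-- `e(cA φ / n) = trA e(φ / n)`. -/
theorem chi_cA (hq : q.Prime) (hqM : ¬ q ∣ M) (φ : Lat (M * q)) (n : ℕ) :
    Lambda.chi M (cA M q φ) n = trA M q hq hqM (Lambda.chi (M * q) φ n) := by
  show expChar (Gamma0 M) ((cA M q φ : Lat M) : Additive ↥(Gamma0 M) →+ ℤ) n =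
    trA M q hq hqM (expChar (Gamma0 (M * q)) (φ : Additive ↥(Gamma0 (M * q)) →+ ℤ) n)
  rw [expChar_eq_comp, expChar_eq_comp, trA_comp, toMul_cA M q hq hqM]

variable (a b : ℤ) (hab : a * q - b * M = 1)

/-- Composition with the Atkin–Lehner conjugation `conjW` on the parabolic lattice of level
`M q`. -/
def pullW : Lat (M * q) →+ Lat (M * q) where
  toFun φ := ⟨(φ : Additive ↥(Gamma0 (M * q)) →+ ℤ).comp
      (MonoidHom.toAdditive (conjW M q a b hab)), fun γ hγ => by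
    show (φ : Additive ↥(Gamma0 (M * q)) →+ ℤ) (Additive.ofMul (conjW M q a b hab γ)) = 0
    exact φ.2 _ (by rw [trace_conjW]; exact hγ)⟩
  map_zero' := rfl
  map_add' _ _ := rfl

theorem toMul_pullW (φ : Lat (M * q)) :
    AddMonoidHom.toMultiplicativeRight
        ((pullW M q a b hab φ : Lat (M * q)) : Additive ↥(Gamma0 (M * q)) →+ ℤ) =
      (AddMonoidHom.toMultiplicativeRight (φ : Additive ↥(Gamma0 (M * q)) →+ ℤ)).comp
        (conjW M q a b hab) := rfl

/-- **The `β`-transfer** `Lat (M q) → Lat M`: `cA ∘ pullW`. -/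
def cB : Lat (M * q) →+ Lat M := (cA M q).comp (pullW M q a b hab)

theorem toMul_cB (hq : q.Prime) (hqM : ¬ q ∣ M) (φ : Lat (M * q)) :
    AddMonoidHom.toMultiplicativeRight
        ((cB M q a b hab φ : Lat M) : Additive ↥(Gamma0 M) →+ ℤ) =
      trB M q a b hab hq hqM
        (AddMonoidHom.toMultiplicativeRight (φ : Additive ↥(Gamma0 (M * q)) →+ ℤ)) := rfl

/-- `e(cB φ / n) = trB e(φ / n)`. -/
theorem chi_cB (hq : q.Prime) (hqM : ¬ q ∣ M) (φ : Lat (M * q)) (n : ℕ) :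
    Lambda.chi M (cB M q a b hab φ) n = trB M q a b hab hq hqM (Lambda.chi (M * q) φ n) := by
  show expChar (Gamma0 M) ((cB M q a b hab φ : Lat M) : Additive ↥(Gamma0 M) →+ ℤ) n =
    trB M q a b hab hq hqM (expChar (Gamma0 (M * q)) (φ : Additive ↥(Gamma0 (M * q)) →+ ℤ) n)
  rw [expChar_eq_comp, expChar_eq_comp, trB_comp, toMul_cB M q a b hab hq hqM]

/-! ### The Kummer relation -/

/-- **[KPUSH] on the `L`-characters, `α`.** -/
theorem kummer_cA (hq : q.Prime) (hqM : ¬ q ∣ M) {n : ℕ} (φ : Lat (M * q)) {x : JZero (M * q)}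
    (hx : Kappa.KummerRel (Kappa.realQ (M * q)) n x (Lambda.chi (M * q) φ n)) :
    Kappa.KummerRel (Kappa.realQ M) n (Push.pushA M q x) (Lambda.chi M (cA M q φ) n) := by
  rw [chi_cA M q hq hqM]
  exact kummerRel_pushA M q hq hqM (Push.pushA M q) (Push.pushA_mk M q) hx

/-- **[KPUSH] on the `L`-characters, `β`.** -/
theorem kummer_cB (hq : q.Prime) (hqM : ¬ q ∣ M) {n : ℕ} (φ : Lat (M * q)) {x : JZero (M * q)}
    (hx : Kappa.KummerRel (Kappa.realQ (M * q)) n x (Lambda.chi (M * q) φ n)) :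
    Kappa.KummerRel (Kappa.realQ M) n (Push.pushB M q x)
      (Lambda.chi M (cB M q a b hab φ) n) := by
  rw [chi_cB M q a b hab hq hqM]
  exact kummerRel_pushB M q a b hab hq hqM (Push.pushB M q) (Push.pushB_mk M q) hx

end Lat

/-! ### Hecke equivariance from the multiplicative statements -/

section Hecke

variable {M' M : ℕ} [NeZero M'] [NeZero M] {ℓ : ℕ} [Fact ℓ.Prime]

/-- `heckeHom` and `heckeChar` correspond under `toMultiplicativeRight`. -/
theorem toMul_heckeHom {N : ℕ} (hℓN : ¬ ℓ ∣ N) (φ : Additive ↥(Gamma0 N) →+ ℤ) :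
    AddMonoidHom.toMultiplicativeRight ((isCosetFamily_heckeRep N ℓ hℓN).heckeHom φ) =
      TransferChar.heckeChar (isCosetFamily_heckeRep N ℓ hℓN)
        (AddMonoidHom.toMultiplicativeRight φ) := by
  refine MonoidHom.ext fun γ => ?_
  show Multiplicative.ofAdd (∑ i, φ (Additive.ofMul ((isCosetFamily_heckeRep N ℓ hℓN).cof γ i))) =
    ∏ i, Multiplicative.ofAdd (φ (Additive.ofMul ((isCosetFamily_heckeRep N ℓ hℓN).cof γ i)))
  rw [ofAdd_sum]

/-- A lattice map whose multiplicative reading `τ` commutes with the Hecke operators on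
characters commutes with `T^coh_ℓ`. -/
theorem hecke_bridge (hℓ : ℓ.Prime) (hℓM' : ¬ ℓ ∣ M') (hℓM : ¬ ℓ ∣ M)
    (τ : (↥(Gamma0 M') →* Multiplicative ℤ) → (↥(Gamma0 M) →* Multiplicative ℤ))
    (c : Lat M' →+ Lat M)
    (hc : ∀ φ : Lat M', AddMonoidHom.toMultiplicativeRight
        ((c φ : Lat M) : Additive ↥(Gamma0 M) →+ ℤ) =
      τ (AddMonoidHom.toMultiplicativeRight (φ : Additive ↥(Gamma0 M') →+ ℤ)))
    (hτ : ∀ ψ : ↥(Gamma0 M') →* Multiplicative ℤ,
      τ (TransferChar.heckeChar (isCosetFamily_heckeRep M' ℓ hℓM') ψ) =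
        TransferChar.heckeChar (isCosetFamily_heckeRep M ℓ hℓM) (τ ψ))
    (φ : Lat M') :
    c (tcohL M' hℓ hℓM' φ) = tcohL M hℓ hℓM (c φ) := by
  apply Subtype.ext
  apply AddMonoidHom.toMultiplicativeRight.injective
  have e1 : ((tcohL M' hℓ hℓM' φ : Lat M') : Additive ↥(Gamma0 M') →+ ℤ) =
      (isCosetFamily_heckeRep M' ℓ hℓM').heckeHom (φ : Additive ↥(Gamma0 M') →+ ℤ) := rfl
  have e2 : ((tcohL M hℓ hℓM (c φ) : Lat M) : Additive ↥(Gamma0 M) →+ ℤ) =
      (isCosetFamily_heckeRep M ℓ hℓM).heckeHom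
        ((c φ : Lat M) : Additive ↥(Gamma0 M) →+ ℤ) := rfl
  rw [hc, e1, e2, toMul_heckeHom hℓM', toMul_heckeHom hℓM, hτ, hc]

end Hecke

/-! ### The junction -/

section Junction

variable (M q : ℕ) [NeZero M] [NeZero q] (a b : ℤ) (hab : a * q - b * M = 1)

/-- Hecke equivariance of `cA` from the multiplicative [COH-DEGEN] (α). -/
theorem cA_tcohL (hq : q.Prime) (hqM : ¬ q ∣ M) {ℓ : ℕ} [Fact ℓ.Prime] (hℓ : ℓ.Prime)
    (hℓMq : ¬ ℓ ∣ M * q) (hℓM : ¬ ℓ ∣ M)
    (hA : ∀ ψ : ↥(Gamma0 (M * q)) →* Multiplicative ℤ,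
      trA M q hq hqM (TransferChar.heckeChar (isCosetFamily_heckeRep (M * q) ℓ hℓMq) ψ) =
        TransferChar.heckeChar (isCosetFamily_heckeRep M ℓ hℓM) (trA M q hq hqM ψ))
    (φ : Lat (M * q)) :
    cA M q (tcohL (M * q) hℓ hℓMq φ) = tcohL M hℓ hℓM (cA M q φ) :=
  hecke_bridge hℓ hℓMq hℓM (trA M q hq hqM) (cA M q) (toMul_cA M q hq hqM) hA φ

/-- Hecke equivariance of `cB` from the multiplicative [COH-DEGEN] (β). -/
theorem cB_tcohL (hq : q.Prime) (hqM : ¬ q ∣ M) {ℓ : ℕ} [Fact ℓ.Prime] (hℓ : ℓ.Prime)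
    (hℓMq : ¬ ℓ ∣ M * q) (hℓM : ¬ ℓ ∣ M)
    (hB : ∀ ψ : ↥(Gamma0 (M * q)) →* Multiplicative ℤ,
      trB M q a b hab hq hqM
          (TransferChar.heckeChar (isCosetFamily_heckeRep (M * q) ℓ hℓMq) ψ) =
        TransferChar.heckeChar (isCosetFamily_heckeRep M ℓ hℓM) (trB M q a b hab hq hqM ψ))
    (φ : Lat (M * q)) :
    cB M q a b hab (tcohL (M * q) hℓ hℓMq φ) = tcohL M hℓ hℓM (cB M q a b hab φ) :=
  hecke_bridge hℓ hℓMq hℓM (trB M q a b hab hq hqM) (cB M q a b hab)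
    (toMul_cB M q a b hab hq hqM) hB φ

/-- **The [DEGEN] junction** (`S35/Plan.DegenStmt`) from the multiplicative [COH-DEGEN]
statements for `trA` and `trB` with coefficients `Multiplicative ℤ`. -/
theorem degenStmt_of (hq : q.Prime) (hqM : ¬ q ∣ M)
    (hA : ∀ (ℓ : ℕ) [Fact ℓ.Prime] (hℓMq : ¬ ℓ ∣ M * q) (hℓM : ¬ ℓ ∣ M)
      (ψ : ↥(Gamma0 (M * q)) →* Multiplicative ℤ),
      trA M q hq hqM (TransferChar.heckeChar (isCosetFamily_heckeRep (M * q) ℓ hℓMq) ψ) =
        TransferChar.heckeChar (isCosetFamily_heckeRep M ℓ hℓM) (trA M q hq hqM ψ))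
    (hB : ∀ (ℓ : ℕ) [Fact ℓ.Prime] (hℓMq : ¬ ℓ ∣ M * q) (hℓM : ¬ ℓ ∣ M)
      (ψ : ↥(Gamma0 (M * q)) →* Multiplicative ℤ),
      trB M q a b hab hq hqM
          (TransferChar.heckeChar (isCosetFamily_heckeRep (M * q) ℓ hℓMq) ψ) =
        TransferChar.heckeChar (isCosetFamily_heckeRep M ℓ hℓM) (trB M q a b hab hq hqM ψ)) :
    Plan.DegenStmt M q (Push.pushA M q) (Push.pushB M q) := by
  refine ⟨cA M q, cB M q a b hab, fun ℓ hℓ hℓMq hℓM φ => ?_, fun n _ φ x hx => ?_⟩
  · haveI : Fact ℓ.Prime := ⟨hℓ⟩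
    exact ⟨cA_tcohL M q hq hqM hℓ hℓMq hℓM (hA ℓ hℓMq hℓM) φ,
      cB_tcohL M q a b hab hq hqM hℓ hℓMq hℓM (hB ℓ hℓMq hℓM) φ⟩
  · exact ⟨kummer_cA M q hq hqM φ hx, kummer_cB M q a b hab hq hqM φ hx⟩

end Junction

end Fermat.Agent.S35.KPushLat
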