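import Mathlib
import Fermat.Agent.S34.TauAdapt
import Fermat.Agent.S35.FrobRed2

/-!
# S35 — MdFrob [K0-D] (helper21): `FrobRed2` in Plan vocabulary

The Frobenius twin of `S34/TauAdapt.md_eq_bbar` (helper91): everything of `FPlan.K0Stmt` that is
not Galois theory.

* `md_eq_bbar_frob` : **`M(D'')(c) = B̄(c)` for `c` large**, from `Plan.Setup2`, `Plan.CuspReg`,
  `Plan.IsNodes`, Riemann's inequality for `D'`, `D''`, the two power relations, an operator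
  `F₂` of `k((T))` preserving `B_κ` and acting on the nodes `e₁ i`, `e₂ i` as the `Q`-th power,
  and the `φ²`-trick inclusion
  `ρ(L(D'' + cE) ∩ O) · ρ(L(D' + c'E) ∩ O)^Q ⊆ (F₂ × F₂)(ρ(L(D' + (c + Q c')E) ∩ O))`.

(Instance for `FPlan.K0Stmt`: `D' = D`, `D'' = σ²D − q²D`, `F₂` = coefficientwise `x ↦ x^(q²)`,
`Q = q²`.)
-/

set_option autoImplicit false

noncomputable section

namespace Fermat.Agent.S35.MdFrob

open ModularCurve AlgebraicCurve Module Fermat.Agent.S24 Fermat.Agent.S18.Content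
  Fermat.Agent.S18.Plan Fermat.Agent.S18.WJCalc Fermat.Agent.S34.Plan Fermat.Agent.S34.LiftCore2
  Fermat.Agent.S34.TauAdapt

variable {A : ValuationSubring Kbar} {N q M : ℕ} [NeZero N] [NeZero q] {hqN : q ∣ N}
  {O : Subring Om} {ρ : O →+* R2 A}

set_option synthInstance.maxHeartbeats 400000 in
set_option maxHeartbeats 2000000 in
/-- **[K0-D]** `M(D'')(c) = B̄(c)` for `c` large: `Plan.Setup2`, `Plan.CuspReg`, `Plan.IsNodes`,
Riemann's inequality for `D'`, `D''`, the power relations `sⁿ u ∈ L(ncE)` (`s ∈ L(D' + cE)`,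
`ρ u` a pair of nonzero constants) and `sⁿ w ∈ L(ncE)` (`s ∈ L(D'' + cE)`, `ρ w = 1`), an
operator `F₂` preserving `B_κ` which acts on the nodes as the `Q`-th power, and the `φ²`-trick
inclusion `ρ(s · t^Q) ∈ (F₂ × F₂)(ρ(L(D' + (c + Q c')E) ∩ O))` for `s ∈ L(D'' + cE) ∩ O`,
`t ∈ L(D' + c'E) ∩ O`. -/
theorem md_eq_bbar_frob (hS : Setup2 A N q M hqN O ρ) (hCR : CuspReg A N q M hqN O ρ)
    (hRR0 : RR0 N (M * q))
    (hWfin : ∀ m, Module.Finite (kk A) (WJ (kk A) (Fk A M) m))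
    (E : Divisor Kbar (FN N)) (hE : IsE N q hqN E)
    {ι : Type} [Fintype ι] (e₁ e₂ : ι → (BK A M →ₐ[kk A] kk A))
    (hnodes : IsNodes A N q M O ρ E e₁ e₂)
    (D' D'' : Divisor Kbar (FN N))
    (hRD' : ∃ c₀ : ℕ, ∀ c : ℕ, c₀ ≤ c → finrank Kbar (pullRR N (M * q) (c • E)) ≤
      finrank Kbar (pullRR N (M * q) (D' + c • E)))
    (hRD'' : ∃ c₀ : ℕ, ∀ c : ℕ, c₀ ≤ c → finrank Kbar (pullRR N (M * q) (c • E)) ≤
      finrank Kbar (pullRR N (M * q) (D'' + c • E)))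
    (n : ℕ) (hn : 0 < n) (u w : O) (c₁ c₂ : kk A) (hc₁ : c₁ ≠ 0) (hc₂ : c₂ ≠ 0)
    (hρu : ρ u = (HahnSeries.C c₁, HahnSeries.C c₂)) (hρw : ρ w = 1)
    (hpow' : ∀ c : ℕ, ∀ s ∈ pullRR N (M * q) (D' + c • E),
      s ^ n * (u : Om) ∈ pullRR N (M * q) ((n * c) • E))
    (hpow'' : ∀ c : ℕ, ∀ s ∈ pullRR N (M * q) (D'' + c • E),
      s ^ n * (w : Om) ∈ pullRR N (M * q) ((n * c) • E))
    (F₂ : Omk A → Omk A) (hF₂B : ∀ a ∈ BK A M, F₂ a ∈ BK A M) (Q : ℕ)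
    (hF : ∀ (i : ι) (a : BK A M),
      e₁ i ⟨F₂ a, hF₂B a a.2⟩ = e₁ i a ^ Q ∧ e₂ i ⟨F₂ a, hF₂B a a.2⟩ = e₂ i a ^ Q)
    (hφ : ∀ (c c' : ℕ) (s t : O), (s : Om) ∈ pullRR N (M * q) (D'' + c • E) →
      (t : Om) ∈ pullRR N (M * q) (D' + c' • E) →
      ∃ y ∈ redSet O ρ (pullRR N (M * q) (D' + (c + Q * c') • E)),
        ρ (s * t ^ Q) = (F₂ y.1, F₂ y.2)) :
    ∃ c₀ : ℕ, ∀ c : ℕ, c₀ ≤ c → MD N q M O ρ E D'' c = Bbar N q M O ρ E c := by
  classical
  have hdec : DecidableEq (Pt' A M) := Classical.decEq _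
  have h := redData hS
  obtain ⟨cCR, hCR⟩ := hCR E hE
  obtain ⟨cR', hR'⟩ := hRD'
  obtain ⟨cR'', hR''⟩ := hRD''
  obtain ⟨he₁, he₂, hnode⟩ := hnodes
  -- the node data in raw form, transported to `BK'`
  let f₁ : ι → Pt' A M := fun i => pt' A M (e₁ i)
  let f₂ : ι → Pt' A M := fun i => pt' A M (e₂ i)
  have hf₁ : Function.Injective f₁ := (pt'_injective A M).comp he₁
  have hf₂ : Function.Injective f₂ := (pt'_injective A M).comp he₂
  let Z : Finset (Pt' A M) := Finset.univ.image f₁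
  let θ : Pt' A M → Pt' A M :=
    fun z => if hz : ∃ i, f₁ i = z then f₂ (Classical.choose hz) else z
  have hθe : ∀ i, θ (f₁ i) = f₂ i := by
    intro i
    have hex : ∃ i', f₁ i' = f₁ i := ⟨i, rfl⟩
    show (if hz : ∃ i', f₁ i' = f₁ i then f₂ (Classical.choose hz) else f₁ i) = f₂ i
    rw [dif_pos hex, hf₁ (Classical.choose_spec hex)]
  have hθ : Set.InjOn θ (Z : Set (Pt' A M)) := by
    intro z hz z' hz' hzz'
    obtain ⟨i, -, rfl⟩ := Finset.mem_image.1 (Finset.mem_coe.1 hz)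
    obtain ⟨i', -, rfl⟩ := Finset.mem_image.1 (Finset.mem_coe.1 hz')
    rw [hθe, hθe] at hzz'
    rw [hf₂ hzz']
  have hnode' : ∀ a b : BK' A M,
      (∃ c : ℕ, ((a : Omk A), (b : Omk A)) ∈ redSp2 h (pullRR N (M * q) (c • E))) ↔
        ∀ z ∈ Z, z a = θ z b := by
    intro a b
    have hn := hnode ⟨a.1, a.2⟩ ⟨b.1, b.2⟩
    constructor
    · intro hab z hz
      obtain ⟨i, -, rfl⟩ := Finset.mem_image.1 hz
      rw [hθe]
      exact hn.1 hab i
    · intro hab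
      refine hn.2 fun i => ?_
      have := hab (f₁ i) (Finset.mem_image_of_mem f₁ (Finset.mem_univ i))
      rw [hθe] at this
      exact this
  have hρw' : ρ w = (HahnSeries.C (1 : kk A), HahnSeries.C (1 : kk A)) := by
    rw [hρw, map_one]
    rfl
  have hWB : ∀ x : R2 A, (x.1 ∈ BK' A M ∧ x.2 ∈ BK' A M) ↔ ∃ c, x ∈ WWs A q M c :=
    mem_BK_prod_iff A q M
  have hF₂B' : ∀ a ∈ BK' A M, F₂ a ∈ BK' A M := fun a ha => hF₂B a ha
  obtain ⟨c₁', -, -, hc₁'⟩ := @Fermat.Agent.S35.FrobRed2.exists_redSp_V''_eq_frob Kbar Om (kk A)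
    (Omk A) _ _ HahnSeries.instAlgebra _ _ HahnSeries.instAlgebra A (IsLocalRing.residue A) O ρ
    h (FF (M * q)) (hasDim hS) (BK' A M)
    (fun c => pullRR N (M * q) (c • E)) (fun c => pullRR N (M * q) (D' + c • E))
    (fun c => pullRR N (M * q) (D'' + c • E))
    (fun c => (hRR0 _).1) (fun c => (hRR0 _).1) (fun c => (hRR0 _).1)
    (fun c => pullRR_le_FF _ _ _) (fun c => pullRR_le_FF _ _ _) (fun c => pullRR_le_FF _ _ _)
    (pullRR_add_smul_mono hE D' (M * q))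
    (WWs A q M) (WWs_mono A q M) (finite_WWs A q M hWfin) hWB
    n hn.ne' u c₁ c₂ hc₁ hc₂ hρu hpow'
    F₂ hF₂B' Q hφ
    (fun c x hx => by
      obtain ⟨y, hy, rfl⟩ := hx
      exact hS.incl E hE c y hy)
    (fun c x hx => by
      obtain ⟨y, hy, rfl⟩ := hx
      exact incl_of_pow hS E hE D' hn u hc₁ hc₂ hρu hpow' c y hy)
    (fun c x hx => by
      obtain ⟨y, hy, rfl⟩ := hx
      exact incl_of_pow hS E hE D'' hn w one_ne_zero one_ne_zero hρw' hpow'' c y hy)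
    cCR
    (fun c hc c' x hx => by
      rcases le_total c c' with hcc' | hcc'
      · exact hCR c hc c' hcc' ⟨hx.1, hx.2⟩
      · exact redSp2_mono h (pullRR_smul_mono hE (M * q) hcc') hx.1)
    Z θ hθ hnode'
    (fun z hz a => by
      obtain ⟨i, -, rfl⟩ := Finset.mem_image.1 hz
      rw [hθe]
      exact hF i ⟨a.1, a.2⟩)
    (max cR' cR'')
    (fun c hc => hR' c ((le_max_left _ _).trans hc))
    (fun c hc => hR'' c ((le_max_right _ _).trans hc))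
  refine ⟨c₁', fun c hc => ?_⟩
  have := hc₁' c hc
  exact congrArg (fun W : Submodule (kk A) (R2 A) => (W : Set (R2 A))) this

end Fermat.Agent.S35.MdFrob
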