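import Mathlib
import Fermat.Agent.S35.FPlan
import Fermat.Agent.P5.CoreInertia
import Fermat.Agent.S18.Char0

/-!
# S35 / (F) — [NEW-K0] piece (P4) (helper50): the divisor data of `(σ² f / f) · Gⁿ`

For `div f = n • D₀`, `deg D₀ = 0` and any `G ≠ 0` of `F_{N' q}`, the divisor
`D' := (σ² - 1) D₀ + div G` has degree `0`, is linearly equivalent to `(σ² - 1) D₀ = newDiv σ D₀`,
and `div ((σ² f / f) · Gⁿ) = n • D'`.

* `degree_of_ord`      : a divisor with `D P = ord_P H` (`H ≠ 0`) has degree `0`;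
* `ord_newRatio`       : `ord_P (σ² f / f) = n · (newDiv σ D₀) P`;
* `exists_newDiv_data` : the statement above (the divisor half of `FPlan.NewK0`).
-/

set_option autoImplicit false
set_option synthInstance.maxHeartbeats 400000
set_option maxHeartbeats 1000000

noncomputable section

namespace Fermat.Agent.S35.NewDivData

open ModularCurve AlgebraicCurve Fermat.Agent.S24 Fermat.Agent.S18.Content Fermat.Agent.S18.Plan
open Fermat.Agent.S34

/-- A divisor of `F_N` given by the orders of a nonzero function has degree `0`. -/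
theorem degree_of_ord (N : ℕ) [NeZero N] (D : Divisor Kbar (FN N)) (H : FN N) (hH : H ≠ 0)
    (hD : ∀ P : Place Kbar (FN N), D P = P.ord H) : Divisor.degree D = 0 := by
  obtain ⟨D₁, hD₁, hdeg⟩ := Fermat.Agent.S18.Char0.exists_divisor N H hH
  have e : D = D₁ := Finsupp.ext fun P => by rw [hD P, hD₁ P]
  rw [e, hdeg]

/-- `ord_P (σ² f / f) = n · ((σ² - 1) D₀) P` if `div f = n • D₀`. -/
theorem ord_newRatio (N' q : ℕ) [NeZero N'] [NeZero q] (σ : Kbar ≃ₐ[ℚ] Kbar)
    (D₀ : Divisor Kbar (FN (N' * q))) (n : ℕ) (f : FN (N' * q)) (hf : f ≠ 0)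
    (hfD : ∀ P : Place Kbar (FN (N' * q)), P.ord f = n * D₀ P)
    (P : Place Kbar (FN (N' * q))) :
    P.ord ((Plan.gal (N' * q) σ • Plan.gal (N' * q) σ • f) * f⁻¹) =
      n * FPlan.newDiv N' q σ D₀ P := by
  have h := Fermat.Agent.P5.CoreInertia.smul_sub_apply_eq_ord
    (Plan.gal (N' * q) σ * Plan.gal (N' * q) σ) hf n D₀
    (fun P => by rw [Finsupp.smul_apply, nsmul_eq_mul, hfD P]) P
  rw [mul_smul, mul_smul] at h
  rw [← h, Finsupp.smul_apply, nsmul_eq_mul]
  rfl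

/-- **(P4)** the divisor data of `u = (σ² f / f) · Gⁿ`: `D' := newDiv σ D₀ + div G`. -/
theorem exists_newDiv_data (N' q : ℕ) [NeZero N'] [NeZero q] (σ : Kbar ≃ₐ[ℚ] Kbar)
    (D₀ : Divisor Kbar (FN (N' * q))) (n : ℕ) (hdeg : Divisor.degree D₀ = 0)
    (f : FN (N' * q)) (hf : f ≠ 0)
    (hfD : ∀ P : Place Kbar (FN (N' * q)), P.ord f = n * D₀ P)
    (G : FN (N' * q)) (hG : G ≠ 0) :
    ∃ D' : Divisor Kbar (FN (N' * q)), Divisor.degree D' = 0 ∧
      D' - FPlan.newDiv N' q σ D₀ ∈ Divisor.principal (K := Kbar) (F := FN (N' * q)) ∧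
      ∀ P : Place Kbar (FN (N' * q)),
        P.ord ((Plan.gal (N' * q) σ • Plan.gal (N' * q) σ • f) * f⁻¹ * G ^ n) = n * D' P := by
  obtain ⟨DG, hDG, hDGdeg⟩ := Fermat.Agent.S18.Char0.exists_divisor (N' * q) G hG
  refine ⟨FPlan.newDiv N' q σ D₀ + DG, ?_, ?_, fun P => ?_⟩
  · rw [map_add, FPlan.degree_newDiv σ D₀ hdeg, hDGdeg, add_zero]
  · rw [add_sub_cancel_left]
    exact ⟨G, hG, hDG⟩
  · have hgf : Plan.gal (N' * q) σ • Plan.gal (N' * q) σ • f ≠ 0 := by
      rw [Ne, smul_eq_zero_iff_eq, smul_eq_zero_iff_eq]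
      exact hf
    have hne : (Plan.gal (N' * q) σ • Plan.gal (N' * q) σ • f) * f⁻¹ ≠ 0 :=
      mul_ne_zero hgf (inv_ne_zero hf)
    have hpow : P.ord (G ^ n) = n * P.ord G := by
      have := Place.ord_zpow P G (n : ℤ)
      rwa [zpow_natCast] at this
    rw [Place.ord_mul P hne (pow_ne_zero n hG), ord_newRatio N' q σ D₀ n f hf hfD P, hpow,
      Finsupp.add_apply, hDG P]
    ring

end Fermat.Agent.S35.NewDivData

end
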