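/-
P6 / S35 leaf [NEW-K0 piece (P1) N-PUSH] (helper33): norms along the two degeneracy maps of a
function whose divisor is `n • D₀` with `α_* D₀` (resp. `β_* D₀`) principal.

If `div f = n • D₀` on `F_{N' q}` and `α_* D₀ = div h` on `F_{N'}`, then
`N_α f = c · h ^ n` with a constant `c ≠ 0` (norm formula + a function without zeros and poles is a
constant); the same for `β`.

* `norm_eq_const_mul_pow_along` : the generic statement along a homomorphism of function fields;
* `norm_alpha_eq`, `norm_beta_eq` : the two instances (norm in the spelling of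
  `NormTwo.red_norm_alpha` / `red_norm_beta`);
* `push_alpha_principal`, `push_beta_principal` : the push-forward of a principal divisor is
  principal.
-/
import Mathlib
import Fermat.Agent.S37.HeckeInputs
import Fermat.Agent.P5.Kappa.Unique

set_option autoImplicit false
set_option linter.style.haveILetI false

noncomputable section

namespace Fermat.Agent.S35.NormPush

open ModularCurve AlgebraicCurve Fermat.Agent.S24

section Generic

variable {K F F' : Type*} [Field K] [Field F] [Field F'] [Algebra K F] [Algebra K F']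

/-- `ord (a ^ m) = m * ord a`. -/
theorem ord_pow' (P : Place K F) (a : F) (m : ℕ) : P.ord (a ^ m) = m * P.ord a := by
  have := P.ord_zpow a (m : ℤ)
  rwa [zpow_natCast] at this

/-- **Norm of a function with divisor `n • D₀`, along `φ : F → F'`.**  If `div f = n • D₀` and the
push-forward `φ_* D₀` is the divisor of `h`, then `N_φ f = c · h ^ n` for a constant `c ≠ 0`. -/
theorem norm_eq_const_mul_pow_along [IsAlgClosed K] [CharZero K] [IsFF1 K F]
    (φ : F →ₐ[K] F') (hφ : φ.toRingHom.IsIntegral) (hfin : FiniteAlong K φ)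
    (hN : NormFormulaAlong K φ hfin)
    (D₀ : Divisor K F') (n : ℕ) (f : F') (hf : f ≠ 0)
    (hfD : ∀ P : Place K F', P.ord f = n * D₀ P)
    (hpush : Divisor.pushforwardAlong φ hφ D₀ ∈ Divisor.principal (K := K) (F := F)) :
    ∃ (c : K) (h : F), c ≠ 0 ∧ h ≠ 0 ∧
      (@Algebra.norm F F' _ _ (algebraAlong φ) f : F) = algebraMap K F c * h ^ n := by
  letI := algebraAlong φ
  haveI := isScalarTower_along φ
  haveI := isIntegral_along φ hφ
  haveI : Module.Finite F F' := hfin
  obtain ⟨h, hh0, hh⟩ := hpush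
  have hNf0 : Algebra.norm F f ≠ 0 := Algebra.norm_ne_zero_iff.mpr hf
  have hpow0 : h ^ n ≠ 0 := pow_ne_zero n hh0
  have h1 : ∀ v : Place K F, Divisor.pushforward F (n • D₀) v = v.ord (Algebra.norm F f) :=
    hN f hf (n • D₀) (fun w => by
      rw [hfD w, Finsupp.smul_apply, nsmul_eq_mul])
  have h2 : ∀ v : Place K F, v.ord (Algebra.norm F f * (h ^ n)⁻¹) = 0 := by
    intro v
    have e1 : Divisor.pushforward F (n • D₀) v = n * v.ord h := by
      rw [map_nsmul, Finsupp.smul_apply, nsmul_eq_mul]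
      congr 1
      exact hh v
    rw [Place.ord_mul v hNf0 (inv_ne_zero hpow0), Place.ord_inv, ord_pow', ← h1 v, e1]
    ring
  obtain ⟨c, hc⟩ := Fermat.Agent.P5.Kappa.exists_const_of_ord_eq_zero h2
  refine ⟨c, h, ?_, hh0, ?_⟩
  · rintro rfl
    rw [map_zero] at hc
    exact mul_ne_zero hNf0 (inv_ne_zero hpow0) hc
  · rw [← hc, mul_assoc, inv_mul_cancel₀ hpow0, mul_one]

end Generic

section Levels

variable (N' q : ℕ) [NeZero N'] [NeZero q]

/-- **(P1), `α`.** If `div f = n • D₀` on `F_{N' q}` and `α_* D₀` is principal, then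
`N_α f = c · h ^ n` with `c ≠ 0` a constant and `h ≠ 0` in `F_{N'}`. -/
theorem norm_alpha_eq (D₀ : Divisor Kbar (FN (N' * q))) (n : ℕ) (f : FN (N' * q)) (hf : f ≠ 0)
    (hfD : ∀ P : Place Kbar (FN (N' * q)), P.ord f = n * D₀ P)
    (hα : Divisor.pushforwardAlong (heckeAlphaBar Kbar N' q)
        (Fermat.Agent.S37.HeckeInputs.heckeAlphaBarIntegral N' q) D₀ ∈
      Divisor.principal (K := Kbar) (F := FN N')) :
    ∃ (c : Kbar) (h : FN N'), c ≠ 0 ∧ h ≠ 0 ∧
      (@Algebra.norm (FN N') (FN (N' * q)) _ _ (algebraAlong (heckeAlphaBar Kbar N' q)) f : FN N')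
        = algebraMap Kbar (FN N') c * h ^ n := by
  haveI : IsFF1 Kbar (FN N') := Fermat.Agent.S37.HeckeInputs.isFF1_FN N'
  exact norm_eq_const_mul_pow_along (heckeAlphaBar Kbar N' q)
    (Fermat.Agent.S37.HeckeInputs.heckeAlphaBarIntegral N' q)
    (Fermat.Agent.S37.HeckeInputs.finiteAlong_alpha N' q)
    (Fermat.Agent.S37.HeckeInputs.normFormulaAlong_alpha N' q) D₀ n f hf hfD hα

/-- **(P1), `β`.** If `div f = n • D₀` on `F_{N' q}` and `β_* D₀` is principal, then
`N_β f = c · h ^ n` with `c ≠ 0` a constant and `h ≠ 0` in `F_{N'}`. -/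
theorem norm_beta_eq (D₀ : Divisor Kbar (FN (N' * q))) (n : ℕ) (f : FN (N' * q)) (hf : f ≠ 0)
    (hfD : ∀ P : Place Kbar (FN (N' * q)), P.ord f = n * D₀ P)
    (hβ : Divisor.pushforwardAlong (heckeBetaBar Kbar N' q)
        (Fermat.Agent.S37.HeckeInputs.heckeBetaBarIntegral N' q) D₀ ∈
      Divisor.principal (K := Kbar) (F := FN N')) :
    ∃ (c : Kbar) (h : FN N'), c ≠ 0 ∧ h ≠ 0 ∧
      (@Algebra.norm (FN N') (FN (N' * q)) _ _ (algebraAlong (heckeBetaBar Kbar N' q)) f : FN N')
        = algebraMap Kbar (FN N') c * h ^ n := by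
  haveI : IsFF1 Kbar (FN N') := Fermat.Agent.S37.HeckeInputs.isFF1_FN N'
  exact norm_eq_const_mul_pow_along (heckeBetaBar Kbar N' q)
    (Fermat.Agent.S37.HeckeInputs.heckeBetaBarIntegral N' q)
    (Fermat.Agent.S37.HeckeInputs.finiteAlong_beta N' q)
    (Fermat.Agent.S37.HeckeInputs.normFormulaAlong_beta N' q) D₀ n f hf hfD hβ

/-- The push-forward along `α` of a principal divisor is principal. -/
theorem push_alpha_principal (D : Divisor Kbar (FN (N' * q)))
    (hD : D ∈ Divisor.principal (K := Kbar) (F := FN (N' * q))) :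
    Divisor.pushforwardAlong (heckeAlphaBar Kbar N' q)
        (Fermat.Agent.S37.HeckeInputs.heckeAlphaBarIntegral N' q) D ∈
      Divisor.principal (K := Kbar) (F := FN N') :=
  Divisor.isPrincipal_pushforwardAlong _ _ (Fermat.Agent.S37.HeckeInputs.finiteAlong_alpha N' q)
    (Fermat.Agent.S37.HeckeInputs.normFormulaAlong_alpha N' q) hD

/-- The push-forward along `β` of a principal divisor is principal. -/
theorem push_beta_principal (D : Divisor Kbar (FN (N' * q)))
    (hD : D ∈ Divisor.principal (K := Kbar) (F := FN (N' * q))) :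
    Divisor.pushforwardAlong (heckeBetaBar Kbar N' q)
        (Fermat.Agent.S37.HeckeInputs.heckeBetaBarIntegral N' q) D ∈
      Divisor.principal (K := Kbar) (F := FN N') :=
  Divisor.isPrincipal_pushforwardAlong _ _ (Fermat.Agent.S37.HeckeInputs.finiteAlong_beta N' q)
    (Fermat.Agent.S37.HeckeInputs.normFormulaAlong_beta N' q) hD

end Levels

end Fermat.Agent.S35.NormPush

end
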