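import Mathlib
import Fermat.Agent.S34.ValLiftInst
import Fermat.Agent.S18.Red
import Fermat.Agent.S18.PullStep

/-!
# S35 / (F) — [RED-SURJ-N]: surjectivity of the two-component reduction on `F_{N' q}` (helper94)

For the two-component reduction `(O, ρ)` of `F_{M q}` (`S34/Plan.Setup2`) every pair
`(a, b) ∈ F_{N',k} × F_{N',k}` is `ρ H` for some `H ∈ F_{N' q} ∩ O`:

  `H := e · h_a + (1 - e) · h_b(T^q)`,  `e := z / (z + x)`,  `z = j - j_q^q`, `x = j_q - j^q`,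

with `h_a, h_b ∈ F_{N'} ∩ Ocal` lifting `a, b` (S18 `RedStmt` (c)), `ρ e = (1, 0)`.

* abstract form: any `(O, ρ)` with the three `Setup2` fields `ρ_j`, `ρ_jq`, `inv_mem` and
  `ValLift.HV5`, `ValLift.HV5'`;
* `Setup2` form;
* concrete form for `(Val.O2 A M q σ, Val.Red A M q σ)`, from `Levels`, `LiesOverPrime`, `IsAL`.
-/

set_option autoImplicit false

noncomputable section

namespace Fermat.Agent.S35.RedSurjN

open ModularCurve AlgebraicCurve Fermat.Agent.S24 Fermat.Agent.S18.Content Fermat.Agent.S18.Plan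
open Fermat.Agent.S18 Fermat.Agent.S34.Plan Fermat.Agent.S34

/-! ### `j̄ ≠ j̄^(q²)` -/

/-- `j̄ - j̄^n ≠ 0` for `n ≥ 2` (orders at `T = 0`). -/
theorem jq_sub_pow_ne_zero (κ : Type) [Field κ] {n : ℕ} (hn : 2 ≤ n) :
    jqModC κ - jqModC κ ^ n ≠ 0 := by
  intro h
  have hj : jqModC κ ≠ 0 := WJPlaces.jqModC_ne_zero κ
  have h1 : jqModC κ = jqModC κ ^ n := sub_eq_zero.mp h
  have h2 : (jqModC κ)⁻¹ = ((jqModC κ)⁻¹) ^ n := by
    rw [inv_pow, ← h1]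
  have h3 := congrArg HahnSeries.order h2
  rw [HahnSeries.order_pow, WJCalc.order_inv_j] at h3
  have h4 : (1 : ℤ) = n := by simpa using h3
  have h5 : (2 : ℤ) ≤ n := by exact_mod_cast hn
  omega

section Abstract

variable (A : ValuationSubring Kbar) (q M N' : ℕ) [NeZero q] [NeZero M] [NeZero N']
variable (O : Subring Om) (ρ : O →+* R2 A)

omit [NeZero M] in
/-- **The idempotent lift**: `e = z / (z + x) ∈ F_{N' q} ∩ O` with `ρ e = (1, 0)`. -/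
theorem exists_e_of (hq : 2 ≤ q)
    (hρj : ∃ h : (jK : Om) ∈ O, ρ ⟨_, h⟩ = (jk A, jk A ^ q))
    (hρjq : ∃ h : (qExpand Kbar q jK : Om) ∈ O, ρ ⟨_, h⟩ = (jk A ^ q, jk A))
    (hinv : ∀ g : O, (ρ g).1 ≠ 0 → (ρ g).2 ≠ 0 → ((g : Om))⁻¹ ∈ O) :
    ∃ e : Om, e ∈ modularFunctionFieldBar (N' * q) ∧ ∃ he : e ∈ O, ρ ⟨e, he⟩ = (1, 0) := by
  obtain ⟨hj, hρj'⟩ := hρj
  obtain ⟨hjq, hρjq'⟩ := hρjq
  have hu : jk A - jk A ^ (q ^ 2) ≠ 0 :=
    jq_sub_pow_ne_zero (kk A) (by nlinarith)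
  -- `z`, `x` as elements of `O`
  set z : O := ⟨jK, hj⟩ - ⟨qExpand Kbar q jK, hjq⟩ ^ q with hz
  set x : O := ⟨qExpand Kbar q jK, hjq⟩ - ⟨jK, hj⟩ ^ q with hx
  have hρz : ρ z = (jk A - jk A ^ (q ^ 2), 0) := by
    rw [hz, map_sub, map_pow, hρj', hρjq']
    refine Prod.ext ?_ ?_
    · show jk A - (jk A ^ q) ^ q = jk A - jk A ^ (q ^ 2)
      rw [← pow_mul, sq]
    · show jk A ^ q - jk A ^ q = 0
      exact sub_self _
  have hρx : ρ x = (0, jk A - jk A ^ (q ^ 2)) := by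
    rw [hx, map_sub, map_pow, hρj', hρjq']
    refine Prod.ext ?_ ?_
    · show jk A ^ q - jk A ^ q = 0
      exact sub_self _
    · show jk A - (jk A ^ q) ^ q = jk A - jk A ^ (q ^ 2)
      rw [← pow_mul, sq]
  have hρs : ρ (z + x) = (jk A - jk A ^ (q ^ 2), jk A - jk A ^ (q ^ 2)) := by
    rw [map_add, hρz, hρx]
    refine Prod.ext ?_ ?_
    · show jk A - jk A ^ (q ^ 2) + 0 = _
      rw [add_zero]
    · show 0 + (jk A - jk A ^ (q ^ 2)) = _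
      rw [zero_add]
  have hs1 : (ρ (z + x)).1 ≠ 0 := by rw [hρs]; exact hu
  have hs2 : (ρ (z + x)).2 ≠ 0 := by rw [hρs]; exact hu
  have hsinv : (((z + x : O) : Om))⁻¹ ∈ O := hinv (z + x) hs1 hs2
  -- `z + x ≠ 0` and the inverse in `O`
  have hs0 : ((z + x : O) : Om) ≠ 0 := by
    intro h0
    have h0' : (z + x : O) = 0 := Subtype.ext h0
    rw [h0', map_zero] at hs1
    exact hs1 rfl
  set s' : O := ⟨_, hsinv⟩ with hs'
  have hmul : (z + x) * s' = 1 := Subtype.ext (mul_inv_cancel₀ hs0)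
  have hρs' : ρ s' = ((jk A - jk A ^ (q ^ 2))⁻¹, (jk A - jk A ^ (q ^ 2))⁻¹) := by
    have h1 := congrArg ρ hmul
    rw [map_mul, map_one, hρs] at h1
    have h11 : (jk A - jk A ^ (q ^ 2)) * (ρ s').1 = 1 := congrArg Prod.fst h1
    have h12 : (jk A - jk A ^ (q ^ 2)) * (ρ s').2 = 1 := congrArg Prod.snd h1
    refine Prod.ext ?_ ?_
    · exact eq_inv_of_mul_eq_one_right h11
    · exact eq_inv_of_mul_eq_one_right h12
  -- membership in `F_{N' q}`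
  have hjF : (jK : Om) ∈ modularFunctionFieldBar (N' * q) :=
    Val.mem_top N' q (Val.jK_mem_level N')
  have hjqF : (qExpand Kbar q jK : Om) ∈ modularFunctionFieldBar (N' * q) :=
    Val.qExpand_mem_top N' q (Val.jK_mem_level N')
  have hzF : ((z : O) : Om) ∈ modularFunctionFieldBar (N' * q) :=
    sub_mem hjF (pow_mem hjqF q)
  have hxF : ((x : O) : Om) ∈ modularFunctionFieldBar (N' * q) :=
    sub_mem hjqF (pow_mem hjF q)
  refine ⟨((z * s' : O) : Om), ?_, (z * s').2, ?_⟩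
  · exact mul_mem hzF ((modularFunctionFieldBar (N' * q)).inv_mem (add_mem hzF hxF))
  · show ρ (z * s') = (1, 0)
    rw [map_mul, hρz, hρs']
    refine Prod.ext ?_ ?_
    · exact mul_inv_cancel₀ hu
    · exact zero_mul _

/-- **[RED-SURJ-N]**, abstract form: every pair `(a, b)` of elements of `F_{N',k}` is the
two-component reduction of an element of `F_{N' q} ∩ O`. -/
theorem redSurjN_of (hq : 2 ≤ q) (hN'M : N' ∣ M)
    (hρj : ∃ h : (jK : Om) ∈ O, ρ ⟨_, h⟩ = (jk A, jk A ^ q))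
    (hρjq : ∃ h : (qExpand Kbar q jK : Om) ∈ O, ρ ⟨_, h⟩ = (jk A ^ q, jk A))
    (hinv : ∀ g : O, (ρ g).1 ≠ 0 → (ρ g).2 ≠ 0 → ((g : Om))⁻¹ ∈ O)
    (hsurj : ∀ x : Omk A, x ∈ Fk A N' →
      ∃ y : Ocal A, (y : Om) ∈ modularFunctionFieldBar N' ∧ red A y = x)
    (h5 : ValLift.HV5 A q M O ρ) (h5' : ValLift.HV5' A q M O ρ) :
    ∀ a b : Omk A, a ∈ Fk A N' → b ∈ Fk A N' →
      ∃ H : FN (N' * q), ∃ hH : (H : Om) ∈ O, ρ ⟨_, hH⟩ = (a, b) := by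
  intro a b ha hb
  obtain ⟨e, heF, he, hρe⟩ := exists_e_of A q N' O ρ hq hρj hρjq hinv
  obtain ⟨ya, hyaF, hya⟩ := hsurj a ha
  obtain ⟨yb, hybF, hyb⟩ := hsurj b hb
  obtain ⟨hha, hρa⟩ := h5 (ya : Om) (PullStep.bar_le hN'M hyaF) ya.2
  obtain ⟨hhb, hρb⟩ := h5' (yb : Om) (PullStep.bar_le hN'M hybF) yb.2
  have hρa' : ρ ⟨(ya : Om), hha⟩ = (a, qExpand (kk A) q a) := by
    rw [hρa]
    exact Prod.ext hya (congrArg (qExpand (kk A) q) hya)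
  have hρb' : (ρ ⟨qExpand Kbar q (yb : Om), hhb⟩).2 = b := hρb.trans hyb
  set E : O := ⟨e, he⟩ with hE
  set Ya : O := ⟨(ya : Om), hha⟩ with hYa
  set Yb : O := ⟨qExpand Kbar q (yb : Om), hhb⟩ with hYb
  have hF : ((E * Ya + (1 - E) * Yb : O) : Om) ∈ modularFunctionFieldBar (N' * q) := by
    refine add_mem (mul_mem heF (Val.mem_top N' q hyaF))
      (mul_mem (sub_mem (one_mem _) heF) (Val.qExpand_mem_top N' q hybF))
  refine ⟨⟨_, hF⟩, (E * Ya + (1 - E) * Yb).2, ?_⟩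
  show ρ (E * Ya + (1 - E) * Yb) = (a, b)
  rw [map_add, map_mul, map_mul, map_sub, map_one, hρe, hρa']
  refine Prod.ext ?_ ?_
  · show 1 * a + (1 - 1) * (ρ Yb).1 = a
    rw [one_mul, sub_self, zero_mul, add_zero]
  · show 0 * qExpand (kk A) q a + (1 - 0) * (ρ Yb).2 = b
    rw [zero_mul, zero_add, sub_zero, one_mul, hρb']

/-- [RED-SURJ-N] with `H ≠ 0` (helper16's `RedSurjN` shape). -/
theorem redSurjN_ne_of (hq : 2 ≤ q) (hN'M : N' ∣ M)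
    (hρj : ∃ h : (jK : Om) ∈ O, ρ ⟨_, h⟩ = (jk A, jk A ^ q))
    (hρjq : ∃ h : (qExpand Kbar q jK : Om) ∈ O, ρ ⟨_, h⟩ = (jk A ^ q, jk A))
    (hinv : ∀ g : O, (ρ g).1 ≠ 0 → (ρ g).2 ≠ 0 → ((g : Om))⁻¹ ∈ O)
    (hsurj : ∀ x : Omk A, x ∈ Fk A N' →
      ∃ y : Ocal A, (y : Om) ∈ modularFunctionFieldBar N' ∧ red A y = x)
    (h5 : ValLift.HV5 A q M O ρ) (h5' : ValLift.HV5' A q M O ρ) :
    ∀ a b : Omk A, a ∈ Fk A N' → b ∈ Fk A N' → a ≠ 0 → b ≠ 0 →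
      ∃ H : FN (N' * q), H ≠ 0 ∧ ∃ hH : (H : Om) ∈ O, ρ ⟨_, hH⟩ = (a, b) := by
  intro a b ha hb ha0 _
  obtain ⟨H, hH, hρ⟩ := redSurjN_of A q M N' O ρ hq hN'M hρj hρjq hinv hsurj h5 h5' a b ha hb
  refine ⟨H, ?_, hH, hρ⟩
  intro h0
  have h2 : (H : Om) = 0 := by rw [h0]; rfl
  have h1 : (⟨(H : Om), hH⟩ : O) = 0 := Subtype.ext h2
  rw [h1, map_zero] at hρ
  exact ha0 (congrArg Prod.fst hρ).symm

end Abstract

/-! ### `Setup2` form -/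

section Setup

variable (A : ValuationSubring Kbar) {q M N' N : ℕ} [NeZero q] [NeZero N]
variable {O : Subring Om} {ρ : O →+* R2 A}

omit [NeZero q] [NeZero N] in
/-- `N' ∣ M` under `Levels`. -/
theorem dvd_M (hL : Levels q N' N M) : N' ∣ M := by
  rw [hL.M_eq]
  exact Dvd.intro_left _ rfl

/-- [RED-SURJ-N] from `Setup2` + (V5) + (V5′). -/
theorem redSurjN_of_setup (hL : Levels q N' N M) (hA : A.LiesOverPrime q) (hqN : q ∣ N)
    (hS : Setup2 A N q M hqN O ρ)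
    (h5 : ValLift.HV5 A q M O ρ) (h5' : ValLift.HV5' A q M O ρ) :
    ∀ a b : Omk A, a ∈ Fk A N' → b ∈ Fk A N' →
      ∃ H : FN (N' * q), ∃ hH : (H : Om) ∈ O, ρ ⟨_, hH⟩ = (a, b) := by
  have : Fact q.Prime := ⟨hL.prime⟩
  have : NeZero N' := ⟨hL.N'_pos.ne'⟩
  have : NeZero M := ⟨by
    rw [hL.M_eq]
    refine Nat.mul_ne_zero ?_ hL.N'_pos.ne'
    unfold aux
    split_ifs <;> norm_num⟩
  exact redSurjN_of A q M N' O ρ hL.prime.two_le (dvd_M hL) hS.ρ_j hS.ρ_jq hS.inv_mem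
    (Red.redStmt N' q hL.not_dvd A hA).2.2.1 h5 h5'

/-- [RED-SURJ-N] from `Setup2` + (V5) + (V5′), with `H ≠ 0` (helper16's `RedSurjN`). -/
theorem redSurjN_ne_of_setup (hL : Levels q N' N M) (hA : A.LiesOverPrime q) (hqN : q ∣ N)
    (hS : Setup2 A N q M hqN O ρ)
    (h5 : ValLift.HV5 A q M O ρ) (h5' : ValLift.HV5' A q M O ρ) :
    ∀ a b : Omk A, a ∈ Fk A N' → b ∈ Fk A N' → a ≠ 0 → b ≠ 0 →
      ∃ H : FN (N' * q), H ≠ 0 ∧ ∃ hH : (H : Om) ∈ O, ρ ⟨_, hH⟩ = (a, b) := by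
  have : Fact q.Prime := ⟨hL.prime⟩
  have : NeZero N' := ⟨hL.N'_pos.ne'⟩
  have : NeZero M := ⟨by
    rw [hL.M_eq]
    refine Nat.mul_ne_zero ?_ hL.N'_pos.ne'
    unfold aux
    split_ifs <;> norm_num⟩
  exact redSurjN_ne_of A q M N' O ρ hL.prime.two_le (dvd_M hL) hS.ρ_j hS.ρ_jq hS.inv_mem
    (Red.redStmt N' q hL.not_dvd A hA).2.2.1 h5 h5'

/-- The idempotent lift from `Setup2`: `e ∈ F_{N' q} ∩ O`, `ρ e = (1, 0)`. -/
theorem exists_e_of_setup (hL : Levels q N' N M) (hqN : q ∣ N)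
    (hS : Setup2 A N q M hqN O ρ) :
    ∃ e : Om, e ∈ modularFunctionFieldBar (N' * q) ∧ ∃ he : e ∈ O, ρ ⟨e, he⟩ = (1, 0) := by
  have : NeZero N' := ⟨hL.N'_pos.ne'⟩
  exact exists_e_of A q N' O ρ hL.prime.two_le hS.ρ_j hS.ρ_jq hS.inv_mem

end Setup

/-! ### The concrete pair `(Val.O2, Val.Red)` -/

section Concrete

variable (A : ValuationSubring Kbar) {q M N' N : ℕ} [NeZero q] [NeZero M]
  {σ : FN (M * q) ≃ₐ[Kbar] FN (M * q)}

/-- **[RED-SURJ-N]** for `(Val.O2, Val.Red)`. -/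
theorem redSurjN (hL : Levels q N' N M) (hA : A.LiesOverPrime q) (hσ : Val.IsAL M q σ) :
    ∀ a b : Omk A, a ∈ Fk A N' → b ∈ Fk A N' →
      ∃ H : FN (N' * q), ∃ hH : (H : Om) ∈ Val.O2 A M q σ,
        Val.Red A M q σ ⟨_, hH⟩ = (a, b) := by
  have : Fact q.Prime := ⟨hL.prime⟩
  have : NeZero N' := ⟨hL.N'_pos.ne'⟩
  exact redSurjN_of A q M N' _ _ hL.prime.two_le (dvd_M hL)
    (ValLiftInst.ρ_j A hL hA hσ) (ValLiftInst.ρ_jq A hL hA hσ) (Val.inv_mem A M q σ)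
    (Red.redStmt N' q hL.not_dvd A hA).2.2.1 (ValLiftInst.hv5 A hσ)
    (ValLiftInst.hv5'_of_hv5b A q M _ _ (ValLiftInst.hv5b A hσ))

/-- [RED-SURJ-N] for `(Val.O2, Val.Red)` with `H ≠ 0`. -/
theorem redSurjN_ne (hL : Levels q N' N M) (hA : A.LiesOverPrime q) (hσ : Val.IsAL M q σ) :
    ∀ a b : Omk A, a ∈ Fk A N' → b ∈ Fk A N' → a ≠ 0 → b ≠ 0 →
      ∃ H : FN (N' * q), H ≠ 0 ∧ ∃ hH : (H : Om) ∈ Val.O2 A M q σ,
        Val.Red A M q σ ⟨_, hH⟩ = (a, b) := by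
  have : Fact q.Prime := ⟨hL.prime⟩
  have : NeZero N' := ⟨hL.N'_pos.ne'⟩
  exact redSurjN_ne_of A q M N' _ _ hL.prime.two_le (dvd_M hL)
    (ValLiftInst.ρ_j A hL hA hσ) (ValLiftInst.ρ_jq A hL hA hσ) (Val.inv_mem A M q σ)
    (Red.redStmt N' q hL.not_dvd A hA).2.2.1 (ValLiftInst.hv5 A hσ)
    (ValLiftInst.hv5'_of_hv5b A q M _ _ (ValLiftInst.hv5b A hσ))

/-- The idempotent lift for `(Val.O2, Val.Red)`: `e ∈ F_{N' q} ∩ O2`, `Red e = (1, 0)`. -/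
theorem exists_e (hL : Levels q N' N M) (hA : A.LiesOverPrime q) (hσ : Val.IsAL M q σ) :
    ∃ e : Om, e ∈ modularFunctionFieldBar (N' * q) ∧
      ∃ he : e ∈ Val.O2 A M q σ, Val.Red A M q σ ⟨e, he⟩ = (1, 0) := by
  have : NeZero N' := ⟨hL.N'_pos.ne'⟩
  exact exists_e_of A q N' _ _ hL.prime.two_le
    (ValLiftInst.ρ_j A hL hA hσ) (ValLiftInst.ρ_jq A hL hA hσ) (Val.inv_mem A M q σ)

end Concrete

end Fermat.Agent.S35.RedSurjN

end
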