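import Mathlib
import Fermat.Agent.S35.FPlan
import Fermat.Agent.S34.ValArch
import Fermat.Agent.S35.RedSurjN
import Fermat.Agent.S18.PullStep

/-!
# S35 / (F) — consequences of `FPlan.SwapN` on `F_{N' q}` (helper94)

`(O, ρ)` a two-component reduction (`S34.Plan.Setup2`), `w` the involution of `F_{N' q}` of
`FPlan.SwapN` (`IsSwap A O ρ w`): on `F_{N' q}`, `y ∈ O ↔ y, w y ∈ Ocal` and
`ρ y = (red y, red (w y))`.

* `IsSwap.rho_alpha`, `IsSwap.rho_beta` : `ρ (α y) = (red y, (red y)(T^q))`,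
  `ρ (β y) = ((red y)(T^q), red y)` for `y ∈ F_{N'} ∩ Ocal`;
* `IsSwap.decomp` : the decomposition group of `A` preserves `F_{N' q} ∩ O` and acts on `ρ`
  through the residual automorphism (coefficientwise);
* `IsSwap.exists_e` : the idempotent lift `e ∈ F_{N' q}`, `red e = 1`, `red (w e) = 0`;
* `IsSwap.scale₁` : **(V1')** every nonzero element of `F_{N' q}` is a constant times a unit of
  `Ocal`;
* `IsSwap.exists_unit_mul_pow` : **(N-NORM)** for `f ≠ 0` in `F_{N' q}` and `n > 0` there are a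
  constant `c` and `H ∈ F_{N' q}^×` with `c f Hⁿ ∈ O`, both components of `ρ (c f Hⁿ)` nonzero;
* `IsSwap.exists_pair` : for `y₁, y₂ ∈ F_{N'} ∩ Ocal` there is `G ∈ F_{N' q} ∩ O` with
  `ρ G = (red y₁, red y₂)`.
-/

set_option autoImplicit false
set_option linter.unusedSectionVars false
set_option maxHeartbeats 400000
set_option synthInstance.maxHeartbeats 400000

noncomputable section

namespace Fermat.Agent.S35.SwapScale

open ModularCurve AlgebraicCurve Fermat.Agent.S24 Fermat.Agent.S18.Content Fermat.Agent.S18.Plan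
open Fermat.Agent.S18 Fermat.Agent.S34

/-! ### Units of `Ocal` -/

section Units

variable {K : Type*} [Field K] (A : ValuationSubring K)

/-- `y` is a unit of the content ring `Ocal A`: `y ∈ Ocal` and `red y ≠ 0`. -/
def IsU (y : LaurentSeries K) : Prop := ∃ h : y ∈ Ocal A, red A ⟨y, h⟩ ≠ 0

variable {A}

theorem IsU.mem {y : LaurentSeries K} (h : IsU A y) : y ∈ Ocal A := h.1

theorem IsU.red_ne {y : LaurentSeries K} (h : IsU A y) (h' : y ∈ Ocal A) : red A ⟨y, h'⟩ ≠ 0 :=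
  h.2

theorem IsU.ne_zero {y : LaurentSeries K} (h : IsU A y) : y ≠ 0 :=
  ne_zero_of_red_ne_zero A ⟨y, h.1⟩ h.2

theorem isU_one : IsU A (1 : LaurentSeries K) := by
  refine ⟨(Ocal A).one_mem, ?_⟩
  have e : (⟨1, (Ocal A).one_mem⟩ : Ocal A) = 1 := rfl
  rw [e, map_one]
  exact one_ne_zero

theorem IsU.mul {x y : LaurentSeries K} (hx : IsU A x) (hy : IsU A y) : IsU A (x * y) := by
  refine ⟨(Ocal A).mul_mem hx.1 hy.1, ?_⟩
  rw [ValArch.red_mul_mk A hx.1 hy.1]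
  exact mul_ne_zero hx.2 hy.2

theorem IsU.inv {x : LaurentSeries K} (hx : IsU A x) : IsU A x⁻¹ := by
  refine ⟨inv_mem_Ocal A ⟨x, hx.1⟩ hx.2, ?_⟩
  rw [red_inv A ⟨x, hx.1⟩ hx.2]
  exact inv_ne_zero hx.2

theorem IsU.pow {x : LaurentSeries K} (hx : IsU A x) (n : ℕ) : IsU A (x ^ n) := by
  induction n with
  | zero => rw [pow_zero]; exact isU_one
  | succ n ih => rw [pow_succ]; exact ih.mul hx

/-- A unit constant is a unit of `Ocal`. -/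
theorem isU_C {c : K} (hc : c ∈ A) (hc' : c⁻¹ ∈ A) (hc0 : c ≠ 0) : IsU A (HahnSeries.C c) := by
  refine ⟨C_mem_Ocal A hc, ?_⟩
  rw [red_C A hc]
  intro h0
  have h1 : IsLocalRing.residue A ⟨c, hc⟩ = 0 := HahnSeries.C_injective (by rw [h0, map_zero])
  have hm : (⟨c, hc⟩ : A) ∈ IsLocalRing.maximalIdeal A :=
    (IsLocalRing.residue_eq_zero_iff _).1 h1
  have hu : IsUnit (⟨c, hc⟩ : A) := by
    refine IsUnit.of_mul_eq_one (⟨c⁻¹, hc'⟩ : A) ?_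
    exact Subtype.ext (by simp [hc0])
  exact ((IsLocalRing.mem_maximalIdeal _).1 hm) hu

/-- `x + y` is a unit of `Ocal` with the reduction of `x` if `red y = 0`. -/
theorem IsU.add_of_red_eq_zero {x y : LaurentSeries K} (hx : IsU A x) (hy : y ∈ Ocal A)
    (hy0 : red A ⟨y, hy⟩ = 0) : IsU A (x + y) := by
  refine ⟨(Ocal A).add_mem hx.1 hy, ?_⟩
  have e : (⟨x + y, (Ocal A).add_mem hx.1 hy⟩ : Ocal A) = ⟨x, hx.1⟩ + ⟨y, hy⟩ := rfl
  rw [e, map_add, hy0, add_zero]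
  exact hx.2

/-- A constant of the maximal ideal times an element of `Ocal` reduces to `0`. -/
theorem red_C_mul_of_nonunit {c : K} (hc : c ∈ A) (hc' : c⁻¹ ∉ A) {y : LaurentSeries K}
    (hy : y ∈ Ocal A) :
    ∃ h : HahnSeries.C c * y ∈ Ocal A, red A ⟨_, h⟩ = 0 := by
  have hC : HahnSeries.C c ∈ Ocal A := C_mem_Ocal A hc
  refine ⟨(Ocal A).mul_mem hC hy, ?_⟩
  rw [ValArch.red_mul_mk A hC hy, red_C A hc]
  have h1 : IsLocalRing.residue A ⟨c, hc⟩ = 0 := by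
    rw [IsLocalRing.residue_eq_zero_iff]
    rw [IsLocalRing.mem_maximalIdeal]
    intro hu
    obtain ⟨u, hu⟩ := hu
    apply hc'
    have h2 : ((u⁻¹ : Aˣ) : A) * (⟨c, hc⟩ : A) = 1 := by rw [← hu]; exact Units.inv_mul u
    have h3 : (((u⁻¹ : Aˣ) : A) : K) * c = 1 := by
      have := congrArg Subtype.val h2
      simpa using this
    have hc0 : c ≠ 0 := fun h0 => by rw [h0, mul_zero] at h3; exact zero_ne_one h3
    have h4 : c⁻¹ = (((u⁻¹ : Aˣ) : A) : K) := by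
      field_simp
      rw [mul_comm]; exact h3.symm
    rw [h4]
    exact ((u⁻¹ : Aˣ) : A).2
  rw [h1, map_zero, zero_mul]

end Units

/-! ### The swap structure -/

section Swap

variable (A : ValuationSubring Kbar) {N' q M : ℕ} [NeZero N'] [NeZero q]

/-- The data of `FPlan.SwapN` for a fixed involution `w` of `F_{N' q}`. -/
structure IsSwap (O : Subring Om) (ρ : O →+* Plan.R2 A)
    (w : FN (N' * q) ≃ₐ[Kbar] FN (N' * q)) : Prop where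
  alpha : ∀ f : FN N', w (heckeAlphaBar Kbar N' q f) = heckeBetaBar Kbar N' q f
  beta : ∀ f : FN N', w (heckeBetaBar Kbar N' q f) = heckeAlphaBar Kbar N' q f
  invol : ∀ z : FN (N' * q), w (w z) = z
  comm : ∀ (s : A.decompositionSubgroup ℚ) (x : FN (N' * q)),
    w (Fermat.Agent.S37.Gal.gK A (N' * q) s • x) = Fermat.Agent.S37.Gal.gK A (N' * q) s • w x
  mem_iff : ∀ y : FN (N' * q), (y : Om) ∈ O ↔
    ((y : Om) ∈ Ocal A ∧ ((w y : FN (N' * q)) : Om) ∈ Ocal A)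
  rho_eq : ∀ (y : FN (N' * q)) (hy : (y : Om) ∈ O) (h1 : (y : Om) ∈ Ocal A)
    (h2 : ((w y : FN (N' * q)) : Om) ∈ Ocal A), ρ ⟨_, hy⟩ = (red A ⟨_, h1⟩, red A ⟨_, h2⟩)

variable {A} {O : Subring Om} {ρ : O →+* Plan.R2 A}

/-- `FPlan.SwapN` is the existence of a swap. -/
theorem swapN_iff : FPlan.SwapN A N' q O ρ ↔
    ∃ w : FN (N' * q) ≃ₐ[Kbar] FN (N' * q), IsSwap A O ρ w := by
  constructor
  · rintro ⟨w, h1, h2, h3, h4, h5, h6⟩
    exact ⟨w, ⟨h1, h2, h3, h4, h5, h6⟩⟩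
  · rintro ⟨w, ⟨h1, h2, h3, h4, h5, h6⟩⟩
    exact ⟨w, h1, h2, h3, h4, h5, h6⟩

variable {w : FN (N' * q) ≃ₐ[Kbar] FN (N' * q)}

/-- Membership and value of `ρ` from the two reductions. -/
theorem IsSwap.rho_mk (hw : IsSwap A O ρ w) (y : FN (N' * q)) (h1 : (y : Om) ∈ Ocal A)
    (h2 : ((w y : FN (N' * q)) : Om) ∈ Ocal A) :
    ∃ hy : (y : Om) ∈ O, ρ ⟨_, hy⟩ = (red A ⟨_, h1⟩, red A ⟨_, h2⟩) :=
  ⟨(hw.mem_iff y).mpr ⟨h1, h2⟩, hw.rho_eq y _ h1 h2⟩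

/-- Both components of `ρ y` are nonzero iff `y` and `w y` are units of `Ocal`. -/
theorem IsSwap.mem_of_isU (hw : IsSwap A O ρ w) (y : FN (N' * q)) (h1 : IsU A (y : Om))
    (h2 : IsU A ((w y : FN (N' * q)) : Om)) :
    ∃ hy : (y : Om) ∈ O, (ρ ⟨_, hy⟩).1 ≠ 0 ∧ (ρ ⟨_, hy⟩).2 ≠ 0 := by
  obtain ⟨hy, e⟩ := hw.rho_mk y h1.1 h2.1
  refine ⟨hy, ?_, ?_⟩
  · rw [e]; exact h1.2
  · rw [e]; exact h2.2

theorem IsSwap.isU_of_mem (hw : IsSwap A O ρ w) (y : FN (N' * q)) (hy : (y : Om) ∈ O)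
    (h1 : (ρ ⟨_, hy⟩).1 ≠ 0) (h2 : (ρ ⟨_, hy⟩).2 ≠ 0) :
    IsU A (y : Om) ∧ IsU A ((w y : FN (N' * q)) : Om) := by
  obtain ⟨k1, k2⟩ := (hw.mem_iff y).mp hy
  have e := hw.rho_eq y hy k1 k2
  rw [e] at h1 h2
  exact ⟨⟨k1, h1⟩, ⟨k2, h2⟩⟩

/-- `ρ (α y) = (red y, (red y)(T^q))` for `y ∈ F_{N'} ∩ Ocal`. -/
theorem IsSwap.rho_alpha (hw : IsSwap A O ρ w) (y : FN N') (hy : (y : Om) ∈ Ocal A) :
    ∃ h : ((heckeAlphaBar Kbar N' q y : FN (N' * q)) : Om) ∈ O,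
      ρ ⟨_, h⟩ = (red A ⟨_, hy⟩, qExpand (kk A) q (red A ⟨_, hy⟩)) := by
  have h1 : ((heckeAlphaBar Kbar N' q y : FN (N' * q)) : Om) ∈ Ocal A := by
    rw [coe_heckeAlphaBar]; exact hy
  have hq : qExpand Kbar q (y : Om) ∈ Ocal A :=
    Fermat.Agent.Lib.KroneckerCong.qExpand_mem_Ocal A q hy
  have hc : ((w (heckeAlphaBar Kbar N' q y) : FN (N' * q)) : Om) = qExpand Kbar q (y : Om) := by
    rw [hw.alpha, coe_heckeBetaBar]
  have h2 : ((w (heckeAlphaBar Kbar N' q y) : FN (N' * q)) : Om) ∈ Ocal A := by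
    rw [hc]; exact hq
  obtain ⟨h, e⟩ := hw.rho_mk _ h1 h2
  refine ⟨h, ?_⟩
  rw [e]
  refine Prod.ext ?_ ?_
  · exact red_congr A (coe_heckeAlphaBar N' q y) h1 hy
  · show red A ⟨_, h2⟩ = _
    rw [red_congr A hc h2 hq]
    exact Fermat.Agent.Lib.KroneckerCong.red_qExpand A q ⟨_, hy⟩

/-- `ρ (β y) = ((red y)(T^q), red y)` for `y ∈ F_{N'} ∩ Ocal`. -/
theorem IsSwap.rho_beta (hw : IsSwap A O ρ w) (y : FN N') (hy : (y : Om) ∈ Ocal A) :
    ∃ h : ((heckeBetaBar Kbar N' q y : FN (N' * q)) : Om) ∈ O,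
      ρ ⟨_, h⟩ = (qExpand (kk A) q (red A ⟨_, hy⟩), red A ⟨_, hy⟩) := by
  have hq : qExpand Kbar q (y : Om) ∈ Ocal A :=
    Fermat.Agent.Lib.KroneckerCong.qExpand_mem_Ocal A q hy
  have hb : ((heckeBetaBar Kbar N' q y : FN (N' * q)) : Om) = qExpand Kbar q (y : Om) :=
    coe_heckeBetaBar N' q y
  have h1 : ((heckeBetaBar Kbar N' q y : FN (N' * q)) : Om) ∈ Ocal A := by
    rw [hb]; exact hq
  have hc : ((w (heckeBetaBar Kbar N' q y) : FN (N' * q)) : Om) = (y : Om) := by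
    rw [hw.beta, coe_heckeAlphaBar]
  have h2 : ((w (heckeBetaBar Kbar N' q y) : FN (N' * q)) : Om) ∈ Ocal A := by
    rw [hc]; exact hy
  obtain ⟨h, e⟩ := hw.rho_mk _ h1 h2
  refine ⟨h, ?_⟩
  rw [e]
  refine Prod.ext ?_ ?_
  · show red A ⟨_, h1⟩ = _
    rw [red_congr A hb h1 hq]
    exact Fermat.Agent.Lib.KroneckerCong.red_qExpand A q ⟨_, hy⟩
  · exact red_congr A hc h2 hy

/-- **The decomposition group** preserves `F_{N' q} ∩ O` and acts on `ρ` coefficientwise through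
the residual automorphism. -/
theorem IsSwap.decomp (hw : IsSwap A O ρ w) (s : A.decompositionSubgroup ℚ)
    (y : FN (N' * q)) (hy : (y : Om) ∈ O) :
    ∃ h : ((Fermat.Agent.S37.Gal.gK A (N' * q) s • y : FN (N' * q)) : Om) ∈ O,
      ρ ⟨_, h⟩ = (coeffMap (Fermat.Agent.S37.Gal.sigmaBar A s) (ρ ⟨_, hy⟩).1,
        coeffMap (Fermat.Agent.S37.Gal.sigmaBar A s) (ρ ⟨_, hy⟩).2) := by
  obtain ⟨k1, k2⟩ := (hw.mem_iff y).mp hy
  have h1 : ((Fermat.Agent.S37.Gal.gK A (N' * q) s • y : FN (N' * q)) : Om) ∈ Ocal A :=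
    Fermat.Agent.S37.Gal.coeffMap_mem_Ocal A s k1
  have hc : ((w (Fermat.Agent.S37.Gal.gK A (N' * q) s • y) : FN (N' * q)) : Om) =
      coeffMap (((s : Kbar ≃ₐ[ℚ] Kbar)) : Kbar →+* Kbar) ((w y : FN (N' * q)) : Om) := by
    rw [hw.comm s y]
    rfl
  have h2' : coeffMap (((s : Kbar ≃ₐ[ℚ] Kbar)) : Kbar →+* Kbar) ((w y : FN (N' * q)) : Om) ∈
      Ocal A := Fermat.Agent.S37.Gal.coeffMap_mem_Ocal A s k2
  have h2 : ((w (Fermat.Agent.S37.Gal.gK A (N' * q) s • y) : FN (N' * q)) : Om) ∈ Ocal A := by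
    rw [hc]; exact h2'
  obtain ⟨h, e⟩ := hw.rho_mk _ h1 h2
  refine ⟨h, ?_⟩
  rw [e, hw.rho_eq y hy k1 k2]
  refine Prod.ext ?_ ?_
  · exact Fermat.Agent.S37.Gal.red_coeffMap A s (y : Om) k1
  · show red A ⟨_, h2⟩ = _
    rw [red_congr A hc h2 h2']
    exact Fermat.Agent.S37.Gal.red_coeffMap A s ((w y : FN (N' * q)) : Om) k2

end Swap

/-! ### Scaling on `F_{N' q}` -/

section Scale

variable {A : ValuationSubring Kbar} {N' q M : ℕ} [NeZero N'] [NeZero q]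
variable {O : Subring Om} {ρ : O →+* Plan.R2 A} {w : FN (N' * q) ≃ₐ[Kbar] FN (N' * q)}

/-- **The idempotent lift** `e ∈ F_{N' q}`: `red e = 1`, `red (w e) = 0`. -/
theorem IsSwap.exists_e (hw : IsSwap A O ρ w) (hq : 2 ≤ q)
    (hρj : ∃ h : (jK : Om) ∈ O, ρ ⟨_, h⟩ = (jk A, jk A ^ q))
    (hρjq : ∃ h : (qExpand Kbar q jK : Om) ∈ O, ρ ⟨_, h⟩ = (jk A ^ q, jk A))
    (hinv : ∀ g : O, (ρ g).1 ≠ 0 → (ρ g).2 ≠ 0 → ((g : Om))⁻¹ ∈ O) :
    ∃ (e : FN (N' * q)) (he : (e : Om) ∈ Ocal A)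
      (hwe : ((w e : FN (N' * q)) : Om) ∈ Ocal A),
      red A ⟨_, he⟩ = 1 ∧ red A ⟨_, hwe⟩ = 0 := by
  obtain ⟨e, heF, heO, hρe⟩ := RedSurjN.exists_e_of A q N' O ρ hq hρj hρjq hinv
  obtain ⟨k1, k2⟩ := (hw.mem_iff ⟨e, heF⟩).mp heO
  have e1 := hw.rho_eq ⟨e, heF⟩ heO k1 k2
  rw [hρe] at e1
  exact ⟨⟨e, heF⟩, k1, k2, (congrArg Prod.fst e1).symm, (congrArg Prod.snd e1).symm⟩

/-- Joint scaling on `F_{N' q}` for the pair `(red, red ∘ w)`, from the field `scale` of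
`Plan.Setup2`. -/
theorem IsSwap.jointScale (hw : IsSwap A O ρ w)
    (hle : modularFunctionFieldBar (N' * q) ≤ modularFunctionFieldBar (M * q))
    (hscale : ∀ g : Om, g ∈ modularFunctionFieldBar (M * q) → g ≠ 0 →
      ∃ c : Kbar, c ≠ 0 ∧ ∃ h : HahnSeries.C c * g ∈ O, ρ ⟨_, h⟩ ≠ 0) :
    ValArch.JointScale A (modularFunctionFieldBar (N' * q)) w := by
  intro y hy
  have hy0 : ((y : FN (N' * q)) : Om) ≠ 0 := fun h0 => hy (Subtype.ext h0)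
  obtain ⟨c, hc, h, hR⟩ := hscale (y : Om) (hle y.2) hy0
  have hcoe : ((algebraMap Kbar (FN (N' * q)) c * y : FN (N' * q)) : Om) =
      HahnSeries.C c * (y : Om) := ValArch.coe_const_mul c y
  have hO : ((algebraMap Kbar (FN (N' * q)) c * y : FN (N' * q)) : Om) ∈ O := by
    rw [hcoe]; exact h
  obtain ⟨k1, k2⟩ := (hw.mem_iff _).mp hO
  have hcoe2 : ((w (algebraMap Kbar (FN (N' * q)) c * y) : FN (N' * q)) : Om) =
      HahnSeries.C c * ((w y : FN (N' * q)) : Om) := by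
    rw [ValArch.sigma_const_mul]; exact ValArch.coe_const_mul c (w y)
  have h1 : HahnSeries.C c * (y : Om) ∈ Ocal A := by rw [← hcoe]; exact k1
  have h2 : HahnSeries.C c * ((w y : FN (N' * q)) : Om) ∈ Ocal A := by rw [← hcoe2]; exact k2
  refine ⟨c, hc, h1, h2, ?_⟩
  by_contra hcon
  push Not at hcon
  apply hR
  have e := hw.rho_eq _ hO k1 k2
  have e' : (⟨HahnSeries.C c * (y : Om), h⟩ : O) = ⟨_, hO⟩ := Subtype.ext hcoe.symm
  rw [e', e]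
  refine Prod.ext ?_ ?_
  · exact (red_congr A hcoe k1 h1).trans hcon.1
  · exact (red_congr A hcoe2 k2 h2).trans hcon.2

/-- **(V1')** on `F_{N' q}`: every nonzero element is a constant times a unit of `Ocal`. -/
theorem IsSwap.scale₁ (hw : IsSwap A O ρ w) (hq : q.Prime) (hA : A.LiesOverPrime q)
    (hle : modularFunctionFieldBar (N' * q) ≤ modularFunctionFieldBar (M * q))
    (hscale : ∀ g : Om, g ∈ modularFunctionFieldBar (M * q) → g ≠ 0 →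
      ∃ c : Kbar, c ≠ 0 ∧ ∃ h : HahnSeries.C c * g ∈ O, ρ ⟨_, h⟩ ≠ 0)
    (hρj : ∃ h : (jK : Om) ∈ O, ρ ⟨_, h⟩ = (jk A, jk A ^ q))
    (hρjq : ∃ h : (qExpand Kbar q jK : Om) ∈ O, ρ ⟨_, h⟩ = (jk A ^ q, jk A))
    (hinv : ∀ g : O, (ρ g).1 ≠ 0 → (ρ g).2 ≠ 0 → ((g : Om))⁻¹ ∈ O) :
    ∀ y : FN (N' * q), y ≠ 0 → ∃ c : Kbar, c ≠ 0 ∧ IsU A (HahnSeries.C c * (y : Om)) := by
  have : Fact q.Prime := ⟨hq⟩
  obtain ⟨e, he, hwe, he1, hwe0⟩ := hw.exists_e hq.two_le hρj hρjq hinv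
  exact ValArch.scale₁ (hw.jointScale hle hscale) (ValArch.rankOne_algClosure A q hA) e he he1
    hwe hwe0 (hw.invol e)

/-- A constant of the maximal ideal lies in `Ocal` and reduces to `0`. -/
theorem red_C_of_nonunit {c : Kbar} (hc : c ∈ A) (hc' : c⁻¹ ∉ A) :
    ∃ h : (HahnSeries.C c : Om) ∈ Ocal A, red A ⟨_, h⟩ = 0 := by
  obtain ⟨h, h0⟩ := red_C_mul_of_nonunit hc hc' (Ocal A).one_mem
  have e : (HahnSeries.C c : Om) * 1 = HahnSeries.C c := mul_one _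
  exact ⟨e ▸ h, (red_congr A e.symm _ h).trans h0⟩

/-- **The shift**: for a nonzero `s ∈ A` there is `H ∈ F_{N' q}` which is a unit for the first
valuation and has second valuation `v(s)`: `H` and `s⁻¹ · w H` are units of `Ocal`. -/
theorem exists_shift (hJ : ValArch.JointScale A (modularFunctionFieldBar (N' * q)) w)
    (hR : ValArch.RankOne A) (e : FN (N' * q)) (he : (e : Om) ∈ Ocal A)
    (he1 : red A ⟨_, he⟩ = 1) (hwe : ((w e : FN (N' * q)) : Om) ∈ Ocal A)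
    (hwe0 : red A ⟨_, hwe⟩ = 0) (hww : w (w e) = e)
    (s : Kbar) (hs0 : s ≠ 0) (hs : s ∈ A) :
    ∃ H : FN (N' * q), IsU A (H : Om) ∧
      IsU A (HahnSeries.C s⁻¹ * ((w H : FN (N' * q)) : Om)) := by
  by_cases hsu : s⁻¹ ∈ A
  · refine ⟨1, isU_one, ?_⟩
    rw [map_one]
    have e1 : HahnSeries.C s⁻¹ * (((1 : FN (N' * q)) : FN (N' * q)) : Om) = HahnSeries.C s⁻¹ :=
      mul_one _
    rw [e1]
    exact isU_C hsu (by rw [inv_inv]; exact hs) (inv_ne_zero hs0)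
  · obtain ⟨d, hd, hdinv, u₁, hu₁, hu₁r, hfac⟩ :=
      ValArch.exists_sigma_e_eq hJ e he he1 hwe hwe0 hww
    obtain ⟨m, hm⟩ := hR s d hs0 hd hdinv
    have hdA : d ∈ A := (A.mem_or_inv_mem d).resolve_right hdinv
    have heU : IsU A (e : Om) := ⟨he, by rw [he1]; exact one_ne_zero⟩
    obtain ⟨hCs, hCs0⟩ := red_C_of_nonunit hs hsu
    refine ⟨e ^ (m + 1) + algebraMap Kbar (FN (N' * q)) s, ?_, ?_⟩
    · have e1 : ((e ^ (m + 1) + algebraMap Kbar (FN (N' * q)) s : FN (N' * q)) : Om) =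
          (e : Om) ^ (m + 1) + HahnSeries.C s := by
        show (e : Om) ^ (m + 1) + ((algebraMap Kbar (FN (N' * q)) s : FN (N' * q)) : Om) = _
        rw [Val.coe_algebraMap_FN]
      rw [e1]
      exact (heU.pow (m + 1)).add_of_red_eq_zero hCs hCs0
    · -- the constant `c' = d^(m+1) / s` lies in the maximal ideal
      have hc'A : d ^ (m + 1) * s⁻¹ ∈ A := by
        have : d ^ (m + 1) * s⁻¹ = d * (d ^ m * s⁻¹) := by ring
        rw [this]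
        exact A.mul_mem _ _ hdA hm
      have hc'inv : (d ^ (m + 1) * s⁻¹)⁻¹ ∉ A := by
        intro hcon
        apply hdinv
        have hd0 : d ^ m * s⁻¹ ≠ 0 := mul_ne_zero (pow_ne_zero m hd) (inv_ne_zero hs0)
        have : d⁻¹ = (d ^ m * s⁻¹) * (d ^ (m + 1) * s⁻¹)⁻¹ := by
          field_simp
          ring
        rw [this]
        exact A.mul_mem _ _ hm hcon
      obtain ⟨hy, hy0⟩ := red_C_mul_of_nonunit hc'A hc'inv ((Ocal A).pow_mem hu₁ (m + 1))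
      have hCC : (HahnSeries.C s⁻¹ : Om) * HahnSeries.C s = 1 := by
        rw [← map_mul, inv_mul_cancel₀ hs0, map_one]
      have e2 : HahnSeries.C s⁻¹ *
          ((w (e ^ (m + 1) + algebraMap Kbar (FN (N' * q)) s) : FN (N' * q)) : Om) =
          1 + HahnSeries.C (d ^ (m + 1) * s⁻¹) * u₁ ^ (m + 1) := by
        have h1 : ((w (e ^ (m + 1) + algebraMap Kbar (FN (N' * q)) s) : FN (N' * q)) : Om) =
            ((w e : FN (N' * q)) : Om) ^ (m + 1) + HahnSeries.C s := by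
          rw [map_add, map_pow, AlgEquiv.commutes]
          show ((w e : FN (N' * q)) : Om) ^ (m + 1) +
            ((algebraMap Kbar (FN (N' * q)) s : FN (N' * q)) : Om) = _
          rw [Val.coe_algebraMap_FN]
        rw [h1, hfac, mul_add, hCC, mul_pow, map_mul, map_pow]
        ring
      rw [e2]
      exact isU_one.add_of_red_eq_zero hy hy0

/-- **(N-NORM)**: every `f ≠ 0` of `F_{N' q}` becomes a unit for both valuations after
multiplication by a constant and an `n`-th power. -/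
theorem IsSwap.exists_unit_mul_pow (hw : IsSwap A O ρ w) (hq : q.Prime)
    (hA : A.LiesOverPrime q)
    (hle : modularFunctionFieldBar (N' * q) ≤ modularFunctionFieldBar (M * q))
    (hscale : ∀ g : Om, g ∈ modularFunctionFieldBar (M * q) → g ≠ 0 →
      ∃ c : Kbar, c ≠ 0 ∧ ∃ h : HahnSeries.C c * g ∈ O, ρ ⟨_, h⟩ ≠ 0)
    (hρj : ∃ h : (jK : Om) ∈ O, ρ ⟨_, h⟩ = (jk A, jk A ^ q))
    (hρjq : ∃ h : (qExpand Kbar q jK : Om) ∈ O, ρ ⟨_, h⟩ = (jk A ^ q, jk A))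
    (hinv : ∀ g : O, (ρ g).1 ≠ 0 → (ρ g).2 ≠ 0 → ((g : Om))⁻¹ ∈ O)
    (f : FN (N' * q)) (hf : f ≠ 0) (n : ℕ) (hn : 0 < n) :
    ∃ (c : Kbar) (H : FN (N' * q)), c ≠ 0 ∧ H ≠ 0 ∧
      IsU A ((algebraMap Kbar (FN (N' * q)) c * f * H ^ n : FN (N' * q)) : Om) ∧
      IsU A ((w (algebraMap Kbar (FN (N' * q)) c * f * H ^ n) : FN (N' * q)) : Om) := by
  have : Fact q.Prime := ⟨hq⟩
  have hJ := hw.jointScale hle hscale
  have hR := ValArch.rankOne_algClosure A q hA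
  obtain ⟨e, he, hwe, he1, hwe0⟩ := hw.exists_e hq.two_le hρj hρjq hinv
  have hSc := hw.scale₁ hq hA hle hscale hρj hρjq hinv
  have hwf : w f ≠ 0 := fun h0 => hf ((map_eq_zero_iff w w.injective).1 h0)
  obtain ⟨c₁, hc₁, hU₁⟩ := hSc f hf
  obtain ⟨c₂, hc₂, hU₂⟩ := hSc (w f) hwf
  obtain ⟨t, ht⟩ := IsAlgClosed.exists_pow_nat_eq (c₁ / c₂) hn
  have ht0 : t ≠ 0 := by
    intro h0
    rw [h0, zero_pow hn.ne'] at ht
    exact (div_ne_zero hc₁ hc₂) ht.symm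
  have hC : (HahnSeries.C c₁ : Om) = HahnSeries.C c₂ * (HahnSeries.C t) ^ n := by
    rw [← map_pow, ← map_mul, ht, mul_div_cancel₀ _ hc₂]
  have hcoe : ∀ H : FN (N' * q),
      ((algebraMap Kbar (FN (N' * q)) c₁ * f * H ^ n : FN (N' * q)) : Om) =
        HahnSeries.C c₁ * (f : Om) * (H : Om) ^ n := by
    intro H
    show ((algebraMap Kbar (FN (N' * q)) c₁ : FN (N' * q)) : Om) * (f : Om) * (H : Om) ^ n = _
    rw [Val.coe_algebraMap_FN]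
  have hcoew : ∀ H : FN (N' * q),
      ((w (algebraMap Kbar (FN (N' * q)) c₁ * f * H ^ n) : FN (N' * q)) : Om) =
        HahnSeries.C c₁ * ((w f : FN (N' * q)) : Om) * ((w H : FN (N' * q)) : Om) ^ n := by
    intro H
    rw [map_mul, map_mul, map_pow, AlgEquiv.commutes]
    show ((algebraMap Kbar (FN (N' * q)) c₁ : FN (N' * q)) : Om) *
      ((w f : FN (N' * q)) : Om) * ((w H : FN (N' * q)) : Om) ^ n = _
    rw [Val.coe_algebraMap_FN]
  rcases A.mem_or_inv_mem t with htA | htA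
  · obtain ⟨H₁, hH₁, hH₁w⟩ := exists_shift hJ hR e he he1 hwe hwe0 (hw.invol e) t ht0 htA
    have hH₁0 : H₁ ≠ 0 := fun h0 => hH₁.ne_zero (by rw [h0]; rfl)
    refine ⟨c₁, H₁⁻¹, hc₁, inv_ne_zero hH₁0, ?_, ?_⟩
    · rw [hcoe]
      exact hU₁.mul (hH₁.inv.pow n)
    · rw [hcoew, map_inv₀]
      have e3 : HahnSeries.C c₁ * ((w f : FN (N' * q)) : Om) *
          (((w H₁)⁻¹ : FN (N' * q)) : Om) ^ n =
          (HahnSeries.C c₂ * ((w f : FN (N' * q)) : Om)) *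
            ((HahnSeries.C t⁻¹ * ((w H₁ : FN (N' * q)) : Om))⁻¹) ^ n := by
        have h1 : (((w H₁)⁻¹ : FN (N' * q)) : Om) = (((w H₁ : FN (N' * q)) : Om))⁻¹ := rfl
        have h2 : (HahnSeries.C t⁻¹ * ((w H₁ : FN (N' * q)) : Om))⁻¹ =
            HahnSeries.C t * (((w H₁ : FN (N' * q)) : Om))⁻¹ := by
          rw [mul_inv, map_inv₀, inv_inv]
        rw [h1, h2, hC, mul_pow]
        ring
      rw [e3]
      exact hU₂.mul (hH₁w.inv.pow n)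
  · obtain ⟨H₁, hH₁, hH₁w⟩ :=
      exists_shift hJ hR e he he1 hwe hwe0 (hw.invol e) t⁻¹ (inv_ne_zero ht0) htA
    rw [inv_inv] at hH₁w
    have hH₁0 : H₁ ≠ 0 := fun h0 => hH₁.ne_zero (by rw [h0]; rfl)
    refine ⟨c₁, H₁, hc₁, hH₁0, ?_, ?_⟩
    · rw [hcoe]
      exact hU₁.mul (hH₁.pow n)
    · rw [hcoew]
      have e3 : HahnSeries.C c₁ * ((w f : FN (N' * q)) : Om) *
          ((w H₁ : FN (N' * q)) : Om) ^ n =
          (HahnSeries.C c₂ * ((w f : FN (N' * q)) : Om)) *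
            (HahnSeries.C t * ((w H₁ : FN (N' * q)) : Om)) ^ n := by
        rw [hC, mul_pow]
        ring
      rw [e3]
      exact hU₂.mul (hH₁w.pow n)

/-- **The corrector**: for `y₁, y₂ ∈ F_{N'} ∩ Ocal` there is `G ∈ F_{N' q} ∩ O` with
`ρ G = (red y₁, red y₂)`:  `G = e · α y₁ + (1 - e) · β y₂`. -/
theorem IsSwap.exists_pair (hw : IsSwap A O ρ w) (hq : 2 ≤ q)
    (hρj : ∃ h : (jK : Om) ∈ O, ρ ⟨_, h⟩ = (jk A, jk A ^ q))
    (hρjq : ∃ h : (qExpand Kbar q jK : Om) ∈ O, ρ ⟨_, h⟩ = (jk A ^ q, jk A))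
    (hinv : ∀ g : O, (ρ g).1 ≠ 0 → (ρ g).2 ≠ 0 → ((g : Om))⁻¹ ∈ O)
    (y₁ y₂ : FN N') (h₁ : (y₁ : Om) ∈ Ocal A) (h₂ : (y₂ : Om) ∈ Ocal A) :
    ∃ (G : FN (N' * q)) (hG : (G : Om) ∈ O), ρ ⟨_, hG⟩ = (red A ⟨_, h₁⟩, red A ⟨_, h₂⟩) := by
  obtain ⟨e, heF, heO, hρe⟩ := RedSurjN.exists_e_of A q N' O ρ hq hρj hρjq hinv
  obtain ⟨ha, ea⟩ := hw.rho_alpha y₁ h₁
  obtain ⟨hb, eb⟩ := hw.rho_beta y₂ h₂
  set E : O := ⟨e, heO⟩ with hE
  set Ya : O := ⟨_, ha⟩ with hYa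
  set Yb : O := ⟨_, hb⟩ with hYb
  refine ⟨(⟨e, heF⟩ : FN (N' * q)) * heckeAlphaBar Kbar N' q y₁ +
    (1 - (⟨e, heF⟩ : FN (N' * q))) * heckeBetaBar Kbar N' q y₂, (E * Ya + (1 - E) * Yb).2, ?_⟩
  show ρ (E * Ya + (1 - E) * Yb) = _
  rw [map_add, map_mul, map_mul, map_sub, map_one, hρe, ea, eb]
  refine Prod.ext ?_ ?_
  · show 1 * red A ⟨_, h₁⟩ + (1 - 1) * qExpand (kk A) q (red A ⟨_, h₂⟩) = red A ⟨_, h₁⟩
    rw [one_mul, sub_self, zero_mul, add_zero]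
  · show 0 * qExpand (kk A) q (red A ⟨_, h₁⟩) + (1 - 0) * red A ⟨_, h₂⟩ = red A ⟨_, h₂⟩
    rw [zero_mul, zero_add, sub_zero, one_mul]

end Scale

end Fermat.Agent.S35.SwapScale

end
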