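/-
P6 / S35 [NEW-K0], second provider (helper94): **`FPlan.NewK0` from `FPlan.SwapN` and the fields
`scale`, `ρ_j`, `ρ_jq`, `inv_mem` of `Plan.Setup2`.**

`F := F_{N' q}`, `α, β : F_{N'} → F` the two degeneracy embeddings, `w` the swap of `FPlan.SwapN`,
`ρ y = (red y, red (w y))` on `F ∩ O`, `σ` a Frobenius element at `A`, `φ` the coefficientwise
Frobenius of `k((T))`.

For a `q`-new class `D₀` (`n D₀ = div f`, `α_* D₀`, `β_* D₀` principal):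

1. (N-NORM, `SwapScale.IsSwap.exists_unit_mul_pow`) replace `f` by `g = c f Hⁿ`, a unit for both
   valuations; `D₀` becomes `D₁ = D₀ + div H`, still with principal push-forwards;
2. `N_α g = c_α h_αⁿ`, `N_β g = c_β h_βⁿ` (hypothesis `P1`: the push-forward of `D₁` is principal,
   and `div N g = n · push D₁`);
3. the Kronecker norm congruences (`NormTwo.red_norm_alpha/beta`):
   `r₁ · φ r₂ = c̄_α ā ⁿ`, `r₂ · φ r₁ = c̄_β b̄ ⁿ`  with `(r₁, r₂) = ρ g`;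
4. hence `φ² r₁ / r₁ = (φ c̄_β / c̄_α) · (φ b̄ / ā)ⁿ` and the twin; with the corrector `G`,
   `ρ G = (φ b̄ / ā, φ ā / b̄)` (`SwapScale.IsSwap.exists_pair`), `u = σ² g · g⁻¹ · G⁻ⁿ` has
   `ρ u ∈ k^× × k^×` and `div u = n D'`, `D' = (σ² - 1) D₁ - div G ~ (σ² - 1) D₀`.
-/
import Mathlib
import Fermat.Agent.S35.SwapScale
import Fermat.Agent.S35.NormTwo
import Fermat.Agent.S18.Red
import Fermat.Agent.S18.Char0
import Fermat.Agent.S18.MainLemmas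
import Fermat.Agent.S35.NormPush
import Fermat.Agent.S35.NewDivData

set_option autoImplicit false
set_option linter.unusedSectionVars false
set_option maxHeartbeats 400000
set_option synthInstance.maxHeartbeats 400000

noncomputable section

namespace Fermat.Agent.S35.NewK0Alt

open ModularCurve AlgebraicCurve Fermat.Agent.S24 Fermat.Agent.S18.Content Fermat.Agent.S18.Plan
open Fermat.Agent.S18 Fermat.Agent.S34 Fermat.Agent.S35.SwapScale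

/-! ### The twist identity -/

/-- From `r₁ · φ r₂ = c_α aⁿ` and `r₂ · φ r₁ = c_β bⁿ`:
`φ² r₁ · r₁⁻¹ · ((φ b · a⁻¹)⁻¹)ⁿ = φ c_β · c_α⁻¹`. -/
theorem twist_eq {L : Type*} [Field L] (φ : L →+* L) (n : ℕ) {r₁ r₂ a b cα cβ : L}
    (hr₁ : r₁ ≠ 0) (hr₂ : r₂ ≠ 0) (ha : a ≠ 0) (hb : b ≠ 0) (hcα : cα ≠ 0)
    (h1 : r₁ * φ r₂ = cα * a ^ n) (h2 : r₂ * φ r₁ = cβ * b ^ n) :
    φ (φ r₁) * r₁⁻¹ * ((φ b * a⁻¹)⁻¹) ^ n = φ cβ * cα⁻¹ := by
  have h3 : φ r₂ * φ (φ r₁) = φ cβ * (φ b) ^ n := by rw [← map_mul, h2, map_mul, map_pow]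
  have hφr₂ : φ r₂ ≠ 0 := (map_ne_zero φ).mpr hr₂
  have hφb : φ b ≠ 0 := (map_ne_zero φ).mpr hb
  have hbn : (φ b) ^ n ≠ 0 := pow_ne_zero n hφb
  have han : a ^ n ≠ 0 := pow_ne_zero n ha
  have e : ((φ b * a⁻¹)⁻¹) ^ n = a ^ n * ((φ b) ^ n)⁻¹ := by
    rw [mul_inv, inv_inv, mul_pow, inv_pow, mul_comm]
  rw [e]
  field_simp
  linear_combination (-(φ (φ r₁))) * h1 + r₁ * h3

/-! ### Constants and `n`-th powers under `red` -/

section RedPow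

variable (A : ValuationSubring Kbar) (N' q : ℕ) [NeZero N']

/-- If `X = c · hⁿ ∈ F_{N'}` is a unit of `Ocal`, then after rescaling `c ∈ A^×`, `h` is a unit of
`Ocal`, and `red X = c̄ · (red h)ⁿ`. -/
theorem exists_red_eq (hq : q.Prime) (hqN' : ¬ q ∣ N') (hA : A.LiesOverPrime q)
    (X : FN N') (c : Kbar) (h : FN N') (n : ℕ) (hh : h ≠ 0)
    (hX : X = algebraMap Kbar (FN N') c * h ^ n) (hU : IsU A (X : Om)) :
    ∃ (c' : Kbar) (h' : FN N') (hc' : c' ∈ A) (hh' : (h' : Om) ∈ Ocal A),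
      IsLocalRing.residue A ⟨c', hc'⟩ ≠ 0 ∧ red A ⟨_, hh'⟩ ≠ 0 ∧
      red A ⟨(X : Om), hU.mem⟩ =
        HahnSeries.C (IsLocalRing.residue A ⟨c', hc'⟩) * red A ⟨_, hh'⟩ ^ n := by
  have : Fact q.Prime := ⟨hq⟩
  have hh0 : (h : Om) ≠ 0 := fun h0 => hh (Subtype.ext h0)
  obtain ⟨d, hd, hdO, hdr⟩ := (Fermat.Agent.S18.Red.redStmt N' q hqN' A hA).1 (h : Om) h.2 hh0
  -- `h' = d • h`
  set h' : FN N' := algebraMap Kbar (FN N') d * h with hh'def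
  have hcoe : ((h' : FN N') : Om) = HahnSeries.C d * (h : Om) := ValArch.coe_const_mul d h
  have hh' : ((h' : FN N') : Om) ∈ Ocal A := by rw [hcoe]; exact hdO
  have hr' : red A ⟨_, hh'⟩ ≠ 0 := by rw [red_congr A hcoe hh' hdO]; exact hdr
  set c' : Kbar := c * (d ^ n)⁻¹ with hc'def
  have hdn : d ^ n ≠ 0 := pow_ne_zero n hd
  -- the unit `V = h'ⁿ`
  set V : Ocal A := ⟨_, hh'⟩ ^ n with hV
  have hVr : red A V ≠ 0 := by rw [hV, map_pow]; exact pow_ne_zero n hr'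
  have hXeq : (X : Om) = HahnSeries.C c' * (V : Om) := by
    rw [hX, hV, ValArch.coe_const_mul c (h ^ n)]
    show HahnSeries.C c * (h : Om) ^ n = HahnSeries.C c' * ((h' : FN N') : Om) ^ n
    rw [hcoe, mul_pow, ← map_pow, ← mul_assoc, ← map_mul, hc'def, mul_assoc, inv_mul_cancel₀ hdn,
      mul_one]
  have hmem : HahnSeries.C c' * (V : Om) ∈ Ocal A := by rw [← hXeq]; exact hU.mem
  have hred : red A ⟨_, hmem⟩ ≠ 0 := by
    rw [← red_congr A hXeq hU.mem hmem]; exact hU.red_ne _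
  obtain ⟨hc'A, hc'inv⟩ := ValArch.inv_mem_of_C_mul_unit A c' V hVr hmem hred
  refine ⟨c', h', hc'A, hh', ?_, hr', ?_⟩
  · intro h0
    apply hred
    rw [red_C_mul A hc'A V hmem, h0, map_zero, zero_mul]
  · rw [red_congr A hXeq hU.mem hmem, red_C_mul A hc'A V hmem, hV, map_pow]

end RedPow

/-! ### Small facts on `coeffMap`, `ρ` and the decomposition group -/

theorem coeffMap_C' {R S : Type*} [CommRing R] [CommRing S] (f : R →+* S) (r : R) :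
    coeffMap f (HahnSeries.C r : LaurentSeries R) = HahnSeries.C (f r) :=
  coeffMap_single f 0 r

section Aux

variable {A : ValuationSubring Kbar} {N' q M : ℕ} [NeZero N'] [NeZero q]
variable {O : Subring Om} {ρ : O →+* Plan.R2 A} {w : FN (N' * q) ≃ₐ[Kbar] FN (N' * q)}

/-- `ρ (g⁻¹) = ((ρ g).1⁻¹, (ρ g).2⁻¹)`. -/
theorem rho_inv (g : O) (hg' : ((g : Om))⁻¹ ∈ O) (h1 : (ρ g).1 ≠ 0) :
    ρ ⟨_, hg'⟩ = ((ρ g).1⁻¹, (ρ g).2⁻¹) := by
  have hg0 : (g : Om) ≠ 0 := by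
    intro h0
    have : g = 0 := Subtype.ext h0
    rw [this, map_zero] at h1
    exact h1 rfl
  have e1 : g * ⟨_, hg'⟩ = 1 := Subtype.ext (mul_inv_cancel₀ hg0)
  have e2 := congrArg ρ e1
  rw [map_mul, map_one] at e2
  refine Prod.ext ?_ ?_
  · exact eq_inv_of_mul_eq_one_right (congrArg Prod.fst e2)
  · exact eq_inv_of_mul_eq_one_right (congrArg Prod.snd e2)

/-- The twisted ratio `(s • b) · a⁻¹` of two units of `F_{N'} ∩ Ocal`. -/
theorem exists_twist (s : A.decompositionSubgroup ℚ) (a b : FN N')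
    (haO : (a : Om) ∈ Ocal A) (hbO : (b : Om) ∈ Ocal A) (har : red A ⟨_, haO⟩ ≠ 0) :
    ∃ (y : FN N') (hy : (y : Om) ∈ Ocal A),
      red A ⟨_, hy⟩ =
        coeffMap (Fermat.Agent.S37.Gal.sigmaBar A s) (red A ⟨_, hbO⟩) * (red A ⟨_, haO⟩)⁻¹ := by
  have hsbO : ((Fermat.Agent.S37.Gal.gK A N' s • b : FN N') : Om) ∈ Ocal A :=
    Fermat.Agent.S37.Gal.coeffMap_mem_Ocal A s hbO
  have hsbr : red A ⟨_, hsbO⟩ =
      coeffMap (Fermat.Agent.S37.Gal.sigmaBar A s) (red A ⟨_, hbO⟩) :=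
    Fermat.Agent.S37.Gal.red_coeffMap A s (b : Om) hbO
  have hainvO : ((a⁻¹ : FN N') : Om) ∈ Ocal A := inv_mem_Ocal A ⟨_, haO⟩ har
  have hainvr : red A ⟨_, hainvO⟩ = (red A ⟨_, haO⟩)⁻¹ := red_inv A ⟨_, haO⟩ har
  refine ⟨Fermat.Agent.S37.Gal.gK A N' s • b * a⁻¹, (Ocal A).mul_mem hsbO hainvO, ?_⟩
  have e : (⟨_, (Ocal A).mul_mem hsbO hainvO⟩ : Ocal A) = ⟨_, hsbO⟩ * ⟨_, hainvO⟩ :=
    Subtype.ext rfl
  rw [← hsbr, ← hainvr, ← map_mul, ← e]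
  rfl

/-- Norm congruence along `α`, constant `1`. -/
theorem red_norm_alpha_one (hw : IsSwap A O ρ w) (hq : q.Prime) (hqN' : ¬ q ∣ N')
    (hA : A.LiesOverPrime q) (τ : kk A →+* kk A) (hτ : ∀ x, τ x = x ^ q) (g : FN (N' * q))
    (k1 : (g : Om) ∈ Ocal A) (k2 : ((w g : FN (N' * q)) : Om) ∈ Ocal A) :
    ∃ hn : ((@Algebra.norm (FN N') (FN (N' * q)) _ _
        (algebraAlong (heckeAlphaBar Kbar N' q)) g : FN N') : Om) ∈ Ocal A,
      red A ⟨_, hn⟩ = red A ⟨_, k1⟩ * coeffMap τ (red A ⟨_, k2⟩) := by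
  have hone : ∀ x : Om, HahnSeries.C (1 : Kbar) * x = x := fun x => by rw [map_one, one_mul]
  obtain ⟨hn, hred⟩ := NormTwo.red_norm_alpha N' q A hq hqN' hA
    (w : FN (N' * q) ≃+* FN (N' * q)) hw.alpha hw.beta hw.invol τ hτ g k2 1
    (by rw [hone]; exact k1)
  have hn' : ((@Algebra.norm (FN N') (FN (N' * q)) _ _
      (algebraAlong (heckeAlphaBar Kbar N' q)) g : FN N') : Om) ∈ Ocal A := by
    have h := hn
    rw [hone] at h
    exact h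
  refine ⟨hn', ?_⟩
  rw [red_congr A (hone _).symm hn' hn, hred]
  congr 1
  exact red_congr A (hone _) _ _

/-- Norm congruence along `β`, constant `1`. -/
theorem red_norm_beta_one (hw : IsSwap A O ρ w) (hq : q.Prime) (hqN' : ¬ q ∣ N')
    (hA : A.LiesOverPrime q) (τ : kk A →+* kk A) (hτ : ∀ x, τ x = x ^ q) (g : FN (N' * q))
    (k1 : (g : Om) ∈ Ocal A) (k2 : ((w g : FN (N' * q)) : Om) ∈ Ocal A) :
    ∃ hn : ((@Algebra.norm (FN N') (FN (N' * q)) _ _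
        (algebraAlong (heckeBetaBar Kbar N' q)) g : FN N') : Om) ∈ Ocal A,
      red A ⟨_, hn⟩ = red A ⟨_, k2⟩ * coeffMap τ (red A ⟨_, k1⟩) := by
  have hone : ∀ x : Om, HahnSeries.C (1 : Kbar) * x = x := fun x => by rw [map_one, one_mul]
  obtain ⟨hn, hred⟩ := NormTwo.red_norm_beta N' q A hq hqN' hA
    ((w : FN (N' * q) ≃+* FN (N' * q)) : FN (N' * q) →+* FN (N' * q)) hw.alpha hw.beta τ hτ g k1 1
    (by rw [hone]; exact k2)
  have hn' : ((@Algebra.norm (FN N') (FN (N' * q)) _ _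
      (algebraAlong (heckeBetaBar Kbar N' q)) g : FN N') : Om) ∈ Ocal A := by
    have h := hn
    rw [hone] at h
    exact h
  refine ⟨hn', ?_⟩
  rw [red_congr A (hone _).symm hn' hn, hred]
  congr 1
  exact red_congr A (hone _) _ _

end Aux

/-! ### `newDiv` is additive -/

theorem newDiv_add (N' q : ℕ) [NeZero N'] [NeZero q] (σ : Kbar ≃ₐ[ℚ] Kbar)
    (D₁ D₂ : Divisor Kbar (FN (N' * q))) :
    FPlan.newDiv N' q σ (D₁ + D₂) = FPlan.newDiv N' q σ D₁ + FPlan.newDiv N' q σ D₂ := by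
  unfold FPlan.newDiv
  rw [smul_add, smul_add]
  abel

/-! ### The main theorem, modulo the two divisor inputs (P1) and (P4) -/

section Main

variable {A : ValuationSubring Kbar} {N' q M : ℕ} [NeZero N'] [NeZero q]
variable {O : Subring Om} {ρ : O →+* Plan.R2 A}

/-- **[NEW-K0]** from `SwapN`, four fields of `Setup2`, and the divisor inputs (P1), (P4). -/
theorem newK0_of (hq : q.Prime) (hqN' : ¬ q ∣ N') (hA : A.LiesOverPrime q)
    (hle : modularFunctionFieldBar (N' * q) ≤ modularFunctionFieldBar (M * q))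
    (hscale : ∀ g : Om, g ∈ modularFunctionFieldBar (M * q) → g ≠ 0 →
      ∃ c : Kbar, c ≠ 0 ∧ ∃ h : HahnSeries.C c * g ∈ O, ρ ⟨_, h⟩ ≠ 0)
    (hρj : ∃ h : (jK : Om) ∈ O, ρ ⟨_, h⟩ = (jk A, jk A ^ q))
    (hρjq : ∃ h : (qExpand Kbar q jK : Om) ∈ O, ρ ⟨_, h⟩ = (jk A ^ q, jk A))
    (hinv : ∀ g : O, (ρ g).1 ≠ 0 → (ρ g).2 ≠ 0 → ((g : Om))⁻¹ ∈ O)
    (hP1α : ∀ (D₀ : Divisor Kbar (FN (N' * q))) (n : ℕ) (f : FN (N' * q)), f ≠ 0 →
      (∀ P : Place Kbar (FN (N' * q)), P.ord f = n * D₀ P) →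
      Divisor.pushforwardAlong (heckeAlphaBar Kbar N' q)
          (Fermat.Agent.S37.HeckeInputs.heckeAlphaBarIntegral N' q) D₀ ∈
        Divisor.principal (K := Kbar) (F := FN N') →
      ∃ (c : Kbar) (h : FN N'), c ≠ 0 ∧ h ≠ 0 ∧
        (@Algebra.norm (FN N') (FN (N' * q)) _ _ (algebraAlong (heckeAlphaBar Kbar N' q)) f :
          FN N') = algebraMap Kbar (FN N') c * h ^ n)
    (hP1β : ∀ (D₀ : Divisor Kbar (FN (N' * q))) (n : ℕ) (f : FN (N' * q)), f ≠ 0 →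
      (∀ P : Place Kbar (FN (N' * q)), P.ord f = n * D₀ P) →
      Divisor.pushforwardAlong (heckeBetaBar Kbar N' q)
          (Fermat.Agent.S37.HeckeInputs.heckeBetaBarIntegral N' q) D₀ ∈
        Divisor.principal (K := Kbar) (F := FN N') →
      ∃ (c : Kbar) (h : FN N'), c ≠ 0 ∧ h ≠ 0 ∧
        (@Algebra.norm (FN N') (FN (N' * q)) _ _ (algebraAlong (heckeBetaBar Kbar N' q)) f :
          FN N') = algebraMap Kbar (FN N') c * h ^ n)
    (hPα : ∀ D : Divisor Kbar (FN (N' * q)),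
      D ∈ Divisor.principal (K := Kbar) (F := FN (N' * q)) →
      Divisor.pushforwardAlong (heckeAlphaBar Kbar N' q)
          (Fermat.Agent.S37.HeckeInputs.heckeAlphaBarIntegral N' q) D ∈
        Divisor.principal (K := Kbar) (F := FN N'))
    (hPβ : ∀ D : Divisor Kbar (FN (N' * q)),
      D ∈ Divisor.principal (K := Kbar) (F := FN (N' * q)) →
      Divisor.pushforwardAlong (heckeBetaBar Kbar N' q)
          (Fermat.Agent.S37.HeckeInputs.heckeBetaBarIntegral N' q) D ∈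
        Divisor.principal (K := Kbar) (F := FN N'))
    (hP4 : ∀ (σ : Kbar ≃ₐ[ℚ] Kbar) (D₀ : Divisor Kbar (FN (N' * q))) (n : ℕ),
      Divisor.degree D₀ = 0 → ∀ f : FN (N' * q), f ≠ 0 →
      (∀ P : Place Kbar (FN (N' * q)), P.ord f = n * D₀ P) →
      ∀ G : FN (N' * q), G ≠ 0 →
      ∃ D' : Divisor Kbar (FN (N' * q)), Divisor.degree D' = 0 ∧
        D' - FPlan.newDiv N' q σ D₀ ∈ Divisor.principal (K := Kbar) (F := FN (N' * q)) ∧
        ∀ P : Place Kbar (FN (N' * q)),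
          P.ord ((Plan.gal (N' * q) σ • Plan.gal (N' * q) σ • f) * f⁻¹ * G ^ n) = n * D' P)
    (hW : FPlan.SwapN A N' q O ρ) : FPlan.NewK0 A N' q O ρ := by
  obtain ⟨w, hw⟩ := swapN_iff.mp hW
  intro σ hσ D₀ n hdeg hn hprin hα hβ
  obtain ⟨f, hf0, hfD⟩ := hprin
  -- (1) normalisation: `g = c f Hⁿ` is a unit for both valuations
  obtain ⟨c, H, hc, hH, hU1, hU2⟩ :=
    hw.exists_unit_mul_pow hq hA hle hscale hρj hρjq hinv f hf0 n hn
  set g : FN (N' * q) := algebraMap Kbar (FN (N' * q)) c * f * H ^ n with hg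
  have hcf : algebraMap Kbar (FN (N' * q)) c * f ≠ 0 :=
    mul_ne_zero (by rw [Ne, map_eq_zero]; exact hc) hf0
  have hg0 : g ≠ 0 := mul_ne_zero hcf (pow_ne_zero n hH)
  obtain ⟨DH, hDH, hDHdeg⟩ := Char0.exists_divisor (N' * q) H hH
  have hDHp : DH ∈ Divisor.principal (K := Kbar) (F := FN (N' * q)) := ⟨H, hH, hDH⟩
  set D₁ : Divisor Kbar (FN (N' * q)) := D₀ + DH with hD₁
  have hdeg₁ : Divisor.degree D₁ = 0 := by rw [hD₁, map_add, hdeg, hDHdeg, add_zero]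
  have hgD : ∀ P : Place Kbar (FN (N' * q)), P.ord g = n * D₁ P := by
    intro P
    rw [hg, P.ord_mul hcf (pow_ne_zero n hH), Main.ord_algebraMap_mul P hc hf0, Main.ord_pow,
      ← hfD P, hD₁, Finsupp.add_apply, ← hDH P, Finsupp.smul_apply, nsmul_eq_mul, mul_add]
  have hα₁ : Divisor.pushforwardAlong (heckeAlphaBar Kbar N' q)
      (Fermat.Agent.S37.HeckeInputs.heckeAlphaBarIntegral N' q) D₁ ∈
      Divisor.principal (K := Kbar) (F := FN N') := by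
    rw [hD₁, map_add]; exact add_mem hα (hPα DH hDHp)
  have hβ₁ : Divisor.pushforwardAlong (heckeBetaBar Kbar N' q)
      (Fermat.Agent.S37.HeckeInputs.heckeBetaBarIntegral N' q) D₁ ∈
      Divisor.principal (K := Kbar) (F := FN N') := by
    rw [hD₁, map_add]; exact add_mem hβ (hPβ DH hDHp)
  -- (2) the two norms are constants times `n`-th powers
  obtain ⟨cα, eα, -, heα, hNα⟩ := hP1α D₁ n g hg0 hgD hα₁
  obtain ⟨cβ, eβ, -, heβ, hNβ⟩ := hP1β D₁ n g hg0 hgD hβ₁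
  -- (3) the Frobenius element
  obtain ⟨hmemσ, hfrob⟩ := hσ
  set s : A.decompositionSubgroup ℚ := ⟨σ, hmemσ⟩ with hs
  set τ : kk A →+* kk A := Fermat.Agent.S37.Gal.sigmaBar A s with hτdef
  have hτ : ∀ x : kk A, τ x = x ^ q := fun x => hfrob x
  have k1 : (g : Om) ∈ Ocal A := hU1.mem
  have k2 : ((w g : FN (N' * q)) : Om) ∈ Ocal A := hU2.mem
  set r₁ : Omk A := red A ⟨_, k1⟩ with hr₁
  set r₂ : Omk A := red A ⟨_, k2⟩ with hr₂
  have hr₁0 : r₁ ≠ 0 := hU1.red_ne k1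
  have hr₂0 : r₂ ≠ 0 := hU2.red_ne k2
  obtain ⟨hnα, hredα⟩ := red_norm_alpha_one hw hq hqN' hA τ hτ g k1 k2
  obtain ⟨hnβ, hredβ⟩ := red_norm_beta_one hw hq hqN' hA τ hτ g k1 k2
  have hUα : IsU A ((@Algebra.norm (FN N') (FN (N' * q)) _ _
      (algebraAlong (heckeAlphaBar Kbar N' q)) g : FN N') : Om) :=
    ⟨hnα, by rw [hredα]; exact mul_ne_zero hr₁0 ((map_ne_zero (coeffMap τ)).mpr hr₂0)⟩
  have hUβ : IsU A ((@Algebra.norm (FN N') (FN (N' * q)) _ _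
      (algebraAlong (heckeBetaBar Kbar N' q)) g : FN N') : Om) :=
    ⟨hnβ, by rw [hredβ]; exact mul_ne_zero hr₂0 ((map_ne_zero (coeffMap τ)).mpr hr₁0)⟩
  obtain ⟨cα', a, hcα'A, haO, hcα'r, har, hXα⟩ :=
    exists_red_eq A N' q hq hqN' hA _ cα eα n heα hNα hUα
  obtain ⟨cβ', b, hcβ'A, hbO, hcβ'r, hbr, hXβ⟩ :=
    exists_red_eq A N' q hq hqN' hA _ cβ eβ n heβ hNβ hUβ
  set ca : kk A := IsLocalRing.residue A ⟨cα', hcα'A⟩ with hca
  set cb : kk A := IsLocalRing.residue A ⟨cβ', hcβ'A⟩ with hcb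
  set ra : Omk A := red A ⟨_, haO⟩ with hra
  set rb : Omk A := red A ⟨_, hbO⟩ with hrb
  have R1 : r₁ * coeffMap τ r₂ = HahnSeries.C ca * ra ^ n := hredα.symm.trans hXα
  have R2 : r₂ * coeffMap τ r₁ = HahnSeries.C cb * rb ^ n := hredβ.symm.trans hXβ
  have hCa : (HahnSeries.C ca : Omk A) ≠ 0 := fun h0 =>
    hcα'r (HahnSeries.C_injective (h0.trans (map_zero _).symm))
  have hCb : (HahnSeries.C cb : Omk A) ≠ 0 := fun h0 =>
    hcβ'r (HahnSeries.C_injective (h0.trans (map_zero _).symm))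
  -- (4) the corrector
  obtain ⟨y₁, hy₁O, hy₁r⟩ := exists_twist s a b haO hbO har
  obtain ⟨y₂, hy₂O, hy₂r⟩ := exists_twist s b a hbO haO hbr
  obtain ⟨G, hG, hρG⟩ := hw.exists_pair hq.two_le hρj hρjq hinv y₁ y₂ hy₁O hy₂O
  rw [hy₁r, hy₂r] at hρG
  have hφa : coeffMap τ ra ≠ 0 := (map_ne_zero (coeffMap τ)).mpr har
  have hφb : coeffMap τ rb ≠ 0 := (map_ne_zero (coeffMap τ)).mpr hbr
  have hG1 : (ρ ⟨_, hG⟩).1 ≠ 0 := by
    rw [hρG]; exact mul_ne_zero hφb (inv_ne_zero har)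
  have hG2 : (ρ ⟨_, hG⟩).2 ≠ 0 := by
    rw [hρG]; exact mul_ne_zero hφa (inv_ne_zero hbr)
  have hGinvO : ((G : Om))⁻¹ ∈ O := hinv ⟨_, hG⟩ hG1 hG2
  have hρGinv := rho_inv (ρ := ρ) ⟨_, hG⟩ hGinvO hG1
  rw [hρG] at hρGinv
  have hG0 : G ≠ 0 := by
    intro h0
    apply hG1
    have e0 : ((G : FN (N' * q)) : Om) = 0 := by rw [h0]; rfl
    have : (⟨_, hG⟩ : O) = 0 := Subtype.ext e0
    rw [this, map_zero]; rfl
  -- (5) `g`, `σ g`, `σ² g`, `g⁻¹` in `O`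
  obtain ⟨hgO, hρg⟩ := hw.rho_mk g k1 k2
  have hg1 : (ρ ⟨_, hgO⟩).1 ≠ 0 := by rw [hρg]; exact hr₁0
  have hg2 : (ρ ⟨_, hgO⟩).2 ≠ 0 := by rw [hρg]; exact hr₂0
  have hginvO : ((g : Om))⁻¹ ∈ O := hinv ⟨_, hgO⟩ hg1 hg2
  have hρginv := rho_inv (ρ := ρ) ⟨_, hgO⟩ hginvO hg1
  rw [hρg] at hρginv
  obtain ⟨h1O, hρ1⟩ := hw.decomp s g hgO
  rw [hρg] at hρ1
  obtain ⟨h2O, hρ2⟩ := hw.decomp s (Fermat.Agent.S37.Gal.gK A (N' * q) s • g) h1O
  rw [hρ1] at hρ2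
  -- (6) `u = σ² g · g⁻¹ · (G⁻¹)ⁿ`
  set uO : O := ⟨_, h2O⟩ * ⟨_, hginvO⟩ * ⟨_, hGinvO⟩ ^ n with huO
  set u : FN (N' * q) := (Plan.gal (N' * q) σ • Plan.gal (N' * q) σ • g) * g⁻¹ * G⁻¹ ^ n with hu
  have hcoe : (u : Om) = (uO : Om) := rfl
  set c₁ : kk A := τ cb * ca⁻¹ with hc₁
  set c₂ : kk A := τ ca * cb⁻¹ with hc₂
  have hca0 : ca ≠ 0 := hcα'r
  have hcb0 : cb ≠ 0 := hcβ'r
  have hc₁0 : c₁ ≠ 0 := mul_ne_zero ((map_ne_zero τ).mpr hcb0) (inv_ne_zero hca0)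
  have hc₂0 : c₂ ≠ 0 := mul_ne_zero ((map_ne_zero τ).mpr hca0) (inv_ne_zero hcb0)
  have hρu : ρ uO = (HahnSeries.C c₁, HahnSeries.C c₂) := by
    rw [huO, map_mul, map_mul, map_pow, hρ2, hρginv, hρGinv]
    refine Prod.ext ?_ ?_
    · show coeffMap τ (coeffMap τ r₁) * r₁⁻¹ * ((coeffMap τ rb * ra⁻¹)⁻¹) ^ n = HahnSeries.C c₁
      rw [twist_eq (coeffMap τ) n hr₁0 hr₂0 har hbr hCa R1 R2, coeffMap_C', hc₁, map_mul,
        map_inv₀]
    · show coeffMap τ (coeffMap τ r₂) * r₂⁻¹ * ((coeffMap τ ra * rb⁻¹)⁻¹) ^ n = HahnSeries.C c₂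
      rw [twist_eq (coeffMap τ) n hr₂0 hr₁0 hbr har hCb R2 R1, coeffMap_C', hc₂, map_mul,
        map_inv₀]
  have hu0 : u ≠ 0 := by
    intro h0
    have e : uO = 0 := Subtype.ext (by rw [← hcoe, h0]; rfl)
    rw [e, map_zero] at hρu
    exact hc₁0 (HahnSeries.C_injective ((congrArg Prod.fst hρu).symm.trans (map_zero _).symm))
  -- (7) the divisor
  obtain ⟨D', hD'deg, hD'p, hD'ord⟩ := hP4 σ D₁ n hdeg₁ g hg0 hgD G⁻¹ (inv_ne_zero hG0)
  have hdiff : D' - FPlan.newDiv N' q σ D₀ ∈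
      Divisor.principal (K := Kbar) (F := FN (N' * q)) := by
    have e : D' - FPlan.newDiv N' q σ D₀ =
        (D' - FPlan.newDiv N' q σ D₁) + FPlan.newDiv N' q σ DH := by
      rw [hD₁, newDiv_add]; abel
    rw [e]
    exact add_mem hD'p (FPlan.newDiv_mem_principal σ hDHp)
  exact ⟨D', u, hD'deg, hdiff, hu0, hD'ord, uO.2, c₁, c₂, hc₁0, hc₂0, hρu⟩

end Main

/-! ### The unconditional forms -/

section Final

variable {A : ValuationSubring Kbar} {N' q M : ℕ} [NeZero N'] [NeZero q]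
variable {O : Subring Om} {ρ : O →+* Plan.R2 A}

/-- **[NEW-K0]** from `SwapN` and the four fields `scale`, `ρ_j`, `ρ_jq`, `inv_mem` of `Setup2`
((P1) = `NormPush` (helper33), (P4) = `NewDivData` (helper50)). -/
theorem newK0_of_fields (hq : q.Prime) (hqN' : ¬ q ∣ N') (hA : A.LiesOverPrime q)
    (hle : modularFunctionFieldBar (N' * q) ≤ modularFunctionFieldBar (M * q))
    (hscale : ∀ g : Om, g ∈ modularFunctionFieldBar (M * q) → g ≠ 0 →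
      ∃ c : Kbar, c ≠ 0 ∧ ∃ h : HahnSeries.C c * g ∈ O, ρ ⟨_, h⟩ ≠ 0)
    (hρj : ∃ h : (jK : Om) ∈ O, ρ ⟨_, h⟩ = (jk A, jk A ^ q))
    (hρjq : ∃ h : (qExpand Kbar q jK : Om) ∈ O, ρ ⟨_, h⟩ = (jk A ^ q, jk A))
    (hinv : ∀ g : O, (ρ g).1 ≠ 0 → (ρ g).2 ≠ 0 → ((g : Om))⁻¹ ∈ O)
    (hW : FPlan.SwapN A N' q O ρ) : FPlan.NewK0 A N' q O ρ :=
  newK0_of hq hqN' hA hle hscale hρj hρjq hinv
    (fun D₀ n f hf hfD hα => Fermat.Agent.S35.NormPush.norm_alpha_eq N' q D₀ n f hf hfD hα)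
    (fun D₀ n f hf hfD hβ => Fermat.Agent.S35.NormPush.norm_beta_eq N' q D₀ n f hf hfD hβ)
    (fun D hD => Fermat.Agent.S35.NormPush.push_alpha_principal N' q D hD)
    (fun D hD => Fermat.Agent.S35.NormPush.push_beta_principal N' q D hD)
    (fun σ D₀ n hdeg f hf hfD G hG =>
      Fermat.Agent.S35.NewDivData.exists_newDiv_data N' q σ D₀ n hdeg f hf hfD G hG)
    hW

/-- **[NEW-K0]**, consumer shape: from `Levels`, `Setup2` and `SwapN`, for an abstract `(O, ρ)`. -/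
theorem newK0 (hL : Plan.Levels q N' (N' * q) M) (hA : A.LiesOverPrime q)
    (hS : Plan.Setup2 A (N' * q) q M (FPlan.dvd_level N' q) O ρ)
    (hW : FPlan.SwapN A N' q O ρ) : FPlan.NewK0 A N' q O ρ := by
  have hM : NeZero M := ⟨by
    rw [hL.M_eq]
    refine Nat.mul_ne_zero ?_ hL.N'_pos.ne'
    unfold Plan.aux
    split_ifs <;> norm_num⟩
  have hdvd : N' * q ∣ M * q :=
    Nat.mul_dvd_mul_right (by rw [hL.M_eq]; exact Dvd.intro_left _ rfl) q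
  exact newK0_of_fields hL.prime hL.not_dvd hA (PullStep.bar_le hdvd) hS.scale hS.ρ_j hS.ρ_jq
    hS.inv_mem hW

end Final

end Fermat.Agent.S35.NewK0Alt

end
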