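/-
P6 / S35 leaf [NOOLD] + [EIGFORM] (helper33).

* `exists_cuspForm_of_parabolic` (E1): a nonzero complex parabolic class of `Γ₀(N)` which is an
  eigenvector of the cohomological Hecke operators `T^coh_ℓ` (`ℓ ∉ S`) comes from a nonzero cusp
  form of weight two with the same eigenvalues (Eichler--Shimura: the pair map of the Prelude is
  `ℂ`-linear, injective and onto the parabolic classes, and it is Hecke equivariant).
* `exists_normalizedEigenform_of_eigen` (E2): a nonzero eigenvector of the `T_ℓ` (`ℓ ∉ S`) can be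
  replaced by a normalised eigenform with the same eigenvalues away from `S` (the joint eigenspace
  is stable under the whole commuting family `T_p`, `U_p`).
* `noOld` (E3): the eigensystem of a newform of level `M` (all primes `ℓ ∤ M`) does not occur in
  the parabolic classes of a proper level `M' ∣ M`.
* `noOld_away` (E4): the same with the eigenvalues prescribed only away from a finite set of
  primes, through strong multiplicity one (`S35/SMO.lean`).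
-/
import Mathlib
import Fermat.Agent.P5.Per.Main
import Fermat.Agent.Lib.IntLatticeCongr
import Fermat.Agent.Lib.DeligneSerre
import Fermat.Agent.S35.SMO

set_option autoImplicit false

namespace Fermat.Agent.S35.NoOld

open CongruenceSubgroup ModularCurve ModularCurve.Period ModularFormClass
open Fermat.Agent.P5
open Fermat.Agent.Lib.IntLatticeCongr (heckeFam heckeFam_commute heckeFam_of_not_dvd
  exists_normalizedEigenform_of_heckeFam_eigen)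

/-- **(E1)** A nonzero parabolic class which is an eigenvector of the cohomological Hecke
operators away from `S` comes from a nonzero cusp form with the same eigenvalues. -/
theorem exists_cuspForm_of_parabolic (N : ℕ) [NeZero N] (S : Set ℕ) (c : ℕ → ℂ)
    (φ : Additive (Gamma0 N) →+ ℂ) (hφ : φ ∈ parabolicHoms ℂ (Gamma0 N) ℂ) (hφ0 : φ ≠ 0)
    (h : ∀ (ℓ : ℕ) (hℓ : ℓ.Prime) (hℓN : ¬ ℓ ∣ N), ℓ ∉ S →
      Per.tcoh N hℓ hℓN ℂ φ = c ℓ • φ) :
    ∃ f : CuspForm (Gamma0 N) 2, f ≠ 0 ∧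
      ∀ (ℓ : ℕ) (hℓ : ℓ.Prime) (hℓN : ¬ ℓ ∣ N), ℓ ∉ S →
        CuspForm.heckeTLin 2 hℓ hℓN f = c ℓ • f := by
  obtain ⟨hinj, hrange⟩ := Fermat.Agent.S21.result N
  have hmem : φ ∈ LinearMap.range (periodHomPair N) := by rw [hrange]; exact hφ
  obtain ⟨⟨f₁, f₂⟩, hf⟩ := hmem
  have key : ∀ (ℓ : ℕ) (hℓ : ℓ.Prime) (hℓN : ¬ ℓ ∣ N), ℓ ∉ S →
      CuspForm.heckeTLin 2 hℓ hℓN f₁ = c ℓ • f₁ ∧ CuspForm.heckeTLin 2 hℓ hℓN f₂ = c ℓ • f₂ := by
    intro ℓ hℓ hℓN hℓS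
    have h1 : periodHomPair N (CuspForm.heckeTLin 2 hℓ hℓN f₁, CuspForm.heckeTLin 2 hℓ hℓN f₂)
        = Per.tcoh N hℓ hℓN ℂ (periodHomPair N (f₁, f₂)) := by
      rw [Fermat.Agent.S21.periodHomPair_eq]
      simp only [LinearMap.coprod_apply, LinearMap.comp_apply, LinearMap.add_apply,
        LinearMap.sub_apply, LinearMap.id_apply, Fermat.Agent.S21.periodMapLin_apply]
      rw [Per.periodMap_heckeTLin, Per.periodMap_heckeTLin, map_add, map_add, map_sub,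
        Per.tcoh_charInvolution, Per.tcoh_charInvolution]
    have h2 : periodHomPair N (CuspForm.heckeTLin 2 hℓ hℓN f₁, CuspForm.heckeTLin 2 hℓ hℓN f₂)
        = periodHomPair N (c ℓ • (f₁, f₂)) := by
      rw [h1, hf, h ℓ hℓ hℓN hℓS, ← hf, map_smul]
    have h3 := hinj h2
    rw [Prod.smul_mk] at h3
    exact ⟨congrArg Prod.fst h3, congrArg Prod.snd h3⟩
  by_cases hf1 : f₁ = 0
  · have hf2 : f₂ ≠ 0 := by
      rintro rfl
      apply hφ0
      rw [← hf, hf1]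
      exact map_zero _
    exact ⟨f₂, hf2, fun ℓ hℓ hℓN hℓS => (key ℓ hℓ hℓN hℓS).2⟩
  · exact ⟨f₁, hf1, fun ℓ hℓ hℓN hℓS => (key ℓ hℓ hℓN hℓS).1⟩

/-- **(E2)** A nonzero eigenvector of the `T_ℓ`, `ℓ ∉ S`, can be replaced by a normalised
eigenform with the same eigenvalues away from `S`. -/
theorem exists_normalizedEigenform_of_eigen (N : ℕ) [NeZero N] (S : Set ℕ) (c : ℕ → ℂ)
    (f : CuspForm (Gamma0 N) 2) (hf : f ≠ 0)
    (h : ∀ (ℓ : ℕ) (hℓ : ℓ.Prime) (hℓN : ¬ ℓ ∣ N), ℓ ∉ S →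
      CuspForm.heckeTLin 2 hℓ hℓN f = c ℓ • f) :
    ∃ g' : CuspForm (Gamma0 N) 2, g'.IsNormalizedEigenform ∧
      ∀ ℓ : ℕ, ℓ.Prime → ¬ ℓ ∣ N → ℓ ∉ S → qCoeff g' ℓ = c ℓ := by
  classical
  have : FiniteDimensional ℂ (CuspForm (Gamma0 N) 2) :=
    (Fermat.Agent.S21.finrank_cuspForm_le N).1
  -- the joint eigenspace
  let W : Submodule ℂ (CuspForm (Gamma0 N) 2) :=
    { carrier := {w | ∀ (ℓ : ℕ) (hℓ : ℓ.Prime) (hℓN : ¬ ℓ ∣ N), ℓ ∉ S →
        CuspForm.heckeTLin 2 hℓ hℓN w = c ℓ • w}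
      add_mem' := by
        intro a b ha hb ℓ hℓ hℓN hℓS
        rw [map_add, ha ℓ hℓ hℓN hℓS, hb ℓ hℓ hℓN hℓS, smul_add]
      zero_mem' := by
        intro ℓ hℓ hℓN _
        rw [map_zero, smul_zero]
      smul_mem' := by
        intro r a ha ℓ hℓ hℓN hℓS
        rw [map_smul, ha ℓ hℓ hℓN hℓS, smul_comm] }
  have hfW : f ∈ W := h
  have hW : W ≠ ⊥ := fun hb => hf (by rw [hb] at hfW; simpa using hfW)
  let T : Set (Module.End ℂ (CuspForm (Gamma0 N) 2)) := Set.range (heckeFam N)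
  have hcomm : ∀ s ∈ T, ∀ t ∈ T, s * t = t * s := by
    rintro _ ⟨i, rfl⟩ _ ⟨j, rfl⟩
    exact (heckeFam_commute i j).eq
  have hstab : ∀ t ∈ T, ∀ w ∈ W, t w ∈ W := by
    rintro _ ⟨i, rfl⟩ w hw ℓ hℓ hℓN hℓS
    have hc : Commute (heckeFam N ⟨ℓ, hℓ⟩) (heckeFam N i) := heckeFam_commute _ _
    rw [heckeFam_of_not_dvd hℓ hℓN] at hc
    have h1 := congrArg (fun F : Module.End ℂ (CuspForm (Gamma0 N) 2) => F w) hc.eq
    simp only [Module.End.mul_apply] at h1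
    rw [h1, hw ℓ hℓ hℓN hℓS, map_smul]
  obtain ⟨w, hwW, hw0, hw⟩ :=
    Fermat.Agent.Lib.DeligneSerre.exists_common_eigenvector T hcomm _ W rfl hW hstab
  choose! lam hlam using hw
  obtain ⟨g', hg', hcoef⟩ := exists_normalizedEigenform_of_heckeFam_eigen w hw0
    (fun i => lam (heckeFam N i)) (fun i => hlam _ ⟨i, rfl⟩)
  refine ⟨g', hg', fun ℓ hℓ hℓN hℓS => ?_⟩
  have h1 := hcoef ⟨ℓ, hℓ⟩
  have h2 := hlam (heckeFam N ⟨ℓ, hℓ⟩) ⟨_, rfl⟩
  rw [heckeFam_of_not_dvd hℓ hℓN] at h2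
  have h3 : (c ℓ - lam (CuspForm.heckeTLin 2 hℓ hℓN)) • w = 0 := by
    rw [sub_smul, ← h2, ← hwW ℓ hℓ hℓN hℓS, sub_self]
  have h4 : c ℓ - lam (CuspForm.heckeTLin 2 hℓ hℓN) = 0 := by
    rcases smul_eq_zero.mp h3 with h5 | h5
    · exact h5
    · exact absurd h5 hw0
  show qCoeff (⇑g') ℓ = c ℓ
  rw [show qCoeff (⇑g') ℓ = lam (heckeFam N ⟨ℓ, hℓ⟩) from h1, heckeFam_of_not_dvd hℓ hℓN]
  exact (sub_eq_zero.mp h4).symm

/-- **(E3) [NOOLD].** The eigensystem of a newform of level `M` does not occur in the parabolic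
classes of a proper divisor level `M'`. -/
theorem noOld {M : ℕ} {g : CuspForm (Gamma0 M) 2} (hg : g.IsNewform) (M' : ℕ) [NeZero M']
    (hM' : M' ∣ M) (hne : M' ≠ M) (φ : Additive (Gamma0 M') →+ ℂ)
    (hφ : φ ∈ parabolicHoms ℂ (Gamma0 M') ℂ)
    (h : ∀ (ℓ : ℕ) (hℓ : ℓ.Prime) (hℓM : ¬ ℓ ∣ M),
      Per.tcoh M' hℓ (fun d => hℓM (d.trans hM')) ℂ φ = qCoeff g ℓ • φ) : φ = 0 := by
  by_contra hφ0
  obtain ⟨f, hf0, hf⟩ := exists_cuspForm_of_parabolic M' {ℓ | ℓ ∣ M} (fun ℓ => qCoeff g ℓ) φ hφ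
    hφ0 (fun ℓ hℓ _ hℓS => h ℓ hℓ hℓS)
  obtain ⟨g', hg', hcoef⟩ := exists_normalizedEigenform_of_eigen M' {ℓ | ℓ ∣ M} _ f hf0 hf
  exact hg.2 M' hM' hne
    ⟨g', hg', fun ℓ hℓ hℓM => hcoef ℓ hℓ (fun d => hℓM (d.trans hM')) hℓM⟩

/-- **(E4) [NOOLD], away from a finite set.** The eigensystem of a newform of level `M`,
prescribed only at the primes outside a finite set `S`, does not occur in the parabolic classes
of a proper divisor level `M'` (strong multiplicity one). -/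
theorem noOld_away (h29 : Fermat.Agent.P5.G9.S29Stmt)
    (hcheb : Fermat.Agent.P5.WeakChebLift.WeakChebStmt)
    {M : ℕ} {g : CuspForm (Gamma0 M) 2} (hg : g.IsNewform) (M' : ℕ) [NeZero M']
    (hM' : M' ∣ M) (hne : M' ≠ M) (S : Finset ℕ) (φ : Additive (Gamma0 M') →+ ℂ)
    (hφ : φ ∈ parabolicHoms ℂ (Gamma0 M') ℂ)
    (h : ∀ (ℓ : ℕ) (hℓ : ℓ.Prime) (hℓM' : ¬ ℓ ∣ M'), ℓ ∉ S →
      Per.tcoh M' hℓ hℓM' ℂ φ = qCoeff g ℓ • φ) : φ = 0 := by
  by_contra hφ0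
  obtain ⟨f, hf0, hf⟩ := exists_cuspForm_of_parabolic M' (↑S) (fun ℓ => qCoeff g ℓ) φ hφ
    hφ0 (fun ℓ hℓ hℓN hℓS => h ℓ hℓ hℓN (by simpa using hℓS))
  obtain ⟨g', hg', hcoef⟩ := exists_normalizedEigenform_of_eigen M' (↑S) _ f hf0 hf
  refine Fermat.Agent.S35.SMO.IsNewform.not_exists_away h29 hcheb hM' hne hg hg'
    (S ∪ M'.primeFactors) (fun ℓ hℓ hℓS' => ?_)
  rw [Finset.mem_union, not_or] at hℓS'
  exact hcoef ℓ hℓ (fun d => hℓS'.2 (Nat.mem_primeFactors.mpr ⟨hℓ, d, NeZero.ne M'⟩))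
    (by simpa using hℓS'.1)

end Fermat.Agent.S35.NoOld
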