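import Mathlib
import Fermat.Agent.S35.EigForm
import Fermat.Agent.S29
import Fermat.Agent.Lib.WeakCheb.Final

/-!
# P6 / S35 — [NOOLD-INST]: the eigensystem of a newform does not occur at lower level, unconditional

`S35/EigForm.noOldLat` takes the two P5 theorems (the frozen S29 and weak Chebotarev) as
hypotheses.  Here they are discharged (`Fermat.Agent.S29.result`,
`Lib.WeakCheb.weakChebotarev`):

* `s29Stmt`, `noOldLat'` : `EigForm.noOldLat` without hypotheses on S29 / Chebotarev;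
* `hNoOld` : the instance consumed by the S35 Tate-module construction: for a newform `g` of
  level `M` with eigencharacter `chig`, a ring hom `iota : chig.range →+* O'` into a domain of
  characteristic zero, and `M = N' * q` (`q` prime), a vector of `O' ⊗[ℤ] Lat N'` which is an
  eigenvector of the `T^coh_ℓ` (`ℓ ∤ M`, `ℓ ∉ S`) with eigenvalues `iota (chig (T_ℓ))` is zero.
-/

set_option autoImplicit false

open scoped TensorProduct
open CongruenceSubgroup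

namespace Fermat.Agent.S35.NoOldInst

open Fermat.Agent.P5.Per

/-- The frozen S29, as the `Prop` consumed by the P5/P6 programs. -/
theorem s29Stmt : Fermat.Agent.P5.G9.S29Stmt :=
  fun {_ _} hg {_} hp {_} _ _ φ => Fermat.Agent.S29.result hg hp φ

/-- **[NOOLD-LAT], unconditional.**  `EigForm.noOldLat` with the frozen S29 and weak Chebotarev
discharged. -/
theorem noOldLat' {M : ℕ} {g : CuspForm (Gamma0 M) 2} (hg : g.IsNewform) (M' : ℕ) [NeZero M']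
    (hM' : M' ∣ M) (hne : M' ≠ M) (S : Finset ℕ)
    (O : Type*) [CommRing O] [IsDomain O] (R : Subring ℂ) (ι : R →+* O)
    (hι : Function.Injective ι) (c : ℕ → O)
    (hc : ∀ ℓ : ℕ, ℓ.Prime → ℓ ∉ S →
      ∃ r : R, (r : ℂ) = ModularFormClass.qCoeff g ℓ ∧ ι r = c ℓ)
    (v : O ⊗[ℤ] Lat M')
    (hv : ∀ (ℓ : ℕ) (hℓ : ℓ.Prime) (hℓM' : ¬ ℓ ∣ M'), ℓ ∉ S →
      LinearMap.lTensor O (tcohL M' hℓ hℓM') v = c ℓ • v) : v = 0 :=
  Fermat.Agent.S35.EigForm.noOldLat s29Stmt Fermat.Agent.Lib.WeakCheb.weakChebotarev hg M' hM'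
    hne S O R ι hι c hc v hv

/-- **[NOOLD-INST]**, any proper divisor: for a newform `g` of level `M` with eigencharacter
`chig` and `iota : chig.range →+* O'` (`O'` a domain of characteristic zero), a vector of
`O' ⊗[ℤ] Lat N'`, `N' ∣ M` proper, which is an eigenvector of the `T^coh_ℓ` (`ℓ ∤ M`, `ℓ ∉ S`)
with eigenvalues `iota (chig (T_ℓ))` is zero. -/
theorem hNoOld_of_dvd {M : ℕ} [NeZero M] {g : CuspForm (Gamma0 M) 2} (hg : g.IsNewform)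
    (S : Finset ℕ) (O' : Type*) [CommRing O'] [IsDomain O'] [CharZero O']
    (chig : CuspForm.heckeAlgebra M 2 (↑S : Set ℕ) →+* ℂ)
    (hchig : ∀ (ℓ : ℕ) (hℓ : ℓ.Prime) (hℓM : ¬ ℓ ∣ M) (hℓS : ℓ ∉ (↑S : Set ℕ)),
      chig (CuspForm.heckeAlgebra.T hℓ hℓM hℓS) = ModularFormClass.qCoeff g ℓ)
    (iota : chig.range →+* O') (hMS : ∀ q : ℕ, q.Prime → q ∣ M → q ∈ S)
    (N' : ℕ) [NeZero N'] (hN'M : N' ∣ M) (hne : N' ≠ M) (v : O' ⊗[ℤ] Lat N')
    (hv : ∀ (ℓ : ℕ) (hℓ : ℓ.Prime) (hℓM : ¬ ℓ ∣ M) (hℓS : ℓ ∉ (↑S : Set ℕ)) (hℓN' : ¬ ℓ ∣ N'),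
      LinearMap.lTensor O' (tcohL N' hℓ hℓN') v =
        (iota.comp chig.rangeRestrict) (CuspForm.heckeAlgebra.T hℓ hℓM hℓS) • v) :
    v = 0 := by
  classical
  have hSM : ∀ ℓ : ℕ, ℓ.Prime → ℓ ∉ S → ¬ ℓ ∣ M := fun ℓ hℓ hℓS hd => hℓS (hMS ℓ hℓ hd)
  refine noOldLat' hg N' hN'M hne S O' chig.range iota
    (Fermat.Agent.S35.EigForm.iota_injective M (↑S : Set ℕ) hMS chig iota)
    (fun ℓ => if h : ℓ.Prime ∧ ℓ ∉ S then
      iota (chig.rangeRestrict (CuspForm.heckeAlgebra.T h.1 (hSM ℓ h.1 h.2)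
        (by simpa using h.2))) else 0) ?_ v ?_
  · intro ℓ hℓ hℓS
    have h : ℓ.Prime ∧ ℓ ∉ S := ⟨hℓ, hℓS⟩
    refine ⟨chig.rangeRestrict (CuspForm.heckeAlgebra.T hℓ (hSM ℓ hℓ hℓS) (by simpa using hℓS)),
      ?_, ?_⟩
    · exact hchig ℓ hℓ (hSM ℓ hℓ hℓS) (by simpa using hℓS)
    · simp only [dif_pos h]
  · intro ℓ hℓ hℓN' hℓS
    have h : ℓ.Prime ∧ ℓ ∉ S := ⟨hℓ, hℓS⟩
    simp only [dif_pos h]
    exact hv ℓ hℓ (hSM ℓ hℓ hℓS) (by simpa using hℓS) hℓN'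

/-- **[NOOLD-INST]** The instance of `[NOOLD-LAT]` consumed by the S35 Tate-module construction
(`χ = iota ∘ chig` at level `M = N' * q`, `q` prime). -/
theorem hNoOld {M : ℕ} [NeZero M] {g : CuspForm (Gamma0 M) 2} (hg : g.IsNewform)
    (S : Finset ℕ) (O' : Type*) [CommRing O'] [IsDomain O'] [CharZero O']
    (chig : CuspForm.heckeAlgebra M 2 (↑S : Set ℕ) →+* ℂ)
    (hchig : ∀ (ℓ : ℕ) (hℓ : ℓ.Prime) (hℓM : ¬ ℓ ∣ M) (hℓS : ℓ ∉ (↑S : Set ℕ)),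
      chig (CuspForm.heckeAlgebra.T hℓ hℓM hℓS) = ModularFormClass.qCoeff g ℓ)
    (iota : chig.range →+* O') (hMS : ∀ q : ℕ, q.Prime → q ∣ M → q ∈ S) :
    ∀ (N' q : ℕ) [NeZero N'], q.Prime → M = N' * q → ∀ v : O' ⊗[ℤ] Lat N',
      (∀ (ℓ : ℕ) (hℓ : ℓ.Prime) (hℓM : ¬ ℓ ∣ M) (hℓS : ℓ ∉ (↑S : Set ℕ)) (hℓN' : ¬ ℓ ∣ N'),
        LinearMap.lTensor O' (tcohL N' hℓ hℓN') v =
          (iota.comp chig.rangeRestrict) (CuspForm.heckeAlgebra.T hℓ hℓM hℓS) • v) →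
      v = 0 := by
  intro N' q _ hq hM v hv
  have hne : N' ≠ M := by
    intro h
    have h1 : N' * 1 = N' * q := by rw [mul_one, ← hM, h]
    exact hq.one_lt.ne (Nat.eq_of_mul_eq_mul_left (Nat.pos_of_ne_zero (NeZero.ne N')) h1)
  exact hNoOld_of_dvd hg S O' chig hchig iota hMS N' ⟨q, hM⟩ hne v hv

end Fermat.Agent.S35.NoOldInst
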