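import Mathlib
import Fermat.Agent.S34.ValArch

/-!
# S35 / (F) — [N-NORM]: simultaneous normalisation for the two valuations (helper83)

Generic setting of `S34/ValArch` (helper48): `K` a field, `A : ValuationSubring K`, `Ocal A` the
content ring of `K((T))` with its reduction `red A`, `F` an intermediate field of `K((T))/K`,
`σ : F ≃ₐ[K] F`; `v₁ = Ocal`, `v₂ = v₁ ∘ σ`.  Hypotheses: `JointScale A F σ`, `RankOne A`, an
element `e` with `red e = 1`, `red (σ e) = 0`, `σ (σ e) = e`, and `K` algebraically closed.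

* `IsU A x`            : `x` is a unit of `Ocal` (`x ∈ Ocal` and `red x ≠ 0`);
* `exists_second`      : for every constant `d ≠ 0` there is `H ∈ F` with `H` a unit of `Ocal` and
                         `σ H = d · (unit of Ocal)`  (i.e. `(v₁, v₂)(H) = (0, v(d))`);
* `exists_norm_scale`  : **[N-NORM]** for `y ≠ 0` in `F` and `n > 0` there are a constant `c ≠ 0`
                         and `H ≠ 0` in `F` such that `c · y · Hⁿ` and `σ (c · y · Hⁿ)` are both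
                         units of `Ocal`.
-/

set_option autoImplicit false
set_option synthInstance.maxHeartbeats 400000
set_option maxHeartbeats 800000

noncomputable section

namespace Fermat.Agent.S35.NormScale

open Fermat.Agent.S18.Content Fermat.Agent.S34.ValArch

variable {K : Type*} [Field K] (A : ValuationSubring K)

/-- `x` is a unit of the content ring `Ocal A`. -/
def IsU (x : LaurentSeries K) : Prop := ∃ h : x ∈ Ocal A, red A ⟨x, h⟩ ≠ 0

variable {A}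

theorem IsU.mul {x y : LaurentSeries K} (hx : IsU A x) (hy : IsU A y) : IsU A (x * y) := by
  obtain ⟨hx, hxr⟩ := hx
  obtain ⟨hy, hyr⟩ := hy
  refine ⟨(Ocal A).mul_mem hx hy, ?_⟩
  rw [red_mul_mk A hx hy]
  exact mul_ne_zero hxr hyr

theorem IsU.inv {x : LaurentSeries K} (hx : IsU A x) : IsU A x⁻¹ := by
  obtain ⟨hx, hxr⟩ := hx
  refine ⟨inv_mem_Ocal A ⟨x, hx⟩ hxr, ?_⟩
  rw [red_inv A ⟨x, hx⟩ hxr]
  exact inv_ne_zero hxr

theorem IsU.pow {x : LaurentSeries K} (hx : IsU A x) (n : ℕ) : IsU A (x ^ n) := by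
  induction n with
  | zero =>
    rw [pow_zero]
    refine ⟨(Ocal A).one_mem, ?_⟩
    have h1 : (⟨(1 : LaurentSeries K), (Ocal A).one_mem⟩ : Ocal A) = 1 := rfl
    rw [h1, map_one]
    exact one_ne_zero
  | succ n ih =>
    rw [pow_succ]
    exact ih.mul hx

theorem IsU.ne_zero {x : LaurentSeries K} (hx : IsU A x) : x ≠ 0 := by
  obtain ⟨hx, hxr⟩ := hx
  exact ne_zero_of_red_ne_zero A ⟨x, hx⟩ hxr

/-- `x + z` is a unit of `Ocal` when `red x = 1` and `red z = 0`. -/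
theorem isU_add {x z : LaurentSeries K} (hx : x ∈ Ocal A) (hx1 : red A ⟨x, hx⟩ = 1)
    (hz : z ∈ Ocal A) (hz0 : red A ⟨z, hz⟩ = 0) : IsU A (x + z) := by
  refine ⟨(Ocal A).add_mem hx hz, ?_⟩
  have h1 : (⟨x + z, (Ocal A).add_mem hx hz⟩ : Ocal A) = ⟨x, hx⟩ + ⟨z, hz⟩ := rfl
  rw [h1, map_add, hx1, hz0, add_zero]
  exact one_ne_zero

/-- `C c * u` has zero reduction when `c` is a non-unit of `A` and `u ∈ Ocal`. -/
theorem red_C_mul_eq_zero {c : K} (hc : c ∈ A) (hcinv : c⁻¹ ∉ A) {u : LaurentSeries K}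
    (hu : u ∈ Ocal A) :
    ∃ h : HahnSeries.C c * u ∈ Ocal A, red A ⟨_, h⟩ = 0 := by
  have hC : (HahnSeries.C c : LaurentSeries K) ∈ Ocal A := C_mem_Ocal A hc
  refine ⟨(Ocal A).mul_mem hC hu, ?_⟩
  rw [red_mul_mk A hC hu, red_C A hc]
  have hres : IsLocalRing.residue A ⟨c, hc⟩ = 0 := by
    rw [IsLocalRing.residue_eq_zero_iff]
    by_contra hnm
    have hunit : IsUnit (⟨c, hc⟩ : A) := by
      by_contra hnu
      exact hnm ((IsLocalRing.mem_maximalIdeal _).2 hnu)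
    obtain ⟨v, hv⟩ := hunit
    have h1 : ((v⁻¹ : Aˣ) : A) * (⟨c, hc⟩ : A) = 1 := by rw [← hv]; exact Units.inv_mul v
    have h2 : (((v⁻¹ : Aˣ) : A) : K) * c = 1 := by
      have := congrArg Subtype.val h1
      simpa using this
    have hc0 : c ≠ 0 := fun h0 => by rw [h0, mul_zero] at h2; exact zero_ne_one h2
    have h3 : c⁻¹ = (((v⁻¹ : Aˣ) : A) : K) := by
      rw [← mul_one c⁻¹, ← h2, mul_comm _ c, ← mul_assoc, inv_mul_cancel₀ hc0, one_mul]
    exact hcinv (h3 ▸ ((v⁻¹ : Aˣ) : A).2)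
  rw [hres, map_zero, zero_mul]

variable {F : IntermediateField K (LaurentSeries K)} {σ : F ≃ₐ[K] F}

/-- For a constant `d ≠ 0` of `A`: an element `H` of `F`, unit of `Ocal`, with
`σ H = d · (unit of Ocal)`. -/
theorem exists_second_of_mem (hJ : JointScale A F σ) (hR : RankOne A) (e : F)
    (he : (e : LaurentSeries K) ∈ Ocal A) (he1 : red A ⟨_, he⟩ = 1)
    (hσe : ((σ e : F) : LaurentSeries K) ∈ Ocal A) (hσe0 : red A ⟨_, hσe⟩ = 0)
    (hσσ : σ (σ e) = e) (d : K) (hd : d ≠ 0) (hdA : d ∈ A) :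
    ∃ H : F, IsU A (H : LaurentSeries K) ∧
      ∃ v : LaurentSeries K, IsU A v ∧ ((σ H : F) : LaurentSeries K) = HahnSeries.C d * v := by
  obtain ⟨δ, hδ, hδinv, u₁, hu₁, hu₁r, hfac⟩ := exists_sigma_e_eq hJ e he he1 hσe hσe0 hσσ
  have hδA : δ ∈ A := (A.mem_or_inv_mem δ).resolve_right hδinv
  obtain ⟨m, hm⟩ := hR d δ hd hδ hδinv
  -- the constant `δ^(m+1) / d` is a non-unit of `A`
  set κ : K := δ ^ (m + 1) * d⁻¹ with hκ
  have hκeq : κ = δ * (δ ^ m * d⁻¹) := by rw [hκ, pow_succ]; ring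
  have hκA : κ ∈ A := by rw [hκeq]; exact A.mul_mem _ _ hδA hm
  have hκinv : κ⁻¹ ∉ A := by
    intro h
    apply hδinv
    have h1 : δ⁻¹ = κ⁻¹ * (δ ^ m * d⁻¹) := by
      rw [hκeq, mul_inv, mul_assoc, inv_mul_cancel₀, mul_one]
      exact mul_ne_zero (pow_ne_zero m hδ) (inv_ne_zero hd)
    rw [h1]
    exact A.mul_mem _ _ h hm
  refine ⟨e ^ (m + 1) + algebraMap K F d * σ e, ?_, ?_⟩
  · -- `H` is a unit of `Ocal`
    have hcoe : ((e ^ (m + 1) + algebraMap K F d * σ e : F) : LaurentSeries K) =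
        (e : LaurentSeries K) ^ (m + 1) + HahnSeries.C d * ((σ e : F) : LaurentSeries K) := by
      rw [← coe_const_mul d (σ e)]; rfl
    rw [hcoe]
    have hp : (e : LaurentSeries K) ^ (m + 1) ∈ Ocal A := (Ocal A).pow_mem he _
    have hp1 : red A ⟨_, hp⟩ = 1 := by
      have h1 : (⟨_, hp⟩ : Ocal A) = (⟨(e : LaurentSeries K), he⟩ : Ocal A) ^ (m + 1) :=
        Subtype.ext rfl
      rw [h1, map_pow, he1, one_pow]
    have hC : (HahnSeries.C d : LaurentSeries K) ∈ Ocal A := C_mem_Ocal A hdA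
    have hz : HahnSeries.C d * ((σ e : F) : LaurentSeries K) ∈ Ocal A :=
      (Ocal A).mul_mem hC hσe
    have hz0 : red A ⟨_, hz⟩ = 0 := by
      rw [red_mul_mk A hC hσe, hσe0, mul_zero]
    exact isU_add hp hp1 hz hz0
  · -- `σ H = C d * (e + C κ * u₁^(m+1))`
    obtain ⟨hz, hz0⟩ := red_C_mul_eq_zero (A := A) hκA hκinv ((Ocal A).pow_mem hu₁ (m + 1))
    refine ⟨(e : LaurentSeries K) + HahnSeries.C κ * u₁ ^ (m + 1), isU_add he he1 hz hz0, ?_⟩
    have hσH : σ (e ^ (m + 1) + algebraMap K F d * σ e) =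
        (σ e) ^ (m + 1) + algebraMap K F d * e := by
      rw [map_add, map_pow, sigma_const_mul, hσσ]
    have hcoe : (((σ e) ^ (m + 1) + algebraMap K F d * e : F) : LaurentSeries K) =
        ((σ e : F) : LaurentSeries K) ^ (m + 1) + HahnSeries.C d * (e : LaurentSeries K) := by
      rw [← coe_const_mul d e]; rfl
    rw [hσH, hcoe, hfac, mul_pow, ← map_pow, mul_add, ← mul_assoc, ← map_mul]
    have h2 : d * κ = δ ^ (m + 1) := by
      rw [hκ, mul_comm, mul_assoc, inv_mul_cancel₀ hd, mul_one]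
    rw [h2, add_comm]

/-- For every constant `d ≠ 0`: an element `H` of `F`, unit of `Ocal`, with
`σ H = d · (unit of Ocal)`, i.e. `(v₁, v₂)(H) = (0, v(d))`. -/
theorem exists_second (hJ : JointScale A F σ) (hR : RankOne A) (e : F)
    (he : (e : LaurentSeries K) ∈ Ocal A) (he1 : red A ⟨_, he⟩ = 1)
    (hσe : ((σ e : F) : LaurentSeries K) ∈ Ocal A) (hσe0 : red A ⟨_, hσe⟩ = 0)
    (hσσ : σ (σ e) = e) (d : K) (hd : d ≠ 0) :
    ∃ H : F, IsU A (H : LaurentSeries K) ∧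
      ∃ v : LaurentSeries K, IsU A v ∧ ((σ H : F) : LaurentSeries K) = HahnSeries.C d * v := by
  rcases A.mem_or_inv_mem d with hdA | hdA
  · exact exists_second_of_mem hJ hR e he he1 hσe hσe0 hσσ d hd hdA
  · obtain ⟨H, hH, v, hv, hσH⟩ :=
      exists_second_of_mem hJ hR e he he1 hσe hσe0 hσσ d⁻¹ (inv_ne_zero hd) hdA
    refine ⟨H⁻¹, ?_, v⁻¹, hv.inv, ?_⟩
    · have hcoe : ((H⁻¹ : F) : LaurentSeries K) = (H : LaurentSeries K)⁻¹ := rfl
      rw [hcoe]
      exact hH.inv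
    · have hcoe : ((σ H⁻¹ : F) : LaurentSeries K) = ((σ H : F) : LaurentSeries K)⁻¹ := by
        rw [map_inv₀]; rfl
      rw [hcoe, hσH, mul_inv, ← map_inv₀, inv_inv]

/-- The coercion of `c · y · Hⁿ` to `K((T))`. -/
theorem coe_scale_mul_pow (c : K) (y H : F) (n : ℕ) :
    ((algebraMap K F c * y * H ^ n : F) : LaurentSeries K) =
      HahnSeries.C c * (y : LaurentSeries K) * (H : LaurentSeries K) ^ n := by
  rw [← coe_const_mul c y]; rfl

/-- `σ (c · y · Hⁿ) = c · σ y · (σ H)ⁿ`. -/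
theorem sigma_scale_mul_pow (c : K) (y H : F) (n : ℕ) :
    σ (algebraMap K F c * y * H ^ n) = algebraMap K F c * σ y * (σ H) ^ n := by
  rw [map_mul, sigma_const_mul, map_pow]

/-- **[N-NORM]** simultaneous normalisation: for `y ≠ 0` in `F` and `n > 0` there are a constant
`c ≠ 0` and `H ≠ 0` in `F` such that `c · y · Hⁿ` and `σ (c · y · Hⁿ)` are both units of `Ocal`. -/
theorem exists_norm_scale [IsAlgClosed K] (hJ : JointScale A F σ) (hR : RankOne A) (e : F)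
    (he : (e : LaurentSeries K) ∈ Ocal A) (he1 : red A ⟨_, he⟩ = 1)
    (hσe : ((σ e : F) : LaurentSeries K) ∈ Ocal A) (hσe0 : red A ⟨_, hσe⟩ = 0)
    (hσσ : σ (σ e) = e) (y : F) (hy : y ≠ 0) (n : ℕ) (hn : 0 < n) :
    ∃ (c : K) (H : F), c ≠ 0 ∧ H ≠ 0 ∧
      ∃ (h₁ : ((algebraMap K F c * y * H ^ n : F) : LaurentSeries K) ∈ Ocal A)
        (h₂ : ((σ (algebraMap K F c * y * H ^ n) : F) : LaurentSeries K) ∈ Ocal A),
        red A ⟨_, h₁⟩ ≠ 0 ∧ red A ⟨_, h₂⟩ ≠ 0 := by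
  have hS : Scale₁ A F := scale₁ hJ hR e he he1 hσe hσe0 hσσ
  obtain ⟨c₁, hc₁, h₁, hr₁⟩ := hS y hy
  have hσy : σ y ≠ 0 := fun h0 => hy ((map_eq_zero_iff σ σ.injective).1 h0)
  obtain ⟨c₂, hc₂, h₂, hr₂⟩ := hS (σ y) hσy
  obtain ⟨d, hd⟩ := IsAlgClosed.exists_pow_nat_eq (c₂ * c₁⁻¹) hn
  have hd0 : d ≠ 0 := by
    intro h0
    rw [h0, zero_pow hn.ne'] at hd
    exact mul_ne_zero hc₂ (inv_ne_zero hc₁) hd.symm
  obtain ⟨H, hH, v, hv, hσH⟩ := exists_second hJ hR e he he1 hσe hσe0 hσσ d hd0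
  have hH0 : H ≠ 0 := fun h0 => hH.ne_zero (by rw [h0]; rfl)
  have hU₁ : IsU A (HahnSeries.C c₁ * (y : LaurentSeries K)) := ⟨h₁, hr₁⟩
  have hU₂ : IsU A (HahnSeries.C c₂ * ((σ y : F) : LaurentSeries K)) := ⟨h₂, hr₂⟩
  have hcoe₁ : ((algebraMap K F c₁ * y * H ^ n : F) : LaurentSeries K) =
      HahnSeries.C c₁ * (y : LaurentSeries K) * (H : LaurentSeries K) ^ n := by
    rw [← coe_const_mul c₁ y]; rfl
  have hcoe₂ : ((σ (algebraMap K F c₁ * y * H ^ n) : F) : LaurentSeries K) =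
      HahnSeries.C c₂ * ((σ y : F) : LaurentSeries K) * v ^ n := by
    have h1 : σ (algebraMap K F c₁ * y * H ^ n) = algebraMap K F c₁ * σ y * (σ H) ^ n := by
      rw [map_mul, sigma_const_mul, map_pow]
    have h2 : ((algebraMap K F c₁ * σ y * (σ H) ^ n : F) : LaurentSeries K) =
        HahnSeries.C c₁ * ((σ y : F) : LaurentSeries K) * ((σ H : F) : LaurentSeries K) ^ n := by
      rw [← coe_const_mul c₁ (σ y)]; rfl
    rw [h1, h2, hσH, mul_pow, ← map_pow, hd]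
    have h3 : (HahnSeries.C c₂ : LaurentSeries K) = HahnSeries.C c₁ * HahnSeries.C (c₂ * c₁⁻¹) := by
      rw [← map_mul]
      congr 1
      rw [mul_comm c₂, ← mul_assoc, mul_inv_cancel₀ hc₁, one_mul]
    rw [h3]
    ring
  have hZ₁ : IsU A ((algebraMap K F c₁ * y * H ^ n : F) : LaurentSeries K) := by
    rw [hcoe₁]; exact hU₁.mul (hH.pow n)
  have hZ₂ : IsU A ((σ (algebraMap K F c₁ * y * H ^ n) : F) : LaurentSeries K) := by
    rw [hcoe₂]; exact hU₂.mul (hv.pow n)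
  obtain ⟨k₁, kr₁⟩ := hZ₁
  obtain ⟨k₂, kr₂⟩ := hZ₂
  exact ⟨c₁, H, hc₁, hH0, k₁, k₂, kr₁, kr₂⟩

end Fermat.Agent.S35.NormScale

end
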