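import Mathlib
import Fermat.Agent.S35.LatticePlus

/-!
# S35: from polynomial relations `aeval (ρ σ) P = 0` to the contract `LatticePlus.TatePlus`
(owner: helper83)

The Tate-side blocks of S35 produce the relation at the bad Frobenius lifts in the form
`Polynomial.aeval (ρ σ) P = 0` with `P = (X² - 1) (X² - q²) ∈ ℤ[X]`.  This file converts it to the
clause `(ρ σ * ρ σ - 1) * (ρ σ * ρ σ - q² • 1) = 0` of `LatticePlus.TatePlus`.

* `badPoly q : ℤ[X]` — the polynomial `(X² - 1) (X² - q²)`;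
* `aeval_badPoly` — its value at an element of an `O`-algebra;
* `tatePlus_of_aeval` — the constructor of `LatticePlus.TatePlus` from the `aeval` form.
-/

set_option autoImplicit false

open Polynomial CuspForm

namespace Fermat.Agent.S35.RelBridge

open Fermat.Agent.P5.Lattice Fermat.Agent.S35.LatticePlus

/-- The polynomial `(X² - 1) (X² - q²)` over `ℤ`. -/
noncomputable def badPoly (q : ℕ) : Polynomial ℤ := (X ^ 2 - 1) * (X ^ 2 - C (q : ℤ) ^ 2)

theorem badPoly_def (q : ℕ) : badPoly q = (X ^ 2 - 1) * (X ^ 2 - C (q : ℤ) ^ 2) := rfl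

/-- The value of `(X² - 1)(X² - q²)` at an element `s` of an `O`-algebra. -/
theorem aeval_badPoly {O : Type*} [CommRing O] {E : Type*} [Ring E] [Algebra O E] (s : E)
    (q : ℕ) :
    Polynomial.aeval s (badPoly q) = (s * s - 1) * (s * s - ((q : O) ^ 2) • (1 : E)) := by
  have h1 : algebraMap ℤ E (q : ℤ) = algebraMap O E (q : O) := by
    rw [map_natCast, map_natCast]
  rw [badPoly, map_mul, map_sub, map_sub, map_pow, map_pow, Polynomial.aeval_X, Polynomial.aeval_C,
    map_one, h1, ← map_pow, Algebra.algebraMap_eq_smul_one, pow_two]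

/-- The same with the explicit polynomial. -/
theorem aeval_badPoly' {O : Type*} [CommRing O] {E : Type*} [Ring E] [Algebra O E] (s : E)
    (q : ℕ) :
    Polynomial.aeval s ((X ^ 2 - 1) * (X ^ 2 - C (q : ℤ) ^ 2) : Polynomial ℤ) =
      (s * s - 1) * (s * s - ((q : O) ^ 2) • (1 : E)) :=
  aeval_badPoly (O := O) s q

/-- **Constructor of `LatticePlus.TatePlus`** from a lattice with the relation at the bad
Frobenius lifts in `aeval` form. -/
theorem tatePlus_of_aeval (p N : ℕ) [NeZero N] (S : Finset ℕ) (O' : Type) [CommRing O']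
    [IsLocalRing O'] (χ : heckeAlgebra N 2 (↑S : Set ℕ) →+* O')
    (W : Type) [AddCommGroup W] [Module O' W] [Module.Free O' W] [Module.Finite O' W]
    (ρ : GQ →* Module.End O' W) (hnt : Nontrivial W)
    (hcont : GaloisActionIsAdicContinuous O' ρ)
    (hES : ∀ (ℓ : ℕ) (hℓ : ℓ.Prime) (hℓN : ¬ ℓ ∣ N) (hℓS : ℓ ∉ (↑S : Set ℕ)),
      ∀ A : ValuationSubring (AlgebraicClosure ℚ), A.LiesOverPrime ℓ → ∀ σ : GQ,
        A.IsFrobeniusAt σ ℓ →
        ρ σ * ρ σ - χ (heckeAlgebra.T hℓ hℓN hℓS) • ρ σ + (ℓ : O') • (1 : Module.End O' W) = 0)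
    (hrel : ∀ q : ℕ, q.Prime → q ≠ p → q ∣ N → ¬ q ^ 2 ∣ N →
      ∀ A : ValuationSubring (AlgebraicClosure ℚ), A.LiesOverPrime q → ∀ σ : GQ,
        A.IsFrobeniusAt σ q → Polynomial.aeval (ρ σ) (badPoly q) = 0) :
    TatePlus p N S O' χ :=
  ⟨W, inferInstance, inferInstance, inferInstance, inferInstance, ρ, hnt, hcont, hES,
    fun q hq hqp hqN hq2 A hA σ hσ => by
      rw [← aeval_badPoly (O := O') (ρ σ) q]
      exact hrel q hq hqp hqN hq2 A hA σ hσ⟩

end Fermat.Agent.S35.RelBridge
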