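import Mathlib
import Fermat.Agent.S35.FPlan
import Fermat.Agent.S35.RedSurjN
import Fermat.Agent.S34.Sigma

/-!
# S35 / (F) — [NEW-K0] pieces (S4), (S5) (helper50): the two-component reduction on
# `α(F_{N'})`, `β(F_{N'})` and the corrector

`(O, ρ)` a two-component reduction with `FPlan.SwapN A N' q O ρ` (on `F_{N' q}`:
`ρ y = (red y, red (w y))`, `w` the Atkin–Lehner involution, `w ∘ α = β`).

* `ρ_alpha` : for `y ∈ F_{N'} ∩ Ocal`: `α y ∈ O`, `ρ (α y) = (ȳ, ȳ(T^q))`;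
* `ρ_beta`  : for `y ∈ F_{N'} ∩ Ocal`: `β y ∈ O`, `ρ (β y) = (ȳ(T^q), ȳ)`;
* `inv_alpha_mem`, `inv_beta_mem` : for `ȳ ≠ 0`, `(α y)⁻¹, (β y)⁻¹ ∈ O` (`Setup2.inv_mem`);
* `exists_pair` : for `y₁, y₂ ∈ F_{N'} ∩ Ocal` there is `G ∈ F_{N' q} ∩ O` with
  `ρ G = (ȳ₁, ȳ₂)`  (`G = e · α y₁ + (1 - e) · β y₂`, `ρ e = (1, 0)`).
-/

set_option autoImplicit false
set_option synthInstance.maxHeartbeats 400000
set_option maxHeartbeats 1000000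

noncomputable section

namespace Fermat.Agent.S35.SwapPair

open ModularCurve AlgebraicCurve Fermat.Agent.S24 Fermat.Agent.S18.Content Fermat.Agent.S18.Plan
open Fermat.Agent.Lib Fermat.Agent.Lib.KroneckerCong Fermat.Agent.S34

variable (A : ValuationSubring Kbar) {N' q M : ℕ} [NeZero N'] [NeZero q]
variable {O : Subring Om} {ρ : O →+* Plan.R2 A}

/-- **(S4α)** `α y ∈ O` and `ρ (α y) = (ȳ, ȳ(T^q))` for `y ∈ F_{N'} ∩ Ocal`. -/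
theorem ρ_alpha (hW : FPlan.SwapN A N' q O ρ) (y : FN N') (hy : (y : Om) ∈ Ocal A) :
    ∃ h : ((heckeAlphaBar Kbar N' q y : FN (N' * q)) : Om) ∈ O,
      ρ ⟨_, h⟩ = (red A ⟨(y : Om), hy⟩, qExpand (kk A) q (red A ⟨(y : Om), hy⟩)) := by
  obtain ⟨w, hα, -, -, -, hmem, hρ⟩ := hW
  have e1 : ((heckeAlphaBar Kbar N' q y : FN (N' * q)) : Om) = (y : Om) := Sigma.coe_alpha y
  have h1 : ((heckeAlphaBar Kbar N' q y : FN (N' * q)) : Om) ∈ Ocal A := by rw [e1]; exact hy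
  have e2 : ((w (heckeAlphaBar Kbar N' q y) : FN (N' * q)) : Om) = qExpand Kbar q (y : Om) := by
    rw [hα]; rfl
  have h2' : qExpand Kbar q (y : Om) ∈ Ocal A := qExpand_mem_Ocal A q hy
  have h2 : ((w (heckeAlphaBar Kbar N' q y) : FN (N' * q)) : Om) ∈ Ocal A := by rw [e2]; exact h2'
  have hO : ((heckeAlphaBar Kbar N' q y : FN (N' * q)) : Om) ∈ O := (hmem _).mpr ⟨h1, h2⟩
  refine ⟨hO, ?_⟩
  rw [hρ _ hO h1 h2]
  refine Prod.ext ?_ ?_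
  · exact red_congr A e1 h1 hy
  · show red A ⟨_, h2⟩ = _
    rw [red_congr A e2 h2 h2']
    exact red_qExpand A q ⟨_, hy⟩

/-- **(S4β)** `β y ∈ O` and `ρ (β y) = (ȳ(T^q), ȳ)` for `y ∈ F_{N'} ∩ Ocal`. -/
theorem ρ_beta (hW : FPlan.SwapN A N' q O ρ) (y : FN N') (hy : (y : Om) ∈ Ocal A) :
    ∃ h : ((heckeBetaBar Kbar N' q y : FN (N' * q)) : Om) ∈ O,
      ρ ⟨_, h⟩ = (qExpand (kk A) q (red A ⟨(y : Om), hy⟩), red A ⟨(y : Om), hy⟩) := by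
  obtain ⟨w, -, hβ, -, -, hmem, hρ⟩ := hW
  have e1 : ((heckeBetaBar Kbar N' q y : FN (N' * q)) : Om) = qExpand Kbar q (y : Om) := rfl
  have h1' : qExpand Kbar q (y : Om) ∈ Ocal A := qExpand_mem_Ocal A q hy
  have h1 : ((heckeBetaBar Kbar N' q y : FN (N' * q)) : Om) ∈ Ocal A := h1'
  have e2 : ((w (heckeBetaBar Kbar N' q y) : FN (N' * q)) : Om) = (y : Om) := by
    rw [hβ]; exact Sigma.coe_alpha y
  have h2 : ((w (heckeBetaBar Kbar N' q y) : FN (N' * q)) : Om) ∈ Ocal A := by rw [e2]; exact hy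
  have hO : ((heckeBetaBar Kbar N' q y : FN (N' * q)) : Om) ∈ O := (hmem _).mpr ⟨h1, h2⟩
  refine ⟨hO, ?_⟩
  rw [hρ _ hO h1 h2]
  refine Prod.ext ?_ ?_
  · show red A ⟨_, h1⟩ = _
    rw [red_congr A e1 h1 h1']
    exact red_qExpand A q ⟨_, hy⟩
  · exact red_congr A e2 h2 hy

/-- `qExpand` of a nonzero series is nonzero. -/
theorem qExpand_ne_zero {x : Omk A} (hx : x ≠ 0) : qExpand (kk A) q x ≠ 0 := fun h0 =>
  hx (qExpand_injective q (h0.trans (map_zero _).symm))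

/-- **(S4u)** `(α y)⁻¹ ∈ O` when `ȳ ≠ 0`. -/
theorem inv_alpha_mem (hS : Plan.Setup2 A (N' * q) q M (FPlan.dvd_level N' q) O ρ)
    (hW : FPlan.SwapN A N' q O ρ) (y : FN N') (hy : (y : Om) ∈ Ocal A)
    (h0 : red A ⟨(y : Om), hy⟩ ≠ 0) :
    (((heckeAlphaBar Kbar N' q y : FN (N' * q)) : Om))⁻¹ ∈ O := by
  obtain ⟨h, hρ⟩ := ρ_alpha A hW y hy
  refine hS.inv_mem ⟨_, h⟩ ?_ ?_
  · rw [hρ]; exact h0
  · rw [hρ]; exact qExpand_ne_zero A h0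

/-- **(S4u)** `(β y)⁻¹ ∈ O` when `ȳ ≠ 0`. -/
theorem inv_beta_mem (hS : Plan.Setup2 A (N' * q) q M (FPlan.dvd_level N' q) O ρ)
    (hW : FPlan.SwapN A N' q O ρ) (y : FN N') (hy : (y : Om) ∈ Ocal A)
    (h0 : red A ⟨(y : Om), hy⟩ ≠ 0) :
    (((heckeBetaBar Kbar N' q y : FN (N' * q)) : Om))⁻¹ ∈ O := by
  obtain ⟨h, hρ⟩ := ρ_beta A hW y hy
  refine hS.inv_mem ⟨_, h⟩ ?_ ?_
  · rw [hρ]; exact qExpand_ne_zero A h0
  · rw [hρ]; exact h0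

/-- **(S5) the corrector**: every pair `(ȳ₁, ȳ₂)` of reductions of elements of `F_{N'} ∩ Ocal`
is `ρ G` for some `G ∈ F_{N' q} ∩ O`. -/
theorem exists_pair (hL : Plan.Levels q N' (N' * q) M)
    (hS : Plan.Setup2 A (N' * q) q M (FPlan.dvd_level N' q) O ρ)
    (hW : FPlan.SwapN A N' q O ρ) (y₁ y₂ : FN N')
    (h₁ : (y₁ : Om) ∈ Ocal A) (h₂ : (y₂ : Om) ∈ Ocal A) :
    ∃ (G : FN (N' * q)) (hG : (G : Om) ∈ O),
      ρ ⟨_, hG⟩ = (red A ⟨(y₁ : Om), h₁⟩, red A ⟨(y₂ : Om), h₂⟩) := by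
  obtain ⟨e, heF, he, hρe⟩ := RedSurjN.exists_e_of_setup A hL (FPlan.dvd_level N' q) hS
  obtain ⟨ha, hρa⟩ := ρ_alpha A hW y₁ h₁
  obtain ⟨hb, hρb⟩ := ρ_beta A hW y₂ h₂
  set E : FN (N' * q) := ⟨e, heF⟩ with hE
  refine ⟨E * heckeAlphaBar Kbar N' q y₁ + (1 - E) * heckeBetaBar Kbar N' q y₂, ?_, ?_⟩
  · exact O.add_mem (O.mul_mem he ha) (O.mul_mem (O.sub_mem O.one_mem he) hb)
  · have hval : (⟨((E * heckeAlphaBar Kbar N' q y₁ + (1 - E) * heckeBetaBar Kbar N' q y₂ :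
          FN (N' * q)) : Om),
          O.add_mem (O.mul_mem he ha) (O.mul_mem (O.sub_mem O.one_mem he) hb)⟩ : O) =
        ⟨e, he⟩ * ⟨_, ha⟩ + (1 - ⟨e, he⟩) * ⟨_, hb⟩ := Subtype.ext rfl
    rw [hval, map_add, map_mul, map_mul, map_sub, map_one, hρe, hρa, hρb]
    refine Prod.ext ?_ ?_
    · simp
    · simp

end Fermat.Agent.S35.SwapPair

end
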