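import Mathlib
import Fermat.Agent.P5.TateB.Generic

/-!
# S35 — the `[TATE+]` block, generic algebra (helper9)

Extension of `P5/TateB/Generic.exists_tate_generic` by a "new part":

* `mem_range_inf`, `mem_range_iInf` : flatness, `O ⊗ (K₁ ⊓ K₂) = (O ⊗ K₁) ∩ (O ⊗ K₂)` inside
  `O ⊗ J` (finite intersections);
* `mem_range_ker_of_comp`    : `a ∘ lam = lam' ∘ a'` and `(a' ⊗ 1) v = 0` give
  `(lam ⊗ 1) v ∈ O ⊗ ker a` (the hypothesis `hnew` below);
* `torsSub p J`              : the `p`-power torsion of `J` as a subgroup;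
* `exists_tate_plus`         : the eigenlattice cut down to a Galois-stable subgroup `Jn ≤ J`
  ("new part"): same conclusions as `exists_tate_generic`, plus every integral polynomial
  relation in `ρJ g` which holds on the `p`-power torsion of `Jn` holds for `ρ g`, and the
  explicit case `(ρ g ^ 2 - 1) (ρ g ^ 2 - m) = 0`;
* `exists_tate_plus_family`  : the same for `Jn = ` the `p`-power torsion of a finite
  intersection `⨅ j, K j` (e.g. kernels of degeneracy maps), with stability only required on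
  `p`-power torsion.
-/

set_option autoImplicit false

open scoped TensorProduct

namespace Fermat.Agent.S35.TatePlusAlg

open Fermat.Agent.Lib.TateModule Fermat.Agent.Lib.TateModuleKit IsLocalRing
open Fermat.Agent.P5.TateB

/-! ### Flatness -/

section Flat

variable (O : Type*) [CommRing O] [Module.Flat ℤ O] {J : Type*} [AddCommGroup J]

/-- `O ⊗ Jn → O ⊗ J` is injective. -/
theorem baseChange_subtype_injective (Jn : Submodule ℤ J) :
    Function.Injective (Jn.subtype.baseChange O) := by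
  have h := Module.Flat.lTensor_preserves_injective_linearMap (M := O) Jn.subtype
    Jn.injective_subtype
  intro x y hxy
  exact h hxy

/-- An endomorphism of `J` which kills the `n`-torsion of `Jn` has a base change killing the
`n`-torsion elements of `O ⊗ J` which come from `O ⊗ Jn`. -/
theorem baseChange_eq_zero_of_mem_range (Jn : Submodule ℤ J) (f : J →ₗ[ℤ] J) (n : ℕ)
    (h : ∀ z : J, z ∈ Jn → n • z = 0 → f z = 0) (x : O ⊗[ℤ] J)
    (hx : x ∈ LinearMap.range (Jn.subtype.baseChange O)) (hn : n • x = 0) :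
    f.baseChange O x = 0 := by
  obtain ⟨y, rfl⟩ := hx
  have hy : n • y = 0 := by
    apply baseChange_subtype_injective O Jn
    rw [map_nsmul, hn, map_zero]
  have h1 := baseChange_eq_of_eqOn_torsion O (f ∘ₗ Jn.subtype) 0 n
    (fun z hz => by
      rw [LinearMap.comp_apply, LinearMap.zero_apply]
      refine h z z.2 ?_
      have := congrArg (Subtype.val) hz
      simpa using this) y hy
  rw [LinearMap.baseChange_comp, LinearMap.comp_apply, LinearMap.baseChange_zero,
    LinearMap.zero_apply] at h1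
  exact h1

/-- Flatness: `O ⊗ (K₁ ⊓ K₂) = (O ⊗ K₁) ∩ (O ⊗ K₂)` inside `O ⊗ J`. -/
theorem mem_range_inf (K₁ K₂ : Submodule ℤ J) (x : O ⊗[ℤ] J)
    (h₁ : x ∈ LinearMap.range (K₁.subtype.baseChange O))
    (h₂ : x ∈ LinearMap.range (K₂.subtype.baseChange O)) :
    x ∈ LinearMap.range ((K₁ ⊓ K₂).subtype.baseChange O) := by
  obtain ⟨y, rfl⟩ := h₁
  obtain ⟨y₂, hy₂⟩ := h₂
  set f : K₁ →ₗ[ℤ] J ⧸ K₂ := K₂.mkQ ∘ₗ K₁.subtype with hf
  have h0 : f.baseChange O y = 0 := by
    rw [hf, LinearMap.baseChange_comp, LinearMap.comp_apply, ← hy₂, ← LinearMap.comp_apply,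
      ← LinearMap.baseChange_comp]
    have : K₂.mkQ ∘ₗ K₂.subtype = 0 := by
      apply LinearMap.ext
      intro z
      simp
    rw [this, LinearMap.baseChange_zero, LinearMap.zero_apply]
  obtain ⟨z, rfl⟩ := mem_range_of_baseChange_eq_zero O f y h0
  let g : LinearMap.ker f →ₗ[ℤ] (K₁ ⊓ K₂ : Submodule ℤ J) :=
    LinearMap.codRestrict (K₁ ⊓ K₂) (K₁.subtype ∘ₗ (LinearMap.ker f).subtype) (fun w => by
      refine ⟨w.1.2, ?_⟩
      have hw : K₂.mkQ (K₁.subtype w.1) = 0 := w.2
      rw [Submodule.mkQ_apply, Submodule.Quotient.mk_eq_zero] at hw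
      exact hw)
  refine ⟨g.baseChange O z, ?_⟩
  rw [← LinearMap.comp_apply, ← LinearMap.comp_apply, ← LinearMap.baseChange_comp,
    ← LinearMap.baseChange_comp]
  rfl

/-- Flatness: finite intersections. -/
theorem mem_range_iInf {κ : Type*} [Finite κ] (K : κ → Submodule ℤ J) (x : O ⊗[ℤ] J)
    (h : ∀ j, x ∈ LinearMap.range ((K j).subtype.baseChange O)) :
    x ∈ LinearMap.range ((⨅ j, K j).subtype.baseChange O) := by
  classical
  have key : ∀ s : Finset κ, x ∈ LinearMap.range ((⨅ j ∈ s, K j).subtype.baseChange O) := by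
    intro s
    induction s using Finset.induction_on with
    | empty =>
      have htop : (⨅ j ∈ (∅ : Finset κ), K j) = ⊤ := by simp
      rw [htop]
      have hsurj : Function.Surjective ((⊤ : Submodule ℤ J).subtype.baseChange O) := by
        have h1 : Function.Surjective (⊤ : Submodule ℤ J).subtype := fun z => ⟨⟨z, trivial⟩, rfl⟩
        exact LinearMap.lTensor_surjective O h1
      exact LinearMap.mem_range.mpr (hsurj x)
    | insert a s ha ih =>
      have : (⨅ j ∈ insert a s, K j) = K a ⊓ ⨅ j ∈ s, K j := by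
        rw [Finset.iInf_insert]
      rw [this]
      exact mem_range_inf O _ _ x (h a) ih
  cases nonempty_fintype κ
  have h1 := key Finset.univ
  have h2 : (⨅ j ∈ (Finset.univ : Finset κ), K j) = ⨅ j, K j := by simp
  rwa [h2] at h1

/-- The hypothesis `hnew` of `exists_tate_plus_family` from a commutative square
`a ∘ lam = lam' ∘ a'` and `(a' ⊗ 1) v = 0`. -/
theorem mem_range_ker_of_comp {J' L L' : Type*} [AddCommGroup J'] [AddCommGroup L]
    [AddCommGroup L'] (a : J →+ J') (lam : L →+ J) (a' : L →+ L') (lam' : L' →+ J')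
    (hcomp : ∀ ψ, a (lam ψ) = lam' (a' ψ)) (v : O ⊗[ℤ] L)
    (hv' : a'.toIntLinearMap.lTensor O v = 0) :
    lam.toIntLinearMap.baseChange O v ∈
      LinearMap.range ((LinearMap.ker a.toIntLinearMap).subtype.baseChange O) := by
  refine mem_range_of_baseChange_eq_zero O a.toIntLinearMap _ ?_
  have h1 : a.toIntLinearMap ∘ₗ lam.toIntLinearMap = lam'.toIntLinearMap ∘ₗ a'.toIntLinearMap :=
    LinearMap.ext fun ψ => hcomp ψ
  rw [← LinearMap.comp_apply, ← LinearMap.baseChange_comp, h1, LinearMap.baseChange_comp,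
    LinearMap.comp_apply]
  have h2 : a'.toIntLinearMap.baseChange O v = 0 := hv'
  rw [h2, map_zero]

end Flat

/-! ### Polynomials in a restricted endomorphism -/

section Restrict

variable {O : Type*} [CommRing O] {T : Type*} [AddCommGroup T] [Module O T]

theorem aeval_monomial_succ {C : Type*} [Ring C] [Algebra ℤ C] (a : ℤ) (n : ℕ) (y : C) :
    Polynomial.aeval y (Polynomial.C a * Polynomial.X ^ (n + 1))
      = Polynomial.aeval y (Polynomial.C a * Polynomial.X ^ n) * y := by
  rw [pow_succ, ← mul_assoc, map_mul, Polynomial.aeval_X]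

/-- A polynomial in a restricted endomorphism is the restriction of the polynomial
(for arbitrary `ℤ`-algebra structures on the endomorphism rings). -/
theorem coe_aeval_restrict [Algebra ℤ (Module.End O T)] (Λ : Submodule O T)
    [Algebra ℤ (Module.End O Λ)] (f : Module.End O T) (hf : ∀ w ∈ Λ, f w ∈ Λ)
    (Q : Polynomial ℤ) (w : Λ) :
    ((Polynomial.aeval (f.restrict hf) Q w : Λ) : T) = Polynomial.aeval f Q (w : T) := by
  induction Q using Polynomial.induction_on generalizing w with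
  | C a =>
    rw [Polynomial.aeval_C, Polynomial.aeval_C, eq_intCast, eq_intCast,
      Module.End.intCast_apply, Module.End.intCast_apply]
    exact AddSubgroupClass.coe_zsmul w a
  | add P Q hP hQ =>
    rw [map_add, map_add, LinearMap.add_apply, LinearMap.add_apply, Submodule.coe_add, hP, hQ]
  | monomial n a ih =>
    rw [aeval_monomial_succ, aeval_monomial_succ, Module.End.mul_apply, Module.End.mul_apply, ih]
    rfl

/-- Integral polynomials commute with ring homomorphisms (for arbitrary `ℤ`-algebra structures). -/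
theorem aeval_ringHom_apply {A B : Type*} [Ring A] [Ring B] [Algebra ℤ A] [Algebra ℤ B]
    (f : A →+* B) (x : A) (Q : Polynomial ℤ) :
    Polynomial.aeval (f x) Q = f (Polynomial.aeval x Q) := by
  induction Q using Polynomial.induction_on with
  | C a =>
    rw [Polynomial.aeval_C, Polynomial.aeval_C, eq_intCast, eq_intCast, map_intCast]
  | add P Q hP hQ => rw [map_add, map_add, hP, hQ, map_add]
  | monomial n a ih =>
    rw [aeval_monomial_succ, aeval_monomial_succ, ih]
    exact (map_mul f _ _).symm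

end Restrict

/-! ### The new part of the Tate module -/

section NewSub

variable (O : Type) [CommRing O] (p : ℕ) {J : Type} [AddCommGroup J]

/-- The elements of the Tate module of `O ⊗ J` all of whose components come from `O ⊗ Jn`. -/
def newSub (Jn : Submodule ℤ J) : Submodule O (tate O p (O ⊗[ℤ] J)) where
  carrier := {w | ∀ k, (w : ℕ → O ⊗[ℤ] J) k ∈ LinearMap.range (Jn.subtype.baseChange O)}
  zero_mem' := fun k => Submodule.zero_mem _
  add_mem' := fun {a b} ha hb k => by
    rw [Submodule.coe_add, Pi.add_apply]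
    exact Submodule.add_mem _ (ha k) (hb k)
  smul_mem' := fun c a ha k => by
    rw [Submodule.coe_smul, Pi.smul_apply]
    exact Submodule.smul_mem _ c (ha k)

variable {O p}

theorem mem_newSub {Jn : Submodule ℤ J} {w : tate O p (O ⊗[ℤ] J)} :
    w ∈ newSub O p Jn ↔
      ∀ k, (w : ℕ → O ⊗[ℤ] J) k ∈ LinearMap.range (Jn.subtype.baseChange O) := Iff.rfl

/-- The new part is saturated. -/
theorem saturated_newSub [IsDomain O] [IsDiscreteValuationRing O]
    (hp : (p : O) ∈ maximalIdeal O) (Jn : Submodule ℤ J) : Saturated (newSub O p Jn) := by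
  intro a w ha hw k
  obtain ⟨i, hi⟩ := exists_pow_mem_span (p := p) hp ha
  obtain ⟨c, hc⟩ := Ideal.mem_span_singleton'.mp hi
  have h1 : a • (w : ℕ → O ⊗[ℤ] J) (k + i) ∈ LinearMap.range (Jn.subtype.baseChange O) := by
    have := hw (k + i)
    rwa [Submodule.coe_smul, Pi.smul_apply] at this
  have h2 : (w : ℕ → O ⊗[ℤ] J) k = c • (a • (w : ℕ → O ⊗[ℤ] J) (k + i)) := by
    rw [← pow_smul_apply_add w i k, ← Nat.cast_smul_eq_nsmul O, Nat.cast_pow, ← hc, mul_smul]
  rw [h2]
  exact Submodule.smul_mem _ c h1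

/-- A stable subgroup of `J` gives a stable new part. -/
theorem map_mem_newSub [Module.Flat ℤ O] (Jn : Submodule ℤ J) (f : Module.End ℤ J)
    (hf : ∀ x ∈ Jn, f x ∈ Jn) {w : tate O p (O ⊗[ℤ] J)} (hw : w ∈ newSub O p Jn) :
    phi O p J f w ∈ newSub O p Jn := by
  intro k
  obtain ⟨y, hy⟩ := hw k
  refine ⟨(f.restrict hf).baseChange O y, ?_⟩
  rw [phi_apply, tateMap_apply, ← hy, ← LinearMap.comp_apply, ← LinearMap.comp_apply,
    ← LinearMap.baseChange_comp, ← LinearMap.baseChange_comp]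
  rfl

/-- A relation on the `p`-power torsion of `Jn` holds on the new part. -/
theorem phi_apply_eq_zero_of_mem_newSub [Module.Flat ℤ O] (Jn : Submodule ℤ J)
    (f : Module.End ℤ J) (h : ∀ (k : ℕ) (x : J), x ∈ Jn → p ^ k • x = 0 → f x = 0)
    {w : tate O p (O ⊗[ℤ] J)} (hw : w ∈ newSub O p Jn) : phi O p J f w = 0 := by
  refine tate_ext fun k => ?_
  rw [phi_apply, tateMap_apply]
  exact baseChange_eq_zero_of_mem_range O Jn f (p ^ k) (h k) _ (hw k) (pow_smul_apply w k)

end NewSub

/-! ### The restricted action -/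

section RhoSub

variable (O : Type) [CommRing O] (p : ℕ) {J : Type} [AddCommGroup J]
  {G : Type} [Monoid G] (ρJ : G →* Module.End ℤ J)

/-- The action of `G` on a stable submodule of the Tate module. -/
noncomputable def rhoSub (Λ : Submodule O (tate O p (O ⊗[ℤ] J)))
    (hΛ : ∀ g, ∀ w ∈ Λ, phi O p J (ρJ g) w ∈ Λ) : G →* Module.End O Λ where
  toFun g := (phi O p J (ρJ g)).restrict (hΛ g)
  map_one' := by
    apply LinearMap.ext
    intro w
    apply Subtype.ext
    show phi O p J (ρJ 1) (w : tate O p (O ⊗[ℤ] J)) = w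
    rw [map_one, map_one]
    rfl
  map_mul' g h := by
    apply LinearMap.ext
    intro w
    apply Subtype.ext
    show phi O p J (ρJ (g * h)) (w : tate O p (O ⊗[ℤ] J)) =
      phi O p J (ρJ g) (phi O p J (ρJ h) (w : tate O p (O ⊗[ℤ] J)))
    rw [map_mul, map_mul]
    rfl

theorem rhoSub_apply (Λ : Submodule O (tate O p (O ⊗[ℤ] J)))
    (hΛ : ∀ g, ∀ w ∈ Λ, phi O p J (ρJ g) w ∈ Λ) (g : G) (w : Λ) :
    ((rhoSub O p ρJ Λ hΛ g w : Λ) : tate O p (O ⊗[ℤ] J)) =
      phi O p J (ρJ g) (w : tate O p (O ⊗[ℤ] J)) := rfl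

end RhoSub

/-! ### The eigenlattice with a new part -/

section Main

variable {O : Type} [CommRing O] {p : ℕ} {J : Type} [AddCommGroup J]
  {G : Type} [Monoid G] (ρJ : G →* Module.End ℤ J) {ι : Type}
  (TJ : ι → Module.End ℤ J) (hcomm : ∀ i g, Commute (ρJ g) (TJ i)) (c : ι → O)

include hcomm in
/-- **The eigenlattice cut down to a new part, generic form.**  Same data and conclusions as
`P5.TateB.exists_tate_generic`; in addition a `G`-stable subgroup `Jn ≤ J` such that the image
of the eigenvector `v` has all its components in `O ⊗ Jn`.  Extra conclusion: every integral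
polynomial relation in `ρJ g` which holds on the `p`-power torsion of `Jn` holds for `ρ g`. -/
theorem exists_tate_plus [IsDomain O] [IsDiscreteValuationRing O]
    [IsAdicComplete (maximalIdeal O) O] [Finite (ResidueField O)] [CharZero O]
    (hp : (p : O) ∈ maximalIdeal O) (hp0 : p ≠ 0) (hfin : {x : J | p • x = 0}.Finite)
    (L : Type) [AddCommGroup L] [Module.Finite ℤ L] (lam : ℕ → L →+ J)
    (h0 : ∀ ψ, lam 0 ψ = 0) (hcompat : ∀ k ψ, p • lam (k + 1) ψ = lam k ψ)
    (hker : ∀ k ψ, lam k ψ = 0 → ∃ ψ' : L, ψ = p ^ k • ψ')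
    (TL : ι → Module.End ℤ L) (hTL : ∀ i k ψ, TJ i (lam k ψ) = lam k (TL i ψ))
    (v : O ⊗[ℤ] L) (hv : v ≠ 0) (hveig : ∀ i, (TL i).lTensor O v = c i • v)
    (Jn : Submodule ℤ J) (hJn : ∀ g, ∀ x ∈ Jn, ρJ g x ∈ Jn)
    (hnew : ∀ k, (lam k).toIntLinearMap.baseChange O v ∈
      LinearMap.range (Jn.subtype.baseChange O)) :
    ∃ (W : Type) (_ : AddCommGroup W) (_ : Module O W) (_ : Module.Free O W)
      (_ : Module.Finite O W) (ρ : G →* Module.End O W),
      Nontrivial W ∧
      (∀ (g : G) (k : ℕ), (∀ x : J, p ^ k • x = 0 → ρJ g x = x) →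
        ∀ w : W, ρ g w - w ∈ (maximalIdeal O ^ k) • (⊤ : Submodule O W)) ∧
      (∀ g : G, (∀ (k : ℕ) (x : J), p ^ k • x = 0 → ρJ g x = x) → ρ g = 1) ∧
      (∀ (g : G) (i : ι) (n : ℕ),
        (∀ (k : ℕ) (x : J), p ^ k • x = 0 → ρJ g (ρJ g x) - TJ i (ρJ g x) + n • x = 0) →
        ρ g * ρ g - c i • ρ g + (n : O) • (1 : Module.End O W) = 0) ∧
      (∀ (g : G) (Q : Polynomial ℤ),
        (∀ (k : ℕ) (x : J), x ∈ Jn → p ^ k • x = 0 → Polynomial.aeval (ρJ g) Q x = 0) →
        Polynomial.aeval (ρ g) Q = 0) ∧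
      (∀ (g : G) (m : ℕ),
        (∀ (k : ℕ) (x : J), x ∈ Jn → p ^ k • x = 0 →
          ((ρJ g * ρJ g - 1) * (ρJ g * ρJ g - (m : Module.End ℤ J))) x = 0) →
        (ρ g * ρ g - 1) * (ρ g * ρ g - (m : O) • (1 : Module.End O W)) = 0) := by
  classical
  have hflat : Module.Flat ℤ O := inferInstance
  have hp0' : (p : O) ≠ 0 := Nat.cast_ne_zero.mpr hp0
  have hOfin : Finite (O ⧸ Ideal.span {(p : O)}) := by
    rw [IsLocalRing.finite_quotient_iff]
    obtain ⟨n, hn⟩ := exists_eq_maximalIdeal_pow (s := Ideal.span {(p : O)})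
      (by rwa [Ne, Ideal.span_singleton_eq_bot])
    exact ⟨n, hn.ge⟩
  have hfin₀ : {x : O ⊗[ℤ] J | p • x = 0}.Finite := finite_torsion_tensor O p hfin hOfin
  obtain ⟨hTfin, hTfree⟩ := finite_free (O := O) hp hp0' hfin₀
  have hTtf : Module.IsTorsionFree O (tate O p (O ⊗[ℤ] J)) := isTorsionFree hp
  -- the lattice
  set Λ : Submodule O (tate O p (O ⊗[ℤ] J)) :=
    eigen (fun i => phi O p J (TJ i)) c ⊓ newSub O p Jn with hΛdef
  have hsat : Saturated Λ := by
    intro a w ha hw
    exact ⟨saturated_eigen _ c a w ha hw.1, saturated_newSub hp Jn a w ha hw.2⟩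
  have hstab : ∀ g, ∀ w ∈ Λ, phi O p J (ρJ g) w ∈ Λ := by
    intro g w hw
    exact ⟨map_mem_eigen _ c _ (fun i => (hcomm i g).map (phi O p J)) hw.1,
      map_mem_newSub Jn (ρJ g) (hJn g) hw.2⟩
  obtain ⟨hΛfin, hΛfree⟩ := finite_free_submodule Λ
  refine ⟨Λ, inferInstance, inferInstance, hΛfree, hΛfin, rhoSub O p ρJ Λ hstab,
    ?_, ?_, ?_, ?_, ?_, ?_⟩
  · -- nontriviality: the image of the eigenvector
    have h0' : ∀ u : O ⊗[ℤ] L, (lam 0).toIntLinearMap.baseChange O u = 0 := by
      intro u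
      have h1 : (lam 0).toIntLinearMap = 0 := LinearMap.ext fun ψ => h0 ψ
      rw [h1, LinearMap.baseChange_zero, LinearMap.zero_apply]
    have hc' : ∀ (k : ℕ) (u : O ⊗[ℤ] L), p • (lam (k + 1)).toIntLinearMap.baseChange O u =
        (lam k).toIntLinearMap.baseChange O u := by
      intro k u
      have h1 : (p : ℤ) • (lam (k + 1)).toIntLinearMap = (lam k).toIntLinearMap := by
        apply LinearMap.ext
        intro ψ
        rw [LinearMap.smul_apply, natCast_zsmul]
        exact hcompat k ψ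
      rw [← h1, LinearMap.baseChange_smul, LinearMap.smul_apply, natCast_zsmul]
    let Θ : O ⊗[ℤ] L →ₗ[O] tate O p (O ⊗[ℤ] J) :=
      ofCompat (fun k => (lam k).toIntLinearMap.baseChange O) h0' hc'
    have hmem : Θ v ∈ eigen (fun i => phi O p J (TJ i)) c := by
      rw [mem_eigen]
      intro i
      have h1 : phi O p J (TJ i) (Θ v) = Θ ((TL i).lTensor O v) := by
        rw [phi_apply]
        refine tateMap_ofCompat _ h0' hc' _ (fun u => (TL i).lTensor O u) (fun k u => ?_) v
        have h2 : (TJ i) ∘ₗ (lam k).toIntLinearMap = (lam k).toIntLinearMap ∘ₗ (TL i) :=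
          LinearMap.ext fun ψ => hTL i k ψ
        have h3 := congrArg (fun f => LinearMap.baseChange O f u) h2
        beta_reduce at h3
        rw [LinearMap.baseChange_comp, LinearMap.baseChange_comp, LinearMap.comp_apply,
          LinearMap.comp_apply] at h3
        rw [h3]
        congr 1
      rw [h1, hveig i, map_smul]
    have hmem2 : Θ v ∈ newSub O p Jn := fun k => hnew k
    have hne : Θ v ≠ 0 := by
      intro hz
      have h1 := (ofCompat_eq_zero_iff _ h0' hc' v).mp hz
      refine hv (eq_zero_of_forall_exists_pow_smul (O := O) p hp v fun k => ?_)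
      exact exists_eq_nsmul_of_baseChange_eq_zero O (lam k).toIntLinearMap (p ^ k)
        (fun ψ hψ => hker k ψ hψ) v (h1 k)
    exact ⟨⟨⟨Θ v, hmem, hmem2⟩, 0, fun h => hne (congrArg Subtype.val h)⟩⟩
  · intro g k h w
    exact hsat.sub_mem_pow_smul_top k (phi O p J (ρJ g)) (hstab g) w
      (tateMap_baseChange_sub_mem O hp (ρJ g) k h (w : tate O p (O ⊗[ℤ] J)))
  · intro g h
    apply LinearMap.ext
    intro w
    apply Subtype.ext
    rw [rhoSub_apply, phi_eq_one O p (ρJ g) h]
    rfl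
  · intro g i n h
    apply LinearMap.ext
    intro w
    apply Subtype.ext
    have hE : phi O p J (ρJ g * ρJ g - TJ i * ρJ g + (n : Module.End ℤ J)) = 0 := by
      refine phi_eq_zero O p _ (fun k x hx => ?_)
      have h1 := h k x hx
      rw [LinearMap.add_apply, LinearMap.sub_apply, Module.End.mul_apply, Module.End.mul_apply,
        Module.End.natCast_apply]
      exact h1
    rw [map_add, map_sub, map_mul, map_mul, map_natCast] at hE
    have h1 := LinearMap.congr_fun hE (w : tate O p (O ⊗[ℤ] J))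
    have hw' : phi O p J (ρJ g) (w : tate O p (O ⊗[ℤ] J)) ∈
        eigen (fun i => phi O p J (TJ i)) c := (hstab g _ w.2).1
    have h2 : phi O p J (TJ i) (phi O p J (ρJ g) (w : tate O p (O ⊗[ℤ] J))) =
        c i • phi O p J (ρJ g) (w : tate O p (O ⊗[ℤ] J)) := (mem_eigen _ c _).mp hw' i
    rw [LinearMap.add_apply, LinearMap.sub_apply, Module.End.mul_apply, Module.End.mul_apply, h2,
      LinearMap.zero_apply] at h1
    show phi O p J (ρJ g) (phi O p J (ρJ g) (w : tate O p (O ⊗[ℤ] J)))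
      - c i • phi O p J (ρJ g) (w : tate O p (O ⊗[ℤ] J))
      + (n : O) • (w : tate O p (O ⊗[ℤ] J)) = 0
    rw [← h1]
    congr 1
    rw [Module.End.natCast_apply, Nat.cast_smul_eq_nsmul]
  · intro g Q h
    apply LinearMap.ext
    intro w
    apply Subtype.ext
    refine (coe_aeval_restrict Λ (phi O p J (ρJ g)) (hstab g) Q w).trans ?_
    have e2 := aeval_ringHom_apply (A := Module.End ℤ J)
      (B := Module.End O (tate O p (O ⊗[ℤ] J))) (phi O p J) (ρJ g) Q
    rw [e2]
    exact phi_apply_eq_zero_of_mem_newSub Jn _ h w.2.2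
  · intro g m h
    apply LinearMap.ext
    intro w
    apply Subtype.ext
    have hE := phi_apply_eq_zero_of_mem_newSub (O := O) Jn
      ((ρJ g * ρJ g - 1) * (ρJ g * ρJ g - (m : Module.End ℤ J))) h w.2.2
    rw [map_mul, map_sub, map_sub, map_mul, map_one, map_natCast, Module.End.mul_apply,
      LinearMap.sub_apply, LinearMap.sub_apply, Module.End.mul_apply, Module.End.mul_apply,
      Module.End.one_apply, Module.End.natCast_apply] at hE
    show phi O p J (ρJ g) (phi O p J (ρJ g)
        (phi O p J (ρJ g) (phi O p J (ρJ g) (w : tate O p (O ⊗[ℤ] J)))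
          - (m : O) • (w : tate O p (O ⊗[ℤ] J))))
      - (phi O p J (ρJ g) (phi O p J (ρJ g) (w : tate O p (O ⊗[ℤ] J)))
          - (m : O) • (w : tate O p (O ⊗[ℤ] J))) = 0
    rw [Nat.cast_smul_eq_nsmul]
    exact hE

/-- The `p`-power torsion subgroup. -/
def torsSub (p : ℕ) (J : Type*) [AddCommGroup J] : Submodule ℤ J where
  carrier := {x | ∃ k : ℕ, p ^ k • x = 0}
  zero_mem' := ⟨0, smul_zero _⟩
  add_mem' := by
    rintro a b ⟨k, hk⟩ ⟨l, hl⟩
    refine ⟨k + l, ?_⟩
    have ha : p ^ (k + l) • a = 0 := by rw [pow_add, mul_comm, mul_smul, hk, smul_zero]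
    have hb : p ^ (k + l) • b = 0 := by rw [pow_add, mul_smul, hl, smul_zero]
    rw [smul_add, ha, hb, add_zero]
  smul_mem' := by
    rintro c a ⟨k, hk⟩
    exact ⟨k, by rw [smul_comm, hk, smul_zero]⟩

theorem mem_torsSub {p : ℕ} {J : Type*} [AddCommGroup J] {x : J} :
    x ∈ torsSub p J ↔ ∃ k : ℕ, p ^ k • x = 0 := Iff.rfl

include hcomm in
/-- **The eigenlattice cut down to a new part, family form.**  `K j` is a finite family of
subgroups of `J` (kernels of degeneracy maps), stable under `G` on `p`-power torsion, such that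
the image of the eigenvector has its components in every `O ⊗ K j`.  The last two conclusions
transfer relations valid on `{x | p ^ k • x = 0 ∧ ∀ j, x ∈ K j}`. -/
theorem exists_tate_plus_family [IsDomain O] [IsDiscreteValuationRing O]
    [IsAdicComplete (maximalIdeal O) O] [Finite (ResidueField O)] [CharZero O]
    (hp : (p : O) ∈ maximalIdeal O) (hp0 : p ≠ 0) (hfin : {x : J | p • x = 0}.Finite)
    (L : Type) [AddCommGroup L] [Module.Finite ℤ L] (lam : ℕ → L →+ J)
    (h0 : ∀ ψ, lam 0 ψ = 0) (hcompat : ∀ k ψ, p • lam (k + 1) ψ = lam k ψ)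
    (hker : ∀ k ψ, lam k ψ = 0 → ∃ ψ' : L, ψ = p ^ k • ψ')
    (TL : ι → Module.End ℤ L) (hTL : ∀ i k ψ, TJ i (lam k ψ) = lam k (TL i ψ))
    (v : O ⊗[ℤ] L) (hv : v ≠ 0) (hveig : ∀ i, (TL i).lTensor O v = c i • v)
    {κ : Type} [Finite κ] (K : κ → Submodule ℤ J)
    (hK : ∀ (j : κ) (g : G) (k : ℕ) (x : J), p ^ k • x = 0 → (∀ j', x ∈ K j') → ρJ g x ∈ K j)
    (hnew : ∀ j k, (lam k).toIntLinearMap.baseChange O v ∈
      LinearMap.range ((K j).subtype.baseChange O)) :
    ∃ (W : Type) (_ : AddCommGroup W) (_ : Module O W) (_ : Module.Free O W)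
      (_ : Module.Finite O W) (ρ : G →* Module.End O W),
      Nontrivial W ∧
      (∀ (g : G) (k : ℕ), (∀ x : J, p ^ k • x = 0 → ρJ g x = x) →
        ∀ w : W, ρ g w - w ∈ (maximalIdeal O ^ k) • (⊤ : Submodule O W)) ∧
      (∀ g : G, (∀ (k : ℕ) (x : J), p ^ k • x = 0 → ρJ g x = x) → ρ g = 1) ∧
      (∀ (g : G) (i : ι) (n : ℕ),
        (∀ (k : ℕ) (x : J), p ^ k • x = 0 → ρJ g (ρJ g x) - TJ i (ρJ g x) + n • x = 0) →
        ρ g * ρ g - c i • ρ g + (n : O) • (1 : Module.End O W) = 0) ∧
      (∀ (g : G) (Q : Polynomial ℤ),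
        (∀ (k : ℕ) (x : J), p ^ k • x = 0 → (∀ j, x ∈ K j) →
          Polynomial.aeval (ρJ g) Q x = 0) →
        Polynomial.aeval (ρ g) Q = 0) ∧
      (∀ (g : G) (m : ℕ),
        (∀ (k : ℕ) (x : J), p ^ k • x = 0 → (∀ j, x ∈ K j) →
          ((ρJ g * ρJ g - 1) * (ρJ g * ρJ g - (m : Module.End ℤ J))) x = 0) →
        (ρ g * ρ g - 1) * (ρ g * ρ g - (m : O) • (1 : Module.End O W)) = 0) := by
  have hflat : Module.Flat ℤ O := inferInstance
  have hJn : ∀ g, ∀ x ∈ (⨅ j, K j) ⊓ torsSub p J, ρJ g x ∈ (⨅ j, K j) ⊓ torsSub p J := by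
    rintro g x ⟨hx1, k, hk⟩
    have hx1' : ∀ j, x ∈ K j := fun j => (Submodule.mem_iInf K).mp hx1 j
    refine ⟨(Submodule.mem_iInf K).mpr fun j => hK j g k x hk hx1', k, ?_⟩
    rw [← map_nsmul, hk, map_zero]
  have htors : ∀ k ψ, p ^ k • lam k ψ = 0 := by
    intro k
    induction k with
    | zero => intro ψ; rw [pow_zero, one_smul]; exact h0 ψ
    | succ k ih =>
      intro ψ
      rw [pow_succ, mul_smul, hcompat k ψ]
      exact ih ψ
  have hnew' : ∀ k, (lam k).toIntLinearMap.baseChange O v ∈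
      LinearMap.range (((⨅ j, K j) ⊓ torsSub p J).subtype.baseChange O) := by
    intro k
    refine mem_range_inf O _ _ _ (mem_range_iInf O K _ fun j => hnew j k) ?_
    let f : L →ₗ[ℤ] torsSub p J :=
      LinearMap.codRestrict (torsSub p J) (lam k).toIntLinearMap (fun ψ => ⟨k, htors k ψ⟩)
    refine ⟨f.baseChange O v, ?_⟩
    rw [← LinearMap.comp_apply, ← LinearMap.baseChange_comp]
    rfl
  obtain ⟨W, i1, i2, i3, i4, ρ, h1, h2, h3, h4, h5, h6⟩ :=
    exists_tate_plus ρJ TJ hcomm c hp hp0 hfin L lam h0 hcompat hker TL hTL v hv hveig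
      ((⨅ j, K j) ⊓ torsSub p J) hJn hnew'
  refine ⟨W, i1, i2, i3, i4, ρ, h1, h2, h3, h4, ?_, ?_⟩
  · intro g Q h
    exact h5 g Q fun k x hx hk => h k x hk fun j => (Submodule.mem_iInf K).mp hx.1 j
  · intro g m h
    exact h6 g m fun k x hx hk => h k x hk fun j => (Submodule.mem_iInf K).mp hx.1 j

end Main

end Fermat.Agent.S35.TatePlusAlg
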