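import Mathlib
import Fermat.Agent.S35.TatePlusAlg
import Fermat.Agent.S35.LatticePlus
import Fermat.Agent.S35.Plan
import Fermat.Agent.S35.Push
import Fermat.Agent.P5.TateB.Block
import Fermat.Agent.P5.LambdaFinal
import Fermat.Agent.P5.Assembly
import Fermat.Agent.P5.CoreTFinal

/-!
# S35 — the `[TATE-INST]` block: `TatePlus` for a newform from the junction contracts (helper9)

`tatePlus` : `LatticePlus.TatePlus lam M S O' χ` from

* `Plan.NewFrobStmt N' q lam pushA pushB`  (the contract (F): `(σ² - 1)(σ² - q²) = 0` on the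
  `lam`-power torsion of the `q`-new part of `J₀(N' q)` for every Frobenius `σ` at `q`);
* `Plan.DegenStmt N' q pushA pushB`  (lattice maps `cA, cB : Lat (N' q) → Lat N'` commuting with
  the Hecke operators and computing the Kummer characters of `pushA x`, `pushB x`);
* `hNoOld`                      (no `χ`-eigenvector in `O' ⊗ Lat N'`).

The lattice is the one of `TatePlusAlg.exists_tate_plus_family` for the finite family of
subgroups `relSub (galMod M) (Rq M q)`, `q ∥ M`, `q ≠ p`, of `J₀(M)`: the largest Galois-stable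
subgroup on which the Frobenius relations at `q` hold.  Every use of `M = N' * q` is inside a
proof (no transport of data between `J₀(M)` and `J₀(N' q)`).
-/

set_option autoImplicit false

open CuspForm ModularCurve
open scoped TensorProduct

namespace Fermat.Agent.S35.TateInst

open Fermat.Agent.P5.Per (Lat tcohL heckeAct)
open Fermat.Agent.P5.Plan (GQ Qb)
open Fermat.Agent.P5.Kappa (KummerRel realQ)
open Fermat.Agent.P5.Lambda (chi)
open Fermat.Agent.S35.TatePlusAlg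
open Fermat.Agent.S35.Push (pushA pushB)
open Fermat.Agent.S35.Plan (NewFrobStmt DegenStmt)
open IsLocalRing

/-! ### Generic algebra -/

section Generic

variable {G J : Type*} [Monoid G] [AddCommGroup J] (ρJ : G →* Module.End ℤ J)

/-- The largest `G`-stable subgroup of `J` killed by a set of endomorphisms. -/
def relSub (R : Set (Module.End ℤ J)) : Submodule ℤ J where
  carrier := {x | ∀ g, ∀ f ∈ R, f (ρJ g x) = 0}
  zero_mem' := fun g f _ => by rw [map_zero, map_zero]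
  add_mem' := fun {a b} ha hb g f hf => by
    rw [map_add, map_add, ha g f hf, hb g f hf, add_zero]
  smul_mem' := fun c a ha g f hf => by rw [map_smul, map_smul, ha g f hf, smul_zero]

theorem map_mem_relSub {R : Set (Module.End ℤ J)} (h : G) {x : J} (hx : x ∈ relSub ρJ R) :
    ρJ h x ∈ relSub ρJ R := fun g f hf => by
  have h1 := hx (g * h) f hf
  rw [map_mul, Module.End.mul_apply] at h1
  exact h1

theorem apply_eq_zero_of_mem_relSub {R : Set (Module.End ℤ J)} {x : J} (hx : x ∈ relSub ρJ R)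
    {f : Module.End ℤ J} (hf : f ∈ R) : f x = 0 := by
  have h1 := hx 1 f hf
  rw [map_one, Module.End.one_apply] at h1
  exact h1

theorem range_baseChange_mono (O : Type*) [CommRing O] {K₁ K₂ : Submodule ℤ J} (h : K₁ ≤ K₂)
    {x : O ⊗[ℤ] J} (hx : x ∈ LinearMap.range (K₁.subtype.baseChange O)) :
    x ∈ LinearMap.range (K₂.subtype.baseChange O) := by
  obtain ⟨y, rfl⟩ := hx
  refine ⟨(Submodule.inclusion h).baseChange O y, ?_⟩
  rw [← LinearMap.comp_apply, ← LinearMap.baseChange_comp, Submodule.subtype_comp_inclusion]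

/-- `(σ² - 1)(σ² - m)` applied to a point, for a group acting on `J`. -/
theorem frobRel_apply {G J : Type*} [Group G] [AddCommGroup J] [DistribMulAction G J] (σ : G)
    (m : ℕ) (y : J) :
    ((DistribMulAction.toModuleEnd ℤ J σ * DistribMulAction.toModuleEnd ℤ J σ - 1) *
      (DistribMulAction.toModuleEnd ℤ J σ * DistribMulAction.toModuleEnd ℤ J σ -
        (m : Module.End ℤ J))) y
      = σ • σ • σ • σ • y - (m + 1) • (σ • σ • y) + m • y := by
  simp only [Module.End.mul_apply, LinearMap.sub_apply, Module.End.one_apply,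
    Module.End.natCast_apply, DistribMulAction.toModuleEnd_apply,
    DistribSMul.toLinearMap_apply, smul_sub]
  rw [smul_comm σ m y, smul_comm σ m (σ • y), add_smul, one_smul]
  abel

end Generic

/-! ### The maps `λ_n` with their Kummer characters -/

/-- `Plan.LambdaStmt N` with the Kummer relation kept. -/
theorem exists_lamK (N : ℕ) [NeZero N] :
    ∃ lam : ℕ → (Lat N →+ JZero N),
      (∀ n : ℕ, 0 < n → ∀ φ : Lat N, KummerRel (realQ N) n (lam n φ) (chi N φ n)) ∧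
      (∀ (n : ℕ) (ψ : Lat N), n • lam n ψ = 0) ∧
      (∀ (n : ℕ) (ψ : Lat N), 0 < n → lam n ψ = 0 → ∃ ψ' : Lat N, ψ = n • ψ') ∧
      (∀ (n m : ℕ) (ψ : Lat N), 0 < n → 0 < m → m • lam (n * m) ψ = lam n ψ) ∧
      (∀ (n : ℕ) (ℓ : ℕ) (hℓ : ℓ.Prime) (hℓN : ¬ ℓ ∣ N) (ψ : Lat N),
        lam n (tcohL N hℓ hℓN ψ) = heckeOperatorBar N ⟨ℓ, hℓ⟩ (lam n ψ)) := by
  classical
  have hM := Fermat.Agent.P5.ModFun.RealC.modFunStmt_realQ N
  have hex : ∀ n : ℕ, ∃ lam : Lat N →+ JZero N, 0 < n →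
      (∀ φ, KummerRel (realQ N) n (lam φ) (chi N φ n)) ∧
      (∀ φ, n • lam φ = 0) ∧
      (∀ φ, lam φ = 0 → ∃ φ' : Lat N, φ = n • φ') ∧
      ∀ (ℓ : ℕ) (hℓ : ℓ.Prime) (hℓN : ¬ ℓ ∣ N) (φ : Lat N),
        heckeOperatorBar N ⟨ℓ, hℓ⟩ (lam φ) = lam (tcohL N hℓ hℓN φ) := by
    intro n
    by_cases hn : 0 < n
    · obtain ⟨lam, h⟩ := Fermat.Agent.P5.Lambda.exists_lam hM hn
        (Fermat.Agent.P5.Lambda.surj N n hn) (Fermat.Agent.P5.Lambda.heckeKappa N n)
      exact ⟨lam, fun _ => h⟩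
    · exact ⟨0, fun h => absurd h hn⟩
  choose lam0 hlam0 using hex
  let lam : ℕ → (Lat N →+ JZero N) := fun n => if 0 < n then lam0 n else 0
  have hpos : ∀ n, 0 < n → lam n = lam0 n := fun n hn => if_pos hn
  have hzero : lam 0 = 0 := if_neg (lt_irrefl 0)
  refine ⟨lam, ?_, ?_, ?_, ?_, ?_⟩
  · intro n hn φ
    rw [hpos n hn]
    exact (hlam0 n hn).1 φ
  · intro n ψ
    rcases Nat.eq_zero_or_pos n with rfl | hn
    · exact zero_nsmul _
    · rw [hpos n hn]
      exact (hlam0 n hn).2.1 ψ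
  · intro n ψ hn h
    rw [hpos n hn] at h
    exact (hlam0 n hn).2.2.1 ψ h
  · intro n m ψ hn hm
    have hnm : 0 < n * m := Nat.mul_pos hn hm
    rw [hpos n hn, hpos (n * m) hnm]
    exact (Fermat.Agent.P5.Lambda.lam_compat hM hn hm (hlam0 n hn).1 (hlam0 (n * m) hnm).1 ψ).symm
  · intro n ℓ hℓ hℓN ψ
    rcases Nat.eq_zero_or_pos n with rfl | hn
    · rw [hzero, AddMonoidHom.zero_apply, AddMonoidHom.zero_apply, map_zero]
    · rw [hpos n hn]
      exact ((hlam0 n hn).2.2.2 ℓ hℓ hℓN ψ).symm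

/-! ### The contracts -/

/-- The Galois action on `J₀(N)` by `ℤ`-linear endomorphisms. -/
noncomputable abbrev galMod (N : ℕ) : GQ →* Module.End ℤ (JZero N) :=
  DistribMulAction.toModuleEnd ℤ (JZero N)

/-- The Frobenius relations at `q` on `J₀(M)`. -/
def Rq (M q : ℕ) : Set (Module.End ℤ (JZero M)) :=
  {f | ∃ (A : ValuationSubring Qb) (σ : GQ), A.LiesOverPrime q ∧ A.IsFrobeniusAt σ q ∧
    f = (galMod M σ * galMod M σ - 1) *
      (galMod M σ * galMod M σ - ((q ^ 2 : ℕ) : Module.End ℤ (JZero M)))}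

/-- The primes `q ∥ M`, `q ≠ p`. -/
def badSet (M p : ℕ) : Set ℕ := {q | q.Prime ∧ q ≠ p ∧ q ∣ M ∧ ¬ q ^ 2 ∣ M}

theorem finite_badSet (M p : ℕ) [NeZero M] : (badSet M p).Finite :=
  (Set.finite_le_nat M).subset fun _ hq => Nat.le_of_dvd (NeZero.pos M) hq.2.2.1

/-! ### The image of the eigenvector is new -/

/-- At level `N' q`: the components of the image of a vector `v ∈ O' ⊗ Lat (N' q)` killed by
every Hecke-equivariant map to `Lat N'` lie in `O' ⊗ (the largest Galois-stable subgroup on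
which the Frobenius relations at q hold)`. -/
theorem mem_range_relSub (N' q p : ℕ) [NeZero N'] [NeZero q]
    (O' : Type) [CommRing O'] [Module.Flat ℤ O']
    (hF : NewFrobStmt N' q p (pushA N' q) (pushB N' q))
    (hD : DegenStmt N' q (pushA N' q) (pushB N' q))
    (lam : ℕ → (Lat (N' * q) →+ JZero (N' * q)))
    (hlK : ∀ n : ℕ, 0 < n → ∀ φ : Lat (N' * q),
      KummerRel (realQ (N' * q)) n (lam n φ) (chi (N' * q) φ n))
    (hl1 : ∀ (n : ℕ) (ψ : Lat (N' * q)), n • lam n ψ = 0)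
    (v : O' ⊗[ℤ] Lat (N' * q))
    (hv0 : ∀ c : Lat (N' * q) →+ Lat N',
      (∀ (ℓ : ℕ) (hℓ : ℓ.Prime) (h : ¬ ℓ ∣ N' * q) (h' : ¬ ℓ ∣ N') (φ : Lat (N' * q)),
        c (tcohL (N' * q) hℓ h φ) = tcohL N' hℓ h' (c φ)) →
      c.toIntLinearMap.lTensor O' v = 0)
    (n : ℕ) (hn : 0 < n) (hnp : ∃ k : ℕ, n = p ^ k) :
    (lam n).toIntLinearMap.baseChange O' v ∈
      LinearMap.range ((relSub (galMod (N' * q)) (Rq (N' * q) q)).subtype.baseChange O') := by
  obtain ⟨cA, cB, hcomm, hkum⟩ := hD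
  obtain ⟨lam', hlK', -⟩ := exists_lamK N'
  have hM' := Fermat.Agent.P5.ModFun.RealC.modFunStmt_realQ N'
  have hcompA : ∀ ψ, pushA N' q (lam n ψ) = lam' n (cA ψ) := fun ψ =>
    KummerRel.eq_of_char_eq hM' hn (hkum n hn ψ _ (hlK n hn ψ)).1 (hlK' n hn (cA ψ))
  have hcompB : ∀ ψ, pushB N' q (lam n ψ) = lam' n (cB ψ) := fun ψ =>
    KummerRel.eq_of_char_eq hM' hn (hkum n hn ψ _ (hlK n hn ψ)).2 (hlK' n hn (cB ψ))
  have hvA : cA.toIntLinearMap.lTensor O' v = 0 :=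
    hv0 cA fun ℓ hℓ h h' φ => (hcomm ℓ hℓ h h' φ).1
  have hvB : cB.toIntLinearMap.lTensor O' v = 0 :=
    hv0 cB fun ℓ hℓ h h' φ => (hcomm ℓ hℓ h h' φ).2
  have h1 := mem_range_ker_of_comp O' (pushA N' q) (lam n) cA (lam' n) hcompA v hvA
  have h2 := mem_range_ker_of_comp O' (pushB N' q) (lam n) cB (lam' n) hcompB v hvB
  have h3 : (lam n).toIntLinearMap.baseChange O' v ∈
      LinearMap.range ((torsSub p (JZero (N' * q))).subtype.baseChange O') := by
    obtain ⟨k, rfl⟩ := hnp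
    let f : Lat (N' * q) →ₗ[ℤ] torsSub p (JZero (N' * q)) :=
      LinearMap.codRestrict (torsSub p (JZero (N' * q))) (lam (p ^ k)).toIntLinearMap
        (fun ψ => ⟨k, hl1 (p ^ k) ψ⟩)
    refine ⟨f.baseChange O' v, ?_⟩
    rw [← LinearMap.comp_apply, ← LinearMap.baseChange_comp]
    rfl
  have h4 := mem_range_inf O' _ _ _ (mem_range_inf O' _ _ _ h1 h2) h3
  refine range_baseChange_mono O' ?_ h4
  rintro x ⟨⟨hxA, hxB⟩, m, hm⟩ g f hf
  obtain ⟨A, σ, hA, hσ, rfl⟩ := hf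
  have hxA' : pushA N' q x = 0 := hxA
  have hxB' : pushB N' q x = 0 := hxB
  have hg : galMod (N' * q) g x = g • x := rfl
  rw [hg, frobRel_apply]
  refine hF A hA σ hσ (g • x) ⟨m, ?_⟩ ?_ ?_
  · rw [smul_comm, hm]
    exact smul_zero (A := JZero (N' * q)) g
  · rw [← Fermat.Agent.S35.Push.galois_smul_pushA, hxA']
    exact smul_zero (A := JZero N') g
  · rw [← Fermat.Agent.S35.Push.galois_smul_pushB, hxB']
    exact smul_zero (A := JZero N') g

/-! ### The block -/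

/-- **[TATE-INST]** `TatePlus` at level `M` from the contracts (F) and [DEGEN] at the pairs
`(N', q)`, `M = N' * q`, `q ∤ N'`, and the absence of the eigensystem `χ` in `O' ⊗ Lat N'`. -/
theorem tatePlus {M : ℕ} [NeZero M] (p : ℕ) [Fact p.Prime] (S : Finset ℕ)
    (O' : Type) [CommRing O'] [IsDomain O'] [IsDiscreteValuationRing O']
    [IsAdicComplete (maximalIdeal O') O'] [Finite (ResidueField O')] [CharZero O']
    (hpO' : (p : O') ∈ maximalIdeal O')
    (χ : heckeAlgebra M 2 (↑S : Set ℕ) →+* O')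
    (hpS : p ∈ S) (hMS : ∀ q : ℕ, q.Prime → q ∣ M → q ∈ S)
    (hF : ∀ (N' q : ℕ) [NeZero N'] [NeZero q], q.Prime → ¬ q ∣ N' → q ≠ p → M = N' * q →
      NewFrobStmt N' q p (pushA N' q) (pushB N' q))
    (hD : ∀ (N' q : ℕ) [NeZero N'] [NeZero q], q.Prime → ¬ q ∣ N' → M = N' * q →
      DegenStmt N' q (pushA N' q) (pushB N' q))
    (hNoOld : ∀ (N' q : ℕ) [NeZero N'], q.Prime → M = N' * q →
      ∀ v : O' ⊗[ℤ] Lat N',
        (∀ (ℓ : ℕ) (hℓ : ℓ.Prime) (hℓM : ¬ ℓ ∣ M) (hℓS : ℓ ∉ (↑S : Set ℕ)) (hℓN' : ¬ ℓ ∣ N'),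
          LinearMap.lTensor O' (tcohL N' hℓ hℓN') v = χ (heckeAlgebra.T hℓ hℓM hℓS) • v) →
        v = 0) :
    Fermat.Agent.S35.LatticePlus.TatePlus p M S O' χ := by
  classical
  have hpprime : p.Prime := Fact.out
  have hflat : Module.Flat ℤ O' := inferInstance
  obtain ⟨lam, hlK, hl1, hl2, hl3, hl4⟩ := exists_lamK M
  have hMS' : ∀ q : ℕ, q.Prime → q ∣ M → q ∈ (↑S : Set ℕ) :=
    fun q hq hqM => Finset.mem_coe.mpr (hMS q hq hqM)
  obtain ⟨v, hv, hveig⟩ := Fermat.Agent.P5.EigVec.eigVecStmt M (↑S : Set ℕ) hMS' O' χ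
  have hveig' : ∀ (ℓ : ℕ) (hℓ : ℓ.Prime) (hℓM : ¬ ℓ ∣ M) (hℓS : ℓ ∉ (↑S : Set ℕ)),
      LinearMap.lTensor O' (tcohL M hℓ hℓM) v = χ (heckeAlgebra.T hℓ hℓM hℓS) • v := by
    intro ℓ hℓ hℓM hℓS
    have h1 : heckeAct M (↑S : Set ℕ) hMS' (heckeAlgebra.T hℓ hℓM hℓS) = tcohL M hℓ hℓM :=
      LinearMap.ext fun ψ =>
        Subtype.ext (Fermat.Agent.P5.Per.heckeAct_T M (↑S : Set ℕ) hMS' hℓ hℓM hℓS ψ)
    rw [← h1]
    exact hveig _
  have hcomm : ∀ (i : {ℓ : ℕ // ℓ.Prime ∧ ¬ ℓ ∣ M ∧ ℓ ∉ (↑S : Set ℕ)}) (g : GQ),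
      Commute (galMod M g) (heckeOperatorBar M ⟨i.1, i.2.1⟩) := by
    intro i g
    apply LinearMap.ext
    intro x
    exact Fermat.Agent.P5.GalHecke.galois_smul_heckeOperatorBar M ⟨i.1, i.2.1⟩ g x
  have hfin : Fermat.Agent.P5.Plan.FinTorsion M p :=
    Fermat.Agent.P5.Assembly.finTorsion M p hpprime
  have hfin1 : {x : JZero M | p • x = 0}.Finite := by
    have h1 := hfin 1
    rw [pow_one] at h1
    exact h1
  have hcore : Fermat.Agent.S37.Core.CoreAll M p := Fermat.Agent.P5.CoreT.coreAll M p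
  have hLfin : Module.Finite ℤ (Lat M) := Fermat.Agent.P5.Per.lat_finite M
  have hκ : Finite ↥(badSet M p) := Set.finite_coe_iff.mpr (finite_badSet M p)
  -- the image of the eigenvector is new at every bad prime
  have hnew : ∀ (j : ↥(badSet M p)) (k : ℕ),
      (lam (p ^ k)).toIntLinearMap.baseChange O' v ∈
        LinearMap.range ((relSub (galMod M) (Rq M j.1)).subtype.baseChange O') := by
    rintro ⟨q, hq, hqp, hqM, hq2⟩ k
    show (lam (p ^ k)).toIntLinearMap.baseChange O' v ∈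
        LinearMap.range ((relSub (galMod M) (Rq M q)).subtype.baseChange O')
    obtain ⟨N', hN'⟩ : ∃ N' : ℕ, M = N' * q := ⟨M / q, (Nat.div_mul_cancel hqM).symm⟩
    have hqN' : ¬ q ∣ N' := by
      rintro ⟨c, rfl⟩
      exact hq2 ⟨c, by rw [hN']; ring⟩
    have : NeZero N' := ⟨fun h0 => NeZero.ne M (by rw [hN', h0, zero_mul])⟩
    have : NeZero q := ⟨hq.ne_zero⟩
    have hFq := hF N' q hq hqN' hqp hN'
    have hDq := hD N' q hq hqN' hN'
    have hNq := hNoOld N' q hq hN'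
    clear hF hD hNoOld
    subst hN'
    refine mem_range_relSub N' q p O' hFq hDq lam hlK hl1 v ?_ (p ^ k)
      (pow_pos hpprime.pos k) ⟨k, rfl⟩
    intro c hc
    refine hNq _ fun ℓ hℓ hℓM hℓS hℓN' => ?_
    have e1 : LinearMap.lTensor O' (tcohL N' hℓ hℓN') (LinearMap.lTensor O' c.toIntLinearMap v) =
        LinearMap.lTensor O' c.toIntLinearMap
          (LinearMap.lTensor O' (tcohL (N' * q) hℓ hℓM) v) := by
      rw [← LinearMap.comp_apply, ← LinearMap.comp_apply, ← LinearMap.lTensor_comp,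
        ← LinearMap.lTensor_comp]
      congr 2
      exact LinearMap.ext fun φ => (hc ℓ hℓ hℓM hℓN' φ).symm
    rw [e1, hveig' ℓ hℓ hℓM hℓS]
    exact (c.toIntLinearMap.baseChange O').map_smul _ v
  obtain ⟨W, iW1, iW2, iW3, iW4, ρ, hnt, hcontW, -, hrelW, -, hbadW⟩ :=
    exists_tate_plus_family (O := O') (p := p) (galMod M)
      (fun i : {ℓ : ℕ // ℓ.Prime ∧ ¬ ℓ ∣ M ∧ ℓ ∉ (↑S : Set ℕ)} =>
        heckeOperatorBar M ⟨i.1, i.2.1⟩) hcomm
      (fun i => χ (heckeAlgebra.T i.2.1 i.2.2.1 i.2.2.2)) hpO' hpprime.ne_zero hfin1 (Lat M)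
      (fun k => lam (p ^ k))
      (fun ψ => by
        have h1 := hl1 1 ψ
        rw [one_smul] at h1
        rw [pow_zero]
        exact h1)
      (fun k ψ => by
        have h1 := hl3 (p ^ k) p ψ (pow_pos hpprime.pos k) hpprime.pos
        rw [pow_succ]
        exact h1)
      (fun k ψ hψ => hl2 (p ^ k) ψ (pow_pos hpprime.pos k) hψ)
      (fun i => tcohL M i.2.1 i.2.2.1)
      (fun i k ψ => (hl4 (p ^ k) i.1 i.2.1 i.2.2.1 ψ).symm)
      v hv (fun i => hveig' i.1 i.2.1 i.2.2.1 i.2.2.2)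
      (fun j : ↥(badSet M p) => relSub (galMod M) (Rq M j.1))
      (fun j g _ x _ hx => map_mem_relSub (galMod M) g (hx j)) hnew
  refine ⟨W, iW1, iW2, iW3, iW4, ρ, hnt, ?_, ?_, ?_⟩
  · intro n
    obtain ⟨M', hM1, -, hM2⟩ :=
      Fermat.Agent.P5.OpenStabRep.exists_normal_fixing_jzero_finite' M (hfin n)
    exact ⟨M', hM1, fun σ hσ w => hcontW σ n (fun x hx => hM2 σ hσ x hx) w⟩
  · intro ℓ hℓ hℓM hℓS A hA σ hσ
    have hℓp : ℓ ≠ p := fun h => hℓS (h ▸ Finset.mem_coe.mpr hpS)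
    exact hrelW σ ⟨ℓ, hℓ, hℓM, hℓS⟩ ℓ (fun k x hx =>
      (hcore ℓ hℓ (Fermat.Agent.P5.TateB.not_dvd_mul_of_prime hℓ hpprime hℓM hℓp) A hA).2 σ hσ x
        ⟨k, hx⟩)
  · intro q hq hqp hqM hq2 A hA σ hσ
    have h := hbadW σ (q ^ 2) (fun k x _ hxK =>
      apply_eq_zero_of_mem_relSub (galMod M) (hxK ⟨q, hq, hqp, hqM, hq2⟩) ⟨A, σ, hA, hσ, rfl⟩)
    rw [Nat.cast_pow] at h
    exact h

end Fermat.Agent.S35.TateInst
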