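import Mathlib
import Fermat.Agent.S35.TateNew
import Fermat.Agent.S35.RelBridge

/-!
# S35, block [TATE-NEW], universal form (helper38)

`TateNew.tate_new_abstract` cuts the eigenlattice down by ONE additive map `a : J → J'`.  For
S35 one needs, for every prime `q ∥ M`, `q ≠ p`, the pair of degeneracy maps
`J₀(M) → J₀(M / q)`, and the levels `M / q` depend on `q`.  To avoid every product over `q`
and every cast `J₀(M) ≃ J₀(M / q * q)`, the lattice here is cut down by ALL valid maps at once: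

`W := {w : T_i w = c_i w, (1 ⊗ T_p a) w = 0 for every valid a : J → J'}`.

`a` is *valid* (`Valid`) if `J'[p]` is finite, `ker a` is stable under the Galois action (on
`p`-power torsion), and there are a lattice `L'`, a map `a' : L → L'` killing the eigenvector `v`
and a compatible system `lam' k : L' → J'` with `a ∘ lam k = lam' k ∘ a'`.

`W` is saturated, Galois-stable, contains the image of `v`; every integral polynomial relation
`P (r σ) = 0` which holds on `{x ∈ J[p^∞] : a x = 0}` for SOME valid `a` holds for `ρ σ` on `W`.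

* `Valid`, `Valid.prod`          : valid maps (closed under pairing);
* `univLattice`, `univRep`, `aeval_univRep_eq_zero`;
* `tate_univ_abstract`           : the abstract block;
* `ValidJ`, `ValidJ.prod`        : validity for `J = J₀(N)` (the lattice map kills EVERY
                                   `χ`-eigenvector);
* `tateRel_univ`                 : the instance `J = J₀(N)` at the frozen binders, as a `TateRel`;
* `polyAct_badPoly`              : `(σ² - 1)(σ² - q²) x` spelled out;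
* `tatePlus_of_valid`            : `LatticePlus.TatePlus` from one valid map per bad Frobenius.
-/

set_option autoImplicit false
set_option linter.style.haveILetI false

open CuspForm ModularCurve
open scoped TensorProduct

namespace Fermat.Agent.S35.TateUniv

open Fermat.Agent.Lib Fermat.Agent.Lib.TateSeq PadicInt Fermat.Agent.P5.Plan
open Fermat.Agent.P5.Per (Lat tcohL heckeAct)
open Fermat.Agent.S35.TateNew

/-! ### Pairs of lattice maps -/

/-- A vector killed by `1 ⊗ f` and `1 ⊗ g` is killed by `1 ⊗ (f, g)`. -/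
theorem lTensor_prod_eq_zero {O L L₁ L₂ : Type*} [CommRing O] [AddCommGroup L] [AddCommGroup L₁]
    [AddCommGroup L₂] (f : L →+ L₁) (g : L →+ L₂) (v : O ⊗[ℤ] L)
    (hf : LinearMap.lTensor O f.toIntLinearMap v = 0)
    (hg : LinearMap.lTensor O g.toIntLinearMap v = 0) :
    LinearMap.lTensor O (f.prod g).toIntLinearMap v = 0 := by
  have h : (f.prod g).toIntLinearMap =
      (LinearMap.inl ℤ L₁ L₂) ∘ₗ f.toIntLinearMap + (LinearMap.inr ℤ L₁ L₂) ∘ₗ g.toIntLinearMap := by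
    ext x <;> simp
  rw [h, LinearMap.lTensor_add, LinearMap.lTensor_comp, LinearMap.lTensor_comp,
    LinearMap.add_apply, LinearMap.comp_apply, LinearMap.comp_apply, hf, hg, map_zero, map_zero,
    add_zero]

/-! ### Valid maps -/

/-- `a : J → J'` is a valid degeneracy map for the eigenvector `v ∈ O ⊗ L`: the `p`-torsion of
`J'` is finite, the kernel of `a` is stable under the action `r` (on `p`-power torsion), and `a`
is covered by a lattice map `a' : L → L'` killing `v`. -/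
def Valid (p : ℕ) {J : Type} [AddCommGroup J] (O : Type) [CommRing O] {G : Type} [Monoid G]
    (r : G →* AddMonoid.End J) {L : Type} [AddCommGroup L] (lam : ℕ → L →+ J) (v : O ⊗[ℤ] L)
    {J' : Type} [AddCommGroup J'] (a : J →+ J') : Prop :=
  {y : J' | p • y = 0}.Finite ∧
  (∀ (σ : G) (k : ℕ) (x : J), p ^ k • x = 0 → a x = 0 → a (r σ x) = 0) ∧
  ∃ (L' : Type) (_ : AddCommGroup L') (a' : L →+ L') (lam' : ℕ → L' →+ J'),
    (∀ k ψ, p ^ k • lam' k ψ = 0) ∧ (∀ k ψ, p • lam' (k + 1) ψ = lam' k ψ) ∧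
    (∀ k ψ, a (lam k ψ) = lam' k (a' ψ)) ∧ LinearMap.lTensor O a'.toIntLinearMap v = 0

/-- The pair of two valid maps is valid. -/
theorem Valid.prod {p : ℕ} {J : Type} [AddCommGroup J] {O : Type} [CommRing O] {G : Type}
    [Monoid G] {r : G →* AddMonoid.End J} {L : Type} [AddCommGroup L] {lam : ℕ → L →+ J}
    {v : O ⊗[ℤ] L} {J₁ J₂ : Type} [AddCommGroup J₁] [AddCommGroup J₂] {a₁ : J →+ J₁}
    {a₂ : J →+ J₂} (h₁ : Valid p O r lam v a₁) (h₂ : Valid p O r lam v a₂) :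
    Valid p O r lam v (a₁.prod a₂) := by
  obtain ⟨hf₁, hs₁, L₁, i₁, a₁', lam₁, h0₁, h1₁, hc₁, hv₁⟩ := h₁
  obtain ⟨hf₂, hs₂, L₂, i₂, a₂', lam₂, h0₂, h1₂, hc₂, hv₂⟩ := h₂
  refine ⟨?_, ?_, L₁ × L₂, inferInstance, a₁'.prod a₂', fun k => (lam₁ k).prodMap (lam₂ k),
    ?_, ?_, ?_, lTensor_prod_eq_zero a₁' a₂' v hv₁ hv₂⟩
  · exact (hf₁.prod hf₂).subset fun y hy =>
      ⟨congrArg Prod.fst (show p • y = 0 from hy), congrArg Prod.snd (show p • y = 0 from hy)⟩
  · intro σ k x hx hax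
    exact Prod.ext (hs₁ σ k x hx (congrArg Prod.fst hax)) (hs₂ σ k x hx (congrArg Prod.snd hax))
  · intro k ψ
    exact Prod.ext (h0₁ k ψ.1) (h0₂ k ψ.2)
  · intro k ψ
    exact Prod.ext (h1₁ k ψ.1) (h1₂ k ψ.2)
  · intro k ψ
    exact Prod.ext (hc₁ k ψ) (hc₂ k ψ)

/-! ### The universal new lattice -/

section Univ

variable (p : ℕ) {J : Type} [AddCommGroup J] [hp : Fact p.Prime]
variable (O : Type) [CommRing O] [Algebra ℤ_[p] O] {ι : Type}
variable (t : ι → AddMonoid.End J) (c : ι → O) {G : Type} [Monoid G] (r : G →* AddMonoid.End J)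
variable {L : Type} [AddCommGroup L] (lam : ℕ → L →+ J) (v : O ⊗[ℤ] L)

/-- The part of the eigenlattice killed by every valid map. -/
noncomputable def univLattice : Submodule O (O ⊗[ℤ_[p]] Tate p J) where
  carrier := {w | w ∈ eigenLattice p O t c ∧
    ∀ (J' : Type) (_ : AddCommGroup J') (a : J →+ J'), Valid p O r lam v a → homO p O a w = 0}
  add_mem' := fun {x y} hx hy => ⟨Submodule.add_mem _ hx.1 hy.1, fun J' _ a ha => by
    rw [map_add, hx.2 J' _ a ha, hy.2 J' _ a ha, add_zero]⟩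
  zero_mem' := ⟨Submodule.zero_mem _, fun J' _ a _ => map_zero _⟩
  smul_mem' := fun s x hx => ⟨Submodule.smul_mem _ s hx.1, fun J' _ a ha => by
    rw [map_smul, hx.2 J' _ a ha, smul_zero]⟩

variable {p O t c r lam v}

theorem mem_univLattice {w : O ⊗[ℤ_[p]] Tate p J} :
    w ∈ univLattice p O t c r lam v ↔ w ∈ eigenLattice p O t c ∧
      ∀ (J' : Type) (_ : AddCommGroup J') (a : J →+ J'), Valid p O r lam v a →
        homO p O a w = 0 := Iff.rfl

theorem mapO_mem_univLattice [Module.Flat ℤ_[p] O] (g : G)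
    (hg : ∀ (i : ι) (k : ℕ) (x : J), p ^ k • x = 0 → r g (t i x) = t i (r g x))
    {w : O ⊗[ℤ_[p]] Tate p J} (hw : w ∈ univLattice p O t c r lam v) :
    mapO p O (r g) w ∈ univLattice p O t c r lam v :=
  ⟨mapO_mem_eigenLattice (r g) hg hw.1, fun J' _ a ha =>
    (mapO_mem_newLattice (r g) hg (ha.2.1 g) (⟨hw.1, hw.2 J' _ a ha⟩ :
      w ∈ newLattice p O t c a)).2⟩

theorem univLattice_saturated [IsDomain O] [Module.IsTorsionFree O (O ⊗[ℤ_[p]] Tate p J)]
    {s : O} (hs : s ≠ 0) {q : O ⊗[ℤ_[p]] Tate p J}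
    (hq : s • q ∈ univLattice p O t c r lam v) : q ∈ univLattice p O t c r lam v := by
  refine ⟨eigenLattice_saturated hs hq.1, fun J' _ a ha => ?_⟩
  haveI : Module.IsTorsionFree O (O ⊗[ℤ_[p]] Tate p J') := isTorsionFree_tateO ha.1
  have h : homO p O a (s • q) = 0 := hq.2 J' _ a ha
  rw [map_smul] at h
  exact smul_right_injective _ hs (h.trans (smul_zero s).symm)

variable (t c r lam v) in
/-- The action on the universal new lattice. -/
noncomputable def univRep [Module.Flat ℤ_[p] O]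
    (hr : ∀ (g : G) (i : ι) (k : ℕ) (x : J), p ^ k • x = 0 → r g (t i x) = t i (r g x)) :
    G →* Module.End O (univLattice p O t c r lam v) where
  toFun g := (mapO p O (r g)).restrict fun _ hw => mapO_mem_univLattice g (hr g) hw
  map_one' := by
    ext w
    simp
  map_mul' := fun g g' => by
    ext w
    simp

theorem univRep_apply [Module.Flat ℤ_[p] O]
    (hr : ∀ (g : G) (i : ι) (k : ℕ) (x : J), p ^ k • x = 0 → r g (t i x) = t i (r g x))
    (g : G) (w : univLattice p O t c r lam v) :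
    ((univRep t c r lam v hr g w : univLattice p O t c r lam v) : O ⊗[ℤ_[p]] Tate p J) =
      mapO p O (r g) w := rfl

/-- **Transfer of relations.**  An integral polynomial relation satisfied by `r g` on the part of
the `p`-power torsion of `J` killed by some valid map is satisfied on the universal new lattice. -/
theorem aeval_univRep_eq_zero [Module.Flat ℤ_[p] O]
    (hr : ∀ (g : G) (i : ι) (k : ℕ) (x : J), p ^ k • x = 0 → r g (t i x) = t i (r g x))
    (g : G) (P : Polynomial ℤ) {J' : Type} [AddCommGroup J'] (a : J →+ J')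
    (ha : Valid p O r lam v a)
    (hP : ∀ (k : ℕ) (x : J), p ^ k • x = 0 → a x = 0 → Polynomial.aeval (r g) P x = 0) :
    Polynomial.aeval (univRep t c r lam v hr g) P = 0 := by
  refine LinearMap.ext fun w => Subtype.ext ?_
  rw [LinearMap.zero_apply, Submodule.coe_zero]
  have h1 := aeval_restrict_apply (mapO p O (r g))
    (fun _ hw => mapO_mem_univLattice (t := t) (c := c) (lam := lam) (v := v) g (hr g) hw) P w
  have h2 : Polynomial.aeval (mapO p O (r g)) P = mapO p O (Polynomial.aeval (r g) P) :=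
    (mapO_aeval (r g) P).symm
  have h3 := baseChange_eq_zero_of_homO_eq_zero (O := O) a
    (tateMap p (Polynomial.aeval (r g) P))
    (fun x hx => Tate.ext' fun k =>
      hP k _ (Tate.pow_smul x k) (congrArg (fun y : Tate p J' => (y : ℕ → J') k) hx))
    (w.2.2 J' _ a ha)
  refine h1.trans ?_
  rw [h2]
  exact h3

end Univ

/-! ### The abstract block -/

/-- **The universal new eigenlattice of the Tate module, abstractly.**  The setting of
`Eig.tate_abstract`.  The lattice `W` is the part of the `c`-eigenlattice killed by every valid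
map; besides the clauses of `Eig.tate_abstract`, every integral polynomial relation satisfied by
`r σ` on `{x ∈ J[p^∞] : a x = 0}` for some valid `a` is satisfied by `ρ σ`. -/
theorem tate_univ_abstract (p : ℕ) [Fact p.Prime] {J : Type} [AddCommGroup J]
    (O : Type) [CommRing O] [IsDomain O] [IsDiscreteValuationRing O] [CharZero O]
    (hpO : (p : O) ∈ IsLocalRing.maximalIdeal O) [Algebra ℤ_[p] O] [Module.Flat ℤ_[p] O]
    {ι : Type} (t : ι → AddMonoid.End J) (c : ι → O) (r : GQ →* AddMonoid.End J)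
    (hr : ∀ (σ : GQ) (i : ι) (k : ℕ) (x : J), p ^ k • x = 0 → r σ (t i x) = t i (r σ x))
    (hfin : ∀ k : ℕ, {x : J | p ^ k • x = 0}.Finite)
    (hopen : ∀ X : Set J, X.Finite → ∃ M : IntermediateField ℚ Qb, FiniteDimensional ℚ M ∧
      ∀ σ : GQ, (∀ y ∈ M, σ y = y) → ∀ x ∈ X, r σ x = x)
    {L : Type} [AddCommGroup L] {κ : Type} [Fintype κ] (b : Module.Basis κ ℤ L)
    (lam : ℕ → L →+ J) (h0 : ∀ k ψ, p ^ k • lam k ψ = 0)
    (h1 : ∀ k ψ, p • lam (k + 1) ψ = lam k ψ)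
    (h2 : ∀ k ψ, lam k ψ = 0 → ∃ ψ' : L, ψ = p ^ k • ψ')
    (g : ι → L →ₗ[ℤ] L) (hg : ∀ i k ψ, t i (lam k ψ) = lam k (g i ψ))
    (v : O ⊗[ℤ] L) (hv : v ≠ 0) (hveig : ∀ i, LinearMap.lTensor O (g i) v = c i • v) :
    ∃ (W : Type) (_ : AddCommGroup W) (_ : Module O W) (_ : Module.Free O W)
      (_ : Module.Finite O W) (ρ : GQ →* Module.End O W),
      Nontrivial W ∧ GaloisActionIsAdicContinuous O ρ ∧
      (∀ σ : GQ, (∀ (k : ℕ) (x : J), p ^ k • x = 0 → r σ x = x) → ρ σ = 1) ∧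
      (∀ (i : ι) (σ : GQ) (n : ℕ),
        (∀ (k : ℕ) (x : J), p ^ k • x = 0 → r σ (r σ x) - t i (r σ x) + n • x = 0) →
        ρ σ * ρ σ - c i • ρ σ + (n : O) • (1 : Module.End O W) = 0) ∧
      (∀ (σ : GQ) (P : Polynomial ℤ) (J' : Type) (_ : AddCommGroup J') (a : J →+ J'),
        Valid p O r lam v a →
        (∀ (k : ℕ) (x : J), p ^ k • x = 0 → a x = 0 → Polynomial.aeval (r σ) P x = 0) →
        Polynomial.aeval (ρ σ) P = 0) := by
  classical
  have hp : p.Prime := Fact.out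
  have hpO0 : (p : O) ≠ 0 := Nat.cast_ne_zero.mpr hp.ne_zero
  have hfin1 : {y : J | p • y = 0}.Finite := by
    have := hfin 1
    rwa [pow_one] at this
  have hθ : LinearIndependent ℤ_[p] (fun i => theta lam h0 h1 (b i)) :=
    linearIndependent_theta b lam h0 h1 h2
  have hg' : ∀ i ψ, tateMap p (t i) (theta lam h0 h1 ψ) = theta lam h0 h1 (g i ψ) :=
    fun i ψ => Tate.ext' fun k => hg i k ψ
  -- the nonzero element
  have hw : thetaO O (theta lam h0 h1) v ∈ univLattice p O t c r lam v := by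
    refine ⟨mem_eigenLattice.mpr fun i => ?_, fun J' _ a ha => ?_⟩
    · rw [thetaO_comm (theta lam h0 h1) (t i) (g i) (hg' i), hveig i, map_smul]
    · obtain ⟨-, -, L', _, a', lam', h0', h1', hcomp, hv'⟩ := ha
      have ha' : ∀ ψ, tateHom p a (theta lam h0 h1 ψ) = theta lam' h0' h1' (a' ψ) :=
        fun ψ => Tate.ext' fun k => hcomp k ψ
      rw [homO_thetaO a (theta lam h0 h1) (theta lam' h0' h1') a' ha', hv', map_zero]
  have hw0 : thetaO O (theta lam h0 h1) v ≠ 0 := fun h =>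
    hv (thetaO_injective b (theta lam h0 h1) hθ (h.trans (map_zero _).symm))
  haveI hTF : Module.IsTorsionFree O (O ⊗[ℤ_[p]] Tate p J) := isTorsionFree_tateO hfin1
  haveI hFin : Module.Finite ℤ_[p] (Tate p J) := finite_tate hfin1
  have hWfin : Module.Finite O (univLattice p O t c r lam v) := inferInstance
  have hWfree : Module.Free O (univLattice p O t c r lam v) :=
    Module.free_of_finite_type_torsion_free' (R := O) (M := univLattice p O t c r lam v)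
  refine ⟨↥(univLattice p O t c r lam v), inferInstance, inferInstance, hWfree, hWfin,
    univRep t c r lam v hr, ?_, ?_, ?_, ?_, ?_⟩
  · exact nontrivial_of_ne (⟨_, hw⟩ : univLattice p O t c r lam v) 0
      (fun h => hw0 (congrArg Subtype.val h))
  · -- adic continuity
    intro n
    obtain ⟨M, hMfin, hM⟩ := hopen _ (hfin n)
    refine ⟨M, hMfin, fun σ hσ w => ?_⟩
    obtain ⟨q, hq⟩ := mapO_sub_mem (O := O) n (r σ) (fun x hx => hM σ hσ x hx)
      (w : O ⊗[ℤ_[p]] Tate p J)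
    have hqm : q ∈ univLattice p O t c r lam v := by
      refine univLattice_saturated (pow_ne_zero n hpO0) ?_
      rw [← hq]
      exact Submodule.sub_mem _ (mapO_mem_univLattice σ (hr σ) w.2) w.2
    have hw'' : univRep t c r lam v hr σ w - w =
        (p : O) ^ n • (⟨q, hqm⟩ : univLattice p O t c r lam v) := Subtype.ext hq
    rw [hw'']
    exact Submodule.smul_mem_smul (Ideal.pow_mem_pow hpO n) Submodule.mem_top
  · -- triviality
    intro σ hσ
    refine LinearMap.ext fun w => Subtype.ext ?_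
    rw [univRep_apply]
    have h3 : mapO p O (r σ) = mapO p O 1 := mapO_congr fun k x hx => hσ k x hx
    rw [h3, map_one]
    rfl
  · -- quadratic relations
    intro i σ n hσ
    refine LinearMap.ext fun w => Subtype.ext ?_
    have h3 := eigen_relation (O := O) (c := c) i (r σ) n (hr σ) hσ w.2.1
    rw [LinearMap.add_apply, LinearMap.sub_apply, LinearMap.smul_apply, LinearMap.smul_apply,
      Module.End.mul_apply, Module.End.one_apply, LinearMap.zero_apply, Submodule.coe_add,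
      Submodule.coe_sub, Submodule.coe_smul, Submodule.coe_smul, univRep_apply, univRep_apply,
      Submodule.coe_zero]
    exact h3
  · -- polynomial relations on the new part
    intro σ P J' _ a ha hP
    exact aeval_univRep_eq_zero hr σ P a ha hP

/-! ### The instance `J = J₀(N)` -/

/-- Validity of a degeneracy map `a : J₀(N) → J'` for the character `χ`: `J'[p]` is finite,
`ker a` is Galois-stable on `p`-power torsion, and `a` is covered by a lattice map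
`a' : Lat N → L'` killing every `χ`-eigenvector of `𝒪' ⊗ Lat N`. -/
def ValidJ (p N : ℕ) [NeZero N] (S : Finset ℕ)
    (hNS : ∀ q : ℕ, q.Prime → q ∣ N → q ∈ (↑S : Set ℕ)) (𝒪' : Type) [CommRing 𝒪']
    (χ : heckeAlgebra N 2 (↑S : Set ℕ) →+* 𝒪') (lam : ℕ → (Lat N →+ JZero N))
    {J' : Type} [AddCommGroup J'] (a : JZero N →+ J') : Prop :=
  {y : J' | p • y = 0}.Finite ∧
  (∀ (σ : GQ) (k : ℕ) (x : JZero N), p ^ k • x = 0 → a x = 0 → a (σ • x) = 0) ∧
  ∃ (L' : Type) (_ : AddCommGroup L') (a' : Lat N →+ L') (lam' : ℕ → L' →+ J'),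
    (∀ k ψ, p ^ k • lam' k ψ = 0) ∧ (∀ k ψ, p • lam' (k + 1) ψ = lam' k ψ) ∧
    (∀ k ψ, a (lam (p ^ k) ψ) = lam' k (a' ψ)) ∧
    ∀ v : 𝒪' ⊗[ℤ] Lat N,
      (∀ t : heckeAlgebra N 2 (↑S : Set ℕ),
        LinearMap.lTensor 𝒪' (heckeAct N (↑S) hNS t) v = χ t • v) →
      LinearMap.lTensor 𝒪' a'.toIntLinearMap v = 0

/-- The pair of two valid maps is valid. -/
theorem ValidJ.prod {p N : ℕ} [NeZero N] {S : Finset ℕ}
    {hNS : ∀ q : ℕ, q.Prime → q ∣ N → q ∈ (↑S : Set ℕ)} {𝒪' : Type} [CommRing 𝒪']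
    {χ : heckeAlgebra N 2 (↑S : Set ℕ) →+* 𝒪'} {lam : ℕ → (Lat N →+ JZero N)}
    {J₁ J₂ : Type} [AddCommGroup J₁] [AddCommGroup J₂] {a₁ : JZero N →+ J₁}
    {a₂ : JZero N →+ J₂} (h₁ : ValidJ p N S hNS 𝒪' χ lam a₁)
    (h₂ : ValidJ p N S hNS 𝒪' χ lam a₂) : ValidJ p N S hNS 𝒪' χ lam (a₁.prod a₂) := by
  obtain ⟨hf₁, hs₁, L₁, i₁, a₁', lam₁, h0₁, h1₁, hc₁, hv₁⟩ := h₁
  obtain ⟨hf₂, hs₂, L₂, i₂, a₂', lam₂, h0₂, h1₂, hc₂, hv₂⟩ := h₂
  refine ⟨?_, ?_, L₁ × L₂, inferInstance, a₁'.prod a₂', fun k => (lam₁ k).prodMap (lam₂ k),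
    ?_, ?_, ?_, fun v hv => lTensor_prod_eq_zero a₁' a₂' v (hv₁ v hv) (hv₂ v hv)⟩
  · exact (hf₁.prod hf₂).subset fun y hy =>
      ⟨congrArg Prod.fst (show p • y = 0 from hy), congrArg Prod.snd (show p • y = 0 from hy)⟩
  · intro σ k x hx hax
    exact Prod.ext (hs₁ σ k x hx (congrArg Prod.fst hax)) (hs₂ σ k x hx (congrArg Prod.snd hax))
  · intro k ψ
    exact Prod.ext (h0₁ k ψ.1) (h0₂ k ψ.2)
  · intro k ψ
    exact Prod.ext (h1₁ k ψ.1) (h1₂ k ψ.2)
  · intro k ψ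
    exact Prod.ext (hc₁ k ψ) (hc₂ k ψ)

open Fermat.Agent.P5.Eig in
/-- The universal new eigenlattice of `J₀(N)` with a given `ℤ_p`-algebra structure on `𝒪'`. -/
theorem tateRel_univ_of_algebra (p : ℕ) [Fact p.Prime] (N : ℕ) [NeZero N] (S : Finset ℕ)
    (hpS : p ∈ S) (hNS : ∀ q : ℕ, q.Prime → q ∣ N → q ∈ (↑S : Set ℕ))
    (𝒪' : Type) [CommRing 𝒪'] [IsDomain 𝒪'] [IsDiscreteValuationRing 𝒪']
    [CharZero 𝒪'] (hp𝒪' : (p : 𝒪') ∈ IsLocalRing.maximalIdeal 𝒪')
    [Algebra ℤ_[p] 𝒪'] [Module.Flat ℤ_[p] 𝒪']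
    (χ : heckeAlgebra N 2 (↑S : Set ℕ) →+* 𝒪')
    (lam : ℕ → (Lat N →+ JZero N))
    (hl1 : ∀ (n : ℕ) (ψ : Lat N), n • lam n ψ = 0)
    (hl2 : ∀ (n : ℕ) (ψ : Lat N), 0 < n → lam n ψ = 0 → ∃ ψ' : Lat N, ψ = n • ψ')
    (hl3 : ∀ (n m : ℕ) (ψ : Lat N), 0 < n → 0 < m → m • lam (n * m) ψ = lam n ψ)
    (hl4 : ∀ (n : ℕ) (ℓ : ℕ) (hℓ : ℓ.Prime) (hℓN : ¬ ℓ ∣ N) (ψ : Lat N),
      lam n (tcohL N hℓ hℓN ψ) = heckeOperatorBar N ⟨ℓ, hℓ⟩ (lam n ψ))
    (hfin : FinTorsion N p) (hcore : Fermat.Agent.S37.Core.CoreAll N p) :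
    TateRel p N S 𝒪' χ (fun σ P => ∃ (J' : Type) (_ : AddCommGroup J') (a : JZero N →+ J'),
      ValidJ p N S hNS 𝒪' χ lam a ∧
      ∀ (k : ℕ) (x : JZero N), p ^ k • x = 0 → a x = 0 → polyAct (galEnd N) σ P x = 0) := by
  have hp : p.Prime := Fact.out
  obtain ⟨s, b, -, -⟩ := Fermat.Agent.P5.Per.exists_lat_basis N
  obtain ⟨v, hv, hveig⟩ := Fermat.Agent.P5.EigVec.eigVecStmt N (↑S) hNS 𝒪' χ
  obtain ⟨W, iW1, iW2, iW3, iW4, ρ, hW, hcont, htriv, hquad, hrel⟩ :=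
    tate_univ_abstract p 𝒪' hp𝒪' (heckeEnd N S)
      (fun i : Good N S => χ (heckeAlgebra.T i.2.1 i.2.2.1 i.2.2.2)) (galEnd N)
      (fun σ i _ x _ => galEnd_heckeEnd N S σ i x) hfin (galEnd_open N) b
      (fun k => lam (p ^ k)) (fun k ψ => hl1 (p ^ k) ψ)
      (fun k ψ => by
        have := hl3 (p ^ k) p ψ (pow_pos hp.pos k) hp.pos
        rwa [← pow_succ] at this)
      (fun k ψ h => hl2 (p ^ k) ψ (pow_pos hp.pos k) h)
      (latEnd N S hNS)
      (fun i k ψ => by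
        rw [latEnd_apply, hl4 (p ^ k) i.1 i.2.1 i.2.2.1 ψ]
        rfl)
      v hv (fun i => hveig _)
  refine ⟨W, iW1, iW2, iW3, iW4, ρ, hW, hcont, ?_, ?_, ?_⟩
  · -- inertia
    intro q hq hqN hqp P hP σ hσ
    have hqNp : ¬ q ∣ N * p := not_dvd_mul_of_ne hq hp hqN hqp
    exact htriv σ fun k x hx => (hcore q hq hqNp P hP).1 σ hσ x ⟨k, hx⟩
  · -- Frobenius
    intro ℓ hℓ hℓN hℓS A hA σ hσ
    have hℓp : ℓ ≠ p := fun h => hℓS (h ▸ Finset.mem_coe.mpr hpS)
    have hℓNp : ¬ ℓ ∣ N * p := not_dvd_mul_of_ne hℓ hp hℓN hℓp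
    exact hquad (⟨ℓ, hℓ, hℓN, hℓS⟩ : Good N S) σ ℓ
      fun k x hx => (hcore ℓ hℓ hℓNp A hA).2 σ hσ x ⟨k, hx⟩
  · -- relations
    rintro σ P ⟨J', _, a, ⟨hf, hs, L', _, a', lam', h0', h1', hcomp, hnew⟩, hP⟩
    exact hrel σ P J' _ a
      ⟨hf, fun τ k x hx hax => hs τ k x hx hax, L', _, a', lam', h0', h1', hcomp,
        hnew v hveig⟩ hP

/-- **[TATE-NEW], universal form, at the frozen binders of S30/S35** (`𝒪'` a complete discrete
valuation ring; `ℤ_p → 𝒪'` is `CycloDelta.padicHom`). -/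
theorem tateRel_univ (p : ℕ) [Fact p.Prime] (N : ℕ) [NeZero N] (S : Finset ℕ)
    (hpS : p ∈ S) (hNS : ∀ q : ℕ, q.Prime → q ∣ N → q ∈ (↑S : Set ℕ))
    (𝒪' : Type) [CommRing 𝒪'] [IsDomain 𝒪'] [IsDiscreteValuationRing 𝒪']
    [IsAdicComplete (IsLocalRing.maximalIdeal 𝒪') 𝒪']
    [CharZero 𝒪'] (hp𝒪' : (p : 𝒪') ∈ IsLocalRing.maximalIdeal 𝒪')
    (χ : heckeAlgebra N 2 (↑S : Set ℕ) →+* 𝒪')
    (lam : ℕ → (Lat N →+ JZero N))
    (hl1 : ∀ (n : ℕ) (ψ : Lat N), n • lam n ψ = 0)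
    (hl2 : ∀ (n : ℕ) (ψ : Lat N), 0 < n → lam n ψ = 0 → ∃ ψ' : Lat N, ψ = n • ψ')
    (hl3 : ∀ (n m : ℕ) (ψ : Lat N), 0 < n → 0 < m → m • lam (n * m) ψ = lam n ψ)
    (hl4 : ∀ (n : ℕ) (ℓ : ℕ) (hℓ : ℓ.Prime) (hℓN : ¬ ℓ ∣ N) (ψ : Lat N),
      lam n (tcohL N hℓ hℓN ψ) = heckeOperatorBar N ⟨ℓ, hℓ⟩ (lam n ψ))
    (hfin : FinTorsion N p) (hcore : Fermat.Agent.S37.Core.CoreAll N p) :
    TateRel p N S 𝒪' χ (fun σ P => ∃ (J' : Type) (_ : AddCommGroup J') (a : JZero N →+ J'),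
      ValidJ p N S hNS 𝒪' χ lam a ∧
      ∀ (k : ℕ) (x : JZero N), p ^ k • x = 0 → a x = 0 →
        polyAct (Fermat.Agent.P5.Eig.galEnd N) σ P x = 0) := by
  letI : Algebra ℤ_[p] 𝒪' :=
    (Fermat.Agent.P5.CycloDelta.padicHom p (IsLocalRing.maximalIdeal 𝒪') hp𝒪').toAlgebra
  haveI : Module.Flat ℤ_[p] 𝒪' :=
    Fermat.Agent.P5.CycloDelta.flat_padicHom p (IsLocalRing.maximalIdeal 𝒪') hp𝒪'
  exact tateRel_univ_of_algebra p N S hpS hNS 𝒪' hp𝒪' χ lam hl1 hl2 hl3 hl4 hfin hcore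

/-! ### The polynomial `(X² - 1)(X² - q²)` in an action -/

/-- `(s² - 1)(s² - q²) x = s⁴ x - (q² + 1) s² x + q² x`. -/
theorem polyAct_badPoly {G J : Type*} [Monoid G] [AddCommGroup J] (r : G →* AddMonoid.End J)
    (g : G) (q : ℕ) (x : J) :
    polyAct r g (RelBridge.badPoly q) x =
      r g (r g (r g (r g x))) - (q ^ 2 + 1) • r g (r g x) + q ^ 2 • x := by
  rw [polyAct_def, RelBridge.aeval_badPoly (O := ℤ) (r g) q]
  show r g (r g (r g (r g x) - ((q : ℤ) ^ 2) • x)) - (r g (r g x) - ((q : ℤ) ^ 2) • x) = _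
  rw [map_sub, map_sub, map_zsmul, map_zsmul, ← natCast_zsmul (r g (r g x)) (q ^ 2 + 1),
    ← natCast_zsmul x (q ^ 2)]
  push_cast
  rw [add_smul, one_smul]
  abel

/-! ### From valid maps to `LatticePlus.TatePlus` -/

/-- **`LatticePlus.TatePlus` from valid maps.**  For every prime `q ∥ N`, `q ≠ p`, and every
Frobenius lift `σ` at `q`, ONE valid map `a` (depending on `q`, `σ`) such that
`(σ² - 1)(σ² - q²)` kills `{x ∈ J₀(N)[p^∞] : a x = 0}`. -/
theorem tatePlus_of_valid (p : ℕ) [Fact p.Prime] (N : ℕ) [NeZero N] (S : Finset ℕ)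
    (hpS : p ∈ S) (hNS : ∀ q : ℕ, q.Prime → q ∣ N → q ∈ (↑S : Set ℕ))
    (𝒪' : Type) [CommRing 𝒪'] [IsDomain 𝒪'] [IsDiscreteValuationRing 𝒪']
    [IsAdicComplete (IsLocalRing.maximalIdeal 𝒪') 𝒪']
    [CharZero 𝒪'] (hp𝒪' : (p : 𝒪') ∈ IsLocalRing.maximalIdeal 𝒪')
    (χ : heckeAlgebra N 2 (↑S : Set ℕ) →+* 𝒪')
    (lam : ℕ → (Lat N →+ JZero N))
    (hl1 : ∀ (n : ℕ) (ψ : Lat N), n • lam n ψ = 0)
    (hl2 : ∀ (n : ℕ) (ψ : Lat N), 0 < n → lam n ψ = 0 → ∃ ψ' : Lat N, ψ = n • ψ')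
    (hl3 : ∀ (n m : ℕ) (ψ : Lat N), 0 < n → 0 < m → m • lam (n * m) ψ = lam n ψ)
    (hl4 : ∀ (n : ℕ) (ℓ : ℕ) (hℓ : ℓ.Prime) (hℓN : ¬ ℓ ∣ N) (ψ : Lat N),
      lam n (tcohL N hℓ hℓN ψ) = heckeOperatorBar N ⟨ℓ, hℓ⟩ (lam n ψ))
    (hfin : FinTorsion N p) (hcore : Fermat.Agent.S37.Core.CoreAll N p)
    (hbad : ∀ q : ℕ, q.Prime → q ≠ p → q ∣ N → ¬ q ^ 2 ∣ N →
      ∀ A : ValuationSubring Qb, A.LiesOverPrime q → ∀ σ : GQ, A.IsFrobeniusAt σ q →
        ∃ (J' : Type) (_ : AddCommGroup J') (a : JZero N →+ J'),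
          ValidJ p N S hNS 𝒪' χ lam a ∧
          ∀ (k : ℕ) (x : JZero N), p ^ k • x = 0 → a x = 0 →
            σ • σ • σ • σ • x - (q ^ 2 + 1) • (σ • σ • x) + q ^ 2 • x = 0) :
    LatticePlus.TatePlus p N S 𝒪' χ := by
  obtain ⟨W, i1, i2, i3, i4, ρ, h1, h2, -, h4, h5⟩ :=
    tateRel_univ p N S hpS hNS 𝒪' hp𝒪' χ lam hl1 hl2 hl3 hl4 hfin hcore
  refine RelBridge.tatePlus_of_aeval p N S 𝒪' χ W ρ h1 h2 h4
    fun q hq hqp hqN hq2 A hA σ hσ => ?_
  obtain ⟨J', iJ, a, ha, hrel⟩ := hbad q hq hqp hqN hq2 A hA σ hσ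
  refine h5 σ (RelBridge.badPoly q) ⟨J', iJ, a, ha, fun k x hx hax => ?_⟩
  rw [polyAct_badPoly]
  exact hrel k x hx hax

end Fermat.Agent.S35.TateUniv
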