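import Mathlib
import Fermat.Agent.S35.TateUniv
import Fermat.Agent.S35.Plan
import Fermat.Agent.S35.Push
import Fermat.Agent.P5.Assembly
import Fermat.Agent.P5.LambdaFinal
import Fermat.Agent.P5.CoreTFinal

/-!
# S35, block [TATE-INST], second provider (helper38)

`LatticePlus.TatePlus lam M S O' χ` from the three contracts of `S35/Plan.lean`:

* `hF`     : `Plan.NewFrobStmt N' q lam (pushA N' q) (pushB N' q)`   — **(F)**;
* `hD`     : `Plan.DegenStmt N' q (pushA N' q) (pushB N' q)`         — **[DEGEN]**;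
* `hNoOld` : no `χ`-eigenvector in `O' ⊗ Lat N'` for `M = N' * q`    — **[NOOLD-LAT]**.

Route: `TateUniv.tatePlus_of_valid`.  For a prime `q ∥ M`, `q ≠ lam`, write `M = N' * q`; the pair
of push-forwards `(pushA N' q, pushB N' q) : J₀(N' q) → J₀(N')²` is a valid map (`TateUniv.ValidJ`):
it is covered by the lattice maps `cA, cB` of `DegenStmt` (compatibility with the maps `λ_n` by
injectivity of the Kummer map), and `1 ⊗ cA`, `1 ⊗ cB` kill every `χ`-eigenvector by `hNoOld`.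
The relation `(σ² - 1)(σ² - q²) = 0` on its kernel is `hF`.

* `exists_lam_kummer` : the maps `λ_n` of `Plan.LambdaStmt` with their Kummer characters;
* `validJ_push`       : validity of one push-forward;
* `tatePlus`          : the block.
-/

set_option autoImplicit false
set_option linter.style.haveILetI false

open CuspForm ModularCurve
open scoped TensorProduct

namespace Fermat.Agent.S35.TateInst2

open Fermat.Agent.P5.Plan
open Fermat.Agent.P5.Per (Lat tcohL heckeAct)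
open Fermat.Agent.P5.Kappa (KummerRel realQ)
open Fermat.Agent.P5.Lambda (chi)
open Fermat.Agent.S35.TateUniv

/-- **The maps `λ_n` with their Kummer characters**: the family of `Plan.LambdaStmt` together
with the clause that `λ_n φ` has Kummer character `e(φ / n)`. -/
theorem exists_lam_kummer (N : ℕ) [NeZero N] :
    ∃ lam : ℕ → (Lat N →+ JZero N),
      (∀ n : ℕ, 0 < n → ∀ φ : Lat N, KummerRel (realQ N) n (lam n φ) (chi N φ n)) ∧
      (∀ (n : ℕ) (ψ : Lat N), n • lam n ψ = 0) ∧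
      (∀ (n : ℕ) (ψ : Lat N), 0 < n → lam n ψ = 0 → ∃ ψ' : Lat N, ψ = n • ψ') ∧
      (∀ (n m : ℕ) (ψ : Lat N), 0 < n → 0 < m → m • lam (n * m) ψ = lam n ψ) ∧
      (∀ (n : ℕ) (ℓ : ℕ) (hℓ : ℓ.Prime) (hℓN : ¬ ℓ ∣ N) (ψ : Lat N),
        lam n (tcohL N hℓ hℓN ψ) = heckeOperatorBar N ⟨ℓ, hℓ⟩ (lam n ψ)) := by
  classical
  have hM := Fermat.Agent.P5.ModFun.RealC.modFunStmt_realQ N
  have hex : ∀ n : ℕ, ∃ lam : Lat N →+ JZero N, 0 < n →
      (∀ φ, KummerRel (realQ N) n (lam φ) (chi N φ n)) ∧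
      (∀ φ, n • lam φ = 0) ∧
      (∀ φ, lam φ = 0 → ∃ φ' : Lat N, φ = n • φ') ∧
      ∀ (ℓ : ℕ) (hℓ : ℓ.Prime) (hℓN : ¬ ℓ ∣ N) (φ : Lat N),
        heckeOperatorBar N ⟨ℓ, hℓ⟩ (lam φ) = lam (tcohL N hℓ hℓN φ) := by
    intro n
    by_cases hn : 0 < n
    · obtain ⟨lam, h⟩ := Fermat.Agent.P5.Lambda.exists_lam hM hn
        (Fermat.Agent.P5.Lambda.surj N n hn) (Fermat.Agent.P5.Lambda.heckeKappa N n)
      exact ⟨lam, fun _ => h⟩
    · exact ⟨0, fun h => absurd h hn⟩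
  choose lam0 hlam0 using hex
  let lam : ℕ → (Lat N →+ JZero N) := fun n => if 0 < n then lam0 n else 0
  have hpos : ∀ n, 0 < n → lam n = lam0 n := fun n hn => if_pos hn
  have hzero : lam 0 = 0 := if_neg (lt_irrefl 0)
  refine ⟨lam, ?_, ?_, ?_, ?_, ?_⟩
  · intro n hn φ
    rw [hpos n hn]
    exact (hlam0 n hn).1 φ
  · intro n ψ
    rcases Nat.eq_zero_or_pos n with rfl | hn
    · exact zero_nsmul _
    · rw [hpos n hn]
      exact (hlam0 n hn).2.1 ψ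
  · intro n ψ hn h
    rw [hpos n hn] at h
    exact (hlam0 n hn).2.2.1 ψ h
  · intro n m ψ hn hm
    have hnm : 0 < n * m := Nat.mul_pos hn hm
    rw [hpos n hn, hpos (n * m) hnm]
    exact (Fermat.Agent.P5.Lambda.lam_compat hM hn hm (hlam0 n hn).1
      (hlam0 (n * m) hnm).1 ψ).symm
  · intro n ℓ hℓ hℓN ψ
    rcases Nat.eq_zero_or_pos n with rfl | hn
    · rw [hzero, AddMonoidHom.zero_apply, AddMonoidHom.zero_apply, map_zero]
    · rw [hpos n hn]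
      exact ((hlam0 n hn).2.2.2 ℓ hℓ hℓN ψ).symm

/-- **Validity of a push-forward.**  A Galois-equivariant map `pA : J₀(N' q) → J₀(N')` covered
(on Kummer characters) by a lattice map `cA : Lat (N' q) → Lat N'` commuting with the `T^coh_ℓ`
is valid for `χ`, as soon as `O' ⊗ Lat N'` contains no `χ`-eigenvector. -/
theorem validJ_push (p : ℕ) [Fact p.Prime] (N' q : ℕ) [NeZero N'] [NeZero (N' * q)]
    (S : Finset ℕ) (hNS : ∀ r : ℕ, r.Prime → r ∣ N' * q → r ∈ (↑S : Set ℕ))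
    (O' : Type) [CommRing O'] (χ : heckeAlgebra (N' * q) 2 (↑S : Set ℕ) →+* O')
    (lam : ℕ → (Lat (N' * q) →+ JZero (N' * q)))
    (hlamK : ∀ n : ℕ, 0 < n → ∀ φ : Lat (N' * q),
      KummerRel (realQ (N' * q)) n (lam n φ) (chi (N' * q) φ n))
    (pA : JZero (N' * q) →+ JZero N') (hgal : ∀ (σ : GQ) (x : JZero (N' * q)),
      σ • pA x = pA (σ • x))
    (cA : Lat (N' * q) →+ Lat N')
    (hcA : ∀ (ℓ : ℕ) (hℓ : ℓ.Prime) (hℓN : ¬ ℓ ∣ N' * q) (hℓN' : ¬ ℓ ∣ N') (φ : Lat (N' * q)),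
      cA (tcohL (N' * q) hℓ hℓN φ) = tcohL N' hℓ hℓN' (cA φ))
    (hK : ∀ n : ℕ, 0 < n → ∀ (φ : Lat (N' * q)) (x : JZero (N' * q)),
      KummerRel (realQ (N' * q)) n x (chi (N' * q) φ n) →
        KummerRel (realQ N') n (pA x) (chi N' (cA φ) n))
    (hNoOld : ∀ v : O' ⊗[ℤ] Lat N',
      (∀ (ℓ : ℕ) (hℓ : ℓ.Prime) (hℓM : ¬ ℓ ∣ N' * q) (hℓS : ℓ ∉ (↑S : Set ℕ)) (hℓN' : ¬ ℓ ∣ N'),
        LinearMap.lTensor O' (tcohL N' hℓ hℓN') v = χ (heckeAlgebra.T hℓ hℓM hℓS) • v) →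
      v = 0) :
    ValidJ p (N' * q) S hNS O' χ lam pA := by
  have hp : p.Prime := Fact.out
  obtain ⟨lamN, hKN, hl1, -, hl3, -⟩ := exists_lam_kummer N'
  refine ⟨?_, ?_, Lat N', inferInstance, cA, fun k => lamN (p ^ k), ?_, ?_, ?_, ?_⟩
  · have h := Fermat.Agent.P5.Assembly.finTorsion N' p hp 1
    rwa [pow_one] at h
  · intro σ k x _ hax
    rw [← hgal, hax]
    exact smul_zero (A := JZero N') σ
  · intro k ψ
    exact hl1 (p ^ k) ψ
  · intro k ψ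
    have h := hl3 (p ^ k) p ψ (pow_pos hp.pos k) hp.pos
    rwa [← pow_succ] at h
  · intro k ψ
    have hk : 0 < p ^ k := pow_pos hp.pos k
    exact KummerRel.eq_of_char_eq (Fermat.Agent.P5.ModFun.RealC.modFunStmt_realQ N') hk
      (hK (p ^ k) hk ψ _ (hlamK (p ^ k) hk ψ)) (hKN (p ^ k) hk (cA ψ))
  · intro v hv
    refine hNoOld _ fun ℓ hℓ hℓM hℓS hℓN' => ?_
    have h1 : (tcohL N' hℓ hℓN') ∘ₗ cA.toIntLinearMap =
        cA.toIntLinearMap ∘ₗ (tcohL (N' * q) hℓ hℓM) :=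
      LinearMap.ext fun φ => (hcA ℓ hℓ hℓM hℓN' φ).symm
    have h2 := hv (heckeAlgebra.T hℓ hℓM hℓS)
    rw [Fermat.Agent.P5.Lambda.heckeAct_T_eq] at h2
    rw [← LinearMap.comp_apply, ← LinearMap.lTensor_comp, h1, LinearMap.lTensor_comp,
      LinearMap.comp_apply, h2, ← LinearMap.smul_lTensor]

/-- **[TATE-INST]** (second provider).  `LatticePlus.TatePlus` for a character `χ` of the Hecke
algebra of level `M` from the contracts (F), [DEGEN] and [NOOLD-LAT] at every prime `q ∥ M`,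
`q ≠ lam`. -/
theorem tatePlus {M : ℕ} [NeZero M] (lam : ℕ) [Fact lam.Prime] (S : Finset ℕ)
    (O' : Type) [CommRing O'] [IsDomain O'] [IsDiscreteValuationRing O']
    [IsAdicComplete (IsLocalRing.maximalIdeal O') O'] [CharZero O']
    (hlamO' : (lam : O') ∈ IsLocalRing.maximalIdeal O')
    (χ : heckeAlgebra M 2 (↑S : Set ℕ) →+* O')
    (hlamS : lam ∈ S) (hMS : ∀ q : ℕ, q.Prime → q ∣ M → q ∈ S)
    (hF : ∀ (N' q : ℕ) [NeZero N'] [NeZero q], q.Prime → ¬ q ∣ N' → q ≠ lam → M = N' * q →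
      Plan.NewFrobStmt N' q lam (Push.pushA N' q) (Push.pushB N' q))
    (hD : ∀ (N' q : ℕ) [NeZero N'] [NeZero q], q.Prime → ¬ q ∣ N' → M = N' * q →
      Plan.DegenStmt N' q (Push.pushA N' q) (Push.pushB N' q))
    (hNoOld : ∀ (N' q : ℕ) [NeZero N'], q.Prime → M = N' * q → ∀ v : O' ⊗[ℤ] Lat N',
      (∀ (ℓ : ℕ) (hℓ : ℓ.Prime) (hℓM : ¬ ℓ ∣ M) (hℓS : ℓ ∉ (↑S : Set ℕ)) (hℓN' : ¬ ℓ ∣ N'),
        LinearMap.lTensor O' (tcohL N' hℓ hℓN') v = χ (heckeAlgebra.T hℓ hℓM hℓS) • v) →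
      v = 0) :
    Fermat.Agent.S35.LatticePlus.TatePlus lam M S O' χ := by
  have hp : lam.Prime := Fact.out
  obtain ⟨lamM, hKM, hl1, hl2, hl3, hl4⟩ := exists_lam_kummer M
  refine tatePlus_of_valid lam M S hlamS (fun q hq h => Finset.mem_coe.mpr (hMS q hq h)) O'
    hlamO' χ lamM hl1 hl2 hl3 hl4 (Fermat.Agent.P5.Assembly.finTorsion M lam hp)
    (Fermat.Agent.P5.CoreT.coreAll M lam) ?_
  intro q hq hqlam hqM hq2 A hA σ hσ
  obtain ⟨N', rfl⟩ : ∃ N', M = N' * q := ⟨M / q, (Nat.div_mul_cancel hqM).symm⟩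
  haveI : NeZero q := ⟨hq.ne_zero⟩
  haveI : NeZero N' := ⟨fun h => NeZero.ne (N' * q) (by rw [h, zero_mul])⟩
  have hqN' : ¬ q ∣ N' := fun h => hq2 (by
    rw [pow_two]
    exact Nat.mul_dvd_mul h (dvd_refl q))
  obtain ⟨cA, cB, hc, hKum⟩ := hD N' q hq hqN' rfl
  refine ⟨JZero N' × JZero N', inferInstance, (Push.pushA N' q).prod (Push.pushB N' q),
    ValidJ.prod ?_ ?_, fun k x hx hax => ?_⟩
  · exact validJ_push lam N' q S _ O' χ lamM hKM (Push.pushA N' q)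
      (fun τ x => Push.galois_smul_pushA N' q τ x) cA
      (fun ℓ hℓ hℓN hℓN' φ => (hc ℓ hℓ hℓN hℓN' φ).1)
      (fun n hn φ x h => (hKum n hn φ x h).1) (hNoOld N' q hq rfl)
  · exact validJ_push lam N' q S _ O' χ lamM hKM (Push.pushB N' q)
      (fun τ x => Push.galois_smul_pushB N' q τ x) cB
      (fun ℓ hℓ hℓN hℓN' φ => (hc ℓ hℓ hℓN hℓN' φ).2)
      (fun n hn φ x h => (hKum n hn φ x h).2) (hNoOld N' q hq rfl)
  · exact hF N' q hq hqN' hqlam rfl A hA σ hσ x ⟨k, hx⟩ (congrArg Prod.fst hax)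
      (congrArg Prod.snd hax)

end Fermat.Agent.S35.TateInst2
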