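import Mathlib
import Fermat.Agent.S35.FPlan
import Fermat.Agent.S35.ValFrobInst
import Fermat.Agent.S34.ValFam
import Fermat.Agent.S34.ValDSR
import Fermat.Agent.S34.FkFrob
import Fermat.Agent.S34.InclInt
import Fermat.Agent.S34.ValLiftInst
import Fermat.Agent.S34.ValArchInst
import Fermat.Agent.S34.PoleBound

/-!
# S35 / P6 [VALF-ASM] (helper5): the concrete two-component reduction with all its properties

For `σ = Sigma.sigma M q h` (the Atkin–Lehner involution of `F_{Mq}`), `O = Val.O2 A M q σ`,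
`ρ = Val.Red A M q σ`:

* `setup2_val` : `Plan.Setup2 A N q M hqN O ρ` for THIS pair (the 19 fields, each a landed
  theorem of the [VAL] block: `Val`, `ValFam`, `ValDSR`, `InclInt`, `ValLiftInst`, `ValArchInst`,
  `ValInertia`);
* `valStmt` : `Plan.ValStmt A N q M hqN` from `Plan.Levels` and `A.LiesOverPrime q`;
* `setup2_frobSetup_val` : `Setup2` and `FPlan.FrobSetup` for the same pair.
-/

set_option autoImplicit false
set_option synthInstance.maxHeartbeats 400000
set_option maxHeartbeats 1000000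

noncomputable section

namespace Fermat.Agent.S35.ValFAsm

open ModularCurve AlgebraicCurve Fermat.Agent.S24 Fermat.Agent.S18.Content Fermat.Agent.S18.Plan
open Fermat.Agent.S34 Fermat.Agent.S34.Plan

/-- `M` and `q` are coprime under `Levels`. -/
theorem coprime_of_levels {q N' N M : ℕ} (hL : Levels q N' N M) : Nat.Coprime M q :=
  ((Nat.Prime.coprime_iff_not_dvd hL.prime).mpr (InclPull.not_dvd_of_levels hL)).symm

variable (A : ValuationSubring Kbar) {q N' N M : ℕ} [NeZero N] [NeZero q] [NeZero M]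

/-- **`Plan.Setup2`** for the concrete pair `(Val.O2, Val.Red)` at the Atkin–Lehner involution. -/
theorem setup2_val (hL : Levels q N' N M) (hqN : q ∣ N) (hA : A.LiesOverPrime q)
    (h : Nat.Coprime M q) :
    Setup2 A N q M hqN (Val.O2 A M q (Sigma.sigma M q h)) (Val.Red A M q (Sigma.sigma M q h)) := by
  have hq : q.Prime := hL.prime
  have hAL : Val.IsAL M q (Sigma.sigma M q h) := ValFam.isAL h hq
  have hRed := ValFam.redStmt_level A h hq hA
  have V5 : ∀ f : Om, f ∈ modularFunctionFieldBar M → ∀ hO : f ∈ Ocal A,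
      ∃ hh : f ∈ Val.O2 A M q (Sigma.sigma M q h),
        Val.Red A M q (Sigma.sigma M q h) ⟨f, hh⟩ =
          (red A ⟨f, hO⟩, qExpand (kk A) q (red A ⟨f, hO⟩)) :=
    fun _ hM hO => hAL.Red_level A hM hO
  have hspan := ValFam.span_w' A h hq hA
  have hind : ∀ a : Fin (q + 1) → Omk A, (∀ i, a i ∈ Fk A M) →
      ∑ i, (a i, qExpand (kk A) q (a i)) *
        Val.Red A M q (Sigma.sigma M q h) (ValFam.w A h hq hA i) = 0 → ∀ i, a i = 0 :=
    fun a _ => ValFam.hind_w A h hq hA a
  have hscale := ValDSR.scale_of (ValFam.w A h hq hA) hRed V5 hspan hind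
  have hrange := ValDSR.range_of (ValFam.w A h hq hA) hRed V5 hspan hind
    (Val.mem_field A M q _) (ValFam.range_w A h hq hA) (FkFrob.qExpand_mem_Fk A q M hq hA)
  have hcoeff : ∀ g : Val.O2 A M q (Sigma.sigma M q h), ∃ c : Fin (q + 1) → Om,
      (∀ i, c i ∈ modularFunctionFieldBar M ∧ c i ∈ Ocal A) ∧
        (g : Om) = ∑ i, c i * ((ValFam.w A h hq hA i : Val.O2 A M q (Sigma.sigma M q h)) : Om) :=
    fun g => ValDSR.coeff_mem_of (ValFam.w A h hq hA) hRed V5 hspan hind g
      (Val.mem_field A M q _ g)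
  exact
    { mem_field := Val.mem_field A M q _
      mem_Ocal := Val.mem_Ocal A M q _
      fst_eq := Val.fst_eq A M q _
      C_mem_iff := Val.C_mem_iff A M q _
      ρ_C := Val.Red_C A M q _
      scale := hscale
      dim := ValDSR.dim_of (ValFam.w A h hq hA) hRed V5 hspan hind
      range := hrange
      inv_mem := Val.inv_mem A M q _
      incl := InclInt.incl_of_hO A hL hqN hA (PoleBound.poleStmt hqN hL) (Sigma.sigma M q h)
        (Sigma.sigma_beta h) (Sigma.sigma_sigma h hq) _ _ (ValFrobInst.hO_val A _)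
        (ValFrobInst.hρ_val A _) (fun y hM hO => (hAL.Red_level A hM hO).1)
        (ValFam.w A h hq hA) hcoeff hrange
      lift₁ := ValLiftInst.lift₁ A hL hA hAL
      lift₂ := ValLiftInst.lift₂ A hqN hL hA hAL
      exists_z := ValLiftInst.exists_z A hqN hL hA hAL
      exists_x := ValLiftInst.exists_x A hqN hL hA hAL
      ρ_j := ValLiftInst.ρ_j A hL hA hAL
      ρ_jq := ValLiftInst.ρ_jq A hL hA hAL
      inertia := ValFrobInst.inertia_val A h hq
      inertia_ratio := ValFrobInst.inertia_ratio_val A h hq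
        (ValArchInst.scaleProp hAL hq hA hscale) }

/-- **[VAL]** `Plan.ValStmt` from `Levels` and `A` over `q`. -/
theorem valStmt (hL : Levels q N' N M) (hqN : q ∣ N) (hA : A.LiesOverPrime q) :
    ValStmt A N q M hqN :=
  ⟨_, _, setup2_val A hL hqN hA (coprime_of_levels hL)⟩

/-- `Plan.Setup2` together with `FPlan.FrobSetup` for the same concrete pair. -/
theorem setup2_frobSetup_val (hL : Levels q N' N M) (hqN : q ∣ N) (hA : A.LiesOverPrime q)
    (h : Nat.Coprime M q) :
    Setup2 A N q M hqN (Val.O2 A M q (Sigma.sigma M q h)) (Val.Red A M q (Sigma.sigma M q h)) ∧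
      FPlan.FrobSetup A q (Val.O2 A M q (Sigma.sigma M q h))
        (Val.Red A M q (Sigma.sigma M q h)) :=
  ⟨setup2_val A hL hqN hA h, ValFrobInst.frobSetup_val A h hL.prime⟩

end Fermat.Agent.S35.ValFAsm
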