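import Mathlib
import Fermat.Agent.S34.ValAsm
import Fermat.Agent.S35.ValFrobInst
import Fermat.Agent.S35.SwapN

/-!
# S35 / P6 [VALF-ASM] (helper5): `FPlan.ValStmtF`

`valStmtF : Plan.Levels q N' (N' * q) M → A.LiesOverPrime q → FPlan.ValStmtF A N' q M` —
ONE two-component reduction `(O, ρ) = (Val.O2 A M q σ, Val.Red A M q σ)`, `σ = Sigma.sigma M q _`,
with `S34.Plan.Setup2` (`S34.ValAsm.setup2'`, helper81), `FPlan.FrobSetup`
(`ValFrobInst.frobSetup_val`) and `FPlan.SwapN` (`SwapN.swapN_levels`, helper50).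
-/

set_option autoImplicit false
set_option synthInstance.maxHeartbeats 400000
set_option maxHeartbeats 1000000

noncomputable section

namespace Fermat.Agent.S35.ValFStmt

open ModularCurve AlgebraicCurve Fermat.Agent.S24 Fermat.Agent.S18.Content Fermat.Agent.S18.Plan
open Fermat.Agent.S34

variable (A : ValuationSubring Kbar) {q N' M : ℕ} [NeZero N'] [NeZero q]

/-- The three properties for the concrete pair at the Atkin–Lehner involution. -/
theorem valF_val [NeZero M] (hL : Plan.Levels q N' (N' * q) M) (hA : A.LiesOverPrime q)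
    (h : Nat.Coprime M q) :
    Plan.Setup2 A (N' * q) q M (FPlan.dvd_level N' q) (Val.O2 A M q (Sigma.sigma M q h))
        (Val.Red A M q (Sigma.sigma M q h)) ∧
      FPlan.FrobSetup A q (Val.O2 A M q (Sigma.sigma M q h))
        (Val.Red A M q (Sigma.sigma M q h)) ∧
      FPlan.SwapN A N' q (Val.O2 A M q (Sigma.sigma M q h))
        (Val.Red A M q (Sigma.sigma M q h)) :=
  ⟨ValAsm.setup2' A hL (FPlan.dvd_level N' q) hA h,
    ValFrobInst.frobSetup_val A h hL.prime,
    SwapN.swapN_levels A N' q M hL _ ⟨Sigma.sigma_alpha h, Sigma.sigma_beta h,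
      Sigma.sigma_sigma h hL.prime⟩⟩

/-- **`FPlan.ValStmtF`**: the [VAL] block as needed by the (F) chain of S35. -/
theorem valStmtF (hL : Plan.Levels q N' (N' * q) M) (hA : A.LiesOverPrime q) :
    FPlan.ValStmtF A N' q M := by
  have : NeZero M := ValAsm.neZero_M hL
  exact ⟨_, _, valF_val A hL hA (ValAsm.coprime_of_levels hL)⟩

end Fermat.Agent.S35.ValFStmt
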